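import Mathlib

set_option autoImplicit false

namespace Fermat.Agent.CFT

/-- The class of `n` in `(ℤ/p²)ˣ` (junk value `1` if `n` is not a unit mod `p²`). -/
noncomputable def unitOf (p n : ℕ) : (ZMod (p ^ 2))ˣ :=
  open Classical in if h : IsUnit (n : ZMod (p ^ 2)) then h.unit else 1

variable (p : ℕ) [Fact p.Prime]

namespace UnitOf

theorem isUnit_iff (n : ℕ) : IsUnit (n : ZMod (p ^ 2)) ↔ ¬ p ∣ n := by
  have hp : p.Prime := Fact.out
  rw [ZMod.isUnit_iff_coprime, Nat.coprime_pow_right_iff (by norm_num), Nat.coprime_comm,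
    hp.coprime_iff_not_dvd]

theorem not_dvd_one : ¬ p ∣ 1 := by
  have hp : p.Prime := Fact.out
  exact hp.one_lt.ne' ∘ Nat.dvd_one.1

theorem not_dvd_one_add : ¬ p ∣ 1 + p := by
  intro h
  exact not_dvd_one p ((Nat.dvd_add_left (dvd_refl p)).1 h)

theorem not_dvd_of_modEq {n : ℕ} (hn : n ≡ 1 [MOD p]) : ¬ p ∣ n := by
  intro h
  exact not_dvd_one p ((hn.dvd_iff (dvd_refl p)).1 h)

omit [Fact p.Prime] in
theorem p_sq_eq_zero : (p : ZMod (p ^ 2)) * (p : ZMod (p ^ 2)) = 0 := by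
  have := ZMod.natCast_self (p ^ 2)
  push_cast at this
  rw [← this]
  ring

omit [Fact p.Prime] in
theorem one_add_pow (j : ℕ) : (1 + (p : ZMod (p ^ 2))) ^ j = 1 + (j : ZMod (p ^ 2)) * p := by
  induction j with
  | zero => simp
  | succ j ih =>
    rw [pow_succ (1 + (p : ZMod (p ^ 2))) j, ih]
    have h := p_sq_eq_zero p
    push_cast
    linear_combination (j : ZMod (p ^ 2)) * h

end UnitOf

open UnitOf

theorem coe_unitOf {n : ℕ} (hn : ¬ p ∣ n) : ((unitOf p n : (ZMod (p ^ 2))ˣ) : ZMod (p ^ 2)) = n := by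
  unfold unitOf
  rw [dif_pos ((isUnit_iff p n).2 hn)]
  exact IsUnit.unit_spec _

theorem unitOf_of_dvd {n : ℕ} (hn : p ∣ n) : unitOf p n = 1 := by
  unfold unitOf
  rw [dif_neg (fun h => (isUnit_iff p n).1 h hn)]

@[simp] theorem unitOf_one : unitOf p 1 = 1 := by
  apply Units.ext
  rw [coe_unitOf p (not_dvd_one p)]
  simp

theorem unitOf_mul {m n : ℕ} (hm : ¬ p ∣ m) (hn : ¬ p ∣ n) :
    unitOf p (m * n) = unitOf p m * unitOf p n := by
  have hp : p.Prime := Fact.out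
  have hmn : ¬ p ∣ m * n := fun h => (hp.dvd_mul.1 h).elim hm hn
  apply Units.ext
  rw [Units.val_mul, coe_unitOf p hm, coe_unitOf p hn, coe_unitOf p hmn]
  push_cast
  rfl

theorem unitOf_pow (n k : ℕ) : unitOf p (n ^ k) = unitOf p n ^ k := by
  have hp : p.Prime := Fact.out
  by_cases hn : p ∣ n
  · rcases Nat.eq_zero_or_pos k with rfl | hk
    · simp
    · rw [unitOf_of_dvd p hn, unitOf_of_dvd p (dvd_pow hn hk.ne'), one_pow]
  · have hnk : ¬ p ∣ n ^ k := fun h => hn (hp.dvd_of_dvd_pow h)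
    apply Units.ext
    rw [Units.val_pow_eq_pow_val, coe_unitOf p hn, coe_unitOf p hnk]
    push_cast
    rfl

theorem unitOf_eq_iff {m n : ℕ} (hm : ¬ p ∣ m) (hn : ¬ p ∣ n) :
    unitOf p m = unitOf p n ↔ m ≡ n [MOD p ^ 2] := by
  rw [Units.ext_iff, coe_unitOf p hm, coe_unitOf p hn, ZMod.natCast_eq_natCast_iff]

theorem val_unitOf_one_add : ((unitOf p (1 + p) : (ZMod (p ^ 2))ˣ) : ZMod (p ^ 2)).val = 1 + p := by
  have hp : p.Prime := Fact.out
  rw [coe_unitOf p (not_dvd_one_add p), ZMod.val_natCast]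
  apply Nat.mod_eq_of_lt
  have := hp.two_le
  nlinarith

namespace UnitOf

theorem coe_pow (j : ℕ) :
    ((unitOf p (1 + p) ^ j : (ZMod (p ^ 2))ˣ) : ZMod (p ^ 2)) = ((1 + j * p : ℕ) : ZMod (p ^ 2)) := by
  rw [Units.val_pow_eq_pow_val, coe_unitOf p (not_dvd_one_add p)]
  push_cast
  exact one_add_pow p j

end UnitOf

theorem unitOf_one_add_pow_eq_one_iff (j : ℕ) : unitOf p (1 + p) ^ j = 1 ↔ p ∣ j := by
  have hp : p.Prime := Fact.out
  rw [Units.ext_iff, coe_pow, Units.val_one]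
  have h1 : ((1 : ℕ) : ZMod (p ^ 2)) = 1 := by simp
  rw [← h1, ZMod.natCast_eq_natCast_iff]
  constructor
  · intro h
    have h2 : j * p ≡ 0 [MOD p ^ 2] := Nat.ModEq.add_left_cancel' 1 h
    have h3 : p ^ 2 ∣ j * p := (Nat.modEq_zero_iff_dvd).1 h2
    rw [pow_two] at h3
    exact Nat.dvd_of_mul_dvd_mul_right hp.pos h3
  · rintro ⟨k, rfl⟩
    have h3 : p ^ 2 ∣ p * k * p := ⟨k, by ring⟩
    have h2 : p * k * p ≡ 0 [MOD p ^ 2] := (Nat.modEq_zero_iff_dvd).2 h3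
    exact Nat.ModEq.add_left 1 h2

theorem orderOf_unitOf_one_add : orderOf (unitOf p (1 + p)) = p := by
  apply orderOf_eq_prime
  · exact (unitOf_one_add_pow_eq_one_iff p p).2 (dvd_refl p)
  · intro h
    have := (unitOf_one_add_pow_eq_one_iff p 1).1 (by rw [pow_one]; exact h)
    exact not_dvd_one p this

theorem unitOf_one_add_zpow_eq_one_iff (j : ℤ) : unitOf p (1 + p) ^ j = 1 ↔ (p : ℤ) ∣ j := by
  rw [← orderOf_dvd_iff_zpow_eq_one, orderOf_unitOf_one_add]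

/-- the kernel of `(ℤ/p²)ˣ → (ℤ/p)ˣ` is generated by `1 + p` -/
theorem exists_unitOf_eq_pow {n : ℕ} (hn : n ≡ 1 [MOD p]) :
    ∃ j : ℕ, unitOf p n = unitOf p (1 + p) ^ j := by
  have hp : p.Prime := Fact.out
  refine ⟨n / p, ?_⟩
  apply Units.ext
  rw [coe_pow, coe_unitOf p (not_dvd_of_modEq p hn)]
  congr 1
  have h1 : n % p = 1 := by
    have : n % p = 1 % p := hn
    rw [this, Nat.mod_eq_of_lt hp.one_lt]
  have h2 := Nat.div_add_mod n p
  rw [h1] at h2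
  rw [mul_comm (n / p) p, add_comm]
  exact h2.symm

theorem exists_eq_pow_of_val_modEq (x : (ZMod (p ^ 2))ˣ) (hx : (x : ZMod (p ^ 2)).val ≡ 1 [MOD p]) :
    ∃ j : ℕ, x = unitOf p (1 + p) ^ j := by
  have hp : p.Prime := Fact.out
  have : NeZero (p ^ 2) := ⟨pow_ne_zero 2 hp.ne_zero⟩
  obtain ⟨j, hj⟩ := exists_unitOf_eq_pow p hx
  refine ⟨j, ?_⟩
  rw [← hj]
  apply Units.ext
  rw [coe_unitOf p (not_dvd_of_modEq p hx), ZMod.natCast_zmod_val]

theorem val_pow_one_add_modEq (j : ℕ) :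
    ((unitOf p (1 + p) ^ j : (ZMod (p ^ 2))ˣ) : ZMod (p ^ 2)).val ≡ 1 [MOD p] := by
  rw [coe_pow, ZMod.val_natCast]
  have h1 : (1 + j * p) % p ^ 2 ≡ 1 + j * p [MOD p] :=
    (Nat.mod_modEq (1 + j * p) (p ^ 2)).of_dvd (dvd_pow_self p two_ne_zero)
  refine h1.trans ?_
  have h2 : j * p ≡ 0 [MOD p] := (Nat.modEq_zero_iff_dvd).2 (dvd_mul_left p j)
  exact Nat.ModEq.add_left 1 h2

/-- `-1` is not a power of `1 + p` (`p` odd). -/
theorem neg_one_ne_pow (hp2 : p ≠ 2) (j : ℕ) : (-1 : (ZMod (p ^ 2))ˣ) ≠ unitOf p (1 + p) ^ j := by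
  have hp : p.Prime := Fact.out
  intro h
  have h1 : unitOf p (1 + p) ^ (2 * j) = 1 := by
    rw [mul_comm, pow_mul, ← h]
    simp
  have h2 : p ∣ 2 * j := (unitOf_one_add_pow_eq_one_iff p _).1 h1
  have h3 : p ∣ j := by
    rcases hp.dvd_mul.1 h2 with h' | h'
    · exact absurd ((Nat.prime_dvd_prime_iff_eq hp Nat.prime_two).1 h') hp2
    · exact h'
  rw [(unitOf_one_add_pow_eq_one_iff p j).2 h3] at h
  have h4 : (-1 : ZMod (p ^ 2)) = 1 := by
    have := congrArg (fun u : (ZMod (p ^ 2))ˣ => (u : ZMod (p ^ 2))) h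
    simpa using this
  have h5 : ((2 : ℕ) : ZMod (p ^ 2)) = 0 := by
    push_cast
    linear_combination -h4
  rw [ZMod.natCast_eq_zero_iff] at h5
  have h6 := Nat.le_of_dvd (by norm_num) h5
  have := hp.two_le
  nlinarith

/-- For a primitive `p²`-th root of unity: `ζ^m = ζ^n ↔ unitOf m = unitOf n` (`p ∤ m n`). -/
theorem pow_eq_pow_iff_unitOf {R : Type*} [CommRing R] [IsDomain R] {ζ : R}
    (hζ : IsPrimitiveRoot ζ (p ^ 2)) {m n : ℕ} (hm : ¬ p ∣ m) (hn : ¬ p ∣ n) :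
    ζ ^ m = ζ ^ n ↔ unitOf p m = unitOf p n := by
  have hp : p.Prime := Fact.out
  have hfin : IsOfFinOrder ζ := by
    rw [← orderOf_pos_iff, ← hζ.eq_orderOf]
    exact pow_pos hp.pos 2
  rw [unitOf_eq_iff p hm hn, hfin.pow_eq_pow_iff_modEq, ← hζ.eq_orderOf]

end Fermat.Agent.CFT
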