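import Fermat.Agent.CFT.Basic
import Fermat.Agent.CFT.UnitOf

set_option autoImplicit false

namespace Fermat.Agent.CFT

open IsDedekindDomain NumberField

/-- The configuration which Theorem C shows to be impossible: `Ω/ℚ` Galois, `ζ` a primitive `p²`-th
root of unity, `χ` the mod `p` cyclotomic character, `ker χ = ⟨τ⟩ × ⟨ρ⟩`, `τ` fixes `ζ`,
`ρ ζ = ζ^(1+p)`, `σ⁻¹ τ σ = τ^χ(σ)`, `ρ` central; `Ω/ℚ` is unramified outside `p`; at the places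
above `p`, `⟨τ⟩` acts freely and `ρ` acts trivially. -/
structure Config (p : ℕ) {Ω : Type*} [Field Ω] [NumberField Ω] (ζ : Ω)
    (χ : (Ω ≃ₐ[ℚ] Ω) →* (ZMod p)ˣ) (τ ρ : Ω ≃ₐ[ℚ] Ω) : Prop where
  hζ : IsPrimitiveRoot ζ (p ^ 2)
  hχ : ∀ σ : Ω ≃ₐ[ℚ] Ω, σ (ζ ^ p) = (ζ ^ p) ^ ((χ σ : ZMod p).val)
  τζ : τ ζ = ζ
  ρζ : ρ ζ = ζ ^ (1 + p)
  ordτ : orderOf τ = p
  ordρ : orderOf ρ = p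
  comm : τ * ρ = ρ * τ
  conjτ : ∀ σ : Ω ≃ₐ[ℚ] Ω, σ⁻¹ * τ * σ = τ ^ ((χ σ : ZMod p).val)
  conjρ : ∀ σ : Ω ≃ₐ[ℚ] Ω, σ⁻¹ * ρ * σ = ρ
  gen : ∀ σ : Ω ≃ₐ[ℚ] Ω, χ σ = 1 → ∃ i j : ℕ, σ = τ ^ i * ρ ^ j
  unr : ∀ P : Pl Ω, ¬ Over P p → ∀ σ : Ω ≃ₐ[ℚ] Ω, (∀ x : 𝓞 Ω, σ • x - x ∈ P.asIdeal) → σ = 1
  pτ : ∀ P : Pl Ω, Over P p → ∀ i : ℕ, (τ ^ i) • P = P → τ ^ i = 1
  pρ : ∀ P : Pl Ω, Over P p → ρ • P = P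

/-- `K ⊆ Ω` is the fixed field of `ker χ`. -/
def FixK (K : Type*) [Field K] {p : ℕ} {Ω : Type*} [Field Ω] [NumberField Ω] [Algebra K Ω]
    (χ : (Ω ≃ₐ[ℚ] Ω) →* (ZMod p)ˣ) : Prop :=
  ∀ σ : Ω ≃ₐ[ℚ] Ω, χ σ = 1 ↔ ∀ x : K, σ (algebraMap K Ω x) = algebraMap K Ω x

/-- The auxiliary place `𝔔 ∣ q`: decomposition group `⟨τρ⟩`, `q ≡ 1 mod p`, `q ≢ 1 mod p²`. -/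
structure QData (p : ℕ) {Ω : Type*} [Field Ω] [NumberField Ω]
    (χ : (Ω ≃ₐ[ℚ] Ω) →* (ZMod p)ˣ) (τ ρ : Ω ≃ₐ[ℚ] Ω) (𝔔 : Pl Ω) (q : ℕ) : Prop where
  prime : q.Prime
  ne : q ≠ p
  overq : Over 𝔔 q
  fix : (τ * ρ) • 𝔔 = 𝔔
  stab : ∀ σ : Ω ≃ₐ[ℚ] Ω, σ • 𝔔 = 𝔔 → ∃ m : ℕ, σ = (τ * ρ) ^ m
  unit : ∃ k : ℕ, ¬ p ∣ k ∧ unitOf p q = unitOf p (1 + p) ^ k
  frob : ∃ φ : Ω ≃ₐ[ℚ] Ω, χ φ = 1 ∧ ∀ x : 𝓞 Ω, φ • x - x ^ q ∈ 𝔔.asIdeal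

end Fermat.Agent.CFT
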