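import Fermat.Agent.CFT.Basic

set_option autoImplicit false

namespace Fermat.Agent.CFT

open IsDedekindDomain NumberField

variable {N : Type*} [Field N] [NumberField N]

theorem valuation_eq_exp (v : Pl N) {x : N} (hx : x ≠ 0) :
    v.valuation N x = WithZero.exp (- ord v x) := by
  unfold ord
  rw [neg_neg, WithZero.exp_log (valuation_ne_zero v hx)]

@[simp] theorem ord_zero (v : Pl N) : ord v (0 : N) = 0 := by
  simp [ord]

theorem ord_pow (v : Pl N) (x : N) (n : ℕ) : ord v (x ^ n) = n * ord v x := by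
  unfold ord
  rw [map_pow, WithZero.log_pow]
  simp

theorem ord_zpow (v : Pl N) (x : N) (n : ℤ) : ord v (x ^ n) = n * ord v x := by
  unfold ord
  rw [map_zpow₀, WithZero.log_zpow]
  simp

theorem ord_div (v : Pl N) {x y : N} (hx : x ≠ 0) (hy : y ≠ 0) :
    ord v (x / y) = ord v x - ord v y := by
  rw [div_eq_mul_inv, ord_mul v hx (inv_ne_zero hy), ord_inv]
  ring

@[simp] theorem ord_neg (v : Pl N) (x : N) : ord v (-x) = ord v x := by
  unfold ord
  rw [Valuation.map_neg]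

theorem ord_sub_comm (v : Pl N) (x y : N) : ord v (x - y) = ord v (y - x) := by
  rw [← ord_neg, neg_sub]

theorem ord_prod {ι : Type*} (v : Pl N) (s : Finset ι) (f : ι → N) (hf : ∀ i ∈ s, f i ≠ 0) :
    ord v (∏ i ∈ s, f i) = ∑ i ∈ s, ord v (f i) := by
  classical
  induction s using Finset.induction_on with
  | empty => simp
  | insert a s ha ih =>
    rw [Finset.prod_insert ha, Finset.sum_insert ha,
      ord_mul v (hf a (Finset.mem_insert_self a s))
        (Finset.prod_ne_zero_iff.2 fun i hi => hf i (Finset.mem_insert_of_mem hi)),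
      ih fun i hi => hf i (Finset.mem_insert_of_mem hi)]

theorem ord_units_zpow (v : Pl N) (x : Nˣ) (n : ℤ) : ord v ((x ^ n : Nˣ) : N) = n * ord v (x : N) := by
  rw [Units.val_zpow_eq_zpow_val, ord_zpow]

/-- comparison of valuations in terms of `ord` -/
theorem valuation_le_iff (v : Pl N) {x y : N} (hx : x ≠ 0) (hy : y ≠ 0) :
    v.valuation N x ≤ v.valuation N y ↔ ord v y ≤ ord v x := by
  rw [valuation_eq_exp v hx, valuation_eq_exp v hy, WithZero.exp_le_exp, neg_le_neg_iff]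

theorem valuation_lt_exp_neg_iff (v : Pl N) {x : N} (hx : x ≠ 0) (n : ℤ) :
    v.valuation N x < WithZero.exp (-n) ↔ n < ord v x := by
  rw [valuation_eq_exp v hx, WithZero.exp_lt_exp, neg_lt_neg_iff]

theorem valuation_le_exp_neg_iff (v : Pl N) {x : N} (hx : x ≠ 0) (n : ℤ) :
    v.valuation N x ≤ WithZero.exp (-n) ↔ n ≤ ord v x := by
  rw [valuation_eq_exp v hx, WithZero.exp_le_exp, neg_le_neg_iff]

theorem min_le_ord_add (v : Pl N) {x y : N} (hx : x ≠ 0) (hy : y ≠ 0) (hxy : x + y ≠ 0) :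
    min (ord v x) (ord v y) ≤ ord v (x + y) := by
  have h := Valuation.map_add (v.valuation N) x y
  rcases le_max_iff.1 h with h | h
  · exact (min_le_left _ _).trans ((valuation_le_iff v hxy hx).1 h)
  · exact (min_le_right _ _).trans ((valuation_le_iff v hxy hy).1 h)

/-- convenient form: `n ≤ ord` is stable under addition -/
theorem le_ord_add (v : Pl N) {x y : N} {n : ℤ} (hx : x = 0 ∨ n ≤ ord v x) (hy : y = 0 ∨ n ≤ ord v y) :
    x + y = 0 ∨ n ≤ ord v (x + y) := by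
  by_cases hxy : x + y = 0
  · exact Or.inl hxy
  right
  by_cases hx0 : x = 0
  · subst hx0
    rw [zero_add] at hxy ⊢
    exact hy.resolve_left hxy
  by_cases hy0 : y = 0
  · subst hy0
    rw [add_zero]
    exact hx.resolve_left hx0
  exact (le_min (hx.resolve_left hx0) (hy.resolve_left hy0)).trans (min_le_ord_add v hx0 hy0 hxy)

theorem le_ord_sub (v : Pl N) {x y : N} {n : ℤ} (hx : x = 0 ∨ n ≤ ord v x) (hy : y = 0 ∨ n ≤ ord v y) :
    x - y = 0 ∨ n ≤ ord v (x - y) := by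
  rw [sub_eq_add_neg]
  apply le_ord_add v hx
  rcases hy with hy | hy
  · left
    rw [hy, neg_zero]
  · right
    rwa [ord_neg]

theorem ord_add_eq_of_lt (v : Pl N) {x y : N} (hx : x ≠ 0) (hy : y ≠ 0) (h : ord v x < ord v y) :
    ord v (x + y) = ord v x := by
  have h1 : v.valuation N y < v.valuation N x := by
    rw [valuation_eq_exp v hx, valuation_eq_exp v hy, WithZero.exp_lt_exp, neg_lt_neg_iff]
    exact h
  have h2 := Valuation.map_add_eq_of_lt_left (v.valuation N) h1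
  unfold ord
  rw [h2]

theorem ord_nonneg_of_integer (v : Pl N) (x : 𝓞 N) : 0 ≤ ord v (x : N) := by
  by_cases hx : (x : N) = 0
  · rw [hx, ord_zero]
  have h := v.valuation_le_one (K := N) x
  have h2 := (valuation_le_exp_neg_iff v hx 0).1 (by simpa using h)
  exact h2

theorem ord_pos_iff_mem (v : Pl N) {x : 𝓞 N} (hx : x ≠ 0) : 0 < ord v (x : N) ↔ x ∈ v.asIdeal := by
  have hx' : (x : N) ≠ 0 := by
    simpa using hx
  rw [← v.valuation_lt_one_iff_mem (K := N) x, ← valuation_lt_exp_neg_iff v hx' 0]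
  simp

theorem le_ord_iff_mem_pow (v : Pl N) {x : 𝓞 N} (hx : x ≠ 0) (n : ℕ) :
    (n : ℤ) ≤ ord v (x : N) ↔ x ∈ v.asIdeal ^ n := by
  have hx' : (x : N) ≠ 0 := by
    simpa using hx
  rw [← v.intValuation_le_pow_iff_mem, ← v.valuation_of_algebraMap (K := N),
    ← valuation_le_exp_neg_iff v hx' n]

theorem ord_eq_zero_of_not_mem (v : Pl N) {x : 𝓞 N} (hx : x ∉ v.asIdeal) : ord v (x : N) = 0 := by
  have hx0 : x ≠ 0 := by
    rintro rfl
    exact hx (zero_mem _)
  have h1 := ord_nonneg_of_integer v x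
  have h2 := (ord_pos_iff_mem v hx0).not.2 hx
  omega

theorem mem_UD_iff (v : Pl N) (x : Nˣ) : x ∈ UD v ↔ ord v (x : N) = 0 := by
  show v.valuation N (x : N) = 1 ↔ _
  rw [valuation_eq_exp v x.ne_zero, WithZero.exp_eq_one, neg_eq_zero]

theorem mem_PD_iff (p : ℕ) (v : Pl N) (x : Nˣ) : x ∈ PD p v ↔ (p : ℤ) ∣ ord v (x : N) := Iff.rfl

theorem mem_SU_iff (S : Set (Pl N)) (x : Nˣ) : x ∈ SU S ↔ ∀ v, v ∉ S → ord v (x : N) = 0 := by
  show (∀ v, v ∉ S → v.valuation N (x : N) = 1) ↔ _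
  refine forall_congr' fun v => imp_congr_right fun _ => ?_
  exact mem_UD_iff v x

theorem SU_mono {S S' : Set (Pl N)} (h : S ⊆ S') : SU S ≤ SU S' := by
  intro x hx v hv
  exact hx v fun hv' => hv (h hv')

theorem mem_PU_iff (v : Pl N) (n : ℕ) (a : Nˣ) :
    a ∈ PU v n ↔ (a : N) = 1 ∨ (n : ℤ) < ord v ((a : N) - 1) := by
  show v.valuation N ((a : N) - 1) < WithZero.exp (-(n : ℤ)) ↔ _
  by_cases ha : (a : N) = 1
  · simp [ha]
  · have ha' : (a : N) - 1 ≠ 0 := sub_ne_zero.2 ha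
    rw [valuation_lt_exp_neg_iff v ha']
    simp [ha]

theorem PU_le_UD (v : Pl N) (n : ℕ) : PU v n ≤ UD v := by
  intro a ha
  have ha' : v.valuation N ((a : N) - 1) < WithZero.exp (-(n : ℤ)) := ha
  have h1 : WithZero.exp (-(n : ℤ)) ≤ (1 : WithZero (Multiplicative ℤ)) := by
    rw [← WithZero.exp_zero, WithZero.exp_le_exp]
    omega
  show v.valuation N (a : N) = 1
  have : (a : N) = 1 + ((a : N) - 1) := by ring
  rw [this]
  exact Valuation.map_one_add_of_lt _ (lt_of_lt_of_le ha' h1)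

theorem PU_anti (v : Pl N) {m n : ℕ} (h : m ≤ n) : PU v n ≤ PU v m := by
  intro a ha
  have ha' : v.valuation N ((a : N) - 1) < WithZero.exp (-(n : ℤ)) := ha
  show v.valuation N ((a : N) - 1) < WithZero.exp (-(m : ℤ))
  refine lt_of_lt_of_le ha' ?_
  rw [WithZero.exp_le_exp]
  omega

theorem mem_PW_iff (p : ℕ) {A : Type*} [CommGroup A] (x : A) : x ∈ PW p A ↔ ∃ y : A, y ^ p = x := by
  unfold PW
  rw [MonoidHom.mem_range]
  rfl

theorem mem_LP_iff (p : ℕ) (ζ : N) (v : Pl N) (x : Nˣ) :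
    x ∈ LP p ζ v ↔ ∃ u ∈ PU v (p * (ord v (1 - ζ)).toNat), ∃ y : Nˣ, x = u * y ^ p := by
  unfold LP
  rw [Subgroup.mem_sup]
  constructor
  · rintro ⟨u, hu, z, hz, rfl⟩
    obtain ⟨y, rfl⟩ := (mem_PW_iff p z).1 hz
    exact ⟨u, hu, y, rfl⟩
  · rintro ⟨u, hu, y, rfl⟩
    exact ⟨u, hu, y ^ p, (mem_PW_iff p _).2 ⟨y, rfl⟩, rfl⟩

theorem pow_mem_LP (p : ℕ) (ζ : N) (v : Pl N) (y : Nˣ) : y ^ p ∈ LP p ζ v := by
  rw [mem_LP_iff]
  exact ⟨1, one_mem _, y, by rw [one_mul]⟩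

theorem zpow_mem_LP_of_dvd (p : ℕ) (ζ : N) (v : Pl N) (y : Nˣ) {k : ℤ} (hk : (p : ℤ) ∣ k) :
    y ^ k ∈ LP p ζ v := by
  obtain ⟨m, rfl⟩ := hk
  rw [mul_comm, zpow_mul, zpow_natCast]
  exact pow_mem_LP p ζ v (y ^ m)

end Fermat.Agent.CFT
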