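import Fermat.Agent.CFT.Basic
import Fermat.Agent.CFT.OrdBasic

set_option autoImplicit false

namespace Fermat.Agent.CFT

open IsDedekindDomain NumberField

variable {N : Type*} [Field N] [NumberField N]

/-- the support of a non zero element is finite -/
theorem finite_ord_ne_zero {x : N} (hx : x ≠ 0) : {v : Pl N | ord v x ≠ 0}.Finite := by
  have h1 := HeightOneSpectrum.Support.finite (𝓞 N) x
  have h2 := HeightOneSpectrum.Support.finite (𝓞 N) x⁻¹
  refine (h1.union h2).subset ?_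
  intro v hv
  simp only [Set.mem_ofPred_eq] at hv
  simp only [Set.mem_union, HeightOneSpectrum.Support, Set.mem_ofPred_eq]
  have hx' : x⁻¹ ≠ 0 := inv_ne_zero hx
  rw [valuation_eq_exp v hx, valuation_eq_exp v hx', ord_inv, ← WithZero.exp_zero,
    WithZero.exp_lt_exp, WithZero.exp_lt_exp]
  omega

theorem exists_uniformizer (v : Pl N) : ∃ π : 𝓞 N, ord v (π : N) = 1 := by
  obtain ⟨π, hπ⟩ := v.valuation_exists_uniformizer' N
  refine ⟨π, ?_⟩
  unfold ord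
  rw [hπ, WithZero.log_exp]
  simp

/-- every element is a quotient of integers -/
theorem exists_int_div (x : N) : ∃ a b : 𝓞 N, b ≠ 0 ∧ x = (a : N) / (b : N) := by
  obtain ⟨a, b, hb, rfl⟩ := IsFractionRing.div_surjective (A := 𝓞 N) x
  exact ⟨a, b, nonZeroDivisors.ne_zero hb, rfl⟩

theorem isIntegral_of_forall_ord_nonneg {x : N} (h : ∀ v : Pl N, 0 ≤ ord v x) :
    ∃ a : 𝓞 N, (a : N) = x := by
  rcases eq_or_ne x 0 with rfl | hx
  · exact ⟨0, by simp⟩
  apply HeightOneSpectrum.mem_integers_of_valuation_le_one N x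
  intro v
  rw [valuation_eq_exp v hx, ← WithZero.exp_zero, WithZero.exp_le_exp]
  have := h v
  omega

/-- `Over`: characterisations -/
theorem over_iff_ord_pos (v : Pl N) (p : ℕ) (hp : p ≠ 0) : Over v p ↔ 0 < ord v (p : N) := by
  have h0 : (p : 𝓞 N) ≠ 0 := by exact_mod_cast hp
  have := ord_pos_iff_mem v h0
  rw [Over, ← this]
  simp

theorem finite_over (p : ℕ) (hp : p ≠ 0) : {v : Pl N | Over v p}.Finite := by
  have h0 : (p : N) ≠ 0 := by exact_mod_cast hp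
  refine (finite_ord_ne_zero h0).subset ?_
  intro v hv
  simp only [Set.mem_ofPred_eq] at hv ⊢
  rw [over_iff_ord_pos v p hp] at hv
  omega

namespace OrdBasic2

theorem over_iff_dvd (v : Pl N) (d : ℕ) :
    Over v d ↔ Ideal.absNorm (Ideal.under ℤ v.asIdeal) ∣ d := by
  have := Int.cast_mem_ideal_iff (I := v.asIdeal) (d := (d : ℤ))
  rw [Int.cast_natCast, Int.natCast_dvd_natCast] at this
  exact this

theorem prime_char (v : Pl N) : (Ideal.absNorm (Ideal.under ℤ v.asIdeal)).Prime := by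
  have : NeZero v.asIdeal := ⟨v.ne_bot⟩
  exact Nat.absNorm_under_prime v.asIdeal

end OrdBasic2

/-- every place lies over a unique rational prime -/
theorem exists_prime_over (v : Pl N) : ∃ ℓ : ℕ, ℓ.Prime ∧ Over v ℓ :=
  ⟨_, OrdBasic2.prime_char v, (OrdBasic2.over_iff_dvd v _).mpr dvd_rfl⟩

theorem over_unique (v : Pl N) {ℓ ℓ' : ℕ} (hℓ : ℓ.Prime) (hℓ' : ℓ'.Prime) (h : Over v ℓ)
    (h' : Over v ℓ') : ℓ = ℓ' := by
  rw [OrdBasic2.over_iff_dvd] at h h'
  have hq := OrdBasic2.prime_char v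
  rw [← (Nat.prime_dvd_prime_iff_eq hq hℓ).mp h, ← (Nat.prime_dvd_prime_iff_eq hq hℓ').mp h']

/-- the absolute norm of a place over `ℓ` is a positive power of `ℓ` -/
theorem absNorm_eq_pow_of_over (v : Pl N) {ℓ : ℕ} (hℓ : ℓ.Prime) (h : Over v ℓ) :
    ∃ f : ℕ, 0 < f ∧ Ideal.absNorm v.asIdeal = ℓ ^ f := by
  rw [OrdBasic2.over_iff_dvd] at h
  have hq := OrdBasic2.prime_char v
  have he := (Nat.prime_dvd_prime_iff_eq hq hℓ).mp h
  have : v.asIdeal.LiesOver (Ideal.span {(ℓ : ℤ)}) := by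
    rw [← he]
    infer_instance
  refine ⟨_, ?_, Ideal.absNorm_eq_pow_inertiaDeg' v.asIdeal hℓ⟩
  rw [Nat.pos_iff_ne_zero]
  intro h0
  have h1 := Ideal.absNorm_eq_pow_inertiaDeg' v.asIdeal hℓ
  rw [h0, pow_zero, Ideal.absNorm_eq_one_iff] at h1
  exact v.isPrime.ne_top h1

namespace OrdBasic2

theorem ord_eq_of_associated (v : Pl N) {a b : 𝓞 N} (h : Associated a b) :
    ord v (a : N) = ord v (b : N) := by
  obtain ⟨u, rfl⟩ := h
  rcases eq_or_ne a 0 with rfl | ha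
  · simp
  have hu : (u : 𝓞 N) ∉ v.asIdeal := fun hmem =>
    v.isPrime.ne_top (Ideal.eq_top_of_isUnit_mem _ hmem u.isUnit)
  have ha' : (a : N) ≠ 0 := by simpa using ha
  have hu' : ((u : 𝓞 N) : N) ≠ 0 := by simp
  have hmul : ((a * (u : 𝓞 N) : 𝓞 N) : N) = (a : N) * ((u : 𝓞 N) : N) := by simp
  rw [hmul, ord_mul v ha' hu', ord_eq_zero_of_not_mem v hu, add_zero]

theorem modEq_of_pow_eq {M : Type*} [CommMonoid M] {ζ : M} {p : ℕ} (hp : p ≠ 0)
    (hζ : IsPrimitiveRoot ζ p) {i j : ℕ} (h : ζ ^ i = ζ ^ j) : i ≡ j [MOD p] := by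
  have := (hζ.isOfFinOrder hp).pow_eq_pow_iff_modEq.mp h
  rwa [← hζ.eq_orderOf] at this

end OrdBasic2

/-- roots of unity of order prime to the residue characteristic are distinct mod `v`:
if `ζ` is a primitive `n`-th root of unity, `v ∤ n`, and `ζ^i ≡ ζ^j mod v` then `ζ^i = ζ^j`. -/
theorem pow_eq_pow_of_sub_mem (v : Pl N) {n : ℕ} (hn : ¬ Over v n) {ζ : 𝓞 N}
    (hζ : IsPrimitiveRoot ζ n) {i j : ℕ} (h : ζ ^ i - ζ ^ j ∈ v.asIdeal) : ζ ^ i = ζ ^ j := by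
  by_contra hne
  have hn0 : n ≠ 0 := by
    rintro rfl
    exact hn (by simp [Over])
  obtain ⟨m, rfl⟩ : ∃ m, n = m + 1 := ⟨n - 1, by omega⟩
  have hmul : ζ ^ (i + m * j) * ζ ^ j = ζ ^ i := by
    rw [← pow_add, show i + m * j + j = i + (m + 1) * j by ring, pow_add, pow_mul, hζ.pow_eq_one,
      one_pow, mul_one]
  have h1 : (ζ ^ (i + m * j)) ^ (m + 1) = 1 := by
    rw [← pow_mul, mul_comm, pow_mul, hζ.pow_eq_one, one_pow]
  have h2 : ζ ^ (i + m * j) ≠ 1 := by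
    intro h2
    rw [h2, one_mul] at hmul
    exact hne hmul.symm
  have h3 := sub_one_dvd_natCast_of_pow_eq_one h1 h2
  have h4 : (ζ ^ (i + m * j) - 1) * ζ ^ j ∈ v.asIdeal := by
    rw [sub_mul, hmul, one_mul]
    exact h
  have h5 : ζ ^ j ∉ v.asIdeal := fun hmem =>
    v.isPrime.ne_top (Ideal.eq_top_of_isUnit_mem _ hmem ((hζ.isUnit hn0).pow j))
  exact hn (Ideal.mem_of_dvd _ h3 ((v.isPrime.mem_or_mem h4).resolve_right h5))

/-- `ord v (1 - ζ) = 0` for `v ∤ p`. -/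
theorem ord_one_sub_zeta_of_not_over (p : ℕ) [Fact p.Prime] (v : Pl N) (hv : ¬ Over v p) {ζ : N}
    (hζ : IsPrimitiveRoot ζ p) : ord v (1 - ζ) = 0 := by
  have hp : p.Prime := Fact.out
  have hζ' := hζ.toInteger_isPrimitiveRoot
  have h1 : hζ.toInteger - 1 ∉ v.asIdeal := fun hmem =>
    hv (Ideal.mem_of_dvd _ (hζ'.sub_one_dvd_natCast hp.one_lt) hmem)
  have h2 := ord_eq_zero_of_not_mem v h1
  rw [ord_sub_comm]
  simpa using h2

/-- `ord v (ζ^i - ζ^j) = ord v (1 - ζ)` for `i ≢ j mod p`. -/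
theorem ord_zeta_pow_sub (p : ℕ) [Fact p.Prime] (v : Pl N) {ζ : N} (hζ : IsPrimitiveRoot ζ p)
    {i j : ℕ} (hij : ¬ i ≡ j [MOD p]) : ord v (ζ ^ i - ζ ^ j) = ord v (1 - ζ) := by
  have hp : p.Prime := Fact.out
  have hζ' := hζ.toInteger_isPrimitiveRoot
  have hmem : ∀ k : ℕ, hζ.toInteger ^ k ∈ Polynomial.nthRootsFinset p (1 : 𝓞 N) := by
    intro k
    rw [Polynomial.mem_nthRootsFinset hp.pos, ← pow_mul, mul_comm, pow_mul, hζ'.pow_eq_one,
      one_pow]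
  have hne : hζ.toInteger ^ i ≠ hζ.toInteger ^ j := by
    intro h
    exact hij (OrdBasic2.modEq_of_pow_eq hp.ne_zero hζ' h)
  have h1 := hζ'.nthRootsFinset_pairwise_associated_sub_one_sub_of_prime hp (hmem i) (hmem j) hne
  have h2 := OrdBasic2.ord_eq_of_associated v h1
  rw [ord_sub_comm v 1 ζ]
  simpa using h2.symm

/-- `ord v p = (p - 1) * ord v (1 - ζ)`. -/
theorem ord_p_eq (p : ℕ) [Fact p.Prime] (v : Pl N) {ζ : N} (hζ : IsPrimitiveRoot ζ p) :
    ord v (p : N) = (p - 1 : ℕ) * ord v (1 - ζ) := by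
  have hp : p.Prime := Fact.out
  obtain ⟨m, hm⟩ : ∃ m, p = m + 1 := ⟨p - 1, by have := hp.pos; omega⟩
  have hζ2 : IsPrimitiveRoot ζ (m + 1) := hm ▸ hζ
  have h1 := hζ2.prod_one_sub_pow_eq_order
  have hmod : ∀ k ∈ Finset.range m, ¬ 0 ≡ k + 1 [MOD p] := by
    intro k hk h
    rw [Finset.mem_range] at hk
    have := (Nat.modEq_zero_iff_dvd.mp h.symm)
    have := Nat.le_of_dvd (Nat.succ_pos k) this
    omega
  have hne : ∀ k ∈ Finset.range m, (1 - ζ ^ (k + 1)) ≠ 0 := by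
    intro k hk h
    apply hmod k hk
    apply OrdBasic2.modEq_of_pow_eq hp.ne_zero hζ
    rw [pow_zero]
    exact sub_eq_zero.mp h
  have h2 : (p : N) = ∏ k ∈ Finset.range m, (1 - ζ ^ (k + 1)) := by
    rw [h1, hm]
    push_cast
    rfl
  rw [h2, ord_prod v _ _ hne]
  have h3 : ∀ k ∈ Finset.range m, ord v (1 - ζ ^ (k + 1)) = ord v (1 - ζ) := by
    intro k hk
    have := ord_zeta_pow_sub p v hζ (hmod k hk)
    rwa [pow_zero] at this
  rw [Finset.sum_congr rfl h3, Finset.sum_const, Finset.card_range, nsmul_eq_mul]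
  congr 2
  omega

/-- for `v ∤ p`, `LP` is `PU v 0 ⊔ PW`. -/
theorem LP_eq_of_not_over (p : ℕ) [Fact p.Prime] (v : Pl N) (hv : ¬ Over v p) {ζ : N}
    (hζ : IsPrimitiveRoot ζ p) : LP p ζ v = PU v 0 ⊔ PW p Nˣ := by
  unfold LP
  rw [ord_one_sub_zeta_of_not_over p v hv hζ]
  simp

end Fermat.Agent.CFT
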