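import Fermat.Agent.CFT.Basic
import Fermat.Agent.CFT.OrdBasic
import Fermat.Agent.CFT.OrdBasic2

set_option autoImplicit false
set_option linter.unusedSectionVars false

namespace Fermat.Agent.CFT

open IsDedekindDomain NumberField

variable {N : Type*} [Field N] [NumberField N]

/-- **Chinese remainder theorem**, integral form. -/
theorem exists_int_approx (s : Finset (Pl N)) (a : Pl N → 𝓞 N) (n : ℕ) :
    ∃ x : 𝓞 N, ∀ v ∈ s, x - a v ∈ v.asIdeal ^ n := by
  obtain ⟨y, hy⟩ := IsDedekindDomain.exists_forall_sub_mem_ideal (s := s)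
    (fun v : Pl N => v.asIdeal) (fun _ => n) (fun v _ => v.prime)
    (fun v _ w _ hvw h => hvw (HeightOneSpectrum.ext h)) (fun v => a v)
  exact ⟨y, fun v hv => hy v hv⟩

namespace OrdApprox

theorem coe_ne_zero {b : 𝓞 N} (hb : b ≠ 0) : (b : N) ≠ 0 := by
  simpa using hb

/-- a common denominator -/
theorem exists_common_denominator (s : Finset (Pl N)) (a : Pl N → N) :
    ∃ (b : 𝓞 N) (α : Pl N → 𝓞 N), b ≠ 0 ∧ ∀ v ∈ s, a v = (α v : N) / (b : N) := by
  classical
  induction s using Finset.induction_on with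
  | empty => exact ⟨1, fun _ => 0, one_ne_zero, by simp⟩
  | insert w s hw ih =>
    obtain ⟨b, α, hb, hα⟩ := ih
    obtain ⟨c, d, hd, hcd⟩ := exists_int_div (a w)
    refine ⟨b * d, fun v => if v = w then c * b else α v * d, mul_ne_zero hb hd, ?_⟩
    intro v hv
    have hb' := coe_ne_zero hb
    have hd' := coe_ne_zero hd
    by_cases hvw : v = w
    · subst hvw
      simp only [if_true]
      rw [hcd]
      push_cast
      field_simp
    · simp only [if_neg hvw]
      rw [hα v ((Finset.mem_insert.mp hv).resolve_left hvw)]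
      push_cast
      field_simp

end OrdApprox

open OrdApprox

/-- **Weak approximation.** -/
theorem exists_approx (s : Finset (Pl N)) (a : Pl N → N) (n : ℤ) :
    ∃ x : N, ∀ v ∈ s, x = a v ∨ n ≤ ord v (x - a v) := by
  obtain ⟨b, α, hb, hα⟩ := exists_common_denominator s a
  have hb' := coe_ne_zero hb
  let m : ℕ := s.sup fun v => (n + ord v (b : N)).toNat
  obtain ⟨y, hy⟩ := exists_int_approx s α m
  refine ⟨(y : N) / (b : N), fun v hv => ?_⟩
  by_cases h0 : y - α v = 0
  · left
    rw [hα v hv, sub_eq_zero.mp h0]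
  · right
    have h1 : (m : ℤ) ≤ ord v ((y - α v : 𝓞 N) : N) := (le_ord_iff_mem_pow v h0 m).mpr (hy v hv)
    have h2 : (y : N) / (b : N) - a v = ((y - α v : 𝓞 N) : N) / (b : N) := by
      rw [hα v hv]
      push_cast
      ring
    rw [h2, ord_div v (coe_ne_zero h0) hb']
    have h3 : (n + ord v (b : N)).toNat ≤ m :=
      Finset.le_sup (f := fun v => (n + ord v (b : N)).toNat) hv
    have h4 := Int.self_le_toNat (n + ord v (b : N))
    omega

/-- Weak approximation with a non zero result having prescribed valuations. -/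
theorem exists_ord_eq (s : Finset (Pl N)) (k : Pl N → ℤ) :
    ∃ x : N, x ≠ 0 ∧ ∀ v ∈ s, ord v x = k v := by
  classical
  rcases s.eq_empty_or_nonempty with rfl | hs
  · exact ⟨1, one_ne_zero, by simp⟩
  choose π hπ using fun v : Pl N => exists_uniformizer v
  have hπ0 : ∀ v, (π v : N) ≠ 0 := by
    intro v h
    have := hπ v
    rw [h, ord_zero] at this
    omega
  let a : Pl N → N := fun v => (π v : N) ^ (k v)
  have ha0 : ∀ v, a v ≠ 0 := fun v => zpow_ne_zero _ (hπ0 v)
  have hak : ∀ v, ord v (a v) = k v := by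
    intro v
    simp only [a]
    rw [ord_zpow, hπ v, mul_one]
  let n : ℤ := (s.sup fun v => (k v).toNat : ℕ) + 1
  have hn : ∀ v ∈ s, k v < n := by
    intro v hv
    have h3 : (k v).toNat ≤ s.sup fun v => (k v).toNat :=
      Finset.le_sup (f := fun v => (k v).toNat) hv
    have h4 := Int.self_le_toNat (k v)
    simp only [n]
    omega
  obtain ⟨x, hx⟩ := exists_approx s a n
  have key : ∀ v ∈ s, x ≠ 0 ∧ ord v x = k v := by
    intro v hv
    rcases hx v hv with h | h
    · rw [h]
      exact ⟨ha0 v, hak v⟩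
    · by_cases hxa : x - a v = 0
      · rw [sub_eq_zero.mp hxa]
        exact ⟨ha0 v, hak v⟩
      have h5 : ord v (a v + (x - a v)) = ord v (a v) :=
        ord_add_eq_of_lt v (ha0 v) hxa (by rw [hak]; exact lt_of_lt_of_le (hn v hv) h)
      rw [add_sub_cancel, hak] at h5
      refine ⟨?_, h5⟩
      rintro rfl
      rw [zero_sub, ord_neg, hak] at h
      exact absurd (hn v hv) (not_lt.mpr h)
  obtain ⟨v₀, hv₀⟩ := hs
  exact ⟨x, (key v₀ hv₀).1, fun v hv => (key v hv).2⟩

/-- An integer which is `≡ 1` modulo `v₀ ^ n` and `≡ 0` modulo `v ^ n` for the other `v ∈ s`. -/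
theorem exists_idempotent_like (s : Finset (Pl N)) (v₀ : Pl N) (n : ℕ) :
    ∃ ε : 𝓞 N, ε - 1 ∈ v₀.asIdeal ^ n ∧ ∀ v ∈ s, v ≠ v₀ → ε ∈ v.asIdeal ^ n := by
  classical
  obtain ⟨x, hx⟩ := exists_int_approx (insert v₀ s) (fun v => if v = v₀ then 1 else 0) n
  refine ⟨x, ?_, fun v hv hvv => ?_⟩
  · simpa using hx v₀ (Finset.mem_insert_self _ _)
  · simpa [hvv] using hx v (Finset.mem_insert_of_mem hv)

/-- An element which is integral at `v` is a quotient of integers with denominator prime to `v`. -/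
theorem exists_div_not_mem (v : Pl N) {x : N} (hx : 0 ≤ ord v x) :
    ∃ a b : 𝓞 N, b ∉ v.asIdeal ∧ x = (a : N) / (b : N) := by
  classical
  have h1v : (1 : 𝓞 N) ∉ v.asIdeal := fun h => v.isPrime.ne_top ((Ideal.eq_top_iff_one _).mpr h)
  by_cases hx0 : x = 0
  · exact ⟨0, 1, h1v, by simp [hx0]⟩
  obtain ⟨a0, b0, hb0, hab⟩ := exists_int_div x
  have hb0' := coe_ne_zero hb0
  have ha0' : (a0 : N) ≠ 0 := by
    intro h
    rw [h, zero_div] at hab
    exact hx0 hab
  have hfin := finite_ord_ne_zero (N := N) hb0'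
  let s : Finset (Pl N) := hfin.toFinset
  let n : ℕ := (s.sup fun w => (ord w (b0 : N)).toNat) + 1
  obtain ⟨t, ht1, ht⟩ := exists_idempotent_like s v n
  have htv : t ∉ v.asIdeal := by
    intro h
    apply h1v
    have h2 : t - 1 ∈ v.asIdeal := Ideal.pow_le_self (by simp [n]) ht1
    have := sub_mem h h2
    simpa using this
  have ht0 : t ≠ 0 := by
    rintro rfl
    exact htv (zero_mem _)
  have ht0' := coe_ne_zero ht0
  have hint : ∀ w : Pl N, 0 ≤ ord w ((t : N) * x) := by
    intro w
    rw [ord_mul w ht0' hx0]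
    have htn := ord_nonneg_of_integer w t
    by_cases hwv : w = v
    · subst hwv
      omega
    have hxw : ord w x = ord w (a0 : N) - ord w (b0 : N) := by rw [hab, ord_div w ha0' hb0']
    have han := ord_nonneg_of_integer w a0
    by_cases hws : w ∈ s
    · have h3 : (n : ℤ) ≤ ord w (t : N) := (le_ord_iff_mem_pow w ht0 n).mpr (ht w hws hwv)
      have h4 : (ord w (b0 : N)).toNat ≤ s.sup fun w => (ord w (b0 : N)).toNat :=
        Finset.le_sup (f := fun w => (ord w (b0 : N)).toNat) hws
      have h5 := Int.self_le_toNat (ord w (b0 : N))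
      simp only [n] at h3
      push_cast at h3
      omega
    · have : ord w (b0 : N) = 0 := by
        by_contra h
        exact hws (hfin.mem_toFinset.mpr h)
      omega
  obtain ⟨a, ha⟩ := isIntegral_of_forall_ord_nonneg hint
  exact ⟨a, t, htv, by rw [ha]; field_simp⟩

/-- A `v`-unit is a quotient of integers prime to `v`. -/
theorem exists_div_not_mem_of_unit (v : Pl N) {x : N} (hx0 : x ≠ 0) (hx : ord v x = 0) :
    ∃ a b : 𝓞 N, a ∉ v.asIdeal ∧ b ∉ v.asIdeal ∧ x = (a : N) / (b : N) := by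
  obtain ⟨a, b, hb, hab⟩ := exists_div_not_mem v hx.ge
  have hb0 : b ≠ 0 := by
    rintro rfl
    exact hb (zero_mem _)
  have ha0 : a ≠ 0 := by
    rintro rfl
    apply hx0
    rw [hab]
    simp
  refine ⟨a, b, ?_, hb, hab⟩
  intro ha
  have h1 := (ord_pos_iff_mem v ha0).mpr ha
  have h2 := ord_eq_zero_of_not_mem v hb
  rw [hab, ord_div v (coe_ne_zero ha0) (coe_ne_zero hb0), h2] at hx
  omega

namespace OrdApprox

/-- the multiplicity of `v` in an ideal. -/
noncomputable def cnt (v : Pl N) (I : Ideal (𝓞 N)) : ℕ :=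
  (Associates.mk v.asIdeal).count (Associates.mk I).factors

theorem ord_eq_cnt (v : Pl N) {x : 𝓞 N} (hx : x ≠ 0) :
    ord v (x : N) = cnt v (Ideal.span {x}) := by
  unfold ord cnt
  have h : v.valuation N (x : N) = v.intValuation x := v.valuation_of_algebraMap x
  rw [h, v.intValuation_if_neg hx, WithZero.log_exp, neg_neg]

theorem cnt_mul (v : Pl N) {I J : Ideal (𝓞 N)} (hI : I ≠ 0) (hJ : J ≠ 0) :
    cnt v (I * J) = cnt v I + cnt v J := by
  unfold cnt
  rw [Associates.mk_mul_mk.symm]
  exact Associates.count_mul (Associates.mk_ne_zero.mpr hI) (Associates.mk_ne_zero.mpr hJ)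
    v.associates_irreducible

theorem cnt_one (v : Pl N) : cnt v (1 : Ideal (𝓞 N)) = 0 := by
  unfold cnt
  rw [Associates.mk_one, Associates.factors_one]
  exact Associates.count_zero v.associates_irreducible

theorem cnt_self (v : Pl N) : cnt v v.asIdeal = 1 := by
  unfold cnt
  exact Associates.count_self v.associates_irreducible

theorem cnt_of_ne {v w : Pl N} (h : w ≠ v) : cnt v w.asIdeal = 0 := by
  unfold cnt
  refine Associates.count_eq_zero_of_ne v.associates_irreducible w.associates_irreducible ?_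
  intro h2
  rw [Associates.mk_eq_mk_iff_associated, associated_iff_eq] at h2
  exact h (HeightOneSpectrum.ext h2.symm)

theorem asIdeal_ne_zero (v : Pl N) : v.asIdeal ≠ 0 := v.ne_bot

theorem cnt_prod {ι : Type*} (v : Pl N) (s : Finset ι) (w : ι → Pl N) :
    cnt v (∏ i ∈ s, (w i).asIdeal) = ∑ i ∈ s, cnt v (w i).asIdeal := by
  classical
  induction s using Finset.induction_on with
  | empty => simpa using cnt_one v
  | insert a s ha ih =>
    rw [Finset.prod_insert ha, Finset.sum_insert ha, cnt_mul v (asIdeal_ne_zero _)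
      (Finset.prod_ne_zero_iff.mpr fun i _ => asIdeal_ne_zero _), ih]

end OrdApprox

/-- `ord` of an integer is the multiplicity of `v` in the principal ideal. -/
theorem span_singleton_eq_finprod {x : 𝓞 N} (hx : x ≠ 0) :
    Ideal.span {x} = ∏ᶠ v : Pl N, v.asIdeal ^ (ord v (x : N)).toNat := by
  have h0 : Ideal.span {x} ≠ 0 := by simpa using hx
  conv_lhs => rw [← Ideal.finprod_heightOneSpectrum_factorization h0]
  refine finprod_congr fun v => ?_
  rw [ord_eq_cnt v hx, Int.toNat_natCast]
  rfl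

/-- If `(x) = ∏_{i ∈ s} (w i)` with the `w i` pairwise distinct places, then `ord` of `x` is the
indicator function of the set of the `w i`. -/
theorem ord_of_span_eq_prod {ι : Type*} (s : Finset ι) (w : ι → Pl N) (hw : Set.InjOn w s)
    {x : 𝓞 N} (hx : Ideal.span {x} = ∏ i ∈ s, (w i).asIdeal) (v : Pl N) :
    ord v (x : N) = open Classical in if ∃ i ∈ s, w i = v then 1 else 0 := by
  classical
  have hx0 : x ≠ 0 := by
    rintro rfl
    have h1 : (∏ i ∈ s, (w i).asIdeal) ≠ 0 :=
      Finset.prod_ne_zero_iff.mpr fun i _ => asIdeal_ne_zero _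
    apply h1
    rw [← hx]
    simp
  rw [ord_eq_cnt v hx0, hx, cnt_prod]
  split_ifs with h
  · obtain ⟨i, hi, rfl⟩ := h
    rw [Finset.sum_eq_single i]
    · rw [cnt_self]; rfl
    · intro j hj hji
      exact cnt_of_ne fun h => hji (hw hj hi h)
    · intro h; exact absurd hi h
  · rw [Finset.sum_eq_zero]
    · rfl
    · intro j hj
      exact cnt_of_ne fun h2 => h ⟨j, hj, h2⟩

/-- **Product formula**: `|N_{N/ℚ}(x)| = ∏_v (N v)^(ord_v x)`. -/
theorem abs_norm_eq_finprod {x : N} (hx : x ≠ 0) :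
    |Algebra.norm ℚ x| = ∏ᶠ v : Pl N, ((Ideal.absNorm v.asIdeal : ℕ) : ℚ) ^ (ord v x) := by
  have h := NumberField.FinitePlace.prod_eq_inv_abs_norm hx
  rw [← finprod_comp_equiv NumberField.FinitePlace.equivHeightOneSpectrum.symm] at h
  have h1 : ∀ v : Pl N, (NumberField.FinitePlace.equivHeightOneSpectrum.symm v) x
      = ((((Ideal.absNorm v.asIdeal : ℕ) : ℚ) ^ (ord v x) : ℚ) : ℝ)⁻¹ := by
    intro v
    rw [NumberField.FinitePlace.equivHeightOneSpectrum_symm_apply,
      NumberField.FinitePlace.norm_embedding',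
      WithZeroMulInt.toNNReal_neg_apply _ (valuation_ne_zero v hx)]
    have h2 : (WithZero.unzero (valuation_ne_zero v hx)).toAdd = - ord v x := by
      unfold ord
      rw [neg_neg]
      have aux : ∀ (y : WithZero (Multiplicative ℤ)) (hy : y ≠ 0),
          (WithZero.unzero hy).toAdd = WithZero.log y := by
        intro y hy
        induction y using WithZero.recZeroCoe with
        | zero => exact absurd rfl hy
        | coe a => rfl
      exact aux _ _
    rw [h2]
    push_cast
    rw [zpow_neg]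
  rw [finprod_congr h1, finprod_inv_distrib, Rat.cast_inv, inv_inj] at h
  have h3 := (Rat.castHom ℝ).toMonoidHom.map_finprod_of_injective (Rat.castHom ℝ).injective
    (fun v : Pl N => ((Ideal.absNorm v.asIdeal : ℕ) : ℚ) ^ (ord v x))
  have h4 : ((∏ᶠ v : Pl N, ((Ideal.absNorm v.asIdeal : ℕ) : ℚ) ^ (ord v x) : ℚ) : ℝ)
      = ((|Algebra.norm ℚ x| : ℚ) : ℝ) := by
    rw [← h]
    exact h3
  exact_mod_cast h4.symm

end Fermat.Agent.CFT
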