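import Fermat.Agent.CFT.Basic
import Fermat.Agent.CFT.OrdBasic

set_option autoImplicit false

namespace Fermat.Agent.CFT

open IsDedekindDomain NumberField
open scoped Pointwise

section action

variable {N' : Type*} [Field N'] [NumberField N'] {G : Type*} [Group G] [MulSemiringAction G N']

theorem mem_smul_asIdeal_iff (σ : G) (w : Pl N') (x : 𝓞 N') :
    x ∈ (σ • w).asIdeal ↔ σ⁻¹ • x ∈ w.asIdeal := by
  rw [smul_asIdeal]
  exact Ideal.mem_pointwise_smul_iff_inv_smul_mem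

theorem smul_mem_smul_asIdeal_iff (σ : G) (w : Pl N') (x : 𝓞 N') :
    σ • x ∈ (σ • w).asIdeal ↔ x ∈ w.asIdeal := by
  rw [smul_asIdeal]
  exact Ideal.smul_mem_pointwise_smul_iff

namespace OrdGal1

set_option linter.unusedSectionVars false

theorem coe_smul (σ : G) (x : 𝓞 N') : ((σ • x : 𝓞 N') : N') = σ • (x : N') := rfl

theorem smul_pow_ideal (σ : G) (I : Ideal (𝓞 N')) (n : ℕ) : (σ • I) ^ n = σ • (I ^ n) := by
  rw [Ideal.pointwise_smul_def, Ideal.pointwise_smul_def, Ideal.map_pow]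

theorem smul_ne_zero_int (σ : G) {x : 𝓞 N'} (hx : x ≠ 0) : σ • x ≠ 0 := by
  intro h
  apply hx
  have := congrArg (fun y => σ⁻¹ • y) h
  simpa using this

theorem ord_smul_smul_int (σ : G) (w : Pl N') {x : 𝓞 N'} (hx : x ≠ 0) :
    ord (σ • w) ((σ • x : 𝓞 N') : N') = ord w (x : N') := by
  have key : ∀ n : ℕ, (n : ℤ) ≤ ord (σ • w) ((σ • x : 𝓞 N') : N') ↔ (n : ℤ) ≤ ord w (x : N') := by
    intro n
    rw [le_ord_iff_mem_pow _ (smul_ne_zero_int σ hx), le_ord_iff_mem_pow _ hx, smul_asIdeal,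
      smul_pow_ideal]
    exact Ideal.smul_mem_pointwise_smul_iff
  have h1 := ord_nonneg_of_integer (σ • w) (σ • x)
  have h2 := ord_nonneg_of_integer w x
  obtain ⟨a, ha⟩ := Int.eq_ofNat_of_zero_le h1
  obtain ⟨b, hb⟩ := Int.eq_ofNat_of_zero_le h2
  apply le_antisymm
  · rw [ha]; exact (key a).mp ha.ge
  · rw [hb]; exact (key b).mpr hb.ge

end OrdGal1

open OrdGal1 in
theorem ord_smul_smul (σ : G) (w : Pl N') (x : N') : ord (σ • w) (σ • x) = ord w x := by
  by_cases hx : x = 0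
  · subst hx; simp
  obtain ⟨a, b, hb, rfl⟩ := IsFractionRing.div_surjective (A := 𝓞 N') x
  have hb0 : b ≠ 0 := nonZeroDivisors.ne_zero hb
  have ha0 : a ≠ 0 := by
    rintro rfl
    simp at hx
  have ha' : (algebraMap (𝓞 N') N' a) ≠ 0 := by
    simpa using ha0
  have hb' : (algebraMap (𝓞 N') N' b) ≠ 0 := by
    simpa using hb0
  rw [smul_div₀', ord_div _ ha' hb']
  have h1 := ord_smul_smul_int σ w ha0
  have h2 := ord_smul_smul_int σ w hb0
  rw [coe_smul] at h1 h2
  rw [ord_div, h1, h2]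
  · exact (smul_ne_zero_iff_ne σ).mpr ha'
  · exact (smul_ne_zero_iff_ne σ).mpr hb'

theorem ord_smul (σ : G) (w : Pl N') (x : N') : ord (σ • w) x = ord w (σ⁻¹ • x) := by
  rw [← ord_smul_smul σ w (σ⁻¹ • x), smul_inv_smul]

theorem ord_smul' (σ : G) (w : Pl N') (x : N') : ord w (σ • x) = ord (σ⁻¹ • w) x := by
  rw [ord_smul, inv_inv]

theorem over_smul_iff (σ : G) (w : Pl N') (p : ℕ) : Over (σ • w) p ↔ Over w p := by
  unfold Over
  rw [mem_smul_asIdeal_iff]
  have : σ⁻¹ • (p : 𝓞 N') = (p : 𝓞 N') := map_natCast (MulSemiringAction.toRingHom G (𝓞 N') σ⁻¹) p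
  rw [this]

theorem absNorm_smul (σ : G) (w : Pl N') :
    Ideal.absNorm (σ • w).asIdeal = Ideal.absNorm w.asIdeal := by
  rw [Ideal.absNorm_apply, Ideal.absNorm_apply, Submodule.cardQuot_apply, Submodule.cardQuot_apply]
  refine (Nat.card_congr ?_).symm
  exact (Ideal.quotientEquiv w.asIdeal (σ • w).asIdeal (MulSemiringAction.toRingEquiv G (𝓞 N') σ)
    (by rw [smul_asIdeal, Ideal.pointwise_smul_def]; rfl)).toEquiv

end action

section ext

variable {N : Type*} [Field N] [NumberField N] {N' : Type*} [Field N'] [NumberField N']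
  [Algebra N N']

theorem above_iff (w : Pl N') (v : Pl N) :
    Above w v ↔ ∀ x : 𝓞 N, x ∈ v.asIdeal ↔ algebraMap (𝓞 N) (𝓞 N') x ∈ w.asIdeal := by
  constructor
  · intro h x
    rw [h.over]
    rfl
  · intro h
    refine ⟨?_⟩
    ext x
    rw [h x]
    rfl

theorem exists_above (v : Pl N) : ∃ w : Pl N', Above w v := by
  obtain ⟨⟨P, hP, hPv⟩⟩ := v.asIdeal.nonempty_primesOver (S := 𝓞 N')
  refine ⟨⟨P, hP, ?_⟩, hPv⟩
  rintro rfl
  apply v.ne_bot
  rw [hPv.over]
  exact Ideal.under_bot _ _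

variable (N) in
theorem exists_below (w : Pl N') : ∃ v : Pl N, Above w v :=
  ⟨w.under (𝓞 N), ⟨rfl⟩⟩

theorem below_unique {w : Pl N'} {v v' : Pl N} (h : Above w v) (h' : Above w v') : v = v' := by
  apply HeightOneSpectrum.ext
  rw [h.over, h'.over]

theorem finite_above (v : Pl N) : {w : Pl N' | Above w v}.Finite := by
  have hfin := IsDedekindDomain.primesOver_finite v.asIdeal (𝓞 N')
  refine Set.Finite.of_finite_image (f := fun w : Pl N' => w.asIdeal) (hfin.subset ?_) ?_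
  · rintro _ ⟨w, hw, rfl⟩
    exact ⟨w.isPrime, hw⟩
  · intro a _ b _ hab
    exact HeightOneSpectrum.ext hab

theorem finite_upSet {S : Set (Pl N)} (hS : S.Finite) : (upSet N' S).Finite := by
  have : upSet N' S = ⋃ v ∈ S, {w : Pl N' | Above w v} := by
    ext w
    simp [upSet]
  rw [this]
  exact hS.biUnion fun v _ => finite_above v

theorem over_of_above {w : Pl N'} {v : Pl N} (h : Above w v) (p : ℕ) : Over w p ↔ Over v p := by
  unfold Over
  rw [(above_iff w v).mp h, map_natCast]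

theorem above_smul {w : Pl N'} {v : Pl N} (h : Above w v) (σ : N' ≃ₐ[N] N') : Above (σ • w) v := by
  rw [above_iff] at h ⊢
  intro x
  rw [mem_smul_asIdeal_iff, h]
  have : σ⁻¹ • algebraMap (𝓞 N) (𝓞 N') x = algebraMap (𝓞 N) (𝓞 N') x := by
    apply RingOfIntegers.ext
    show σ⁻¹ (algebraMap N N' (x : N)) = algebraMap N N' (x : N)
    exact (σ⁻¹).commutes _
  rw [this]

theorem exists_smul_eq_of_above [IsGalois N N'] {w w' : Pl N'} {v : Pl N} (h : Above w v)
    (h' : Above w' v) : ∃ σ : N' ≃ₐ[N] N', σ • w = w' := by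
  have : w.asIdeal.LiesOver v.asIdeal := h
  have : w'.asIdeal.LiesOver v.asIdeal := h'
  obtain ⟨σ, hσ⟩ := Ideal.exists_smul_eq_of_isGaloisGroup v.asIdeal w.asIdeal w'.asIdeal
    (N' ≃ₐ[N] N')
  exact ⟨σ, HeightOneSpectrum.ext hσ⟩

end ext

section tower

variable {N : Type*} [Field N] [NumberField N] {N' : Type*} [Field N'] [NumberField N']
  {N'' : Type*} [Field N''] [NumberField N''] [Algebra N N'] [Algebra N' N''] [Algebra N N'']
  [IsScalarTower N N' N'']

theorem Above.trans' {u : Pl N''} {w : Pl N'} {v : Pl N} (h : Above u w) (h' : Above w v) :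
    Above u v := by
  have : u.asIdeal.LiesOver w.asIdeal := h
  have : w.asIdeal.LiesOver v.asIdeal := h'
  exact Ideal.LiesOver.trans u.asIdeal w.asIdeal v.asIdeal

end tower

section compat

variable {K : Type*} [Field K] [NumberField K] {Ω : Type*} [Field Ω] [NumberField Ω] [Algebra K Ω]

/-- Compatibility of the two actions for a pair of compatible automorphisms. -/
theorem above_smul_smul {P : Pl Ω} {v : Pl K} (h : Above P v) (s : Ω ≃ₐ[ℚ] Ω) (sK : K ≃ₐ[ℚ] K)
    (hs : ∀ x : K, s (algebraMap K Ω x) = algebraMap K Ω (sK x)) : Above (s • P) (sK • v) := by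
  rw [above_iff] at h ⊢
  intro x
  rw [mem_smul_asIdeal_iff, mem_smul_asIdeal_iff, h]
  have : algebraMap (𝓞 K) (𝓞 Ω) (sK⁻¹ • x) = s⁻¹ • algebraMap (𝓞 K) (𝓞 Ω) x := by
    apply RingOfIntegers.ext
    show algebraMap K Ω (sK⁻¹ (x : K)) = s⁻¹ (algebraMap K Ω (x : K))
    have := hs (sK⁻¹ (x : K))
    rw [show sK (sK⁻¹ (x : K)) = (x : K) from sK.apply_symm_apply _] at this
    rw [← this]
    exact (s.symm_apply_apply _).symm
  rw [this]

/-- The action of `σ : Ω ≃ₐ[K] Ω` on places is that of its restriction of scalars. -/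
theorem restrictScalars_smul (σ : Ω ≃ₐ[K] Ω) (P : Pl Ω) :
    (σ.restrictScalars ℚ) • P = σ • P := by
  apply HeightOneSpectrum.ext
  ext x
  rw [mem_smul_asIdeal_iff, mem_smul_asIdeal_iff]
  rfl

end compat

end Fermat.Agent.CFT
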