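import Fermat.Agent.CFT.Basic
import Fermat.Agent.CFT.OrdBasic
import Fermat.Agent.CFT.OrdGal1

set_option autoImplicit false

namespace Fermat.Agent.CFT

open IsDedekindDomain NumberField
open scoped Pointwise

variable {N : Type*} [Field N] [NumberField N] {N' : Type*} [Field N'] [NumberField N']
  [Algebra N N']

/-- `ord_w x = e(w/v) ord_v x`. -/
theorem ord_algebraMap {w : Pl N'} {v : Pl N} (h : Above w v) (x : N) :
    ord w (algebraMap N N' x) = (Ideal.ramificationIdx' v.asIdeal w.asIdeal : ℤ) * ord v x := by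
  have : w.asIdeal.LiesOver v.asIdeal := h
  unfold ord
  rw [← HeightOneSpectrum.valuation_liesOver N' v w x, WithZero.log_pow]
  simp

theorem ramificationIdx_pos {w : Pl N'} {v : Pl N} (h : Above w v) :
    0 < Ideal.ramificationIdx' v.asIdeal w.asIdeal := by
  have : w.asIdeal.LiesOver v.asIdeal := h
  exact Nat.pos_of_ne_zero
    (Ideal.IsDedekindDomain.ramificationIdx'_ne_zero_of_liesOver w.asIdeal v.ne_bot)

theorem ramificationIdx_eq_one_of_unram [IsGalois N N'] {w : Pl N'} {v : Pl N} (h : Above w v)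
    (hu : Unram N w) : Ideal.ramificationIdx' v.asIdeal w.asIdeal = 1 := by
  have : w.asIdeal.LiesOver v.asIdeal := h
  have h1 := Ideal.card_inertia_eq_ramificationIdxIn (G := N' ≃ₐ[N] N') v.asIdeal w.asIdeal
  rw [Ideal.ramificationIdxIn_eq_ramificationIdx v.asIdeal w.asIdeal (N' ≃ₐ[N] N'),
    ← Ideal.ramificationIdx'_eq_ramificationIdx v.asIdeal w.asIdeal v.ne_bot] at h1
  rw [← h1]
  have h2 : w.asIdeal.inertia (N' ≃ₐ[N] N') = ⊥ := by
    rw [eq_bot_iff]
    intro σ hσ
    exact hu σ hσ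
  rw [h2]
  simp

theorem ord_algebraMap_of_unram [IsGalois N N'] {w : Pl N'} {v : Pl N} (h : Above w v)
    (hu : Unram N w) (x : N) : ord w (algebraMap N N' x) = ord v x := by
  rw [ord_algebraMap h, ramificationIdx_eq_one_of_unram h hu]
  simp

theorem ord_algebraMap_eq_zero_iff {w : Pl N'} {v : Pl N} (h : Above w v) (x : N) :
    ord w (algebraMap N N' x) = 0 ↔ ord v x = 0 := by
  rw [ord_algebraMap h, mul_eq_zero]
  have := ramificationIdx_pos h
  constructor
  · rintro (h0 | h0)
    · omega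
    · exact h0
  · exact Or.inr

/-- an element of the inertia group fixes the place -/
theorem smul_eq_of_inertia (w : Pl N') (σ : N' ≃ₐ[N] N')
    (h : ∀ x : 𝓞 N', σ • x - x ∈ w.asIdeal) : σ • w = w := by
  apply HeightOneSpectrum.ext
  have h1 : σ ∈ w.asIdeal.inertia (N' ≃ₐ[N] N') := h
  exact Ideal.inertia_le_stabilizer w.asIdeal h1

/-- `Split` implies `Unram`. -/
theorem unram_of_split {w : Pl N'} {v : Pl N} (h : Above w v) (hs : Split N' v) : Unram N w := by
  intro σ hσ
  exact hs w h σ (smul_eq_of_inertia w σ hσ)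

/-- `ord_w (N z) = ∑_σ ord_{σ⁻¹ w} z`. -/
theorem ord_algebraMap_norm [IsGalois N N'] (w : Pl N') {z : N'} (hz : z ≠ 0) :
    ord w (algebraMap N N' (Algebra.norm N z)) = ∑ σ : N' ≃ₐ[N] N', ord (σ⁻¹ • w) z := by
  rw [Algebra.norm_eq_prod_automorphisms, ord_prod w Finset.univ _ (fun σ _ => by simpa using hz)]
  refine Finset.sum_congr rfl fun σ _ => ?_
  exact ord_smul' σ w z

end Fermat.Agent.CFT
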