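import Fermat.Agent.CFT.Basic
import Fermat.Agent.CFT.OrdBasic
import Fermat.Agent.CFT.OrdGal1
import Fermat.Agent.CFT.OrdGal2

set_option autoImplicit false

namespace Fermat.Agent.CFT

open IsDedekindDomain NumberField
open scoped Pointwise

variable {N : Type*} [Field N] [NumberField N] {N' : Type*} [Field N'] [NumberField N']
  [Algebra N N']

namespace OrdGal3

theorem orbit_eq_above [IsGalois N N'] {w : Pl N'} {v : Pl N} (h : Above w v) :
    MulAction.orbit (N' ≃ₐ[N] N') w = {w' : Pl N' | Above w' v} := by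
  ext w'
  constructor
  · rintro ⟨σ, rfl⟩
    exact above_smul h σ
  · intro h'
    obtain ⟨σ, hσ⟩ := exists_smul_eq_of_above h h'
    exact ⟨σ, hσ⟩

omit [NumberField N] in
theorem stabilizer_eq (w : Pl N') :
    MulAction.stabilizer (N' ≃ₐ[N] N') w = MulAction.stabilizer (N' ≃ₐ[N] N') w.asIdeal := by
  ext σ
  rw [MulAction.mem_stabilizer_iff, MulAction.mem_stabilizer_iff]
  constructor
  · intro h
    have := congrArg HeightOneSpectrum.asIdeal h
    simpa using this
  · intro h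
    exact HeightOneSpectrum.ext (by simpa using h)

end OrdGal3

/-- orbit–stabiliser for places above `v`. -/
theorem ncard_above_mul_card_stabilizer [IsGalois N N'] {w : Pl N'} {v : Pl N} (h : Above w v) :
    {w' : Pl N' | Above w' v}.ncard * Nat.card (MulAction.stabilizer (N' ≃ₐ[N] N') w) =
      Module.finrank N N' := by
  rw [← OrdGal3.orbit_eq_above h, ← IsGalois.card_aut_eq_finrank N N',
    ← Nat.card_congr (MulAction.orbitProdStabilizerEquivGroup (N' ≃ₐ[N] N') w), Nat.card_prod,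
    Nat.card_coe_set_eq]

theorem ncard_above_of_split [IsGalois N N'] {v : Pl N} (hs : Split N' v) :
    {w' : Pl N' | Above w' v}.ncard = Module.finrank N N' := by
  obtain ⟨w, hw⟩ := exists_above (N' := N') v
  have h1 : MulAction.stabilizer (N' ≃ₐ[N] N') w = ⊥ := by
    rw [Subgroup.eq_bot_iff_forall]
    intro σ hσ
    exact hs w hw σ hσ
  have := ncard_above_mul_card_stabilizer hw
  rwa [h1, Subgroup.card_bot, mul_one] at this

/-- In a Galois extension of prime degree a non split place has a unique place above it, which is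
fixed by the whole Galois group. -/
theorem smul_eq_of_not_split [IsGalois N N'] {p : ℕ} (hp : p.Prime) (hdeg : Module.finrank N N' = p)
    {w : Pl N'} {v : Pl N} (h : Above w v) (hns : ¬ Split N' v) (σ : N' ≃ₐ[N] N') : σ • w = w := by
  unfold Split at hns
  push Not at hns
  obtain ⟨w₀, hw₀, σ₀, hσ₀, hne⟩ := hns
  have : Fact (Nat.Prime (Nat.card (N' ≃ₐ[N] N'))) := by
    rw [IsGalois.card_aut_eq_finrank N N', hdeg]
    exact ⟨hp⟩
  have htop : MulAction.stabilizer (N' ≃ₐ[N] N') w₀ = ⊤ := by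
    rcases Subgroup.eq_bot_or_eq_top_of_prime_card (MulAction.stabilizer (N' ≃ₐ[N] N') w₀)
      with hb | ht
    · exfalso
      apply hne
      have : σ₀ ∈ MulAction.stabilizer (N' ≃ₐ[N] N') w₀ := hσ₀
      rw [hb] at this
      exact Subgroup.mem_bot.mp this
    · exact ht
  have hfix : ∀ τ : N' ≃ₐ[N] N', τ • w₀ = w₀ := by
    intro τ
    have : τ ∈ MulAction.stabilizer (N' ≃ₐ[N] N') w₀ := by rw [htop]; exact Subgroup.mem_top τ
    exact this
  obtain ⟨τ, hτ⟩ := exists_smul_eq_of_above hw₀ h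
  rw [← hτ, hfix τ, hfix σ]

theorem above_unique_of_not_split [IsGalois N N'] {p : ℕ} (hp : p.Prime)
    (hdeg : Module.finrank N N' = p) {w w' : Pl N'} {v : Pl N} (h : Above w v) (h' : Above w' v)
    (hns : ¬ Split N' v) : w = w' := by
  obtain ⟨σ, hσ⟩ := exists_smul_eq_of_above h h'
  rw [← hσ, smul_eq_of_not_split hp hdeg h hns σ]

theorem ncard_above_of_not_split [IsGalois N N'] {p : ℕ} (hp : p.Prime)
    (hdeg : Module.finrank N N' = p) {v : Pl N} (hns : ¬ Split N' v) :
    {w' : Pl N' | Above w' v}.ncard = 1 := by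
  obtain ⟨w, hw⟩ := exists_above (N' := N') v
  rw [Set.ncard_eq_one]
  refine ⟨w, ?_⟩
  ext w'
  simp only [Set.mem_ofPred_eq, Set.mem_singleton_iff]
  constructor
  · intro h'
    exact (above_unique_of_not_split hp hdeg hw h' hns).symm
  · rintro rfl
    exact hw

/-- `inertiaDeg = 1` gives residue representatives in the base. -/
theorem exists_sub_mem_of_absNorm_eq {w : Pl N'} {v : Pl N} (h : Above w v)
    (hN : Ideal.absNorm w.asIdeal = Ideal.absNorm v.asIdeal) (x : 𝓞 N') :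
    ∃ a : 𝓞 N, x - algebraMap (𝓞 N) (𝓞 N') a ∈ w.asIdeal := by
  have : w.asIdeal.LiesOver v.asIdeal := h
  have : Finite (𝓞 N ⧸ v.asIdeal) := Ideal.finiteQuotientOfFreeOfNeBot _ v.ne_bot
  have : Finite (𝓞 N' ⧸ w.asIdeal) := Ideal.finiteQuotientOfFreeOfNeBot _ w.ne_bot
  have hinj : Function.Injective (algebraMap (𝓞 N ⧸ v.asIdeal) (𝓞 N' ⧸ w.asIdeal)) := by
    let _ : Field (𝓞 N ⧸ v.asIdeal) := Ideal.Quotient.field v.asIdeal
    have : Nontrivial (𝓞 N' ⧸ w.asIdeal) := Ideal.Quotient.nontrivial_iff.mpr w.isPrime.ne_top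
    exact RingHom.injective _
  have hcard : Nat.card (𝓞 N ⧸ v.asIdeal) = Nat.card (𝓞 N' ⧸ w.asIdeal) := by
    rw [Ideal.absNorm_apply, Ideal.absNorm_apply, Submodule.cardQuot_apply,
      Submodule.cardQuot_apply] at hN
    exact hN.symm
  have hsurj : Function.Surjective (algebraMap (𝓞 N ⧸ v.asIdeal) (𝓞 N' ⧸ w.asIdeal)) :=
    ((Nat.bijective_iff_injective_and_card _).mpr ⟨hinj, hcard⟩).2
  obtain ⟨a', ha'⟩ := hsurj (Ideal.Quotient.mk _ x)
  obtain ⟨a, rfl⟩ := Ideal.Quotient.mk_surjective a'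
  refine ⟨a, ?_⟩
  rw [← Ideal.Quotient.eq, ← ha']
  rfl

/-- `N w = (N v)^f`, `e f = |D_w|`. -/
theorem absNorm_eq_pow_inertiaDeg {w : Pl N'} {v : Pl N} (h : Above w v) :
    Ideal.absNorm w.asIdeal = Ideal.absNorm v.asIdeal ^ (Ideal.inertiaDeg' v.asIdeal w.asIdeal) := by
  have : w.asIdeal.LiesOver v.asIdeal := h
  have : Finite (𝓞 N ⧸ v.asIdeal) := Ideal.finiteQuotientOfFreeOfNeBot _ v.ne_bot
  have : Finite (𝓞 N' ⧸ w.asIdeal) := Ideal.finiteQuotientOfFreeOfNeBot _ w.ne_bot
  let _ : Field (𝓞 N ⧸ v.asIdeal) := Ideal.Quotient.field v.asIdeal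
  let _ : Fintype (𝓞 N ⧸ v.asIdeal) := Fintype.ofFinite _
  let _ : Fintype (𝓞 N' ⧸ w.asIdeal) := Fintype.ofFinite _
  rw [Ideal.inertiaDeg'_algebraMap, Ideal.absNorm_apply, Ideal.absNorm_apply,
    Submodule.cardQuot_apply, Submodule.cardQuot_apply, Nat.card_eq_fintype_card,
    Nat.card_eq_fintype_card]
  exact Module.card_eq_pow_finrank

theorem card_stabilizer_eq [IsGalois N N'] {w : Pl N'} {v : Pl N} (h : Above w v) :
    Nat.card (MulAction.stabilizer (N' ≃ₐ[N] N') w) =
      Ideal.ramificationIdx' v.asIdeal w.asIdeal * Ideal.inertiaDeg' v.asIdeal w.asIdeal := by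
  have : w.asIdeal.LiesOver v.asIdeal := h
  rw [OrdGal3.stabilizer_eq, Ideal.card_stabilizer_eq v.asIdeal w.asIdeal,
    Ideal.ramificationIdxIn_eq_ramificationIdx v.asIdeal w.asIdeal (N' ≃ₐ[N] N'),
    Ideal.inertiaDegIn_eq_inertiaDeg v.asIdeal w.asIdeal (N' ≃ₐ[N] N'),
    Ideal.ramificationIdx'_eq_ramificationIdx v.asIdeal w.asIdeal v.ne_bot,
    Ideal.inertiaDeg'_eq_inertiaDeg v.asIdeal w.asIdeal]

/-- If `v` splits completely then the residue fields agree: `N w = N v`, and every integer of `N'`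
is congruent mod `w` to an integer of `N`. -/
theorem absNorm_eq_of_split [IsGalois N N'] {w : Pl N'} {v : Pl N} (h : Above w v)
    (hs : Split N' v) : Ideal.absNorm w.asIdeal = Ideal.absNorm v.asIdeal := by
  have h1 : MulAction.stabilizer (N' ≃ₐ[N] N') w = ⊥ := by
    rw [Subgroup.eq_bot_iff_forall]
    intro σ hσ
    exact hs w h σ hσ
  have h2 := card_stabilizer_eq h
  rw [h1, Subgroup.card_bot] at h2
  have h3 : Ideal.inertiaDeg' v.asIdeal w.asIdeal = 1 := Nat.eq_one_of_mul_eq_one_left h2.symm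
  rw [absNorm_eq_pow_inertiaDeg h, h3, pow_one]

end Fermat.Agent.CFT
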