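import Fermat.Agent.CFT.OrdBasic
import Fermat.Agent.CFT.OrdBasic2
import Fermat.Agent.CFT.OrdApprox
import Fermat.Agent.CFT.OrdGal1
import Fermat.Agent.CFT.OrdGal2
import Fermat.Agent.CFT.OrdGal3

/-! Aggregator: the whole `ord` / places API of the CFT project. -/
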