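import Fermat.Agent.CFT.Basic
import Fermat.Agent.CFT.OrdGal
import Fermat.Agent.CFT.UnitOf

set_option autoImplicit false
set_option linter.unusedSectionVars false

namespace Fermat.Agent.CFT

open IsDedekindDomain NumberField

variable {Ω : Type*} [Field Ω] [NumberField Ω]

open Polynomial in
/-- Irreducibility of cyclotomic polynomials: every `ζ ↦ ζ^a`, `a` prime to `n`, is induced by an
automorphism of the Galois extension `Ω/ℚ`. -/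
theorem exists_aut_pow [IsGalois ℚ Ω] {n : ℕ} (hn : 0 < n) {ζ : Ω} (hζ : IsPrimitiveRoot ζ n) {a : ℕ}
    (ha : a.Coprime n) : ∃ σ : Ω ≃ₐ[ℚ] Ω, σ ζ = ζ ^ a := by
  have hprim : IsPrimitiveRoot (ζ ^ a) n := hζ.pow_of_coprime a ha
  apply minpoly.exists_algEquiv_of_root' (Algebra.IsAlgebraic.isAlgebraic ζ)
  rw [← cyclotomic_eq_minpoly_rat hζ hn, aeval_def, eval₂_eq_eval_map, map_cyclotomic]
  exact hprim.isRoot_cyclotomic hn

namespace CycloAut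

theorem under_eq_span (P : Pl Ω) {ℓ : ℕ} (hℓ : ℓ.Prime) (h : Over P ℓ) :
    Ideal.under ℤ P.asIdeal = Ideal.span {(ℓ : ℤ)} := by
  rw [OrdBasic2.over_iff_dvd] at h
  have hq := OrdBasic2.prime_char P
  have he := (Nat.prime_dvd_prime_iff_eq hq hℓ).mp h
  rw [← he, Int.ideal_span_absNorm_eq_self]

/-- The root of unity as an algebraic integer. -/
theorem exists_int {n : ℕ} (hn : 0 < n) {ζ : Ω} (hζ : IsPrimitiveRoot ζ n) :
    ∃ ζ' : 𝓞 Ω, (ζ' : Ω) = ζ ∧ IsPrimitiveRoot ζ' n := by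
  refine ⟨⟨ζ, hζ.isIntegral hn⟩, rfl, ?_⟩
  exact IsPrimitiveRoot.of_map_of_injective (f := algebraMap (𝓞 Ω) Ω) hζ
    (RingOfIntegers.coe_injective)

theorem pos_of_not_over {n : ℕ} (P : Pl Ω) (hP : ¬ Over P n) : 0 < n := by
  rcases Nat.eq_zero_or_pos n with rfl | h
  · exact absurd (by simp [Over]) hP
  · exact h

end CycloAut

open CycloAut

/-- Transitivity of `Gal(Ω/ℚ)` on the places over a rational prime. -/
theorem exists_smul_eq_of_over [IsGalois ℚ Ω] {P P' : Pl Ω} {ℓ : ℕ} (hℓ : ℓ.Prime) (h : Over P ℓ)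
    (h' : Over P' ℓ) : ∃ σ : Ω ≃ₐ[ℚ] Ω, σ • P = P' := by
  have hu : Ideal.under ℤ P.asIdeal = Ideal.under ℤ P'.asIdeal := by
    rw [under_eq_span P hℓ h, under_eq_span P' hℓ h']
  have := P.isPrime
  have := P'.isPrime
  obtain ⟨σ, hσ⟩ := Algebra.IsInvariant.exists_smul_of_under_eq ℤ (𝓞 Ω) (Ω ≃ₐ[ℚ] Ω)
    P.asIdeal P'.asIdeal hu
  exact ⟨σ, HeightOneSpectrum.ext hσ.symm⟩

/-- If `σ x ≡ x^m mod P` for all integers `x`, and `P ∤ n`, then `σ ζ = ζ^m`. -/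
theorem map_zeta_eq_pow_of_frob {n : ℕ} {ζ : Ω} (hζ : IsPrimitiveRoot ζ n) (P : Pl Ω)
    (hP : ¬ Over P n) (σ : Ω ≃ₐ[ℚ] Ω) (m : ℕ) (hσ : ∀ x : 𝓞 Ω, σ • x - x ^ m ∈ P.asIdeal) :
    σ ζ = ζ ^ m := by
  have hn := pos_of_not_over P hP
  have : NeZero n := ⟨hn.ne'⟩
  obtain ⟨ζ', hζ', hprim⟩ := exists_int hn hζ
  have h1 : (σ • ζ') ^ n = 1 := by rw [← smul_pow', hprim.pow_eq_one, smul_one]
  obtain ⟨k, -, hk⟩ := hprim.eq_pow_of_pow_eq_one h1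
  have h2 := hσ ζ'
  rw [← hk] at h2
  have h3 := pow_eq_pow_of_sub_mem P hP hprim h2
  have h4 : σ • ζ' = ζ' ^ m := by rw [← hk, h3]
  have h5 := congrArg (fun x : 𝓞 Ω => (x : Ω)) h4
  simp only [map_pow, hζ'] at h5
  rw [← h5, ← hζ']
  rfl

/-- An element of the inertia group at `P ∤ n` fixes the `n`-th roots of unity. -/
theorem map_zeta_eq_of_inertia {n : ℕ} {ζ : Ω} (hζ : IsPrimitiveRoot ζ n) (P : Pl Ω)
    (hP : ¬ Over P n) (σ : Ω ≃ₐ[ℚ] Ω) (hσ : ∀ x : 𝓞 Ω, σ • x - x ∈ P.asIdeal) : σ ζ = ζ := by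
  have := map_zeta_eq_pow_of_frob hζ P hP σ 1 (by simpa using hσ)
  rwa [pow_one] at this

theorem not_over_sq {p : ℕ} (P : Pl Ω) (hP : ¬ Over P p) : ¬ Over P (p ^ 2) := by
  intro h
  apply hP
  unfold Over at h ⊢
  rw [Nat.cast_pow] at h
  exact P.isPrime.mem_of_pow_mem 2 h

end Fermat.Agent.CFT
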