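import Fermat.Agent.CFT.Basic
import Fermat.Agent.CFT.OrdGal
import Fermat.Agent.CFT.UnitOf
import Fermat.Agent.CFT.Config
import Fermat.Agent.CFT.CycloAut

set_option autoImplicit false
set_option linter.unusedSectionVars false

namespace Fermat.Agent.CFT

open IsDedekindDomain NumberField Finset

variable {p : ℕ} [Fact p.Prime] {Ω : Type*} [Field Ω] [NumberField Ω] {ζ : Ω}
  {χ : (Ω ≃ₐ[ℚ] Ω) →* (ZMod p)ˣ} {τ ρ : Ω ≃ₐ[ℚ] Ω}

namespace ConfigBasic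

theorem hη (cfg : Config p ζ χ τ ρ) : IsPrimitiveRoot (ζ ^ p) p :=
  cfg.hζ.pow (pow_pos (Fact.out : p.Prime).pos 2) (by ring)

theorem pow_apply_zeta (cfg : Config p ζ χ τ ρ) (j : ℕ) : (ρ ^ j) ζ = ζ ^ ((1 + p) ^ j) := by
  induction j with
  | zero => simp
  | succ j ih =>
    rw [pow_succ', AlgEquiv.mul_apply, ih, map_pow, cfg.ρζ, ← pow_mul, pow_succ']

theorem tau_pow_apply_zeta (cfg : Config p ζ χ τ ρ) (i : ℕ) : (τ ^ i) ζ = ζ := by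
  induction i with
  | zero => simp
  | succ i ih => rw [pow_succ', AlgEquiv.mul_apply, ih, cfg.τζ]

theorem not_dvd_one_add_pow (p : ℕ) [Fact p.Prime] (j : ℕ) : ¬ p ∣ (1 + p) ^ j := by
  have hp : p.Prime := Fact.out
  intro h
  exact UnitOf.not_dvd_one_add p (hp.dvd_of_dvd_pow h)

end ConfigBasic

open ConfigBasic

theorem Config.χ_eq_one_iff (cfg : Config p ζ χ τ ρ) (σ : Ω ≃ₐ[ℚ] Ω) :
    χ σ = 1 ↔ σ (ζ ^ p) = ζ ^ p := by
  have hp : p.Prime := Fact.out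
  have : NeZero p := ⟨hp.ne_zero⟩
  have : Fact (1 < p) := ⟨hp.one_lt⟩
  constructor
  · intro h
    rw [cfg.hχ, h, Units.val_one, ZMod.val_one, pow_one]
  · intro h
    rw [cfg.hχ] at h
    have h2 : (ζ ^ p) ^ ((χ σ : ZMod p).val) = (ζ ^ p) ^ 1 := by rw [h, pow_one]
    have h3 := (hη cfg).pow_inj (ZMod.val_lt _) hp.one_lt h2
    apply Units.ext
    apply ZMod.val_injective p
    rw [h3, Units.val_one, ZMod.val_one]

theorem Config.χτ (cfg : Config p ζ χ τ ρ) : χ τ = 1 := by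
  rw [cfg.χ_eq_one_iff, map_pow, cfg.τζ]

theorem Config.χρ (cfg : Config p ζ χ τ ρ) : χ ρ = 1 := by
  rw [cfg.χ_eq_one_iff, map_pow, cfg.ρζ, ← pow_mul, show (1 + p) * p = p + p ^ 2 by ring, pow_add,
    cfg.hζ.pow_eq_one, mul_one]

theorem Config.χ_pow_mul_pow (cfg : Config p ζ χ τ ρ) (i j : ℕ) : χ (τ ^ i * ρ ^ j) = 1 := by
  rw [map_mul, map_pow, map_pow, cfg.χτ, cfg.χρ, one_pow, one_pow, one_mul]

theorem Config.map_zeta (cfg : Config p ζ χ τ ρ) (i j : ℕ) :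
    (τ ^ i * ρ ^ j) ζ = ζ ^ ((1 + p) ^ j) := by
  rw [AlgEquiv.mul_apply, pow_apply_zeta cfg, map_pow, tau_pow_apply_zeta cfg]

theorem Config.pow_mul_pow_eq (cfg : Config p ζ χ τ ρ) {i j i' j' : ℕ}
    (h : τ ^ i * ρ ^ j = τ ^ i' * ρ ^ j') : i ≡ i' [MOD p] ∧ j ≡ j' [MOD p] := by
  have h1 : ζ ^ ((1 + p) ^ j) = ζ ^ ((1 + p) ^ j') := by
    rw [← cfg.map_zeta i j, ← cfg.map_zeta i' j', h]
  rw [pow_eq_pow_iff_unitOf p cfg.hζ (not_dvd_one_add_pow p j) (not_dvd_one_add_pow p j'),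
    unitOf_pow, unitOf_pow, pow_eq_pow_iff_modEq, orderOf_unitOf_one_add] at h1
  have h2 : ρ ^ j = ρ ^ j' := by
    rw [pow_eq_pow_iff_modEq, cfg.ordρ]
    exact h1
  rw [h2] at h
  have h3 := mul_right_cancel h
  rw [pow_eq_pow_iff_modEq, cfg.ordτ] at h3
  exact ⟨h3, h1⟩

theorem Config.indep (cfg : Config p ζ χ τ ρ) {i j : ℕ} (h : τ ^ i * ρ ^ j = 1) : p ∣ i ∧ p ∣ j := by
  have h1 : τ ^ i * ρ ^ j = τ ^ 0 * ρ ^ 0 := by simpa using h
  obtain ⟨h2, h3⟩ := cfg.pow_mul_pow_eq h1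
  exact ⟨(Nat.modEq_zero_iff_dvd).mp h2, (Nat.modEq_zero_iff_dvd).mp h3⟩

theorem Config.mul_pow (cfg : Config p ζ χ τ ρ) (i j m : ℕ) :
    (τ ^ i * ρ ^ j) ^ m = τ ^ (i * m) * ρ ^ (j * m) := by
  have hc : Commute (τ ^ i) (ρ ^ j) := (show Commute τ ρ from cfg.comm).pow_pow i j
  rw [hc.mul_pow, ← pow_mul, ← pow_mul]

theorem Config.conj (cfg : Config p ζ χ τ ρ) (σ : Ω ≃ₐ[ℚ] Ω) (i j : ℕ) :
    σ⁻¹ * (τ ^ i * ρ ^ j) * σ = τ ^ (i * (χ σ : ZMod p).val) * ρ ^ j := by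
  have h1 : σ⁻¹ * (τ ^ i * ρ ^ j) * σ = (σ⁻¹ * τ * σ) ^ i * (σ⁻¹ * ρ * σ) ^ j := by
    have e1 : (σ⁻¹ * τ * σ) ^ i = σ⁻¹ * τ ^ i * σ := by
      have := conj_pow (a := σ⁻¹) (b := τ) (i := i)
      rw [inv_inv] at this
      exact this
    have e2 : (σ⁻¹ * ρ * σ) ^ j = σ⁻¹ * ρ ^ j * σ := by
      have := conj_pow (a := σ⁻¹) (b := ρ) (i := j)
      rw [inv_inv] at this
      exact this
    rw [e1, e2]
    group
  rw [h1, cfg.conjτ, cfg.conjρ, ← pow_mul, mul_comm i]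

theorem Config.τρ_ne_one (cfg : Config p ζ χ τ ρ) : τ * ρ ≠ 1 := by
  have hp : p.Prime := Fact.out
  intro h
  have h1 : τ ^ 1 * ρ ^ 1 = 1 := by simpa using h
  exact hp.one_lt.ne' (Nat.dvd_one.mp (cfg.indep h1).1)

theorem Config.orderOf_τρ (cfg : Config p ζ χ τ ρ) : orderOf (τ * ρ) = p := by
  apply orderOf_eq_prime _ cfg.τρ_ne_one
  have := cfg.mul_pow 1 1 p
  rw [pow_one, pow_one, one_mul] at this
  rw [this, ← cfg.ordτ, pow_orderOf_eq_one, cfg.ordτ, ← cfg.ordρ, pow_orderOf_eq_one, one_mul]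

/-- `χ` is onto. -/
theorem Config.exists_χ_eq [IsGalois ℚ Ω] (cfg : Config p ζ χ τ ρ) (c : (ZMod p)ˣ) :
    ∃ s : Ω ≃ₐ[ℚ] Ω, χ s = c := by
  have hp : p.Prime := Fact.out
  have : NeZero p := ⟨hp.ne_zero⟩
  have hcop : ((c : ZMod p).val).Coprime (p ^ 2) :=
    Nat.Coprime.pow_right 2 (ZMod.val_coe_unit_coprime c)
  obtain ⟨s, hs⟩ := exists_aut_pow (pow_pos hp.pos 2) cfg.hζ hcop
  refine ⟨s, ?_⟩
  have h1 : (ζ ^ p) ^ ((χ s : ZMod p).val) = (ζ ^ p) ^ ((c : ZMod p).val) := by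
    rw [← cfg.hχ, map_pow, hs, ← pow_mul, ← pow_mul, mul_comm]
  have h2 := (hη cfg).pow_inj (ZMod.val_lt _) (ZMod.val_lt _) h1
  exact Units.ext (ZMod.val_injective p h2)

variable {K : Type*} [Field K] [NumberField K] [Algebra K Ω]

theorem Config.τ_algebraMap (cfg : Config p ζ χ τ ρ) (hK : FixK K χ) (y : K) :
    τ (algebraMap K Ω y) = algebraMap K Ω y := (hK τ).mp cfg.χτ y

theorem Config.ρ_algebraMap (cfg : Config p ζ χ τ ρ) (hK : FixK K χ) (y : K) :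
    ρ (algebraMap K Ω y) = algebraMap K Ω y := (hK ρ).mp cfg.χρ y

/-- every `K`-automorphism of `Ω` is some `τ^i ρ^j` -/
theorem Config.restrictScalars_eq (cfg : Config p ζ χ τ ρ) (hK : FixK K χ) (σ : Ω ≃ₐ[K] Ω) :
    ∃ i j : ℕ, σ.restrictScalars ℚ = τ ^ i * ρ ^ j := by
  apply cfg.gen
  rw [hK]
  intro x
  exact σ.commutes x

/-- conversely every element of `ker χ` comes from a `K`-automorphism -/
theorem Config.exists_restrictScalars_eq (hK : FixK K χ) (σ : Ω ≃ₐ[ℚ] Ω) (hσ : χ σ = 1) :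
    ∃ σ' : Ω ≃ₐ[K] Ω, σ'.restrictScalars ℚ = σ := by
  refine ⟨AlgEquiv.ofRingEquiv (f := σ.toRingEquiv) ((hK σ).mp hσ), ?_⟩
  ext x
  rfl

theorem Config.mem_range_of_fixed [IsGalois ℚ Ω] (cfg : Config p ζ χ τ ρ) (hK : FixK K χ) {x : Ω}
    (hτ : τ x = x) (hρ : ρ x = x) : ∃ y : K, algebraMap K Ω y = x := by
  have : IsGalois K Ω := IsGalois.tower_top_of_isGalois ℚ K Ω
  apply (IsGalois.mem_range_algebraMap_iff_fixed x).mpr
  intro σ
  obtain ⟨i, j, hij⟩ := cfg.restrictScalars_eq hK σ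
  have h1 : ∀ j : ℕ, (ρ ^ j) x = x := by
    intro j
    induction j with
    | zero => simp
    | succ j ih => rw [pow_succ', AlgEquiv.mul_apply, ih, hρ]
  have h2 : ∀ i : ℕ, (τ ^ i) x = x := by
    intro i
    induction i with
    | zero => simp
    | succ i ih => rw [pow_succ', AlgEquiv.mul_apply, ih, hτ]
  have h3 : σ x = (σ.restrictScalars ℚ) x := rfl
  rw [h3, hij, AlgEquiv.mul_apply, h1, h2]

theorem Config.unramK (cfg : Config p ζ χ τ ρ) (P : Pl Ω) (hP : ¬ Over P p) : Unram K P := by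
  intro σ hσ
  have h1 := cfg.unr P hP (σ.restrictScalars ℚ) hσ
  ext x
  have h2 : σ x = (σ.restrictScalars ℚ) x := rfl
  rw [h2, h1]
  rfl

theorem Config.ord_algebraMap [IsGalois ℚ Ω] (cfg : Config p ζ χ τ ρ) {P : Pl Ω} {v : Pl K}
    (h : Above P v) (hP : ¬ Over P p) (y : K) : ord P (algebraMap K Ω y) = ord v y := by
  have : IsGalois K Ω := IsGalois.tower_top_of_isGalois ℚ K Ω
  exact ord_algebraMap_of_unram h (cfg.unramK P hP) y

/-- two places of `Ω` above the same place of `K` are conjugate under `⟨τ, ρ⟩` -/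
theorem Config.exists_smul_eq [IsGalois ℚ Ω] (cfg : Config p ζ χ τ ρ) (hK : FixK K χ) {P P' : Pl Ω}
    {v : Pl K} (h : Above P v) (h' : Above P' v) : ∃ i j : ℕ, (τ ^ i * ρ ^ j) • P = P' := by
  have : IsGalois K Ω := IsGalois.tower_top_of_isGalois ℚ K Ω
  obtain ⟨σ, hσ⟩ := exists_smul_eq_of_above h h'
  obtain ⟨i, j, hij⟩ := cfg.restrictScalars_eq hK σ
  exact ⟨i, j, by rw [← hij, restrictScalars_smul, hσ]⟩

theorem Config.above_smul (cfg : Config p ζ χ τ ρ) (hK : FixK K χ) {P : Pl Ω} {v : Pl K}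
    (h : Above P v) (σ : Ω ≃ₐ[ℚ] Ω) (hσ : χ σ = 1) : Above (σ • P) v := by
  obtain ⟨σ', rfl⟩ := Config.exists_restrictScalars_eq hK σ hσ
  rw [restrictScalars_smul]
  exact Fermat.Agent.CFT.above_smul h σ'

end Fermat.Agent.CFT
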