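import Fermat.Agent.CFT.Basic
import Fermat.Agent.CFT.OrdGal
import Fermat.Agent.CFT.Config
import Fermat.Agent.CFT.ConfigBasic

set_option autoImplicit false

namespace Fermat.Agent.CFT

open IsDedekindDomain NumberField Finset

namespace ApproxFix

variable {N : Type*} [Field N] [NumberField N]

theorem le_ord_sum {ι : Type*} (v : Pl N) (s : Finset ι) (f : ι → N) (n : ℤ)
    (h : ∀ i ∈ s, f i = 0 ∨ n ≤ ord v (f i)) : ∑ i ∈ s, f i = 0 ∨ n ≤ ord v (∑ i ∈ s, f i) := by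
  classical
  induction s using Finset.induction_on with
  | empty => left; simp
  | insert i s hi ih =>
    rw [Finset.sum_insert hi]
    exact le_ord_add v (h i (Finset.mem_insert_self i s))
      (ih fun j hj => h j (Finset.mem_insert_of_mem hj))

/-- the trace-like sum is fixed -/
theorem map_sum_pow_eq {F Ω : Type*} [Field F] [Field Ω] [Algebra F Ω] (τ : Ω ≃ₐ[F] Ω) {n : ℕ}
    (hτ : τ ^ n = 1) (y : Ω) :
    τ (∑ i ∈ range n, (τ ^ i) y) = ∑ i ∈ range n, (τ ^ i) y := by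
  rw [map_sum]
  have h1 : ∀ i ∈ range n, τ ((τ ^ i) y) = (τ ^ (i + 1)) y := by
    intro i _
    rw [pow_succ', AlgEquiv.mul_apply]
  rw [Finset.sum_congr rfl h1]
  have h2 := Finset.sum_range_succ (fun i => (τ ^ i) y) n
  have h3 := Finset.sum_range_succ' (fun i => (τ ^ i) y) n
  rw [h2] at h3
  simp only [hτ, pow_zero] at h3
  exact (add_right_cancel h3).symm

end ApproxFix

variable {p : ℕ} [Fact p.Prime] {Ω : Type*} [Field Ω] [NumberField Ω] {ζ : Ω}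
  {χ : (Ω ≃ₐ[ℚ] Ω) →* (ZMod p)ˣ} {τ ρ : Ω ≃ₐ[ℚ] Ω}

/-- `Ω^τ` is dense in `Ω` at `Λ ∣ p` (because `⟨τ⟩` acts freely on the orbit of `Λ`). -/
theorem Config.exists_fixed_approx (cfg : Config p ζ χ τ ρ) (Λ : Pl Ω) (hΛ : Over Λ p) {μ : Ω}
    (hμ : μ ≠ 0) (n : ℕ) :
    ∃ μ' : Ω, μ' ≠ 0 ∧ τ μ' = μ' ∧ (μ' = μ ∨ (n : ℤ) + ord Λ μ ≤ ord Λ (μ' - μ)) := by
  classical
  have hp : p.Prime := Fact.out
  have hτp : τ ^ p = 1 := by rw [← cfg.ordτ]; exact pow_orderOf_eq_one τ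
  let c : ℕ → ℤ := fun i => ord ((τ ^ i)⁻¹ • Λ) μ
  let m : ℕ := n + 1 + (ord Λ μ).natAbs + ∑ i ∈ range p, (c i).natAbs
  let s : Finset (Pl Ω) := Finset.univ.image (fun σ : Ω ≃ₐ[ℚ] Ω => σ • Λ)
  obtain ⟨ε, hε1, hε0⟩ := exists_idempotent_like s Λ m
  have hne : ∀ i, 0 < i → i < p → (τ ^ i)⁻¹ • Λ ≠ Λ := by
    intro i hi hip h
    have h1 : (τ ^ i) • Λ = Λ := by
      conv_lhs => rw [← h]
      rw [smul_inv_smul]
    have h2 := cfg.pτ Λ hΛ i h1
    have h3 : p ∣ i := by rw [← cfg.ordτ]; exact orderOf_dvd_of_pow_eq_one h2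
    exact absurd (Nat.le_of_dvd hi h3) (not_le.mpr hip)
  set μ' : Ω := ∑ i ∈ range p, (τ ^ i) ((ε : Ω) * μ) with hμ'
  -- the key estimate
  have key : μ' - μ = 0 ∨ ((n : ℤ) + 1) + ord Λ μ ≤ ord Λ (μ' - μ) := by
    obtain ⟨p', hp'⟩ : ∃ p', p = p' + 1 := ⟨p - 1, by have := hp.pos; omega⟩
    have h1 : μ' - μ = ((ε : Ω) - 1) * μ + ∑ i ∈ range p', (τ ^ (i + 1)) ((ε : Ω) * μ) := by
      rw [hμ', hp', Finset.sum_range_succ']
      simp only [pow_zero, AlgEquiv.one_apply]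
      ring
    rw [h1]
    refine le_ord_add Λ ?_ (ApproxFix.le_ord_sum Λ _ _ _ ?_)
    · by_cases hε : ε - 1 = 0
      · left
        have : (ε : Ω) - 1 = 0 := by
          have := congrArg (fun z : 𝓞 Ω => (z : Ω)) hε
          simpa using this
        rw [this, zero_mul]
      · right
        have hε' : ((ε - 1 : 𝓞 Ω) : Ω) ≠ 0 := by
          intro h
          exact hε (RingOfIntegers.coe_injective (by simpa using h))
        have h2 : (m : ℤ) ≤ ord Λ ((ε - 1 : 𝓞 Ω) : Ω) := (le_ord_iff_mem_pow Λ hε m).mpr hε1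
        have h3 : ((ε - 1 : 𝓞 Ω) : Ω) = (ε : Ω) - 1 := by simp
        rw [← h3, ord_mul Λ hε' hμ]
        have h4 : (m : ℤ) = n + 1 + (ord Λ μ).natAbs + ∑ i ∈ range p, ((c i).natAbs : ℤ) := by
          simp only [m]; push_cast; ring
        have h5 : (0 : ℤ) ≤ ∑ i ∈ range p, ((c i).natAbs : ℤ) :=
          Finset.sum_nonneg fun i _ => Int.natCast_nonneg _
        omega
    · intro i hi
      have hi' : i + 1 < p := by rw [hp']; have := Finset.mem_range.mp hi; omega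
      by_cases hε : ε = 0
      · left
        rw [hε]
        simp
      · right
        have hε' : (ε : Ω) ≠ 0 := by
          intro h
          exact hε (RingOfIntegers.coe_injective (by simpa using h))
        have hmem : ε ∈ ((τ ^ (i + 1))⁻¹ • Λ).asIdeal ^ m :=
          hε0 _ (Finset.mem_image.mpr ⟨_, Finset.mem_univ _, rfl⟩) (hne (i + 1) (by omega) hi')
        have h2 : (m : ℤ) ≤ ord ((τ ^ (i + 1))⁻¹ • Λ) (ε : Ω) := (le_ord_iff_mem_pow _ hε m).mpr hmem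
        have h3 : ord Λ ((τ ^ (i + 1)) ((ε : Ω) * μ)) = ord ((τ ^ (i + 1))⁻¹ • Λ) ((ε : Ω) * μ) :=
          ord_smul' (τ ^ (i + 1)) Λ _
        rw [h3, ord_mul _ hε' hμ]
        have h4 : (m : ℤ) = n + 1 + (ord Λ μ).natAbs + ∑ i ∈ range p, ((c i).natAbs : ℤ) := by
          simp only [m]; push_cast; ring
        have h5 : ((c (i + 1)).natAbs : ℤ) ≤ ∑ i ∈ range p, ((c i).natAbs : ℤ) :=
          Finset.single_le_sum (f := fun i => ((c i).natAbs : ℤ))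
            (fun i _ => Int.natCast_nonneg _) (Finset.mem_range.mpr hi')
        have h6 : c (i + 1) = ord ((τ ^ (i + 1))⁻¹ • Λ) μ := rfl
        omega
  refine ⟨μ', ?_, ApproxFix.map_sum_pow_eq τ hτp _, ?_⟩
  · intro h0
    rw [h0, zero_sub] at key
    rcases key with h | h
    · exact hμ (neg_eq_zero.mp h)
    · rw [ord_neg] at h
      omega
  · rcases key with h | h
    · left; exact sub_eq_zero.mp h
    · right; omega

/-- Consequently `N_ρ(μ') / N_ρ(μ)` is close to `1` at `Λ` (`ρ Λ = Λ`). -/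
theorem Config.exists_fixed_approx_norm (cfg : Config p ζ χ τ ρ) (Λ : Pl Ω) (hΛ : Over Λ p) {μ : Ω}
    (hμ : μ ≠ 0) (n : ℕ) :
    ∃ μ' : Ω, μ' ≠ 0 ∧ τ μ' = μ' ∧
      ((∏ j ∈ range p, (ρ ^ j) μ) / (∏ j ∈ range p, (ρ ^ j) μ') = 1 ∨
        (n : ℤ) ≤ ord Λ ((∏ j ∈ range p, (ρ ^ j) μ) / (∏ j ∈ range p, (ρ ^ j) μ') - 1)) := by
  obtain ⟨μ', hμ'0, hτμ', h⟩ := cfg.exists_fixed_approx Λ hΛ hμ (n + 1)
  refine ⟨μ', hμ'0, hτμ', ?_⟩
  by_cases heq : μ' = μ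
  · left
    rw [heq]
    refine div_self ?_
    exact Finset.prod_ne_zero_iff.mpr fun j _ => (map_ne_zero _).mpr hμ
  have h' := h.resolve_left heq
  have hne : μ' - μ ≠ 0 := sub_ne_zero.mpr heq
  have hord : ord Λ μ' = ord Λ μ := by
    have h1 : μ' = μ + (μ' - μ) := by ring
    rw [h1]
    refine ord_add_eq_of_lt Λ hμ hne ?_
    push_cast at h'
    omega
  have hρΛ : ∀ j : ℕ, (ρ ^ j)⁻¹ • Λ = Λ := by
    intro j
    have h1 : ∀ j : ℕ, (ρ ^ j) • Λ = Λ := by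
      intro j
      induction j with
      | zero => simp
      | succ k ih => rw [pow_succ, mul_smul, cfg.pρ Λ hΛ, ih]
    conv_lhs => rw [← h1 j]
    rw [inv_smul_smul]
  let r : Ωˣ := Units.mk0 μ hμ / Units.mk0 μ' hμ'0
  have hr : ∀ j : ℕ, Units.map ((ρ ^ j : Ω ≃ₐ[ℚ] Ω) : Ω →* Ω) r ∈ PU Λ n := by
    intro j
    rw [mem_PU_iff]
    right
    have h1 : ((Units.map ((ρ ^ j : Ω ≃ₐ[ℚ] Ω) : Ω →* Ω) r : Ωˣ) : Ω) - 1 =
        (ρ ^ j) ((μ - μ') / μ') := by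
      have h2 : (μ - μ') / μ' = μ / μ' - 1 := by field_simp
      rw [h2, map_sub, map_one]
      simp [r]
    rw [h1]
    have h2 : ord Λ ((ρ ^ j) ((μ - μ') / μ')) = ord ((ρ ^ j)⁻¹ • Λ) ((μ - μ') / μ') :=
      ord_smul' (ρ ^ j) Λ _
    rw [h2, hρΛ, ord_div Λ (sub_ne_zero.mpr (Ne.symm heq)) hμ'0, ord_sub_comm, hord]
    push_cast at h'
    omega
  have hprod : ∏ j ∈ range p, Units.map ((ρ ^ j : Ω ≃ₐ[ℚ] Ω) : Ω →* Ω) r ∈ PU Λ n :=
    Subgroup.prod_mem _ fun j _ => hr j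
  rw [mem_PU_iff] at hprod
  have hcoe : ((∏ j ∈ range p, Units.map ((ρ ^ j : Ω ≃ₐ[ℚ] Ω) : Ω →* Ω) r : Ωˣ) : Ω) =
      (∏ j ∈ range p, (ρ ^ j) μ) / (∏ j ∈ range p, (ρ ^ j) μ') := by
    rw [Units.coe_prod, ← Finset.prod_div_distrib]
    refine Finset.prod_congr rfl fun j _ => ?_
    simp [r]
  rw [hcoe] at hprod
  rcases hprod with h | h
  · left; exact h
  · right; omega

end Fermat.Agent.CFT
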