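import Mathlib

set_option autoImplicit false

namespace Fermat.Agent.CFT

open IsDedekindDomain NumberField
open scoped Pointwise

/-- Finite places of a number field. -/
abbrev Pl (N : Type*) [Field N] [NumberField N] : Type _ := HeightOneSpectrum (𝓞 N)

section ord

variable {N : Type*} [Field N] [NumberField N]

/-- Additive valuation at a finite place (junk value `0` at `0`). -/
noncomputable def ord (v : Pl N) (x : N) : ℤ := - WithZero.log (v.valuation N x)

theorem valuation_ne_zero (v : Pl N) {x : N} (hx : x ≠ 0) : v.valuation N x ≠ 0 :=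
  (Valuation.ne_zero_iff _).mpr hx

theorem ord_mul (v : Pl N) {x y : N} (hx : x ≠ 0) (hy : y ≠ 0) :
    ord v (x * y) = ord v x + ord v y := by
  unfold ord
  rw [map_mul, WithZero.log_mul (valuation_ne_zero v hx) (valuation_ne_zero v hy)]
  ring

@[simp] theorem ord_one (v : Pl N) : ord v (1 : N) = 0 := by
  simp [ord]

theorem ord_inv (v : Pl N) (x : N) : ord v x⁻¹ = - ord v x := by
  unfold ord
  rw [map_inv₀, WithZero.log_inv]

/-- `ord` as a homomorphism on units. -/
noncomputable def ordHom (v : Pl N) : Nˣ →* Multiplicative ℤ where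
  toFun x := Multiplicative.ofAdd (ord v (x : N))
  map_one' := by simp
  map_mul' x y := by
    rw [Units.val_mul, ord_mul v x.ne_zero y.ne_zero, ofAdd_add]

/-- Elements whose valuation at `v` is divisible by `p`. -/
def PD (p : ℕ) (v : Pl N) : Subgroup Nˣ where
  carrier := {x | (p : ℤ) ∣ ord v (x : N)}
  mul_mem' := by
    intro a b ha hb
    simp only [Set.mem_ofPred_eq] at ha hb ⊢
    rw [Units.val_mul, ord_mul v a.ne_zero b.ne_zero]
    exact dvd_add ha hb
  one_mem' := by simp
  inv_mem' := by
    intro a ha
    simp only [Set.mem_ofPred_eq] at ha ⊢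
    rw [Units.val_inv_eq_inv_val, ord_inv]
    exact (dvd_neg).mpr ha

/-- Elements which are units at `v`. -/
def UD (v : Pl N) : Subgroup Nˣ where
  carrier := {x | v.valuation N (x : N) = 1}
  mul_mem' := by
    intro a b ha hb
    simp only [Set.mem_ofPred_eq] at ha hb ⊢
    simp [ha, hb]
  one_mem' := by simp
  inv_mem' := by
    intro a ha
    simp only [Set.mem_ofPred_eq] at ha ⊢
    simp [ha]

/-- `S`-units. -/
def SU (S : Set (Pl N)) : Subgroup Nˣ where
  carrier := {x | ∀ v, v ∉ S → v.valuation N (x : N) = 1}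
  mul_mem' := by
    intro a b ha hb v hv
    simp [ha v hv, hb v hv]
  one_mem' := by
    intro v _
    simp
  inv_mem' := by
    intro a ha v hv
    simp [ha v hv]

/-- Principal units of level `> n` at `v`. -/
def PU (v : Pl N) (n : ℕ) : Subgroup Nˣ where
  carrier := {a | v.valuation N ((a : N) - 1) < WithZero.exp (-(n : ℤ))}
  mul_mem' := by
    intro a b ha hb
    simp only [Set.mem_ofPred_eq] at ha hb ⊢
    have h1 : WithZero.exp (-(n : ℤ)) ≤ (1 : WithZero (Multiplicative ℤ)) := by
      rw [← WithZero.exp_zero, WithZero.exp_le_exp]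
      omega
    have hb1 : v.valuation N (b : N) ≤ 1 := by
      have : (b : N) = ((b : N) - 1) + 1 := by ring
      rw [this]
      refine (Valuation.map_add _ _ _).trans (max_le (hb.le.trans h1) (by simp))
    have : ((a * b : Nˣ) : N) - 1 = ((a : N) - 1) * b + ((b : N) - 1) := by
      push_cast; ring
    rw [this]
    refine lt_of_le_of_lt (Valuation.map_add _ _ _) (max_lt ?_ hb)
    rw [map_mul]
    exact lt_of_le_of_lt (mul_le_of_le_one_right' hb1) ha
  one_mem' := by
    simp
  inv_mem' := by
    intro a ha
    simp only [Set.mem_ofPred_eq] at ha ⊢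
    have h1 : WithZero.exp (-(n : ℤ)) ≤ (1 : WithZero (Multiplicative ℤ)) := by
      rw [← WithZero.exp_zero, WithZero.exp_le_exp]
      omega
    have ha1 : v.valuation N (a : N) = 1 := by
      have : (a : N) = 1 + ((a : N) - 1) := by ring
      rw [this]
      exact Valuation.map_one_add_of_lt _ (lt_of_lt_of_le ha h1)
    have : ((a⁻¹ : Nˣ) : N) - 1 = -(((a : N) - 1) * (a : N)⁻¹) := by
      have : (a : N) ≠ 0 := a.ne_zero
      push_cast
      field_simp
      ring
    rw [this, Valuation.map_neg, map_mul, map_inv₀, ha1]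
    simpa using ha

/-- The subgroup of `p`-th powers. -/
def PW (p : ℕ) (A : Type*) [CommGroup A] : Subgroup A := (powMonoidHom p : A →* A).range

/-- Local `p`-th powers at `v` (`ζ` a primitive `p`-th root of unity of `N`):
`x = u * y ^ p` with `ord v (u - 1) > p * ord v (1 - ζ)`. -/
noncomputable def LP (p : ℕ) (ζ : N) (v : Pl N) : Subgroup Nˣ :=
  PU v (p * (ord v (1 - ζ)).toNat) ⊔ PW p Nˣ

/-- `v` lies over the rational prime `p`. -/
def Over (v : Pl N) (p : ℕ) : Prop := (p : 𝓞 N) ∈ v.asIdeal

/-- `S` generates the class group: every prime outside `S` is principal up to `S`. -/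
def GenCl (S : Set (Pl N)) : Prop :=
  ∀ v : Pl N, v ∉ S → ∃ c : Nˣ, ord v (c : N) = 1 ∧ ∀ v' : Pl N, v' ∉ S → v' ≠ v → ord v' (c : N) = 0

end ord

section galois

variable {N' : Type*} [Field N'] [NumberField N'] {G : Type*} [Group G] [MulSemiringAction G N']

noncomputable instance instMulActionPl : MulAction G (Pl N') where
  smul σ w := ⟨σ • w.asIdeal, inferInstance, by
    intro h
    apply w.ne_bot
    have := congrArg (fun I => σ⁻¹ • I) h
    simpa using this⟩
  one_smul w := by
    apply HeightOneSpectrum.ext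
    exact one_smul G w.asIdeal
  mul_smul σ τ w := by
    apply HeightOneSpectrum.ext
    exact mul_smul σ τ w.asIdeal

@[simp] theorem smul_asIdeal (σ : G) (w : Pl N') : (σ • w).asIdeal = σ • w.asIdeal := rfl

end galois

section ext

variable {N : Type*} [Field N] [NumberField N] {N' : Type*} [Field N'] [NumberField N']
  [Algebra N N']

/-- `w` lies above `v`. -/
abbrev Above (w : Pl N') (v : Pl N) : Prop := w.asIdeal.LiesOver v.asIdeal

variable (N') in
/-- `v` splits completely in the Galois extension `N'/N` (trivial decomposition groups). -/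
def Split (v : Pl N) : Prop :=
  ∀ w : Pl N', Above w v → ∀ σ : N' ≃ₐ[N] N', σ • w = w → σ = 1

variable (N) in
/-- `w` is unramified over `N` (trivial inertia group). -/
def Unram (w : Pl N') : Prop :=
  ∀ σ : N' ≃ₐ[N] N', (∀ x : 𝓞 N', σ • x - x ∈ w.asIdeal) → σ = 1

variable (N') in
/-- The places of `N'` above a set of places of `N`. -/
def upSet (S : Set (Pl N)) : Set (Pl N') := {w | ∃ v ∈ S, Above w v}

end ext

end Fermat.Agent.CFT
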