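import Fermat.Agent.CFT.Basic
import Fermat.Agent.CFT.OrdGal

set_option autoImplicit false

namespace Fermat.Agent.CFT

open IsDedekindDomain NumberField

namespace FrobK

open scoped Pointwise

variable {Ω : Type*} [Field Ω] [NumberField Ω]

instance finite_quot (P : Pl Ω) : Finite (𝓞 Ω ⧸ P.asIdeal) :=
  Ideal.finiteQuotientOfFreeOfNeBot _ P.ne_bot

theorem under_int_eq (P : Pl Ω) {ℓ : ℕ} (hℓ : ℓ.Prime) (h : Over P ℓ) :
    P.asIdeal.under ℤ = Ideal.span {(ℓ : ℤ)} := by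
  have : Fact ℓ.Prime := ⟨hℓ⟩
  have hmax : (Ideal.span {(ℓ : ℤ)}).IsMaximal := Int.ideal_span_isMaximal_of_prime ℓ
  refine (hmax.eq_of_le ?_ ?_).symm
  · exact (inferInstance : (P.asIdeal.under ℤ).IsPrime).ne_top
  · rw [Ideal.span_singleton_le_iff_mem, Ideal.under_def, Ideal.mem_comap]
    have h' : (ℓ : 𝓞 Ω) ∈ P.asIdeal := h
    simpa using h'

/-- Every ring endomorphism of a finite field of characteristic `ℓ` is a power of Frobenius. -/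
theorem exists_pow_of_ringHom {F : Type*} [Field F] [Finite F] {ℓ : ℕ} [Fact ℓ.Prime] [CharP F ℓ]
    (f : F →+* F) : ∃ k : ℕ, ∀ x : F, f x = x ^ (ℓ ^ k) := by
  let : Algebra (ZMod ℓ) F := ZMod.algebra F ℓ
  let g : F →ₐ[ZMod ℓ] F :=
    { f with
      commutes' := fun r => by
        obtain ⟨n, rfl⟩ := ZMod.natCast_zmod_surjective r
        simp }
  obtain ⟨n, hn⟩ := (FiniteField.bijective_frobeniusAlgHom_pow (ZMod ℓ) F).2 g
  refine ⟨n.1, fun x => ?_⟩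
  have h1 : g x = f x := rfl
  rw [← h1, ← hn]
  simp only [AlgHom.coe_pow, FiniteField.coe_frobeniusAlgHom, pow_iterate, ZMod.card]

end FrobK

open FrobK
open scoped Pointwise

variable {K : Type*} [Field K] [NumberField K] {Ω : Type*} [Field Ω] [NumberField Ω] [Algebra K Ω]

/-- Existence of a Frobenius element over `K`. -/
theorem exists_frob_above [IsGalois K Ω] (P : Pl Ω) (v : Pl K) (h : Above P v) :
    ∃ σ : Ω ≃ₐ[K] Ω, σ • P = P ∧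
      ∀ x : 𝓞 Ω, σ • x - x ^ (Ideal.absNorm v.asIdeal) ∈ P.asIdeal := by
  obtain ⟨σ, hσ⟩ := IsArithFrobAt.exists_of_isInvariant (𝓞 K) (Ω ≃ₐ[K] Ω) P.asIdeal
  refine ⟨σ, HeightOneSpectrum.ext hσ.mem_stabilizer, fun x => ?_⟩
  have h1 := hσ x
  rw [← h.over] at h1
  rw [Ideal.absNorm_apply, Submodule.cardQuot_apply]
  exact h1

/-- Frobenius over `ℚ`; every element of the decomposition group acts on the residue field as a
power of Frobenius. -/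
theorem exists_frob_over [IsGalois ℚ Ω] (P : Pl Ω) {ℓ : ℕ} (hℓ : ℓ.Prime) (h : Over P ℓ) :
    ∃ φ : Ω ≃ₐ[ℚ] Ω, φ • P = P ∧ (∀ x : 𝓞 Ω, φ • x - x ^ ℓ ∈ P.asIdeal) ∧
      ∀ σ : Ω ≃ₐ[ℚ] Ω, σ • P = P → ∃ k : ℕ, ∀ x : 𝓞 Ω, σ • x - (φ ^ k) • x ∈ P.asIdeal := by
  obtain ⟨φ, hφ⟩ := IsArithFrobAt.exists_of_isInvariant ℤ (Ω ≃ₐ[ℚ] Ω) P.asIdeal
  have hφ' : ∀ x : 𝓞 Ω, φ • x - x ^ ℓ ∈ P.asIdeal := by
    intro x
    have h1 := hφ x
    rw [under_int_eq P hℓ h] at h1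
    have h2 : Nat.card (ℤ ⧸ Ideal.span {(ℓ : ℤ)}) = ℓ := by
      rw [← Submodule.cardQuot_apply, ← Ideal.absNorm_apply, Ideal.absNorm_span_singleton]
      simp
    rw [h2] at h1
    exact h1
  refine ⟨φ, HeightOneSpectrum.ext hφ.mem_stabilizer, hφ', fun σ hσ => ?_⟩
  -- powers of Frobenius
  have hpow : ∀ (k : ℕ) (x : 𝓞 Ω),
      Ideal.Quotient.mk P.asIdeal ((φ ^ k) • x) = (Ideal.Quotient.mk P.asIdeal x) ^ (ℓ ^ k) := by
    intro k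
    induction k with
    | zero => intro x; simp
    | succ k ih =>
      intro x
      rw [pow_succ, mul_smul, ih, pow_succ, mul_comm (ℓ ^ k) ℓ, pow_mul, ← map_pow _ x ℓ,
        Ideal.Quotient.eq.mpr (hφ' x)]
  have : P.asIdeal.IsMaximal := P.isMaximal
  let : Field (𝓞 Ω ⧸ P.asIdeal) := Ideal.Quotient.field _
  have : Fact ℓ.Prime := ⟨hℓ⟩
  have : CharP (𝓞 Ω ⧸ P.asIdeal) ℓ := by
    rw [CharP.charP_iff_prime_eq_zero hℓ]
    have : ((ℓ : 𝓞 Ω ⧸ P.asIdeal)) = Ideal.Quotient.mk P.asIdeal (ℓ : 𝓞 Ω) := by simp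
    rw [this]
    exact Ideal.Quotient.eq_zero_iff_mem.mpr h
  have hσ' : σ • P.asIdeal = P.asIdeal := congrArg HeightOneSpectrum.asIdeal hσ
  have hle : P.asIdeal ≤ P.asIdeal.comap (MulSemiringAction.toRingHom (Ω ≃ₐ[ℚ] Ω) (𝓞 Ω) σ) := by
    intro x hx
    rw [Ideal.mem_comap]
    have : σ • x ∈ σ • P.asIdeal := Ideal.smul_mem_pointwise_smul _ _ _ hx
    rw [hσ'] at this
    exact this
  obtain ⟨k, hk⟩ := exists_pow_of_ringHom (ℓ := ℓ) (Ideal.quotientMap P.asIdeal _ hle)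
  refine ⟨k, fun x => ?_⟩
  rw [← Ideal.Quotient.eq, hpow, ← hk]
  simp [Ideal.quotientMap_mk]

/-- If the inertia group at `P` is trivial the decomposition group is generated by Frobenius. -/
theorem exists_frob_gen [IsGalois ℚ Ω] (P : Pl Ω) {ℓ : ℕ} (hℓ : ℓ.Prime) (h : Over P ℓ)
    (hunr : ∀ σ : Ω ≃ₐ[ℚ] Ω, (∀ x : 𝓞 Ω, σ • x - x ∈ P.asIdeal) → σ = 1) :
    ∃ φ : Ω ≃ₐ[ℚ] Ω, φ • P = P ∧ (∀ x : 𝓞 Ω, φ • x - x ^ ℓ ∈ P.asIdeal) ∧
      ∀ σ : Ω ≃ₐ[ℚ] Ω, σ • P = P → ∃ k : ℕ, σ = φ ^ k := by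
  obtain ⟨φ, h1, h2, h3⟩ := exists_frob_over P hℓ h
  refine ⟨φ, h1, h2, fun σ hσ => ?_⟩
  obtain ⟨k, hk⟩ := h3 σ hσ
  refine ⟨k, ?_⟩
  have : σ * (φ ^ k)⁻¹ = 1 := by
    apply hunr
    intro x
    have := hk ((φ ^ k)⁻¹ • x)
    rwa [smul_inv_smul, ← mul_smul] at this
  exact mul_inv_eq_one.mp this

end Fermat.Agent.CFT
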