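import Mathlib

/-!
# EX0: infinitely many primes do not split completely

From the simple pole of the Dedekind zeta function.
-/

namespace Fermat.Agent.CFT.EX0

open NumberField Ideal Filter Topology UniqueFactorizationMonoid
open scoped ENNReal NNReal

variable (K : Type*) [Field K] [NumberField K]

/-- The weight `N(I)^(-s)` as an extended nonnegative real. -/
noncomputable def wt (s : ℝ) (I : Ideal (𝓞 K)) : ℝ≥0∞ :=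
  (((absNorm I : ℝ≥0) ^ (-s) : ℝ≥0) : ℝ≥0∞)

/-- The real Dirichlet series of the Dedekind zeta function. -/
noncomputable def zr (s : ℝ) : ℝ :=
  ∑' n : ℕ, (Nat.card {I : Ideal (𝓞 K) // absNorm I = n} : ℝ) * (n : ℝ) ^ (-s)

lemma dedekindZeta_eq (s : ℝ) (hs : s ≠ 0) : dedekindZeta K s = (zr K s : ℂ) := by
  unfold dedekindZeta zr LSeries
  rw [Complex.ofReal_tsum]
  refine tsum_congr fun n => ?_
  rcases Nat.eq_zero_or_pos n with rfl | hn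
  · simp [Real.zero_rpow (neg_ne_zero.mpr hs)]
  · rw [LSeries.term_of_ne_zero hn.ne']
    push_cast
    rw [Complex.ofReal_cpow (Nat.cast_nonneg n), Complex.ofReal_neg, Complex.cpow_neg]
    simp [div_eq_mul_inv]

lemma tendsto_zr :
    Tendsto (fun s : ℝ => (s - 1) * zr K s) (𝓝[>] 1) (𝓝 (dedekindZeta_residue K)) := by
  have h := tendsto_sub_one_mul_dedekindZeta_nhdsGT K
  have h2 := (Complex.continuous_re.tendsto _).comp h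
  simp only [Complex.ofReal_re] at h2
  refine h2.congr' ?_
  filter_upwards [self_mem_nhdsWithin] with s hs
  have hs0 : s ≠ 0 := by
    have : (1:ℝ) < s := hs
    linarith
  simp only [Function.comp]
  rw [dedekindZeta_eq K s hs0]
  norm_cast

lemma tsum_wt (s : ℝ) :
    ∑' I, wt K s I = ∑' n : ℕ, (Nat.card {I : Ideal (𝓞 K) // absNorm I = n} : ℝ≥0∞) *
      (((n : ℝ≥0) ^ (-s) : ℝ≥0) : ℝ≥0∞) := by
  rw [← (Equiv.sigmaFiberEquiv (fun I : Ideal (𝓞 K) => absNorm I)).tsum_eq, ENNReal.tsum_sigma']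
  refine tsum_congr fun n => ?_
  have : Finite {I : Ideal (𝓞 K) // absNorm I = n} := finite_setOfPred_absNorm_eq n
  have : Fintype {I : Ideal (𝓞 K) // absNorm I = n} := Fintype.ofFinite _
  rw [tsum_fintype, Nat.card_eq_fintype_card]
  have : ∀ b : {I : Ideal (𝓞 K) // absNorm I = n},
      wt K s ((Equiv.sigmaFiberEquiv fun I : Ideal (𝓞 K) => absNorm I) ⟨n, b⟩) =
        (((n : ℝ≥0) ^ (-s) : ℝ≥0) : ℝ≥0∞) := by
    intro b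
    simp [wt, Equiv.sigmaFiberEquiv, b.2]
  rw [Finset.sum_congr rfl (fun b _ => this b)]
  simp

lemma tsum_wt_eq_ofReal (s : ℝ)
    (hsum : Summable fun n : ℕ =>
      (Nat.card {I : Ideal (𝓞 K) // absNorm I = n} : ℝ) * (n : ℝ) ^ (-s)) :
    ∑' I, wt K s I = ENNReal.ofReal (zr K s) := by
  rw [tsum_wt, zr, ENNReal.ofReal_tsum_of_nonneg (fun n => by positivity) hsum]
  refine tsum_congr fun n => ?_
  rw [ENNReal.ofReal_mul (by positivity), ENNReal.ofReal_natCast]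
  congr 1
  rw [ENNReal.ofReal, ENNReal.coe_inj]
  ext
  simp [Real.coe_toNNReal _ (Real.rpow_nonneg (Nat.cast_nonneg n) (-s))]

/-- Near `1`, the series is summable (as its sum is nonzero). -/
lemma eventually_tsum_wt_eq :
    ∀ᶠ s in 𝓝[>] (1:ℝ), ∑' I, wt K s I = ENNReal.ofReal (zr K s) := by
  have h := tendsto_zr K
  have hpos := dedekindZeta_residue_pos K
  filter_upwards [h.eventually (lt_mem_nhds hpos)] with s hs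
  apply tsum_wt_eq_ofReal
  by_contra hns
  rw [zr, tsum_eq_zero_of_not_summable hns] at hs
  simp at hs

lemma wt_mul (s : ℝ) (I J : Ideal (𝓞 K)) : wt K s (I * J) = wt K s I * wt K s J := by
  simp [wt, NNReal.mul_rpow]

lemma wt_bot {s : ℝ} (hs : s ≠ 0) : wt K s ⊥ = 0 := by
  simp [wt, NNReal.zero_rpow (neg_ne_zero.mpr hs)]

lemma wt_le_half {s : ℝ} (hs : 1 ≤ s) {I : Ideal (𝓞 K)} (hI : I ≠ ⊤) :
    wt K s I ≤ 2⁻¹ := by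
  have h1 : absNorm I ≠ 1 := fun h => hI (absNorm_eq_one_iff.mp h)
  rcases Nat.eq_zero_or_pos (absNorm I) with h0 | h0
  · have : s ≠ 0 := by linarith
    simp [wt, h0, NNReal.zero_rpow (neg_ne_zero.mpr this)]
  · have h2 : 2 ≤ absNorm I := by omega
    have h2' : (2 : ℝ≥0) ≤ (absNorm I : ℝ≥0) := by exact_mod_cast h2
    have h3 : (2 : ℝ≥0) ≤ (absNorm I : ℝ≥0) ^ s := by
      calc (2 : ℝ≥0) ≤ (absNorm I : ℝ≥0) := h2'
        _ = (absNorm I : ℝ≥0) ^ (1 : ℝ) := (NNReal.rpow_one _).symm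
        _ ≤ (absNorm I : ℝ≥0) ^ s :=
          NNReal.rpow_le_rpow_of_exponent_le (le_trans (by norm_num) h2') hs
    have h4 : (absNorm I : ℝ≥0) ^ (-s) ≤ 2⁻¹ := by
      rw [NNReal.rpow_neg]
      exact inv_anti₀ (by norm_num) h3
    have : ((2⁻¹ : ℝ≥0) : ℝ≥0∞) = 2⁻¹ := by
      rw [ENNReal.coe_inv (by norm_num)]; rfl
    rw [wt, ← this]
    exact_mod_cast h4

/-- Nonzero ideals not divisible by any member of `B`. -/
def good (B : Finset (Ideal (𝓞 K))) : Set (Ideal (𝓞 K)) :=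
  {I | I ≠ ⊥ ∧ ∀ 𝔭 ∈ B, ¬ 𝔭 ∣ I}

omit [NumberField K] in
lemma good_subset [DecidableEq (Ideal (𝓞 K))] (B : Finset (Ideal (𝓞 K))) (𝔭 : Ideal (𝓞 K)) :
    good K B ⊆ good K (insert 𝔭 B) ∪ (fun J => 𝔭 * J) '' good K B := by
  intro I hI
  by_cases h : 𝔭 ∣ I
  · obtain ⟨J, rfl⟩ := h
    refine Or.inr ⟨J, ⟨?_, fun 𝔮 h𝔮 hd => hI.2 𝔮 h𝔮 (hd.mul_left _)⟩, rfl⟩
    rintro rfl
    exact hI.1 (by simp)
  · refine Or.inl ⟨hI.1, fun 𝔮 h𝔮 => ?_⟩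
    rcases Finset.mem_insert.mp h𝔮 with rfl | h𝔮
    · exact h
    · exact hI.2 𝔮 h𝔮

lemma tsum_good_le [DecidableEq (Ideal (𝓞 K))] {s : ℝ} (hs : 1 ≤ s) (B : Finset (Ideal (𝓞 K)))
    {𝔭 : Ideal (𝓞 K)} (h0 : 𝔭 ≠ ⊥) (h1 : 𝔭 ≠ ⊤) (hfin : ∑' I : good K B, wt K s I ≠ ∞) :
    ∑' I : good K B, wt K s I ≤ 2 * ∑' I : good K (insert 𝔭 B), wt K s I := by
  set a := ∑' I : good K B, wt K s I with ha
  set b := ∑' I : good K (insert 𝔭 B), wt K s I with hb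
  have h : a ≤ b + 2⁻¹ * a := by
    calc a ≤ ∑' I : (good K (insert 𝔭 B) ∪ (fun J => 𝔭 * J) '' good K B : Set _), wt K s I :=
          ENNReal.tsum_mono_subtype _ (good_subset K B 𝔭)
      _ ≤ b + ∑' I : ((fun J => 𝔭 * J) '' good K B : Set _), wt K s I :=
          ENNReal.tsum_union_le _ _ _
      _ = b + ∑' J : good K B, wt K s (𝔭 * J) := by
          rw [tsum_image (wt K s) (fun x _ y _ hxy => mul_left_cancel₀ h0 hxy)]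
      _ = b + wt K s 𝔭 * a := by
          simp_rw [wt_mul]
          rw [ENNReal.tsum_mul_left]
      _ ≤ b + 2⁻¹ * a := by gcongr; exact wt_le_half K hs h1
  have h2 : 2⁻¹ * a + 2⁻¹ * a = a := by
    rw [← two_mul, ← mul_assoc, ENNReal.mul_inv_cancel (by norm_num) (by norm_num), one_mul]
  have h3 : 2⁻¹ * a ≤ b := by
    have hfin' : 2⁻¹ * a ≠ ∞ := ENNReal.mul_ne_top (by norm_num) hfin
    rw [← ENNReal.add_le_add_iff_right hfin', h2]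
    exact h
  calc a = 2 * (2⁻¹ * a) := by
        rw [← mul_assoc, ENNReal.mul_inv_cancel (by norm_num) (by norm_num), one_mul]
    _ ≤ 2 * b := by gcongr

lemma tsum_good_empty {s : ℝ} (hs : s ≠ 0) :
    ∑' I : good K ∅, wt K s I = ∑' I, wt K s I := by
  apply tsum_subtype_eq_of_support_subset
  intro I hI
  refine ⟨?_, by simp⟩
  rintro rfl
  exact hI (wt_bot K hs)

lemma tsum_le_good {s : ℝ} (hs : 1 ≤ s) (hfin : ∑' I, wt K s I ≠ ∞)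
    (B : Finset (Ideal (𝓞 K))) (hB : ∀ 𝔭 ∈ B, 𝔭 ≠ ⊥ ∧ 𝔭 ≠ ⊤) :
    ∑' I, wt K s I ≤ 2 ^ B.card * ∑' I : good K B, wt K s I := by
  classical
  induction B using Finset.induction_on with
  | empty => rw [tsum_good_empty K (by linarith)]; simp
  | insert 𝔭 B h𝔭 ih =>
    have hB' : ∀ 𝔮 ∈ B, 𝔮 ≠ ⊥ ∧ 𝔮 ≠ ⊤ := fun 𝔮 h => hB 𝔮 (Finset.mem_insert_of_mem h)
    have h𝔭' := hB 𝔭 (Finset.mem_insert_self _ _)
    have hfin' : ∑' I : good K B, wt K s I ≠ ∞ :=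
      ne_top_of_le_ne_top hfin (ENNReal.tsum_comp_le_tsum_of_injective Subtype.val_injective _)
    calc ∑' I, wt K s I ≤ 2 ^ B.card * ∑' I : good K B, wt K s I := ih hB'
      _ ≤ 2 ^ B.card * (2 * ∑' I : good K (insert 𝔭 B), wt K s I) := by
          gcongr
          exact tsum_good_le K hs B h𝔭'.1 h𝔭'.2 hfin'
      _ = 2 ^ (insert 𝔭 B).card * ∑' I : good K (insert 𝔭 B), wt K s I := by
          rw [Finset.card_insert_of_notMem h𝔭, pow_succ, mul_assoc]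

/-- Abstract multiset cancellation: two "sections" `f, g` of `r` with disjoint values. -/
lemma multiset_aux {α β : Type*} (f g : α → β) (r : β → α) (S : Set α)
    (hf : ∀ a ∈ S, r (f a) = a) (hg : ∀ a ∈ S, r (g a) = a) (hne : ∀ a ∈ S, f a ≠ g a)
    {M₁ M₂ M₁' M₂' : Multiset α} (h₁ : ∀ a ∈ M₁, a ∈ S) (h₂ : ∀ a ∈ M₂, a ∈ S)
    (h₁' : ∀ a ∈ M₁', a ∈ S) (h₂' : ∀ a ∈ M₂', a ∈ S)
    (heq : M₁.map f + M₂.map g = M₁'.map f + M₂'.map g) : M₁ = M₁' ∧ M₂ = M₂' := by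
  classical
  have key : ∀ N₁ N₂ : Multiset α, (∀ a ∈ N₁, a ∈ S) → (∀ a ∈ N₂, a ∈ S) →
      (N₁.map f + N₂.map g).filter (fun Q => f (r Q) = Q) = N₁.map f := by
    intro N₁ N₂ k₁ k₂
    rw [Multiset.filter_add]
    have e1 : (N₁.map f).filter (fun Q => f (r Q) = Q) = N₁.map f := by
      rw [Multiset.filter_eq_self]
      intro Q hQ
      obtain ⟨a, ha, rfl⟩ := Multiset.mem_map.mp hQ
      rw [hf a (k₁ a ha)]
    have e2 : (N₂.map g).filter (fun Q => f (r Q) = Q) = 0 := by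
      rw [Multiset.filter_eq_nil]
      intro Q hQ
      obtain ⟨a, ha, rfl⟩ := Multiset.mem_map.mp hQ
      rw [hg a (k₂ a ha)]
      exact hne a (k₂ a ha)
    rw [e1, e2, add_zero]
  have back : ∀ (h : α → β) (N : Multiset α), (∀ a ∈ S, r (h a) = a) → (∀ a ∈ N, a ∈ S) →
      (N.map h).map r = N := by
    intro h N hh k
    rw [Multiset.map_map]
    conv_rhs => rw [← Multiset.map_id N]
    exact Multiset.map_congr rfl fun a ha => hh a (k a ha)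
  have e : M₁.map f = M₁'.map f := by
    rw [← key M₁ M₂ h₁ h₂, ← key M₁' M₂' h₁' h₂', heq]
  have e' : M₂.map g = M₂'.map g := by
    rw [e] at heq
    exact add_left_cancel heq
  constructor
  · rw [← back f M₁ hf h₁, ← back f M₁' hf h₁', e]
  · rw [← back g M₂ hg h₂, ← back g M₂' hg h₂', e']

section Inj

variable (L : Type*) [Field L] [NumberField L] [Algebra K L]

/-- Multiplicative extension of a map on primes. -/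
noncomputable def ext (P : Ideal (𝓞 K) → Ideal (𝓞 L)) (I : Ideal (𝓞 K)) : Ideal (𝓞 L) :=
  ((normalizedFactors I).map P).prod

/-- Hypothesis package: `P₁, P₂` choose two distinct degree one primes above each good prime. -/
structure TwoPrimes (B : Finset (Ideal (𝓞 K))) (P₁ P₂ : Ideal (𝓞 K) → Ideal (𝓞 L)) : Prop where
  ne : ∀ 𝔭 : Ideal (𝓞 K), 𝔭.IsPrime → 𝔭 ≠ ⊥ → 𝔭 ∉ B → P₁ 𝔭 ≠ P₂ 𝔭
  prime₁ : ∀ 𝔭 : Ideal (𝓞 K), 𝔭.IsPrime → 𝔭 ≠ ⊥ → 𝔭 ∉ B → (P₁ 𝔭).IsPrime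
  prime₂ : ∀ 𝔭 : Ideal (𝓞 K), 𝔭.IsPrime → 𝔭 ≠ ⊥ → 𝔭 ∉ B → (P₂ 𝔭).IsPrime
  under₁ : ∀ 𝔭 : Ideal (𝓞 K), 𝔭.IsPrime → 𝔭 ≠ ⊥ → 𝔭 ∉ B → (P₁ 𝔭).under (𝓞 K) = 𝔭
  under₂ : ∀ 𝔭 : Ideal (𝓞 K), 𝔭.IsPrime → 𝔭 ≠ ⊥ → 𝔭 ∉ B → (P₂ 𝔭).under (𝓞 K) = 𝔭
  norm₁ : ∀ 𝔭 : Ideal (𝓞 K), 𝔭.IsPrime → 𝔭 ≠ ⊥ → 𝔭 ∉ B → absNorm (P₁ 𝔭) = absNorm 𝔭
  norm₂ : ∀ 𝔭 : Ideal (𝓞 K), 𝔭.IsPrime → 𝔭 ≠ ⊥ → 𝔭 ∉ B → absNorm (P₂ 𝔭) = absNorm 𝔭

variable {K}

omit [NumberField K] in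
lemma mem_factors_good {B : Finset (Ideal (𝓞 K))} [NumberField K] {I : Ideal (𝓞 K)}
    (hI : I ∈ good K B)
    {𝔭 : Ideal (𝓞 K)} (h : 𝔭 ∈ normalizedFactors I) : 𝔭.IsPrime ∧ 𝔭 ≠ ⊥ ∧ 𝔭 ∉ B := by
  have hp := prime_of_normalized_factor 𝔭 h
  refine ⟨isPrime_of_prime hp, hp.ne_zero, fun hB => hI.2 𝔭 hB (dvd_of_mem_normalizedFactors h)⟩

variable {L}

omit [Algebra K L] in
lemma absNorm_ext {B : Finset (Ideal (𝓞 K))} {P : Ideal (𝓞 K) → Ideal (𝓞 L)}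
    (hP : ∀ 𝔭 : Ideal (𝓞 K), 𝔭.IsPrime → 𝔭 ≠ ⊥ → 𝔭 ∉ B → absNorm (P 𝔭) = absNorm 𝔭)
    {I : Ideal (𝓞 K)} (hI : I ∈ good K B) : absNorm (ext K L P I) = absNorm I := by
  conv_rhs => rw [← Ideal.prod_normalizedFactors_eq_self hI.1]
  rw [ext, map_multiset_prod, map_multiset_prod, Multiset.map_map]
  congr 1
  refine Multiset.map_congr rfl fun 𝔭 h => ?_
  obtain ⟨h1, h2, h3⟩ := mem_factors_good hI h
  exact hP 𝔭 h1 h2 h3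

omit [Algebra K L] in
lemma wt_ext {B : Finset (Ideal (𝓞 K))} {P : Ideal (𝓞 K) → Ideal (𝓞 L)}
    (hP : ∀ 𝔭 : Ideal (𝓞 K), 𝔭.IsPrime → 𝔭 ≠ ⊥ → 𝔭 ∉ B → absNorm (P 𝔭) = absNorm 𝔭)
    {I : Ideal (𝓞 K)} (hI : I ∈ good K B) (s : ℝ) : wt L s (ext K L P I) = wt K s I := by
  rw [wt, wt, absNorm_ext hP hI]

lemma pair_injective {B : Finset (Ideal (𝓞 K))} {P₁ P₂ : Ideal (𝓞 K) → Ideal (𝓞 L)}
    (h : TwoPrimes K L B P₁ P₂) :
    Function.Injective (fun x : good K B × good K B => ext K L P₁ x.1 * ext K L P₂ x.2) := by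
  classical
  have hne_bot : ∀ (P : Ideal (𝓞 K) → Ideal (𝓞 L)),
      (∀ 𝔭 : Ideal (𝓞 K), 𝔭.IsPrime → 𝔭 ≠ ⊥ → 𝔭 ∉ B → absNorm (P 𝔭) = absNorm 𝔭) →
      ∀ 𝔭 : Ideal (𝓞 K), 𝔭.IsPrime → 𝔭 ≠ ⊥ → 𝔭 ∉ B → P 𝔭 ≠ ⊥ := by
    intro P hP 𝔭 h1 h2 h3 hb
    have := hP 𝔭 h1 h2 h3
    rw [hb, absNorm_bot] at this
    exact h2 (absNorm_eq_zero_iff.mp this.symm)
  have hfac : ∀ x : good K B × good K B,
      normalizedFactors (ext K L P₁ x.1 * ext K L P₂ x.2) =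
        (normalizedFactors (x.1 : Ideal (𝓞 K))).map P₁ +
          (normalizedFactors (x.2 : Ideal (𝓞 K))).map P₂ := by
    intro x
    rw [ext, ext, ← Multiset.prod_add]
    apply normalizedFactors_prod_of_prime
    intro Q hQ
    rcases Multiset.mem_add.mp hQ with hQ | hQ
    · obtain ⟨𝔭, h𝔭, rfl⟩ := Multiset.mem_map.mp hQ
      obtain ⟨h1, h2, h3⟩ := mem_factors_good x.1.2 h𝔭
      exact (prime_iff_isPrime (hne_bot P₁ h.norm₁ 𝔭 h1 h2 h3)).mpr (h.prime₁ 𝔭 h1 h2 h3)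
    · obtain ⟨𝔭, h𝔭, rfl⟩ := Multiset.mem_map.mp hQ
      obtain ⟨h1, h2, h3⟩ := mem_factors_good x.2.2 h𝔭
      exact (prime_iff_isPrime (hne_bot P₂ h.norm₂ 𝔭 h1 h2 h3)).mpr (h.prime₂ 𝔭 h1 h2 h3)
  intro x y hxy
  have hxy' : ext K L P₁ x.1 * ext K L P₂ x.2 = ext K L P₁ y.1 * ext K L P₂ y.2 := hxy
  have e := hfac x
  rw [hxy', hfac y] at e
  obtain ⟨e1, e2⟩ := multiset_aux P₁ P₂ (fun Q => Q.under (𝓞 K))
    {𝔭 | 𝔭.IsPrime ∧ 𝔭 ≠ ⊥ ∧ 𝔭 ∉ B}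
    (fun 𝔭 h𝔭 => h.under₁ 𝔭 h𝔭.1 h𝔭.2.1 h𝔭.2.2) (fun 𝔭 h𝔭 => h.under₂ 𝔭 h𝔭.1 h𝔭.2.1 h𝔭.2.2)
    (fun 𝔭 h𝔭 => h.ne 𝔭 h𝔭.1 h𝔭.2.1 h𝔭.2.2)
    (fun 𝔭 h𝔭 => mem_factors_good y.1.2 h𝔭) (fun 𝔭 h𝔭 => mem_factors_good y.2.2 h𝔭)
    (fun 𝔭 h𝔭 => mem_factors_good x.1.2 h𝔭) (fun 𝔭 h𝔭 => mem_factors_good x.2.2 h𝔭) e
  have f1 : (x.1 : Ideal (𝓞 K)) = y.1 := by
    rw [← Ideal.prod_normalizedFactors_eq_self x.1.2.1, ← Ideal.prod_normalizedFactors_eq_self y.1.2.1, e1]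
  have f2 : (x.2 : Ideal (𝓞 K)) = y.2 := by
    rw [← Ideal.prod_normalizedFactors_eq_self x.2.2.1, ← Ideal.prod_normalizedFactors_eq_self y.2.2.1, e2]
  exact Prod.ext (Subtype.ext f1) (Subtype.ext f2)

lemma sq_tsum_good_le {B : Finset (Ideal (𝓞 K))} {P₁ P₂ : Ideal (𝓞 K) → Ideal (𝓞 L)}
    (h : TwoPrimes K L B P₁ P₂) (s : ℝ) :
    (∑' I : good K B, wt K s I) * (∑' I : good K B, wt K s I) ≤ ∑' J, wt L s J := by
  calc (∑' I : good K B, wt K s I) * (∑' I : good K B, wt K s I)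
      = ∑' x : good K B × good K B, wt K s x.1 * wt K s x.2 := by
        rw [ENNReal.tsum_prod (f := fun a b : good K B => wt K s a * wt K s b)]
        simp_rw [ENNReal.tsum_mul_left, ENNReal.tsum_mul_right]
    _ = ∑' x : good K B × good K B, wt L s (ext K L P₁ x.1 * ext K L P₂ x.2) := by
        refine tsum_congr fun x => ?_
        rw [wt_mul, wt_ext h.norm₁ x.1.2, wt_ext h.norm₂ x.2.2]
    _ ≤ ∑' J, wt L s J := ENNReal.tsum_comp_le_tsum_of_injective (pair_injective h) _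

lemma zr_nonneg (s : ℝ) : 0 ≤ zr K s := tsum_nonneg fun n => by positivity

variable (K L) in
/-- There is no choice of two distinct degree one primes above almost all primes. -/
theorem not_twoPrimes (B : Finset (Ideal (𝓞 K))) (hB : ∀ 𝔭 ∈ B, 𝔭 ≠ ⊥ ∧ 𝔭 ≠ ⊤)
    (P₁ P₂ : Ideal (𝓞 K) → Ideal (𝓞 L)) : ¬ TwoPrimes K L B P₁ P₂ := by
  intro h
  have hK := tendsto_zr K
  have hL := tendsto_zr L
  have key : ∀ᶠ s in 𝓝[>] (1:ℝ),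
      ((s - 1) * zr K s) ^ 2 ≤ (4 : ℝ) ^ B.card * ((s - 1) * ((s - 1) * zr L s)) := by
    filter_upwards [eventually_tsum_wt_eq K, eventually_tsum_wt_eq L, self_mem_nhdsWithin]
      with s hsK hsL hs
    have hs1 : (1:ℝ) < s := hs
    have hfin : ∑' I, wt K s I ≠ ∞ := by rw [hsK]; exact ENNReal.ofReal_ne_top
    have h1 := tsum_le_good K hs1.le hfin B hB
    have h2 := sq_tsum_good_le h s
    rw [hsK] at h1
    rw [hsL] at h2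
    have h3 : ENNReal.ofReal (zr K s) * ENNReal.ofReal (zr K s) ≤
        ENNReal.ofReal ((4 : ℝ) ^ B.card * zr L s) := by
      calc ENNReal.ofReal (zr K s) * ENNReal.ofReal (zr K s)
          ≤ (2 ^ B.card * ∑' I : good K B, wt K s I) *
              (2 ^ B.card * ∑' I : good K B, wt K s I) := by gcongr
        _ = (2 ^ B.card * 2 ^ B.card) *
              ((∑' I : good K B, wt K s I) * (∑' I : good K B, wt K s I)) := by ring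
        _ ≤ (2 ^ B.card * 2 ^ B.card) * ENNReal.ofReal (zr L s) := by gcongr
        _ = ENNReal.ofReal ((4 : ℝ) ^ B.card * zr L s) := by
            rw [ENNReal.ofReal_mul (by positivity), ENNReal.ofReal_pow (by norm_num),
              ← mul_pow]
            congr 2
            rw [show (4:ℝ) = ((4:ℕ):ℝ) by norm_num, ENNReal.ofReal_natCast]
            norm_num
    rw [← ENNReal.ofReal_mul (zr_nonneg s),
      ENNReal.ofReal_le_ofReal_iff (mul_nonneg (by positivity) (zr_nonneg s))] at h3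
    have h4 : 0 ≤ (s - 1) ^ 2 := by positivity
    calc ((s - 1) * zr K s) ^ 2 = (s - 1) ^ 2 * (zr K s * zr K s) := by ring
      _ ≤ (s - 1) ^ 2 * ((4 : ℝ) ^ B.card * zr L s) := by gcongr
      _ = (4 : ℝ) ^ B.card * ((s - 1) * ((s - 1) * zr L s)) := by ring
  have hs0 : Tendsto (fun s : ℝ => s - 1) (𝓝[>] 1) (𝓝 0) := by
    have : Tendsto (fun s : ℝ => s - 1) (𝓝 1) (𝓝 (1 - 1)) :=
      (continuous_id.sub continuous_const).tendsto 1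
    rw [sub_self] at this
    exact this.mono_left nhdsWithin_le_nhds
  have hl := hK.pow 2
  have hr := (hs0.mul hL).const_mul ((4 : ℝ) ^ B.card)
  have := le_of_tendsto_of_tendsto hl hr key
  have hpos := dedekindZeta_residue_pos K
  have : 0 < dedekindZeta_residue K ^ 2 := by positivity
  linarith

end Inj

open IsDedekindDomain in
/-- **EX0**. For an arbitrary extension `L/K` of number fields there are infinitely many primes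
`𝔭` of `K` which do *not* have two distinct primes of `L` above them with the same absolute norm
as `𝔭`. -/
theorem infinite_not_two_primes (L : Type*) [Field L] [NumberField L] [Algebra K L] :
    {𝔭 : HeightOneSpectrum (𝓞 K) | ¬ ∃ P₁ P₂ : Ideal (𝓞 L), P₁ ≠ P₂ ∧ P₁.IsPrime ∧ P₂.IsPrime ∧
      P₁.under (𝓞 K) = 𝔭.asIdeal ∧ P₂.under (𝓞 K) = 𝔭.asIdeal ∧
      absNorm P₁ = absNorm 𝔭.asIdeal ∧ absNorm P₂ = absNorm 𝔭.asIdeal}.Infinite := by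
  classical
  intro hfin
  set T := {𝔭 : HeightOneSpectrum (𝓞 K) | ¬ ∃ P₁ P₂ : Ideal (𝓞 L), P₁ ≠ P₂ ∧ P₁.IsPrime ∧
      P₂.IsPrime ∧ P₁.under (𝓞 K) = 𝔭.asIdeal ∧ P₂.under (𝓞 K) = 𝔭.asIdeal ∧
      absNorm P₁ = absNorm 𝔭.asIdeal ∧ absNorm P₂ = absNorm 𝔭.asIdeal} with hT
  let B : Finset (Ideal (𝓞 K)) := hfin.toFinset.image (fun 𝔭 => 𝔭.asIdeal)
  have hB : ∀ 𝔭 ∈ B, 𝔭 ≠ ⊥ ∧ 𝔭 ≠ ⊤ := by
    intro 𝔭 h𝔭
    obtain ⟨v, -, rfl⟩ := Finset.mem_image.mp h𝔭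
    exact ⟨v.ne_bot, v.isPrime.ne_top⟩
  have hex : ∀ 𝔭 : Ideal (𝓞 K), 𝔭.IsPrime → 𝔭 ≠ ⊥ → 𝔭 ∉ B →
      ∃ P₁ P₂ : Ideal (𝓞 L), P₁ ≠ P₂ ∧ P₁.IsPrime ∧ P₂.IsPrime ∧
      P₁.under (𝓞 K) = 𝔭 ∧ P₂.under (𝓞 K) = 𝔭 ∧ absNorm P₁ = absNorm 𝔭 ∧
      absNorm P₂ = absNorm 𝔭 := by
    intro 𝔭 h1 h2 h3
    by_contra hcon
    apply h3
    refine Finset.mem_image.mpr ⟨⟨𝔭, h1, h2⟩, ?_, rfl⟩
    rw [Set.Finite.mem_toFinset]
    exact hcon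
  let P₁ : Ideal (𝓞 K) → Ideal (𝓞 L) := fun 𝔭 =>
    if h : 𝔭.IsPrime ∧ 𝔭 ≠ ⊥ ∧ 𝔭 ∉ B then (hex 𝔭 h.1 h.2.1 h.2.2).choose else ⊥
  let P₂ : Ideal (𝓞 K) → Ideal (𝓞 L) := fun 𝔭 =>
    if h : 𝔭.IsPrime ∧ 𝔭 ≠ ⊥ ∧ 𝔭 ∉ B then (hex 𝔭 h.1 h.2.1 h.2.2).choose_spec.choose else ⊥
  have hspec : ∀ 𝔭 : Ideal (𝓞 K), 𝔭.IsPrime → 𝔭 ≠ ⊥ → 𝔭 ∉ B →
      P₁ 𝔭 ≠ P₂ 𝔭 ∧ (P₁ 𝔭).IsPrime ∧ (P₂ 𝔭).IsPrime ∧
      (P₁ 𝔭).under (𝓞 K) = 𝔭 ∧ (P₂ 𝔭).under (𝓞 K) = 𝔭 ∧ absNorm (P₁ 𝔭) = absNorm 𝔭 ∧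
      absNorm (P₂ 𝔭) = absNorm 𝔭 := by
    intro 𝔭 h1 h2 h3
    have h : 𝔭.IsPrime ∧ 𝔭 ≠ ⊥ ∧ 𝔭 ∉ B := ⟨h1, h2, h3⟩
    simp only [P₁, P₂, dif_pos h]
    exact (hex 𝔭 h.1 h.2.1 h.2.2).choose_spec.choose_spec
  exact not_twoPrimes K L B hB P₁ P₂
    { ne := fun 𝔭 h1 h2 h3 => (hspec 𝔭 h1 h2 h3).1
      prime₁ := fun 𝔭 h1 h2 h3 => (hspec 𝔭 h1 h2 h3).2.1
      prime₂ := fun 𝔭 h1 h2 h3 => (hspec 𝔭 h1 h2 h3).2.2.1
      under₁ := fun 𝔭 h1 h2 h3 => (hspec 𝔭 h1 h2 h3).2.2.2.1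
      under₂ := fun 𝔭 h1 h2 h3 => (hspec 𝔭 h1 h2 h3).2.2.2.2.1
      norm₁ := fun 𝔭 h1 h2 h3 => (hspec 𝔭 h1 h2 h3).2.2.2.2.2.1
      norm₂ := fun 𝔭 h1 h2 h3 => (hspec 𝔭 h1 h2 h3).2.2.2.2.2.2 }

end Fermat.Agent.CFT.EX0
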