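import Fermat.Agent.CFT.Basic
import Fermat.Agent.CFT.EX0
import Fermat.Agent.CFT.OrdGal

set_option autoImplicit false

namespace Fermat.Agent.CFT

open IsDedekindDomain NumberField

/-- **Existence of non split primes** (from `EX0.infinite_not_two_primes`). -/
theorem exists_not_split {N : Type*} [Field N] [NumberField N] {N' : Type*} [Field N']
    [NumberField N'] [Algebra N N'] [IsGalois N N'] (hdeg : 2 ≤ Module.finrank N N')
    (S₀ : Set (Pl N)) (hS₀ : S₀.Finite) : ∃ v : Pl N, v ∉ S₀ ∧ ¬ Split N' v := by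
  obtain ⟨v, hvT, hvS⟩ := ((EX0.infinite_not_two_primes N N').sdiff hS₀).nonempty
  refine ⟨v, hvS, fun hs => hvT ?_⟩
  have hcard := ncard_above_of_split hs
  have h1 : 1 < {w' : Pl N' | Above w' v}.ncard := by omega
  obtain ⟨w₁, w₂, hw₁, hw₂, hne⟩ := (Set.one_lt_ncard_iff (finite_above v)).mp h1
  refine ⟨w₁.asIdeal, w₂.asIdeal, fun h => hne (HeightOneSpectrum.ext h), w₁.isPrime, w₂.isPrime,
    ?_, ?_, absNorm_eq_of_split hw₁ hs, absNorm_eq_of_split hw₂ hs⟩
  · exact (Ideal.LiesOver.over (self := hw₁)).symm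
  · exact (Ideal.LiesOver.over (self := hw₂)).symm

/-- Subgroup form: a non trivial subgroup `H` of `Aut(Ω/ℚ)` contains a non trivial element fixing
some place outside any given finite set. -/
theorem exists_place_fixed {Ω : Type*} [Field Ω] [NumberField Ω] (H : Subgroup (Ω ≃ₐ[ℚ] Ω))
    (hH : H ≠ ⊥) (S₀ : Set (Pl Ω)) (hS₀ : S₀.Finite) :
    ∃ P : Pl Ω, P ∉ S₀ ∧ ∃ σ ∈ H, σ ≠ 1 ∧ σ • P = P := by
  classical
  let F : IntermediateField ℚ Ω := IntermediateField.fixedField H
  have hgal : IsGalois F Ω := IsGalois.of_fixed_field Ω H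
  have hdeg : 2 ≤ Module.finrank F Ω := by
    rw [IntermediateField.finrank_fixedField_eq_card]
    have : Nontrivial H := (Subgroup.nontrivial_iff_ne_bot H).mpr hH
    exact Finite.one_lt_card
  -- the places of `F` below `S₀`
  let below : Pl Ω → Pl F := fun P => (exists_below F P).choose
  have hbelow : ∀ P : Pl Ω, Above P (below P) := fun P => (exists_below F P).choose_spec
  obtain ⟨v, hvS, hvns⟩ := exists_not_split (N := F) (N' := Ω) hdeg (below '' S₀) (hS₀.image _)
  unfold Split at hvns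
  push Not at hvns
  obtain ⟨P, hPv, σ', hσ'P, hσ'1⟩ := hvns
  refine ⟨P, fun hP => hvS ⟨P, hP, below_unique (hbelow P) hPv⟩, σ'.restrictScalars ℚ, ?_, ?_, ?_⟩
  · rw [← IntermediateField.fixingSubgroup_fixedField H, IntermediateField.mem_fixingSubgroup_iff]
    intro x hx
    exact σ'.commutes ⟨x, hx⟩
  · intro h
    apply hσ'1
    ext x
    exact congrArg (fun τ : Ω ≃ₐ[ℚ] Ω => τ x) h
  · rw [restrictScalars_smul, hσ'P]

end Fermat.Agent.CFT
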