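import Fermat.Agent.CFT.Basic
import Fermat.Agent.CFT.OrdGal
import Fermat.Agent.CFT.UnitOf
import Fermat.Agent.CFT.Config
import Fermat.Agent.CFT.ConfigBasic
import Fermat.Agent.CFT.CycloAut
import Fermat.Agent.CFT.FrobK
import Fermat.Agent.CFT.NotSplit

set_option autoImplicit false

namespace Fermat.Agent.CFT

open IsDedekindDomain NumberField Finset

variable {p : ℕ} [Fact p.Prime] {Ω : Type*} [Field Ω] [NumberField Ω] {ζ : Ω}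
  {χ : (Ω ≃ₐ[ℚ] Ω) →* (ZMod p)ˣ} {τ ρ : Ω ≃ₐ[ℚ] Ω}

namespace ChooseQ

/-- In a group: if `g` has prime order `p` and `g ^ k ≠ 1`, then `g` is a power of `g ^ k`. -/
theorem exists_pow_pow_eq {G : Type*} [Group G] {g : G} {p : ℕ} (hp : p.Prime)
    (hg : orderOf g = p) {k : ℕ} (hk : g ^ k ≠ 1) : ∃ a : ℕ, (g ^ k) ^ a = g := by
  have hpk : ¬ p ∣ k := by
    intro h
    apply hk
    rw [← hg] at h
    exact orderOf_dvd_iff_pow_eq_one.mp h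
  have hcop : Nat.Coprime k p := ((Nat.Prime.coprime_iff_not_dvd hp).mpr hpk).symm
  obtain ⟨a, -, ha⟩ := Nat.exists_mul_mod_eq_one_of_coprime hcop hp.one_lt
  refine ⟨a, ?_⟩
  rw [← pow_mul, ← pow_mod_orderOf, hg, ha, pow_one]

theorem exists_zpow_pow_eq {G : Type*} [Group G] {g : G} {p : ℕ} (hp : p.Prime)
    (hg : orderOf g = p) {k : ℤ} (hk : g ^ k ≠ 1) : ∃ a : ℕ, (g ^ k) ^ a = g := by
  have hp0 : (p : ℤ) ≠ 0 := by exact_mod_cast hp.ne_zero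
  have h1 : g ^ k = g ^ (k % p).toNat := by
    rw [← zpow_natCast, Int.toNat_of_nonneg (Int.emod_nonneg _ hp0), ← hg, zpow_mod_orderOf]
  rw [h1] at hk ⊢
  exact exists_pow_pow_eq hp hg hk

theorem val_ne_zero (c : (ZMod p)ˣ) : (c : ZMod p).val ≠ 0 := by
  intro h
  exact c.ne_zero ((ZMod.val_eq_zero _).mp h)

theorem τρ_pow (cfg : Config p ζ χ τ ρ) (m : ℕ) : (τ * ρ) ^ m = τ ^ m * ρ ^ m := by
  have := cfg.mul_pow 1 1 m
  simpa using this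

theorem χ_τρ_pow (cfg : Config p ζ χ τ ρ) (m : ℕ) : χ ((τ * ρ) ^ m) = 1 := by
  rw [τρ_pow cfg]
  exact cfg.χ_pow_mul_pow m m

end ChooseQ

open ChooseQ

/-- **Choice of the auxiliary place.** -/
theorem Config.exists_QData [IsGalois ℚ Ω] (cfg : Config p ζ χ τ ρ) :
    ∃ (𝔔 : Pl Ω) (q : ℕ), QData p χ τ ρ 𝔔 q := by
  have hp : p.Prime := Fact.out
  have hH : Subgroup.zpowers (τ * ρ) ≠ ⊥ := by
    intro h
    exact cfg.τρ_ne_one (Subgroup.zpowers_eq_bot.mp h)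
  obtain ⟨𝔔, h𝔔p, σ, hσH, hσ1, hσ𝔔⟩ :=
    exists_place_fixed (Subgroup.zpowers (τ * ρ)) hH {P : Pl Ω | Over P p} (finite_over p hp.ne_zero)
  have h𝔔p' : ¬ Over 𝔔 p := h𝔔p
  -- `τρ` fixes `𝔔`
  obtain ⟨k, rfl⟩ := Subgroup.mem_zpowers_iff.mp hσH
  obtain ⟨a, ha⟩ := exists_zpow_pow_eq hp cfg.orderOf_τρ hσ1
  have hpowfix : ∀ (g : Ω ≃ₐ[ℚ] Ω), g • 𝔔 = 𝔔 → ∀ n : ℕ, (g ^ n) • 𝔔 = 𝔔 := by
    intro g hg n
    induction n with
    | zero => simp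
    | succ n ih => rw [pow_succ, mul_smul, hg, ih]
  have hfix : (τ * ρ) • 𝔔 = 𝔔 := by
    have := hpowfix _ hσ𝔔 a
    rwa [ha] at this
  obtain ⟨q, hq, hq𝔔⟩ := exists_prime_over 𝔔
  have hqp : q ≠ p := by
    rintro rfl
    exact h𝔔p' hq𝔔
  obtain ⟨φ, hφ𝔔, hφfrob, hφgen⟩ := exists_frob_gen 𝔔 hq hq𝔔 (cfg.unr 𝔔 h𝔔p')
  obtain ⟨k₁, hk₁⟩ := hφgen _ hfix
  -- `χ φ = 1`
  have hcomm : φ⁻¹ * (τ ^ 1 * ρ ^ 1) * φ = τ ^ 1 * ρ ^ 1 := by
    rw [pow_one, pow_one, hk₁, mul_assoc, ← pow_succ, pow_succ', inv_mul_cancel_left]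
  have hχφ : χ φ = 1 := by
    have h1 := cfg.conj φ 1 1
    rw [hcomm] at h1
    have h2 := (cfg.pow_mul_pow_eq h1).1
    rw [one_mul] at h2
    have h3 : (χ φ : ZMod p).val < p := ZMod.val_lt _
    have h4 : (χ φ : ZMod p).val = 1 := by
      have := Nat.ModEq.eq_of_lt_of_lt h2 hp.one_lt h3
      exact this.symm
    apply Units.ext
    rw [Units.val_one, ← ZMod.natCast_zmod_val (χ φ : ZMod p), h4, Nat.cast_one]
  obtain ⟨i, j, hij⟩ := cfg.gen φ hχφ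
  have hφp : φ ^ p = 1 := by
    rw [hij, cfg.mul_pow, pow_mul, pow_mul]
    have h1 : τ ^ p = 1 := by rw [← cfg.ordτ]; exact pow_orderOf_eq_one τ
    have h2 : ρ ^ p = 1 := by rw [← cfg.ordρ]; exact pow_orderOf_eq_one ρ
    rw [← pow_mul, ← pow_mul, mul_comm i, mul_comm j, pow_mul, pow_mul, h1, h2]
    simp
  have hφ1 : φ ≠ 1 := by
    rintro rfl
    apply cfg.τρ_ne_one
    rw [hk₁, one_pow]
  have hordφ : orderOf φ = p := orderOf_eq_prime hφp hφ1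
  obtain ⟨k', hk'⟩ : ∃ k' : ℕ, (τ * ρ) ^ k' = φ := by
    have : φ ^ k₁ ≠ 1 := by
      rw [← hk₁]
      exact cfg.τρ_ne_one
    obtain ⟨a', ha'⟩ := exists_pow_pow_eq hp hordφ this
    exact ⟨a', by rw [hk₁, ha']⟩
  have hpk' : ¬ p ∣ k' := by
    intro h
    apply hφ1
    rw [← hk']
    rw [← cfg.orderOf_τρ] at h
    exact orderOf_dvd_iff_pow_eq_one.mp h
  refine ⟨𝔔, q, hq, hqp, hq𝔔, hfix, ?_, ⟨k', hpk', ?_⟩, ⟨φ, hχφ, hφfrob⟩⟩
  · intro σ hσ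
    obtain ⟨m, hm⟩ := hφgen σ hσ
    exact ⟨k' * m, by rw [pow_mul, hk', hm]⟩
  · have h1 : φ ζ = ζ ^ q :=
      map_zeta_eq_pow_of_frob cfg.hζ 𝔔 (not_over_sq 𝔔 h𝔔p') φ q hφfrob
    have h2 : φ ζ = ζ ^ ((1 + p) ^ k') := by
      rw [← hk', τρ_pow cfg]
      exact cfg.map_zeta k' k'
    have hpq : ¬ p ∣ q := by
      intro h
      exact hqp ((Nat.prime_dvd_prime_iff_eq hp hq).mp h).symm
    have hp1 : ¬ p ∣ (1 + p) ^ k' := by
      intro h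
      have := hp.dvd_of_dvd_pow h
      have h3 : p ∣ 1 := (Nat.dvd_add_left (dvd_refl p)).mp this
      exact hp.one_lt.ne' (Nat.dvd_one.mp h3)
    rw [← unitOf_pow, ← pow_eq_pow_iff_unitOf p cfg.hζ hpq hp1, ← h1, h2]

variable {K : Type*} [Field K] [NumberField K] [Algebra K Ω]

/-- The place of `K` below `𝔔` (and its conjugates) has degree one. -/
theorem QData.absNorm_eq [IsGalois ℚ Ω] (cfg : Config p ζ χ τ ρ) (hK : FixK K χ) {𝔔 : Pl Ω} {q : ℕ}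
    (qd : QData p χ τ ρ 𝔔 q) (s : Ω ≃ₐ[ℚ] Ω) {v : Pl K} (hv : Above (s • 𝔔) v) :
    Ideal.absNorm v.asIdeal = q := by
  obtain ⟨φ, hχφ, hφ⟩ := qd.frob
  have hq := qd.prime
  have hχφ' : χ (s * φ * s⁻¹) = 1 := by
    rw [map_mul, map_mul, hχφ, mul_one, map_inv, mul_inv_cancel]
  have hfrob' : ∀ x : 𝓞 Ω, (s * φ * s⁻¹) • x - x ^ q ∈ (s • 𝔔).asIdeal := by
    intro x
    rw [mem_smul_asIdeal_iff]
    have h1 := hφ (s⁻¹ • x)
    have h2 : s⁻¹ • ((s * φ * s⁻¹) • x - x ^ q) = φ • s⁻¹ • x - (s⁻¹ • x) ^ q := by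
      rw [smul_sub, smul_pow', ← mul_smul, ← mul_smul, mul_assoc, inv_mul_cancel_left]
    rw [h2]
    exact h1
  have hy : ∀ y : 𝓞 K, y ^ q - y ∈ v.asIdeal := by
    intro y
    rw [(above_iff _ _).mp hv, map_sub, map_pow]
    have h1 := hfrob' (algebraMap (𝓞 K) (𝓞 Ω) y)
    have h2 : (s * φ * s⁻¹) • algebraMap (𝓞 K) (𝓞 Ω) y = algebraMap (𝓞 K) (𝓞 Ω) y := by
      apply RingOfIntegers.ext
      show (s * φ * s⁻¹) (algebraMap K Ω (y : K)) = algebraMap K Ω (y : K)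
      exact (hK _).mp hχφ' _
    rw [h2] at h1
    have h3 := (s • 𝔔).asIdeal.neg_mem h1
    rwa [neg_sub] at h3
  have hover : Over v q := (over_of_above hv q).mp ((over_smul_iff s 𝔔 q).mpr qd.overq)
  obtain ⟨f, hf0, hf⟩ := absNorm_eq_pow_of_over v hq hover
  have hcard : Ideal.absNorm v.asIdeal ≤ q := by
    classical
    haveI : v.asIdeal.IsMaximal := v.isMaximal
    letI : Field (𝓞 K ⧸ v.asIdeal) := Ideal.Quotient.field _
    haveI : Finite (𝓞 K ⧸ v.asIdeal) := Ideal.finiteQuotientOfFreeOfNeBot _ v.ne_bot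
    haveI := Fintype.ofFinite (𝓞 K ⧸ v.asIdeal)
    have hroot : ∀ z : 𝓞 K ⧸ v.asIdeal, z ^ q = z := by
      intro z
      obtain ⟨y, rfl⟩ := Ideal.Quotient.mk_surjective z
      rw [← map_pow, Ideal.Quotient.eq]
      exact hy y
    have hne : (Polynomial.X ^ q - Polynomial.X : Polynomial (𝓞 K ⧸ v.asIdeal)) ≠ 0 :=
      FiniteField.X_pow_card_sub_X_ne_zero _ hq.one_lt
    rw [Ideal.absNorm_apply, Submodule.cardQuot_apply, Nat.card_eq_fintype_card]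
    calc Fintype.card (𝓞 K ⧸ v.asIdeal)
        = (Finset.univ : Finset (𝓞 K ⧸ v.asIdeal)).card := rfl
      _ ≤ (Polynomial.X ^ q - Polynomial.X : Polynomial (𝓞 K ⧸ v.asIdeal)).roots.toFinset.card := by
          apply Finset.card_le_card
          intro z _
          rw [Multiset.mem_toFinset, Polynomial.mem_roots hne]
          simp [hroot z]
      _ ≤ Multiset.card (Polynomial.X ^ q - Polynomial.X :
            Polynomial (𝓞 K ⧸ v.asIdeal)).roots := Multiset.toFinset_card_le _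
      _ ≤ (Polynomial.X ^ q - Polynomial.X : Polynomial (𝓞 K ⧸ v.asIdeal)).natDegree :=
          Polynomial.card_roots' _
      _ = q := FiniteField.X_pow_card_sub_X_natDegree_eq _ hq.one_lt
  rw [hf] at hcard ⊢
  have hf1 : f ≤ 1 := by
    by_contra h
    push Not at h
    have h1 : q ^ 2 ≤ q ^ f := Nat.pow_le_pow_right hq.pos h
    have h2 : q < q ^ 2 := by
      have := hq.one_lt
      nlinarith
    omega
  have : f = 1 := by omega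
  rw [this, pow_one]

/-- The stabiliser of `s⁻¹ 𝔔` is generated by `τ^χ(s) ρ`. -/
theorem QData.fix_conj (cfg : Config p ζ χ τ ρ) {𝔔 : Pl Ω} {q : ℕ} (qd : QData p χ τ ρ 𝔔 q)
    (s : Ω ≃ₐ[ℚ] Ω) : (τ ^ ((χ s : ZMod p).val) * ρ ^ 1) • (s⁻¹ • 𝔔) = s⁻¹ • 𝔔 := by
  have h1 := cfg.conj s 1 1
  rw [one_mul] at h1
  rw [← h1, pow_one, pow_one, ← mul_smul, mul_assoc, mul_assoc, mul_inv_cancel, mul_one, mul_smul,
    qd.fix]

/-- `τ` fixes no place above `q`. -/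
theorem QData.τ_smul_ne [IsGalois ℚ Ω] (cfg : Config p ζ χ τ ρ) {𝔔 : Pl Ω} {q : ℕ}
    (qd : QData p χ τ ρ 𝔔 q) (P : Pl Ω) (hP : Over P q) : τ • P ≠ P := by
  intro hτ
  obtain ⟨σ, hσ⟩ := exists_smul_eq_of_over qd.prime hP qd.overq
  have h1 := cfg.conjτ σ⁻¹
  rw [inv_inv] at h1
  have h2 : (τ ^ ((χ σ⁻¹ : ZMod p).val)) • 𝔔 = 𝔔 := by
    rw [← h1, ← hσ, ← mul_smul, mul_assoc, inv_mul_cancel, mul_one, mul_smul, hτ]
  obtain ⟨m, hm⟩ := qd.stab _ h2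
  rw [τρ_pow cfg] at hm
  have h3 : τ ^ ((χ σ⁻¹ : ZMod p).val) * ρ ^ 0 = τ ^ m * ρ ^ m := by
    rw [pow_zero, mul_one, hm]
  obtain ⟨h4, h5⟩ := cfg.pow_mul_pow_eq h3
  have h6 : (χ σ⁻¹ : ZMod p).val ≡ 0 [MOD p] := h4.trans h5.symm
  have h7 : (χ σ⁻¹ : ZMod p).val < p := ZMod.val_lt _
  have h8 := Nat.ModEq.eq_of_lt_of_lt h6 h7 (Fact.out : p.Prime).pos
  exact val_ne_zero _ h8

/-- If `s⁻¹ 𝔔` and `s'⁻¹ 𝔔` lie above the same place of `K` then `χ s = χ s'`. -/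
theorem QData.χ_eq_of_above [IsGalois ℚ Ω] (cfg : Config p ζ χ τ ρ) (hK : FixK K χ) {𝔔 : Pl Ω}
    {q : ℕ} (qd : QData p χ τ ρ 𝔔 q) {s s' : Ω ≃ₐ[ℚ] Ω} {v : Pl K} (h : Above (s⁻¹ • 𝔔) v)
    (h' : Above (s'⁻¹ • 𝔔) v) : χ s = χ s' := by
  obtain ⟨i, j, hij⟩ := cfg.exists_smul_eq hK h h'
  have h1 : (s' * (τ ^ i * ρ ^ j) * s⁻¹) • 𝔔 = 𝔔 := by
    rw [mul_smul, mul_smul, hij, smul_inv_smul]
  obtain ⟨m, hm⟩ := qd.stab _ h1
  have h2 := congrArg χ hm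
  rw [χ_τρ_pow cfg, map_mul, map_mul, cfg.χ_pow_mul_pow, mul_one, map_inv, mul_inv_eq_one] at h2
  exact h2.symm

end Fermat.Agent.CFT
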