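import Mathlib

/-!
# Stickelberger's factorisation of the Jacobi sum `J(χ, χ)` at a prime of degree one

`K = ℚ(ζ_p)`, `q` a prime of `𝓞 K` of prime absolute norm `ℓ ≠ p`.  Then there is
`β ∈ 𝓞 K` with `(β) = ∏_{1 ≤ c ≤ (p-1)/2} σ_c⁻¹ q`.
-/

namespace Fermat.Agent.CFT.Stickelberger

open Finset

section Abstract

variable {F : Type*} [Field F] [Fintype F]

/-- The sum over a finite field of `x^a (1-x)^b` vanishes when `a + b < #F - 1`. -/
lemma sum_pow_mul_one_sub_pow_eq_zero (a b : ℕ) (h : a + b < Fintype.card F - 1) :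
    ∑ x : F, x ^ a * (1 - x) ^ b = 0 := by
  classical
  let f : Polynomial F := Polynomial.X ^ a * (1 - Polynomial.X) ^ b
  have hdeg : f.natDegree < a + b + 1 := by
    have h1 : f.natDegree ≤ a + b := by
      refine (Polynomial.natDegree_mul_le).trans ?_
      refine add_le_add (Polynomial.natDegree_X_pow_le a) ?_
      refine (Polynomial.natDegree_pow_le).trans ?_
      have : (1 - Polynomial.X : Polynomial F).natDegree ≤ 1 := by
        refine (Polynomial.natDegree_sub_le _ _).trans ?_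
        simp
      calc b * (1 - Polynomial.X : Polynomial F).natDegree ≤ b * 1 := Nat.mul_le_mul_left _ this
        _ = b := mul_one b
    omega
  have key : ∀ x : F, x ^ a * (1 - x) ^ b = ∑ i ∈ range (a + b + 1), f.coeff i * x ^ i := by
    intro x
    have := Polynomial.eval_eq_sum_range' hdeg x
    simpa [f] using this
  simp_rw [key]
  rw [Finset.sum_comm]
  refine Finset.sum_eq_zero fun i hi => ?_
  rw [← Finset.mul_sum, FiniteField.sum_pow_lt_card_sub_one F i
    (by have := Finset.mem_range.mp hi; omega), mul_zero]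

variable {O : Type*} [CommRing O] [IsDomain O] (π : O →+* F) {p : ℕ} [hp : Fact p.Prime]
  {ζ : O}

omit [Fintype F] in
include π in
lemma isPrimitiveRoot_map_of_natCast_ne_zero (hζ : IsPrimitiveRoot ζ p) (hpF : (p : F) ≠ 0) :
    IsPrimitiveRoot (π ζ) p := by
  have h1 : (π ζ) ^ p = 1 := by rw [← map_pow, hζ.pow_eq_one, map_one]
  have h2 : π ζ ≠ 1 := by
    intro h
    have h3 := hζ.geom_sum_eq_zero hp.out.one_lt
    have h4 := congrArg π h3
    rw [map_sum] at h4
    simp only [map_pow, h, one_pow, sum_const, card_range, nsmul_eq_mul, mul_one, map_zero] at h4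
    exact hpF h4
  exact orderOf_eq_prime h1 h2 ▸ IsPrimitiveRoot.orderOf (π ζ)

include π in
lemma dvd_card_sub_one_of_primitiveRoot (hζ : IsPrimitiveRoot ζ p) (hpF : (p : F) ≠ 0) :
    p ∣ Fintype.card F - 1 := by
  have h := isPrimitiveRoot_map_of_natCast_ne_zero π hζ hpF
  refine (h.pow_eq_one_iff_dvd _).mp ?_
  exact FiniteField.pow_card_sub_one_eq_one _ (h.ne_zero hp.out.ne_zero)

/-- The `p`-th power residue character: `χ x ≡ x ^ ((#F-1)/p)` modulo the kernel of `π`. -/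
lemma exists_residue_mulChar (hζ : IsPrimitiveRoot ζ p) (hpF : (p : F) ≠ 0) :
    ∃ χ : MulChar F O, (∀ x : F, π (χ x) = x ^ ((Fintype.card F - 1) / p)) ∧ χ ^ p = 1 ∧
      χ ≠ 1 := by
  classical
  have hprim := isPrimitiveRoot_map_of_natCast_ne_zero π hζ hpF
  obtain ⟨m, hm⟩ := dvd_card_sub_one_of_primitiveRoot π hζ hpF
  have hp0 : 0 < p := hp.out.pos
  have hcard : 1 < Fintype.card F := Fintype.one_lt_card
  have hm0 : 0 < m := by
    rcases Nat.eq_zero_or_pos m with h | h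
    · subst h; omega
    · exact h
  have hdiv : (Fintype.card F - 1) / p = m := by rw [hm]; exact Nat.mul_div_cancel_left m hp0
  rw [hdiv]
  obtain ⟨g, hg⟩ := IsCyclic.exists_generator (α := Fˣ)
  have hgm : ((g : F) ^ m) ^ p = 1 := by
    rw [← pow_mul, mul_comm, ← hm]
    exact FiniteField.pow_card_sub_one_eq_one _ g.ne_zero
  obtain ⟨i, -, hi⟩ := hprim.eq_pow_of_pow_eq_one hgm
  let ζu : Oˣ := (hζ.isUnit hp0.ne').unit
  have hζu : (ζu : O) = ζ := rfl
  have hξ : ζu ^ i ∈ rootsOfUnity (Fintype.card Fˣ) O := by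
    rw [mem_rootsOfUnity, Fintype.card_units, hm]
    ext
    push_cast
    rw [hζu, ← pow_mul, mul_comm p m, ← mul_assoc, mul_comm, pow_mul, hζ.pow_eq_one, one_pow]
  let χ : MulChar F O := MulChar.ofRootOfUnity hξ hg
  have hχg : χ g = ζ ^ i := by
    have := MulChar.ofRootOfUnity_spec hξ hg
    simpa [χ, hζu] using this
  have hunit : ∀ u : Fˣ, ∃ n : ℕ, g ^ n = u := by
    intro u
    have := hg u
    rw [← mem_powers_iff_mem_zpowers] at this
    exact this
  refine ⟨χ, ?_, ?_, ?_⟩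
  · intro x
    rcases eq_or_ne x 0 with rfl | hx
    · rw [MulChar.map_zero, map_zero, zero_pow hm0.ne']
    · obtain ⟨n, hn⟩ := hunit (Units.mk0 x hx)
      have hx' : x = (g : F) ^ n := by
        have := congrArg Units.val hn
        simpa using this.symm
      rw [hx', map_pow, hχg, map_pow, map_pow, hi, ← pow_mul, ← pow_mul, mul_comm]
  · rw [MulChar.eq_iff hg, MulChar.pow_apply_coe, hχg, MulChar.one_apply_coe, ← pow_mul,
      mul_comm, pow_mul, hζ.pow_eq_one, one_pow]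
  · intro h1
    have h2 : (g : F) ^ m = 1 := by
      rw [← hi, ← map_pow, ← hχg, h1, MulChar.one_apply_coe, map_one]
    have h3 : g ^ m = 1 := by ext; simpa using h2
    have h4 : orderOf g = Fintype.card F - 1 := by
      rw [orderOf_eq_card_of_forall_mem_zpowers hg, Nat.card_eq_fintype_card, Fintype.card_units]
    have h5 : Fintype.card F - 1 ∣ m := h4 ▸ orderOf_dvd_of_pow_eq_one h3
    have h6 := Nat.le_of_dvd hm0 h5
    have h7 : 2 ≤ p := hp.out.two_le
    rw [hm] at h6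
    nlinarith

omit [Fintype F] in
lemma ringHomComp_eq_pow_of_map_zeta (hζ : IsPrimitiveRoot ζ p) {χ : MulChar F O}
    (hχ : χ ^ p = 1) (σ : O →+* O) (c : ℕ) (hσ : σ ζ = ζ ^ c) : χ.ringHomComp σ = χ ^ c := by
  ext u
  have h1 : (χ u) ^ p = 1 := by
    rw [← MulChar.pow_apply_coe, hχ, MulChar.one_apply_coe]
  obtain ⟨i, -, hi⟩ := hζ.eq_pow_of_pow_eq_one h1
  rw [MulChar.ringHomComp_apply, MulChar.pow_apply_coe, ← hi, map_pow, hσ, ← pow_mul, ← pow_mul,
    mul_comm]

/-- `σ_c J(χ,χ) ≡ 0` modulo the kernel of `π` for `0 < c < p/2`. -/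
lemma map_map_jacobiSum_eq_zero (hζ : IsPrimitiveRoot ζ p) (hpF : (p : F) ≠ 0)
    {χ : MulChar F O} (hχ : χ ^ p = 1)
    (hχπ : ∀ x : F, π (χ x) = x ^ ((Fintype.card F - 1) / p))
    (σ : O →+* O) (c : ℕ) (hc : 0 < c) (hcp : 2 * c < p) (hσ : σ ζ = ζ ^ c) :
    π (σ (jacobiSum χ χ)) = 0 := by
  obtain ⟨m, hm⟩ := dvd_card_sub_one_of_primitiveRoot π hζ hpF
  have hp0 : 0 < p := hp.out.pos
  have hcard : 1 < Fintype.card F := Fintype.one_lt_card
  have hm0 : 0 < m := by
    rcases Nat.eq_zero_or_pos m with h | h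
    · subst h; omega
    · exact h
  have hdiv : (Fintype.card F - 1) / p = m := by rw [hm]; exact Nat.mul_div_cancel_left m hp0
  rw [hdiv] at hχπ
  rw [← jacobiSum_ringHomComp, ringHomComp_eq_pow_of_map_zeta hζ hχ σ c hσ, jacobiSum, map_sum]
  have : ∀ x : F, π ((χ ^ c) x * (χ ^ c) (1 - x)) = x ^ (m * c) * (1 - x) ^ (m * c) := by
    intro x
    rw [map_mul, MulChar.pow_apply' χ hc.ne', MulChar.pow_apply' χ hc.ne', map_pow, map_pow,
      hχπ, hχπ, ← pow_mul, ← pow_mul]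
  simp_rw [this]
  refine sum_pow_mul_one_sub_pow_eq_zero _ _ ?_
  rw [hm]
  nlinarith

/-- `J(χ,χ) · σ_{-1} J(χ,χ) = #F`. -/
lemma jacobiSum_mul_map_jacobiSum [CharZero O] (hζ : IsPrimitiveRoot ζ p) (hp2 : p ≠ 2)
    {χ : MulChar F O} (hχ : χ ^ p = 1) (hχ1 : χ ≠ 1)
    (σ : O →+* O) (hσ : σ ζ = ζ ^ (p - 1)) :
    jacobiSum χ χ * σ (jacobiSum χ χ) = Fintype.card F := by
  have hp0 : 0 < p := hp.out.pos
  have hinv : χ ^ (p - 1) = χ⁻¹ := by
    rw [eq_inv_iff_mul_eq_one, ← pow_succ, Nat.sub_add_cancel hp0, hχ]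
  rw [← jacobiSum_ringHomComp, ringHomComp_eq_pow_of_map_zeta hζ hχ σ _ hσ, hinv]
  let ι : O →+* FractionRing O := algebraMap O (FractionRing O)
  have hι : Function.Injective ι := IsFractionRing.injective O (FractionRing O)
  apply hι
  rw [map_mul, ← jacobiSum_ringHomComp, ← jacobiSum_ringHomComp, ← MulChar.ringHomComp_inv,
    map_natCast]
  have hχ' : χ.ringHomComp ι ≠ 1 := (MulChar.ringHomComp_ne_one_iff hι).mpr hχ1
  have hχχ : χ * χ ≠ 1 := by
    intro h
    rw [← pow_two] at h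
    have h1 : orderOf χ ∣ 2 := orderOf_dvd_of_pow_eq_one h
    have h2 : orderOf χ ∣ p := orderOf_dvd_of_pow_eq_one hχ
    have h3 : orderOf χ ∣ Nat.gcd 2 p := Nat.dvd_gcd h1 h2
    have h4 : Nat.gcd 2 p = 1 := by
      rw [Nat.coprime_primes Nat.prime_two hp.out |>.mpr (Ne.symm hp2)]
    rw [h4, Nat.dvd_one, orderOf_eq_one_iff] at h3
    exact hχ1 h3
  have hχχ' : χ.ringHomComp ι * χ.ringHomComp ι ≠ 1 := by
    rw [← MulChar.ringHomComp_mul]
    exact (MulChar.ringHomComp_ne_one_iff hι).mpr hχχ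
  refine jacobiSum_mul_jacobiSum_inv ?_ hχ' hχ' hχχ'
  have : CharZero (FractionRing O) := charZero_of_injective_ringHom hι
  rw [ringChar.eq_zero]
  obtain ⟨n, hn, -⟩ := FiniteField.card F (ringChar F)
  exact hn.ne_zero.symm

end Abstract

section Concrete

open NumberField

/-- The absolute norm is invariant under ring automorphisms. -/
lemma absNorm_comap_ringEquiv {S : Type*} [CommRing S] [IsDedekindDomain S]
    [Module.Free ℤ S] (e : S ≃+* S) (I : Ideal S) :
    Ideal.absNorm (Ideal.comap e I) = Ideal.absNorm I := by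
  rw [Ideal.absNorm_apply, Ideal.absNorm_apply, Submodule.cardQuot_apply,
    Submodule.cardQuot_apply]
  refine Nat.card_congr (Ideal.quotientEquiv (Ideal.comap e I) I e ?_).toEquiv
  exact (Ideal.map_comap_of_surjective e e.surjective I).symm

lemma absNorm_span_map_ringEquiv {S : Type*} [CommRing S] [IsDedekindDomain S]
    [Module.Free ℤ S] (e : S ≃+* S) (x : S) :
    Ideal.absNorm (Ideal.span {e x}) = Ideal.absNorm (Ideal.span {x}) := by
  have h : Ideal.span {x} = Ideal.comap e (Ideal.span {e x}) := by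
    have h1 : Ideal.span {e x} = Ideal.map e (Ideal.span {x}) := by
      rw [Ideal.map_span, Set.image_singleton]
    rw [h1, Ideal.comap_map_of_bijective e e.bijective]
  rw [h, absNorm_comap_ringEquiv]

/-- Two ring homomorphisms to a prime field with the same kernel are equal. -/
lemma ringHom_eq_of_ker_eq_of_card_prime {S F : Type*} [CommRing S] [Field F] [Fintype F]
    (hF : (Fintype.card F).Prime) (f g : S →+* F) (h : RingHom.ker f = RingHom.ker g) :
    f = g := by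
  ext x
  let e := ZMod.ringEquivOfPrime F hF rfl
  have hn : f x = ((e.symm (f x)).val : F) := by
    have : NeZero (Fintype.card F) := ⟨hF.ne_zero⟩
    conv_lhs => rw [← e.apply_symm_apply (f x), ← ZMod.natCast_zmod_val (e.symm (f x))]
    rw [map_natCast]
  set n := (e.symm (f x)).val
  have h1 : x - (n : S) ∈ RingHom.ker f := by
    rw [RingHom.mem_ker, map_sub, map_natCast, hn, sub_self]
  rw [h, RingHom.mem_ker, map_sub, map_natCast, sub_eq_zero] at h1
  rw [hn, h1]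

universe u

variable {p : ℕ} [hp : Fact p.Prime] {K : Type u} [Field K] [NumberField K]

omit hp in
/-- The residue field of a prime of prime norm, packaged. -/
lemma exists_residue_field_of_absNorm_prime (q : Ideal (𝓞 K)) (hq : (Ideal.absNorm q).Prime)
    (hqp : Ideal.absNorm q ≠ p) (hp : p.Prime) :
    ∃ (F : Type u) (_ : Field F) (_ : Fintype F) (π : 𝓞 K →+* F),
      RingHom.ker π = q ∧ Fintype.card F = Ideal.absNorm q ∧ (p : F) ≠ 0 := by
  have hq0 : q ≠ ⊥ := by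
    rintro rfl
    rw [Ideal.absNorm_bot] at hq
    exact Nat.not_prime_zero hq
  have hqprime : q.IsPrime := Ideal.isPrime_of_irreducible_absNorm hq
  have hqmax : q.IsMaximal := hqprime.isMaximal hq0
  let _ : Field (𝓞 K ⧸ q) := Ideal.Quotient.field q
  have hfin : Finite (𝓞 K ⧸ q) := (Ideal.absNorm_ne_zero_iff q).mp hq.ne_zero
  let _ : Fintype (𝓞 K ⧸ q) := Fintype.ofFinite _
  refine ⟨𝓞 K ⧸ q, inferInstance, inferInstance, Ideal.Quotient.mk q, Ideal.mk_ker, ?_, ?_⟩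
  · rw [Ideal.absNorm_apply, Submodule.cardQuot_apply, Nat.card_eq_fintype_card]
  · intro h
    have h1 : (p : 𝓞 K) ∈ q := by
      rw [← Ideal.Quotient.eq_zero_iff_mem, map_natCast]
      exact h
    have h2 : ((Ideal.absNorm q : ℕ) : 𝓞 K) ∈ q := Ideal.absNorm_mem q
    have hcop : Nat.Coprime p (Ideal.absNorm q) := (Nat.coprime_primes hp hq).mpr (Ne.symm hqp)
    obtain ⟨a, b, hab⟩ := Nat.isCoprime_iff_coprime.mpr hcop
    have h3 : (1 : 𝓞 K) ∈ q := by
      have h4 : (1 : 𝓞 K) = (a : 𝓞 K) * (p : 𝓞 K) + (b : 𝓞 K) * ((Ideal.absNorm q : ℕ) : 𝓞 K) := by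
        have := congrArg (Int.cast : ℤ → 𝓞 K) hab
        push_cast at this
        exact this.symm
      rw [h4]
      exact q.add_mem (q.mul_mem_left _ h1) (q.mul_mem_left _ h2)
    exact hqprime.ne_top ((Ideal.eq_top_iff_one q).mpr h3)

/-- Distinctness of the conjugates of a degree one prime not above `p`. -/
theorem modEq_of_comap_eq_comap {ζ : 𝓞 K} (hζ : IsPrimitiveRoot ζ p)
    (q : Ideal (𝓞 K)) (hq : (Ideal.absNorm q).Prime) (hqp : Ideal.absNorm q ≠ p)
    (e e' : 𝓞 K ≃+* 𝓞 K) {c c' : ℕ} (he : e ζ = ζ ^ c) (he' : e' ζ = ζ ^ c')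
    (h : Ideal.comap e q = Ideal.comap e' q) : c ≡ c' [MOD p] := by
  obtain ⟨F, _, _, π, hker, hcard, hpF⟩ := exists_residue_field_of_absNorm_prime q hq hqp hp.out
  have hprim := isPrimitiveRoot_map_of_natCast_ne_zero π hζ hpF
  have h1 : π.comp (e : 𝓞 K →+* 𝓞 K) = π.comp (e' : 𝓞 K →+* 𝓞 K) := by
    refine ringHom_eq_of_ker_eq_of_card_prime (hcard ▸ hq) _ _ ?_
    rw [← RingHom.comap_ker, ← RingHom.comap_ker, hker]
    exact h
  have h2 := congrArg (fun f => f ζ) h1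
  simp only [RingHom.comp_apply, RingHom.coe_coe, he, he', map_pow] at h2
  have hfin : IsOfFinOrder (π ζ) :=
    isOfFinOrder_iff_pow_eq_one.mpr ⟨p, hp.out.pos, hprim.pow_eq_one⟩
  have h3 := hfin.pow_eq_pow_iff_modEq.mp h2
  rwa [← hprim.eq_orderOf] at h3

/-- **Stickelberger for `J(χ,χ)`**, core form: `e c` is any family of ring automorphisms of
`𝓞 K` with `e c ζ = ζ ^ c`. -/
theorem exists_span_eq_prod_comap [IsCyclotomicExtension {p} ℚ K] (hp2 : p ≠ 2)
    {ζ : 𝓞 K} (hζ : IsPrimitiveRoot ζ p)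
    (q : Ideal (𝓞 K)) (hq : (Ideal.absNorm q).Prime) (hqp : Ideal.absNorm q ≠ p)
    (e : ℕ → (𝓞 K ≃+* 𝓞 K)) (he : ∀ c, 1 ≤ c → c < p → e c ζ = ζ ^ c) :
    ∃ β : 𝓞 K, Ideal.span {β} = ∏ c ∈ Finset.Icc 1 ((p - 1) / 2), Ideal.comap (e c) q := by
  obtain ⟨F, _, _, π, hker, hcard, hpF⟩ := exists_residue_field_of_absNorm_prime q hq hqp hp.out
  obtain ⟨χ, hχπ, hχp, hχ1⟩ := exists_residue_mulChar π hζ hpF
  have hp3 : 3 ≤ p := by
    have := hp.out.two_le
    omega
  have hodd : p % 2 = 1 := by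
    rcases hp.out.eq_two_or_odd with h | h
    · exact absurd h hp2
    · exact h
  set β := jacobiSum χ χ with hβ
  refine ⟨β, ?_⟩
  have hq0 : q ≠ ⊥ := by
    rintro rfl
    rw [Ideal.absNorm_bot] at hq
    exact Nat.not_prime_zero hq
  have hqprime : q.IsPrime := Ideal.isPrime_of_irreducible_absNorm hq
  have hmax : ∀ c, (Ideal.comap (e c) q).IsMaximal := by
    intro c
    have h1 : (Ideal.absNorm (Ideal.comap (e c) q)).Prime := by
      rw [absNorm_comap_ringEquiv]; exact hq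
    have h2 : (Ideal.comap (e c) q).IsPrime := Ideal.isPrime_of_irreducible_absNorm h1
    refine h2.isMaximal ?_
    intro h3
    rw [h3, Ideal.absNorm_bot] at h1
    exact Nat.not_prime_zero h1
  -- divisibility
  have hdvd : (∏ c ∈ Finset.Icc 1 ((p - 1) / 2), Ideal.comap (e c) q) ∣ Ideal.span {β} := by
    refine Finset.prod_dvd_of_coprime ?_ ?_
    · intro c hc c' hc' hcc'
      have := hmax c
      have := hmax c'
      refine Ideal.isCoprime_of_isMaximal ?_
      intro h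
      have hc1 := Finset.mem_Icc.mp (Finset.mem_coe.mp hc)
      have hc2 := Finset.mem_Icc.mp (Finset.mem_coe.mp hc')
      have h1 := modEq_of_comap_eq_comap hζ q hq hqp (e c) (e c') (he c (by omega) (by omega))
        (he c' (by omega) (by omega)) h
      apply hcc'
      exact Nat.ModEq.eq_of_lt_of_lt h1 (by omega) (by omega)
    · intro c hc
      have hc1 := Finset.mem_Icc.mp hc
      rw [Ideal.dvd_span_singleton, Ideal.mem_comap, ← hker, RingHom.mem_ker]
      exact map_map_jacobiSum_eq_zero π hζ hpF hχp hχπ (e c : 𝓞 K →+* 𝓞 K) c (by omega)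
        (by omega) (he c (by omega) (by omega))
  -- norms
  have hmul : β * (e (p - 1)) β = (Fintype.card F : 𝓞 K) :=
    jacobiSum_mul_map_jacobiSum hζ hp2 hχp hχ1 (e (p - 1) : 𝓞 K →+* 𝓞 K)
      (he (p - 1) (by omega) (by omega))
  have hnorm : Ideal.absNorm (Ideal.span {β}) * Ideal.absNorm (Ideal.span {β}) =
      (Ideal.absNorm q) ^ (p - 1) := by
    conv_lhs => rhs; rw [← absNorm_span_map_ringEquiv (e (p - 1)) β]
    rw [← map_mul, Ideal.span_singleton_mul_span_singleton, hmul, hcard,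
      Ideal.absNorm_span_natCast, RingOfIntegers.rank, IsCyclotomicExtension.Rat.finrank p K,
      Nat.totient_prime hp.out]
  have hnorm' : Ideal.absNorm (Ideal.span {β}) = (Ideal.absNorm q) ^ ((p - 1) / 2) := by
    have h2 : p - 1 = (p - 1) / 2 + (p - 1) / 2 := by omega
    rw [h2, pow_add] at hnorm
    exact Nat.mul_self_inj.mp hnorm
  obtain ⟨I', hI'⟩ := hdvd
  have hprodnorm : Ideal.absNorm (∏ c ∈ Finset.Icc 1 ((p - 1) / 2), Ideal.comap (e c) q) =
      (Ideal.absNorm q) ^ ((p - 1) / 2) := by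
    rw [map_prod]
    simp only [absNorm_comap_ringEquiv, Finset.prod_const, Nat.card_Icc, Nat.add_sub_cancel]
  have hI'1 : Ideal.absNorm I' = 1 := by
    have h3 := congrArg Ideal.absNorm hI'
    rw [map_mul, hnorm', hprodnorm] at h3
    have hpos : 0 < (Ideal.absNorm q) ^ ((p - 1) / 2) := pow_pos hq.pos _
    exact (Nat.eq_of_mul_eq_mul_left hpos (by rw [mul_one]; exact h3)).symm
  rw [hI', Ideal.absNorm_eq_one_iff.mp hI'1, Ideal.mul_top]

open Pointwise in
/-- **Stickelberger for `J(χ,χ)`**, Galois form: `σ c ∈ Gal(K/ℚ)` with `σ c ζ = ζ ^ c`. -/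
theorem exists_span_eq_prod_inv_smul [IsCyclotomicExtension {p} ℚ K] (hp2 : p ≠ 2)
    {ζ : K} (hζ : IsPrimitiveRoot ζ p)
    (q : Ideal (𝓞 K)) (hq : (Ideal.absNorm q).Prime) (hqp : Ideal.absNorm q ≠ p)
    (σ : ℕ → (K ≃ₐ[ℚ] K)) (hσ : ∀ c, 1 ≤ c → c < p → σ c ζ = ζ ^ c) :
    ∃ β : 𝓞 K, Ideal.span {β} = ∏ c ∈ Finset.Icc 1 ((p - 1) / 2), (σ c)⁻¹ • q := by
  have hζ' : IsPrimitiveRoot hζ.toInteger p := hζ.toInteger_isPrimitiveRoot
  obtain ⟨β, hβ⟩ := exists_span_eq_prod_comap hp2 hζ' q hq hqp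
    (fun c => MulSemiringAction.toRingEquiv (K ≃ₐ[ℚ] K) (𝓞 K) (σ c)) (by
      intro c h1 h2
      apply RingOfIntegers.ext
      have := hσ c h1 h2
      change σ c • (hζ.toInteger : K) = ((hζ.toInteger ^ c : 𝓞 K) : K)
      rw [RingOfIntegers.coe_eq_algebraMap (hζ.toInteger ^ c), map_pow]
      exact this)
  refine ⟨β, hβ.trans ?_⟩
  refine Finset.prod_congr rfl fun c _ => ?_
  ext x
  rw [Ideal.mem_comap, Ideal.mem_inv_pointwise_smul_iff]
  rfl

open Pointwise in
/-- `Gal(K/ℚ)` acts freely on the orbit of a degree one prime not above `p`. -/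
theorem eq_of_smul_eq_smul_of_absNorm_prime [IsCyclotomicExtension {p} ℚ K]
    (q : Ideal (𝓞 K)) (hq : (Ideal.absNorm q).Prime) (hqp : Ideal.absNorm q ≠ p)
    (σ σ' : K ≃ₐ[ℚ] K) (h : σ • q = σ' • q) : σ = σ' := by
  have hζ : IsPrimitiveRoot (IsCyclotomicExtension.zeta p ℚ K) p :=
    IsCyclotomicExtension.zeta_spec p ℚ K
  set ζ := IsCyclotomicExtension.zeta p ℚ K with hζdef
  have hζ' : IsPrimitiveRoot hζ.toInteger p := hζ.toInteger_isPrimitiveRoot
  have hpow : ∀ τ : K ≃ₐ[ℚ] K, ∃ c : ℕ, τ ζ = ζ ^ c := by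
    intro τ
    have h1 : (τ ζ) ^ p = 1 := by rw [← map_pow, hζ.pow_eq_one, map_one]
    obtain ⟨i, -, hi⟩ := hζ.eq_pow_of_pow_eq_one h1
    exact ⟨i, hi.symm⟩
  obtain ⟨c, hc⟩ := hpow σ⁻¹
  obtain ⟨c', hc'⟩ := hpow σ'⁻¹
  have hint : ∀ (τ : K ≃ₐ[ℚ] K) (c : ℕ), τ ζ = ζ ^ c →
      MulSemiringAction.toRingEquiv (K ≃ₐ[ℚ] K) (𝓞 K) τ hζ.toInteger = hζ.toInteger ^ c := by
    intro τ c hτ
    apply RingOfIntegers.ext
    change τ • (hζ.toInteger : K) = ((hζ.toInteger ^ c : 𝓞 K) : K)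
    rw [RingOfIntegers.coe_eq_algebraMap (hζ.toInteger ^ c), map_pow]
    exact hτ
  have hcomap : ∀ τ : K ≃ₐ[ℚ] K,
      Ideal.comap (MulSemiringAction.toRingEquiv (K ≃ₐ[ℚ] K) (𝓞 K) τ⁻¹) q = τ • q := by
    intro τ
    ext x
    rw [Ideal.mem_comap, Ideal.mem_pointwise_smul_iff_inv_smul_mem]
    rfl
  have hmod := modEq_of_comap_eq_comap hζ' q hq hqp _ _ (hint σ⁻¹ c hc) (hint σ'⁻¹ c' hc')
    (by rw [hcomap, hcomap, h])
  have heq : σ⁻¹ ζ = σ'⁻¹ ζ := by
    rw [hc, hc']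
    exact pow_eq_pow_of_modEq hmod hζ.pow_eq_one
  have hinv : σ⁻¹ = σ'⁻¹ := by
    apply AlgEquiv.coe_toAlgHom_injective
    apply (hζ.powerBasis ℚ).algHom_ext
    simpa using heq
  exact inv_injective hinv

end Concrete

end Fermat.Agent.CFT.Stickelberger
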