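import Fermat.Agent.CFT.Basic
import Fermat.Agent.CFT.OrdGal
import Fermat.Agent.CFT.Stickelberger

set_option autoImplicit false

namespace Fermat.Agent.CFT

open IsDedekindDomain NumberField
open scoped Pointwise

variable {K : Type*} [Field K] [NumberField K]

namespace StickelbergerOrd

/-- An automorphism of the cyclotomic field is determined by its value at `ζ`. -/
theorem aut_ext (p : ℕ) [Fact p.Prime] [IsCyclotomicExtension {p} ℚ K]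
    {ζ : K} (hζ : IsPrimitiveRoot ζ p) {σ τ : K ≃ₐ[ℚ] K} (h : σ ζ = τ ζ) : σ = τ := by
  apply AlgEquiv.coe_toAlgHom_injective
  apply (hζ.powerBasis ℚ).algHom_ext
  simpa using h

/-- Existence of `σ_c`. -/
theorem exists_aut (p : ℕ) [Fact p.Prime] [IsCyclotomicExtension {p} ℚ K]
    {ζ : K} (hζ : IsPrimitiveRoot ζ p) (c : ℕ) (hc : 0 < c) (hcp : c < p) :
    ∃ σ : K ≃ₐ[ℚ] K, σ ζ = ζ ^ c := by
  have hp : p.Prime := Fact.out
  have hirr : Irreducible (Polynomial.cyclotomic p ℚ) :=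
    Polynomial.cyclotomic.irreducible_rat hp.pos
  have hcop : c.Coprime p := by
    rw [Nat.coprime_comm]
    exact (Nat.Prime.coprime_iff_not_dvd hp).2 (Nat.not_dvd_of_pos_of_lt hc hcp)
  have hζc : IsPrimitiveRoot (ζ ^ c) p := hζ.pow_of_coprime c hcop
  have h1 := hζ
  have h2 := hζc
  obtain ⟨τ₁, e1⟩ : ∃ τ : K ≃ₐ[ℚ] K, τ (IsCyclotomicExtension.zeta p ℚ K) = ζ :=
    ⟨_, IsCyclotomicExtension.fromZetaAut_spec h1 hirr⟩
  obtain ⟨τ₂, e2⟩ : ∃ τ : K ≃ₐ[ℚ] K, τ (IsCyclotomicExtension.zeta p ℚ K) = ζ ^ c :=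
    ⟨_, IsCyclotomicExtension.fromZetaAut_spec h2 hirr⟩
  refine ⟨τ₂ * τ₁⁻¹, ?_⟩
  rw [AlgEquiv.mul_apply]
  have e3 : τ₁⁻¹ ζ = IsCyclotomicExtension.zeta p ℚ K := by
    rw [← e1]
    exact AlgEquiv.symm_apply_apply _ _
  rw [e3, e2]

end StickelbergerOrd

open StickelbergerOrd in
/-- **Stickelberger for the Jacobi sum `J(χ,χ)`** at a prime `𝔮` of degree one of `ℚ(ζ_p)`:
`(β) = ∏_{0 < c < p/2} σ_c⁻¹ 𝔮`. -/
theorem stickelberger (p : ℕ) [Fact p.Prime] (hp2 : p ≠ 2) [IsCyclotomicExtension {p} ℚ K]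
    (ζ : K) (hζ : IsPrimitiveRoot ζ p) (𝔮 : Pl K) (q : ℕ) (hq : q.Prime) (hqp : q ≠ p)
    (hN : Ideal.absNorm 𝔮.asIdeal = q) :
    ∃ β : Kˣ, (∀ v : Pl K, ¬ Over v q → ord v (β : K) = 0) ∧
      ∀ (σ : K ≃ₐ[ℚ] K) (c : ℕ), 0 < c → c < p → σ ζ = ζ ^ c →
        ord (σ⁻¹ • 𝔮) (β : K) = if 2 * c < p then 1 else 0 := by
  classical
  have hp : p.Prime := Fact.out
  have hodd : p % 2 = 1 := by
    rcases hp.eq_two_or_odd with h | h
    · exact absurd h hp2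
    · exact h
  have hex : ∀ c : ℕ, ∃ σ : K ≃ₐ[ℚ] K, 1 ≤ c → c < p → σ ζ = ζ ^ c := by
    intro c
    by_cases h : 1 ≤ c ∧ c < p
    · obtain ⟨σ, hσ⟩ := exists_aut p hζ c h.1 h.2
      exact ⟨σ, fun _ _ => hσ⟩
    · exact ⟨1, fun h1 h2 => absurd ⟨h1, h2⟩ h⟩
  choose s hs using hex
  have hqN : (Ideal.absNorm 𝔮.asIdeal).Prime := hN ▸ hq
  have hqpN : Ideal.absNorm 𝔮.asIdeal ≠ p := hN ▸ hqp
  obtain ⟨β, hβ⟩ := Stickelberger.exists_span_eq_prod_inv_smul hp2 hζ 𝔮.asIdeal hqN hqpN s hs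
  let w : ℕ → Pl K := fun c => (s c)⁻¹ • 𝔮
  have hβ' : Ideal.span {β} = ∏ c ∈ Finset.Icc 1 ((p - 1) / 2), (w c).asIdeal := hβ
  -- injectivity of `w` on `0 < c < p`
  have hinj : ∀ c c' : ℕ, 1 ≤ c → c < p → 1 ≤ c' → c' < p → w c = w c' → c = c' := by
    intro c c' h1 h2 h1' h2' h
    have h3 : (s c)⁻¹ • 𝔮.asIdeal = (s c')⁻¹ • 𝔮.asIdeal := congrArg (fun v : Pl K => v.asIdeal) h
    have h4 := Stickelberger.eq_of_smul_eq_smul_of_absNorm_prime (p := p) 𝔮.asIdeal hqN hqpN _ _ h3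
    have h5 : s c = s c' := inv_injective h4
    have h6 : ζ ^ c = ζ ^ c' := by rw [← hs c h1 h2, ← hs c' h1' h2', h5]
    exact hζ.pow_inj h2 h2' h6
  have hw : Set.InjOn w (Finset.Icc 1 ((p - 1) / 2) : Finset ℕ) := by
    intro c hc c' hc' h
    have hc1 := Finset.mem_Icc.1 (Finset.mem_coe.1 hc)
    have hc1' := Finset.mem_Icc.1 (Finset.mem_coe.1 hc')
    exact hinj c c' hc1.1 (by omega) hc1'.1 (by omega) h
  have hord := ord_of_span_eq_prod (Finset.Icc 1 ((p - 1) / 2)) w hw hβ'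
  have hβ0 : β ≠ 0 := by
    rintro rfl
    have h0 : (∏ c ∈ Finset.Icc 1 ((p - 1) / 2), (w c).asIdeal) = ⊥ := by
      rw [← hβ']
      simp
    rw [← Ideal.zero_eq_bot, Finset.prod_eq_zero_iff] at h0
    obtain ⟨c, -, hc⟩ := h0
    exact (w c).ne_bot hc
  have hβK : (β : K) ≠ 0 := by
    simpa using hβ0
  have hover : Over 𝔮 q := by
    have := Ideal.absNorm_mem 𝔮.asIdeal
    rw [hN] at this
    exact this
  refine ⟨Units.mk0 (β : K) hβK, ?_, ?_⟩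
  · intro v hv
    rw [Units.val_mk0, hord v, if_neg]
    rintro ⟨c, -, rfl⟩
    exact hv ((over_smul_iff _ _ _).2 hover)
  · intro σ c hc hcp hσ
    have hσs : σ = s c := aut_ext p hζ (by rw [hσ, hs c hc hcp])
    rw [Units.val_mk0, hord, hσs]
    by_cases h2 : 2 * c < p
    · rw [if_pos h2, if_pos]
      exact ⟨c, Finset.mem_Icc.2 ⟨hc, by omega⟩, rfl⟩
    · rw [if_neg h2, if_neg]
      rintro ⟨c', hc', h⟩
      have hc1' := Finset.mem_Icc.1 hc'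
      have := hinj c' c hc1'.1 (by omega) hc hcp h
      omega

end Fermat.Agent.CFT
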