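import Fermat.Agent.CFT.Basic
import Fermat.Agent.CFT.OrdGal
import Fermat.Agent.CFT.UnitOf
import Fermat.Agent.CFT.Config
import Fermat.Agent.CFT.ConfigBasic
import Fermat.Agent.CFT.CycloAut
import Fermat.Agent.CFT.ChooseQ
import Fermat.Agent.CFT.StickelbergerOrd

set_option autoImplicit false

namespace Fermat.Agent.CFT

open IsDedekindDomain NumberField Finset

variable {p : ℕ} [Fact p.Prime] {Ω : Type*} [Field Ω] [NumberField Ω] {ζ : Ω}
  {χ : (Ω ≃ₐ[ℚ] Ω) →* (ZMod p)ˣ} {τ ρ : Ω ≃ₐ[ℚ] Ω}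
variable {K : Type*} [Field K] [NumberField K] [Algebra K Ω]

/-- **The Jacobi sum**, seen in `Ω`. -/
theorem QData.exists_beta [IsGalois ℚ Ω] [IsCyclotomicExtension {p} ℚ K] (hp2 : p ≠ 2)
    (cfg : Config p ζ χ τ ρ) (hK : FixK K χ) {𝔔 : Pl Ω} {q : ℕ} (qd : QData p χ τ ρ 𝔔 q) :
    ∃ β : Kˣ, (∀ P : Pl Ω, ¬ Over P q → ord P (algebraMap K Ω β) = 0) ∧
      ∀ s : Ω ≃ₐ[ℚ] Ω, ord (s⁻¹ • 𝔔) (algebraMap K Ω β) =
        if 2 * (χ s : ZMod p).val < p then 1 else 0 := by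
  classical
  have hp : p.Prime := Fact.out
  -- `ζ ^ p` comes from `K`
  have hτ : τ (ζ ^ p) = ζ ^ p := by rw [map_pow, cfg.τζ]
  have hρ : ρ (ζ ^ p) = ζ ^ p := (cfg.χ_eq_one_iff ρ).1 cfg.χρ
  obtain ⟨ζK, hζK⟩ := cfg.mem_range_of_fixed hK hτ hρ
  have hprimΩ : IsPrimitiveRoot (ζ ^ p) p :=
    cfg.hζ.pow (pow_pos hp.pos 2) (by ring)
  have hprimK : IsPrimitiveRoot ζK p := by
    have h1 : IsPrimitiveRoot (algebraMap K Ω ζK) p := by rw [hζK]; exact hprimΩ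
    exact h1.of_map_of_injective (FaithfulSMul.algebraMap_injective K Ω)
  -- the place below `𝔔`
  obtain ⟨𝔮, h𝔮⟩ := exists_below (N := K) 𝔔
  have hN : Ideal.absNorm 𝔮.asIdeal = q :=
    qd.absNorm_eq cfg hK 1 (by rw [one_smul]; exact h𝔮)
  obtain ⟨β, hβ1, hβ2⟩ := stickelberger p hp2 ζK hprimK 𝔮 q qd.prime qd.ne hN
  refine ⟨β, ?_, ?_⟩
  · intro P hP
    obtain ⟨v, hv⟩ := exists_below (N := K) P
    rw [ord_algebraMap_eq_zero_iff hv]
    exact hβ1 v (fun h => hP ((over_of_above hv q).2 h))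
  · intro s
    have : IsGalois ℚ K := IsCyclotomicExtension.isGalois {p} ℚ K
    let sK : K ≃ₐ[ℚ] K := AlgEquiv.restrictNormal s K
    have hsK : ∀ x : K, s (algebraMap K Ω x) = algebraMap K Ω (sK x) :=
      fun x => (AlgEquiv.restrictNormal_commutes s K x).symm
    have hsKinv : ∀ x : K, s⁻¹ (algebraMap K Ω x) = algebraMap K Ω (sK⁻¹ x) := by
      intro x
      have h1 := hsK (sK⁻¹ x)
      rw [show sK (sK⁻¹ x) = x from sK.apply_symm_apply x] at h1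
      rw [← h1]
      exact s.symm_apply_apply _
    have habove : Above (s⁻¹ • 𝔔) (sK⁻¹ • 𝔮) := above_smul_smul h𝔮 s⁻¹ sK⁻¹ hsKinv
    have hnotp : ¬ Over (s⁻¹ • 𝔔) p := by
      intro h
      have h1 : Over (s⁻¹ • 𝔔) q := (over_smul_iff _ _ _).2 qd.overq
      exact qd.ne (over_unique _ qd.prime hp h1 h)
    rw [cfg.ord_algebraMap habove hnotp]
    have hc0 : 0 < (χ s : ZMod p).val := by
      rw [Nat.pos_iff_ne_zero, Ne, ZMod.val_eq_zero]
      exact (χ s).ne_zero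
    have hcp : (χ s : ZMod p).val < p := ZMod.val_lt _
    refine hβ2 sK _ hc0 hcp ?_
    apply (algebraMap K Ω).injective
    rw [← hsK, map_pow, hζK]
    exact cfg.hχ s

end Fermat.Agent.CFT
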