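import Fermat.Agent.CFT.Basic
import Fermat.Agent.CFT.OrdGal
import Fermat.Agent.CFT.UnitOf
import Fermat.Agent.CFT.Stickelberger

set_option autoImplicit false

namespace Fermat.Agent.CFT

open IsDedekindDomain NumberField Finset

/-- `Θ(x) = ∏_{v ∤ p} (N v)^(ord_v x) ∈ (ℤ/p²)ˣ`. -/
noncomputable def Theta (p : ℕ) {K : Type*} [Field K] [NumberField K] (x : K) : (ZMod (p ^ 2))ˣ :=
  ∏ᶠ v : Pl K, (unitOf p (Ideal.absNorm v.asIdeal)) ^ (ord v x)

variable (p : ℕ) [hp : Fact p.Prime] {K : Type*} [Field K] [NumberField K]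

theorem unitOf_absNorm_of_over {v : Pl K} (hv : Over v p) :
    unitOf p (Ideal.absNorm v.asIdeal) = 1 := by
  obtain ⟨f, hf, h⟩ := absNorm_eq_pow_of_over v hp.out hv
  rw [h]
  exact unitOf_of_dvd p (dvd_pow_self p hf.ne')

theorem not_dvd_absNorm_of_not_over {v : Pl K} (hv : ¬ Over v p) :
    ¬ p ∣ Ideal.absNorm v.asIdeal := by
  intro h
  obtain ⟨ℓ, hℓ, hvℓ⟩ := exists_prime_over v
  obtain ⟨f, -, hf⟩ := absNorm_eq_pow_of_over v hℓ hvℓ
  rw [hf] at h
  have h1 : p ∣ ℓ := hp.out.dvd_of_dvd_pow h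
  have h2 : p = ℓ := (Nat.prime_dvd_prime_iff_eq hp.out hℓ).mp h1
  exact hv (h2 ▸ hvℓ)

namespace Theta

theorem mulSupport_finite {x : K} (hx : x ≠ 0) :
    (Function.mulSupport fun v : Pl K => (unitOf p (Ideal.absNorm v.asIdeal)) ^ (ord v x)).Finite := by
  refine (finite_ord_ne_zero hx).subset ?_
  intro v hv h0
  apply hv
  simp only [h0, zpow_zero]

end Theta

@[simp] theorem Theta_one : Theta p (1 : K) = 1 := by
  unfold Theta
  simp

theorem Theta_mul {x y : K} (hx : x ≠ 0) (hy : y ≠ 0) :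
    Theta p (x * y) = Theta p x * Theta p y := by
  unfold Theta
  rw [← finprod_mul_distrib (Theta.mulSupport_finite p hx) (Theta.mulSupport_finite p hy)]
  refine finprod_congr fun v => ?_
  rw [ord_mul v hx hy, zpow_add]

theorem Theta_inv (x : K) : Theta p x⁻¹ = (Theta p x)⁻¹ := by
  unfold Theta
  rw [← finprod_inv_distrib]
  refine finprod_congr fun v => ?_
  rw [ord_inv, zpow_neg]

theorem Theta_div {x y : K} (hx : x ≠ 0) (hy : y ≠ 0) :
    Theta p (x / y) = Theta p x / Theta p y := by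
  rw [div_eq_mul_inv, Theta_mul p hx (inv_ne_zero hy), Theta_inv, div_eq_mul_inv]

theorem Theta_eq_prod {x : K} (s : Finset (Pl K))
    (hs : ∀ v : Pl K, v ∉ s → (unitOf p (Ideal.absNorm v.asIdeal)) ^ (ord v x) = 1) :
    Theta p x = ∏ v ∈ s, (unitOf p (Ideal.absNorm v.asIdeal)) ^ (ord v x) := by
  unfold Theta
  refine finprod_eq_prod_of_mulSupport_subset _ ?_
  intro v hv
  by_contra h
  exact hv (hs v h)

theorem Theta_eq_one_of_forall {x : K}
    (h : ∀ v : Pl K, ¬ Over v p → (unitOf p (Ideal.absNorm v.asIdeal)) ^ (ord v x) = 1) :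
    Theta p x = 1 := by
  unfold Theta
  refine finprod_eq_one_of_forall_eq_one fun v => ?_
  by_cases hv : Over v p
  · rw [unitOf_absNorm_of_over p hv, one_zpow]
  · exact h v hv

namespace Theta

/-- `N v ≡ 1 mod p` for `v ∤ p` when `K ∋ ζ_p`. -/
theorem absNorm_modEq_one {η : K} (hη : IsPrimitiveRoot η p) {v : Pl K} (hv : ¬ Over v p) :
    Ideal.absNorm v.asIdeal ≡ 1 [MOD p] := by
  have hmax : v.asIdeal.IsMaximal := v.isMaximal
  let _ : Field (𝓞 K ⧸ v.asIdeal) := Ideal.Quotient.field v.asIdeal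
  have hne : Ideal.absNorm v.asIdeal ≠ 0 := by
    rw [Ne, Ideal.absNorm_eq_zero_iff]
    exact v.ne_bot
  have hfin : Finite (𝓞 K ⧸ v.asIdeal) := (Ideal.absNorm_ne_zero_iff _).mp hne
  let _ : Fintype (𝓞 K ⧸ v.asIdeal) := Fintype.ofFinite _
  have hcard : Fintype.card (𝓞 K ⧸ v.asIdeal) = Ideal.absNorm v.asIdeal := by
    rw [Ideal.absNorm_apply, Submodule.cardQuot_apply, Nat.card_eq_fintype_card]
  have hpF : ((p : ℕ) : 𝓞 K ⧸ v.asIdeal) ≠ 0 := by
    intro h
    apply hv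
    change (p : 𝓞 K) ∈ v.asIdeal
    rw [← Ideal.Quotient.eq_zero_iff_mem, map_natCast]
    exact h
  have h1 := Stickelberger.dvd_card_sub_one_of_primitiveRoot (Ideal.Quotient.mk v.asIdeal)
    hη.toInteger_isPrimitiveRoot hpF
  rw [hcard] at h1
  have hpos : 1 ≤ Ideal.absNorm v.asIdeal := Nat.one_le_iff_ne_zero.mpr hne
  exact ((Nat.modEq_iff_dvd' hpos).mpr h1).symm

end Theta

/-- If `K ∋ ζ_p` then `N v ≡ 1 mod p` for `v ∤ p`, so `Θ` takes values in `⟨1 + p⟩`. -/
theorem exists_unitOf_absNorm_eq_pow {η : K} (hη : IsPrimitiveRoot η p) (v : Pl K) :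
    ∃ j : ℕ, unitOf p (Ideal.absNorm v.asIdeal) = unitOf p (1 + p) ^ j := by
  by_cases hv : Over v p
  · exact ⟨0, by rw [unitOf_absNorm_of_over p hv, pow_zero]⟩
  · exact exists_unitOf_eq_pow p (Theta.absNorm_modEq_one p hη hv)

theorem exists_Theta_eq_pow {η : K} (hη : IsPrimitiveRoot η p) (x : K) :
    ∃ j : ℕ, Theta p x = unitOf p (1 + p) ^ j := by
  have h : Theta p x ∈ Subgroup.zpowers (unitOf p (1 + p)) := by
    unfold Theta
    refine finprod_induction (· ∈ Subgroup.zpowers (unitOf p (1 + p))) (one_mem _)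
      (fun a b ha hb => mul_mem ha hb) fun v => ?_
    obtain ⟨j, hj⟩ := exists_unitOf_absNorm_eq_pow p hη v
    rw [hj]
    exact zpow_mem (pow_mem (Subgroup.mem_zpowers _) _) _
  rw [← mem_powers_iff_mem_zpowers] at h
  obtain ⟨j, hj⟩ := h
  exact ⟨j, hj.symm⟩

namespace Theta

theorem exists_prod_eq (s : Finset (Pl K)) (n : Pl K → ℤ) :
    ∃ (k : ℤ) (a b : ℕ), ¬ p ∣ a ∧ ¬ p ∣ b ∧
      ∏ v ∈ s, ((Ideal.absNorm v.asIdeal : ℕ) : ℚ) ^ (n v) = (p : ℚ) ^ k * a / b ∧
      ∏ v ∈ s, (unitOf p (Ideal.absNorm v.asIdeal)) ^ (n v) = unitOf p a / unitOf p b := by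
  classical
  have hp0 : (p : ℚ) ≠ 0 := Nat.cast_ne_zero.mpr hp.out.ne_zero
  have hp1 : ¬ p ∣ 1 := hp.out.one_lt.ne' ∘ Nat.dvd_one.mp
  induction s using Finset.induction_on with
  | empty => exact ⟨0, 1, 1, hp1, hp1, by simp, by simp⟩
  | insert v s hv ih =>
    obtain ⟨k, a, b, ha, hb, h1, h2⟩ := ih
    rw [Finset.prod_insert hv, Finset.prod_insert hv, h1, h2]
    have hb0 : (b : ℚ) ≠ 0 := by
      intro h
      apply hb
      rw [Nat.cast_eq_zero.mp h]
      exact dvd_zero p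
    by_cases hvp : Over v p
    · obtain ⟨f, -, hf⟩ := absNorm_eq_pow_of_over v hp.out hvp
      refine ⟨f * n v + k, a, b, ha, hb, ?_, ?_⟩
      · rw [hf, zpow_add₀ hp0, zpow_mul, zpow_natCast]
        push_cast
        ring
      · rw [unitOf_absNorm_of_over p hvp, one_zpow, one_mul]
    · have hN := not_dvd_absNorm_of_not_over p hvp
      set q := Ideal.absNorm v.asIdeal with hq
      have hq0 : (q : ℚ) ≠ 0 := by
        intro h
        apply hN
        rw [Nat.cast_eq_zero.mp h]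
        exact dvd_zero p
      have hqm : ∀ m : ℕ, ¬ p ∣ q ^ m := fun m h => hN (hp.out.dvd_of_dvd_pow h)
      rcases le_total 0 (n v) with hn | hn
      · obtain ⟨m, hm⟩ := Int.eq_ofNat_of_zero_le hn
        refine ⟨k, q ^ m * a, b, ?_, hb, ?_, ?_⟩
        · intro h
          rcases (Nat.Prime.dvd_mul hp.out).mp h with h | h
          · exact hqm m h
          · exact ha h
        · rw [hm, zpow_natCast]
          push_cast
          ring
        · rw [hm, zpow_natCast, unitOf_mul p (hqm m) ha, unitOf_pow, mul_div_assoc]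
      · obtain ⟨m, hm⟩ := Int.eq_ofNat_of_zero_le (neg_nonneg.mpr hn)
        have hm' : n v = -(m : ℤ) := by omega
        refine ⟨k, a, q ^ m * b, ha, ?_, ?_, ?_⟩
        · intro h
          rcases (Nat.Prime.dvd_mul hp.out).mp h with h | h
          · exact hqm m h
          · exact hb h
        · rw [hm', zpow_neg, zpow_natCast]
          push_cast
          field_simp
        · rw [hm', zpow_neg, zpow_natCast, unitOf_mul p (hqm m) hb, unitOf_pow]
          rw [div_mul_eq_div_div_swap, div_eq_mul_inv, div_eq_mul_inv, mul_comm]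

end Theta

/-- **Relation with the norm** (product formula): `|N_{K/ℚ} x| = p^k a / b` with `a, b` prime to `p`
and `Θ(x) = [a]/[b]`. -/
theorem exists_norm_eq_Theta {x : K} (hx : x ≠ 0) :
    ∃ (k : ℤ) (a b : ℕ), ¬ p ∣ a ∧ ¬ p ∣ b ∧ |Algebra.norm ℚ x| = (p : ℚ) ^ k * a / b ∧
      Theta p x = unitOf p a / unitOf p b := by
  classical
  set s := (finite_ord_ne_zero hx).toFinset with hs
  have hmem : ∀ v : Pl K, v ∉ s → ord v x = 0 := by
    intro v hv
    by_contra h
    exact hv ((Set.Finite.mem_toFinset _).mpr h)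
  obtain ⟨k, a, b, ha, hb, h1, h2⟩ := Theta.exists_prod_eq p s (fun v => ord v x)
  refine ⟨k, a, b, ha, hb, ?_, ?_⟩
  · rw [abs_norm_eq_finprod hx, ← h1]
    refine finprod_eq_prod_of_mulSupport_subset _ ?_
    intro v hv
    by_contra h
    apply hv
    simp only [hmem v h, zpow_zero]
  · rw [← h2]
    refine Theta_eq_prod p s fun v hv => ?_
    rw [hmem v hv, zpow_zero]

end Fermat.Agent.CFT
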