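import Fermat.Agent.CFT.Basic
import Fermat.Agent.CFT.OrdGal
import Fermat.Agent.CFT.UnitOf
import Fermat.Agent.CFT.Config
import Fermat.Agent.CFT.ConfigBasic
import Fermat.Agent.CFT.CycloAut
import Fermat.Agent.CFT.FrobK
import Fermat.Agent.CFT.Theta

set_option autoImplicit false

namespace Fermat.Agent.CFT

open IsDedekindDomain NumberField Finset

variable {p : ℕ} [Fact p.Prime] {Ω : Type*} [Field Ω] [NumberField Ω] {ζ : Ω}
  {χ : (Ω ≃ₐ[ℚ] Ω) →* (ZMod p)ˣ} {τ ρ : Ω ≃ₐ[ℚ] Ω}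
variable {K : Type*} [Field K] [NumberField K] [Algebra K Ω]

/-- **Frobenius over `K`** in a `Config`: for `v ∤ p` and `P ∣ v` some `τ^i ρ^j` fixes `P` and
`N v ≡ (1+p)^j mod p²`. -/
theorem Config.exists_frob [IsGalois ℚ Ω] (cfg : Config p ζ χ τ ρ) (hK : FixK K χ) {P : Pl Ω}
    {v : Pl K} (h : Above P v) (hv : ¬ Over v p) :
    ∃ i j : ℕ, (τ ^ i * ρ ^ j) • P = P ∧
      unitOf p (Ideal.absNorm v.asIdeal) = unitOf p (1 + p) ^ j := by
  haveI : IsGalois K Ω := IsGalois.tower_top_of_isGalois ℚ K Ω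
  have hp : p.Prime := Fact.out
  obtain ⟨σ', hσP, hσ⟩ := exists_frob_above P v h
  obtain ⟨i, j, hij⟩ := cfg.restrictScalars_eq hK σ'
  refine ⟨i, j, ?_, ?_⟩
  · rw [← hij, restrictScalars_smul, hσP]
  · have hP : ¬ Over P p := fun hP => hv ((over_of_above h p).mp hP)
    have h1 : (σ'.restrictScalars ℚ) ζ = ζ ^ (Ideal.absNorm v.asIdeal) :=
      map_zeta_eq_pow_of_frob cfg.hζ P (not_over_sq P hP) _ _ (fun x => hσ x)
    rw [hij, cfg.map_zeta] at h1
    have hN : ¬ p ∣ Ideal.absNorm v.asIdeal := not_dvd_absNorm_of_not_over p hv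
    have h1p : ¬ p ∣ (1 + p) ^ j := by
      intro hd
      have h2 : p ∣ 1 + p := hp.dvd_of_dvd_pow hd
      have h3 : p ∣ 1 := (Nat.dvd_add_left (dvd_refl p)).mp h2
      exact hp.one_lt.ne' (Nat.dvd_one.mp h3)
    have h4 := (pow_eq_pow_iff_unitOf p cfg.hζ h1p hN).mp h1
    rw [unitOf_pow] at h4
    exact h4.symm

end Fermat.Agent.CFT
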