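import Fermat.Agent.CFT.UnitOf

set_option autoImplicit false

namespace Fermat.Agent.CFT

namespace GroupC

section

variable {p : ℕ} [Fact p.Prime] {Γ : Type*} [Group Γ] {χ : Γ →* (ZMod p)ˣ} {b : Γ → ZMod p}

theorem b_one (hb : ∀ σ₁ σ₂, b (σ₁ * σ₂) = b σ₂ + (χ σ₂ : ZMod p) * b σ₁) : b 1 = 0 := by
  have h := hb 1 1
  simp only [mul_one, map_one, Units.val_one, one_mul] at h
  linear_combination -h

theorem b_inv (hb : ∀ σ₁ σ₂, b (σ₁ * σ₂) = b σ₂ + (χ σ₂ : ZMod p) * b σ₁) (σ : Γ) :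
    b σ + (χ σ : ZMod p) * b σ⁻¹ = 0 := by
  have h := hb σ⁻¹ σ
  rw [inv_mul_cancel, b_one hb] at h
  exact h.symm

theorem b_inv' (hb : ∀ σ₁ σ₂, b (σ₁ * σ₂) = b σ₂ + (χ σ₂ : ZMod p) * b σ₁) (σ : Γ) :
    b σ⁻¹ + (χ σ⁻¹ : ZMod p) * b σ = 0 := by
  have h := hb σ σ⁻¹
  rw [mul_inv_cancel, b_one hb] at h
  exact h.symm

theorem b_conj (hb : ∀ σ₁ σ₂, b (σ₁ * σ₂) = b σ₂ + (χ σ₂ : ZMod p) * b σ₁) (σ t : Γ)
    (ht : χ t = 1) : b (σ⁻¹ * t * σ) = (χ σ : ZMod p) * b t := by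
  rw [hb, hb, ht]
  have h := b_inv hb σ
  simp only [Units.val_one, one_mul]
  linear_combination h

theorem b_pow (hb : ∀ σ₁ σ₂, b (σ₁ * σ₂) = b σ₂ + (χ σ₂ : ZMod p) * b σ₁) (t : Γ)
    (ht : χ t = 1) (k : ℕ) : b (t ^ k) = k * b t := by
  induction k with
  | zero => simp [b_one hb]
  | succ k ih =>
    rw [pow_succ, hb, ht, ih]
    push_cast
    ring

theorem key {A : Type*} [CommGroup A] {ψ : Γ →* A}
    (hb : ∀ σ₁ σ₂, b (σ₁ * σ₂) = b σ₂ + (χ σ₂ : ZMod p) * b σ₁)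
    (hfaith : ∀ σ, ψ σ = 1 → b σ = 0 → σ = 1) {x y : Γ} (h1 : ψ x = ψ y) (h2 : b x = b y) :
    x = y := by
  have h3 : x * y⁻¹ = 1 := by
    apply hfaith
    · rw [map_mul, map_inv, h1, mul_inv_cancel]
    · rw [hb, h2]
      exact b_inv' hb y
  exact mul_inv_eq_one.mp h3

end

end GroupC

open GroupC in
/-- **Abstract group theory of Theorem C.**  `Γ` a group with characters `χ` (mod `p`), `ψ` (mod `p²`),
`ker χ = ψ⁻¹⟨1+p⟩`, a cocycle `b`, `(ψ, b)` faithful; `ψ` hits `1+p`, `χ ≠ 1`, `b ≠ 0` on `ker χ`.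
Then `ker χ = ⟨τ⟩ × ⟨ρ⟩ ≅ (ℤ/p)²` with the stated conjugation formulas. -/
theorem exists_tau_rho (p : ℕ) [Fact p.Prime] {Γ : Type*} [Group Γ]
    (χ : Γ →* (ZMod p)ˣ) (ψ : Γ →* (ZMod (p ^ 2))ˣ)
    (hχψ : ∀ σ, χ σ = 1 ↔ ∃ j : ℕ, ψ σ = unitOf p (1 + p) ^ j)
    (b : Γ → ZMod p) (hb : ∀ σ₁ σ₂, b (σ₁ * σ₂) = b σ₂ + (χ σ₂ : ZMod p) * b σ₁)
    (hfaith : ∀ σ, ψ σ = 1 → b σ = 0 → σ = 1)
    (r : Γ) (hr : ψ r = unitOf p (1 + p)) (σ₀ : Γ) (hσ₀ : χ σ₀ ≠ 1)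
    (t₀ : Γ) (ht₀ : χ t₀ = 1) (hbt₀ : b t₀ ≠ 0) :
    ∃ τ ρ : Γ, ψ τ = 1 ∧ b τ = 1 ∧ ψ ρ = unitOf p (1 + p) ∧ b ρ = 0 ∧
      orderOf τ = p ∧ orderOf ρ = p ∧ τ * ρ = ρ * τ ∧
      (∀ σ, σ⁻¹ * τ * σ = τ ^ ((χ σ : ZMod p).val)) ∧ (∀ σ, σ⁻¹ * ρ * σ = ρ) ∧
      (∀ σ, χ σ = 1 → ∃ i j : ℕ, σ = τ ^ i * ρ ^ j) ∧
      (∀ i j : ℕ, b (τ ^ i * ρ ^ j) = i) := by
  have hp : p.Prime := Fact.out
  have hχ_of_ψ : ∀ σ, ψ σ = 1 → χ σ = 1 := fun σ h => (hχψ σ).mpr ⟨0, by simpa using h⟩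
  -- the element `t1`
  set t1 : Γ := σ₀⁻¹ * t₀ * σ₀ * t₀⁻¹ with ht1
  have hψt1 : ψ t1 = 1 := by
    rw [ht1]
    simp only [map_mul, map_inv]
    rw [mul_comm (ψ σ₀)⁻¹ (ψ t₀), mul_assoc (ψ t₀), inv_mul_cancel, mul_one, mul_inv_cancel]
  have hχt1 : χ t1 = 1 := hχ_of_ψ _ hψt1
  have hbt1 : b t1 = ((χ σ₀ : ZMod p) - 1) * b t₀ := by
    rw [ht1, hb, b_conj hb σ₀ t₀ ht₀]
    have h := b_inv' hb t₀
    rw [map_inv, ht₀] at h ⊢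
    simp only [inv_one, Units.val_one, one_mul] at h ⊢
    linear_combination h
  have hbt1_ne : b t1 ≠ 0 := by
    rw [hbt1]
    refine mul_ne_zero ?_ hbt₀
    intro h
    apply hσ₀
    apply Units.ext
    rw [Units.val_one]
    exact sub_eq_zero.mp h
  -- `τ`
  set τ : Γ := t1 ^ ((b t1)⁻¹).val with hτ
  have hψτ : ψ τ = 1 := by rw [hτ, map_pow, hψt1, one_pow]
  have hχτ : χ τ = 1 := hχ_of_ψ _ hψτ
  have hbτ : b τ = 1 := by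
    rw [hτ, b_pow hb t1 hχt1, ZMod.natCast_zmod_val, inv_mul_cancel₀ hbt1_ne]
  clear_value τ
  have hχr : χ r = 1 := (hχψ r).mpr ⟨1, by rw [pow_one, hr]⟩
  -- `ρ`
  set ρ : Γ := r * τ ^ (- b r).val with hρ
  have hψρ : ψ ρ = unitOf p (1 + p) := by
    rw [hρ, map_mul, map_pow, hψτ, one_pow, mul_one, hr]
  have hχρ : χ ρ = 1 := (hχψ ρ).mpr ⟨1, by rw [pow_one, hψρ]⟩
  have hbρ : b ρ = 0 := by
    rw [hρ, hb, b_pow hb τ hχτ, map_pow, hχτ, one_pow, hbτ, ZMod.natCast_zmod_val]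
    simp
  clear_value ρ
  have hbτρ : ∀ i j : ℕ, b (τ ^ i * ρ ^ j) = i := by
    intro i j
    rw [hb, b_pow hb ρ hχρ, b_pow hb τ hχτ, map_pow, hχρ, one_pow, hbρ, hbτ]
    simp
  have hψτρ : ∀ i j : ℕ, ψ (τ ^ i * ρ ^ j) = unitOf p (1 + p) ^ j := by
    intro i j
    rw [map_mul, map_pow, map_pow, hψτ, hψρ, one_pow, one_mul]
  have hkey : ∀ {x y : Γ}, ψ x = ψ y → b x = b y → x = y := fun h1 h2 => key hb hfaith h1 h2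
  refine ⟨τ, ρ, hψτ, hbτ, hψρ, hbρ, ?_, ?_, ?_, ?_, ?_, ?_, hbτρ⟩
  · apply orderOf_eq_prime
    · apply hfaith
      · rw [map_pow, hψτ, one_pow]
      · rw [b_pow hb τ hχτ]
        simp
    · intro h
      have := b_one hb
      rw [← h, hbτ] at this
      exact one_ne_zero this
  · apply orderOf_eq_prime
    · apply hfaith
      · rw [map_pow, hψρ]
        exact (unitOf_one_add_pow_eq_one_iff p p).2 (dvd_refl p)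
      · rw [b_pow hb ρ hχρ, hbρ, mul_zero]
    · intro h
      rw [h, map_one] at hψρ
      have := (unitOf_one_add_pow_eq_one_iff p 1).1 (by rw [pow_one]; exact hψρ.symm)
      exact UnitOf.not_dvd_one p this
  · apply hkey
    · rw [map_mul, map_mul, mul_comm]
    · rw [hb, hb, hχρ, hχτ, hbρ, hbτ]
      simp
  · intro σ
    apply hkey
    · rw [map_mul, map_mul, map_pow, hψτ, map_inv]
      simp
    · rw [b_conj hb σ τ hχτ, b_pow hb τ hχτ, hbτ, ZMod.natCast_zmod_val]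
  · intro σ
    apply hkey
    · rw [map_mul, map_mul, map_inv, mul_comm (ψ σ)⁻¹, mul_assoc, inv_mul_cancel, mul_one]
    · rw [b_conj hb σ ρ hχρ, hbρ, mul_zero]
  · intro σ hσ
    obtain ⟨j, hj⟩ := (hχψ σ).mp hσ
    refine ⟨(b σ).val, j, ?_⟩
    apply hkey
    · rw [hψτρ, hj]
    · rw [hbτρ, ZMod.natCast_zmod_val]

end Fermat.Agent.CFT
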