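import Fermat.Agent.CFT.Basic
import Fermat.Agent.CFT.OrdGal
import Fermat.Agent.CFT.UnitOf
import Fermat.Agent.CFT.CycloAut

set_option autoImplicit false

namespace Fermat.Agent.CFT

open IsDedekindDomain NumberField

variable {Ω : Type*} [Field Ω] [NumberField Ω]

namespace InertiaP

/-- A place over `p` (in the sense of `Over`) lies over the ideal `(p)` of `ℤ`. -/
theorem liesOver_of_over {K : Type*} [Field K] [NumberField K] (p : ℕ) [Fact p.Prime] (v : Pl K)
    (hv : Over v p) : v.asIdeal.LiesOver (Ideal.span {(p : ℤ)}) := by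
  rw [Ideal.liesOver_iff]
  refine Ideal.IsMaximal.eq_of_le (Int.ideal_span_isMaximal_of_prime p) Ideal.IsPrime.ne_top' ?_
  rw [Ideal.span_singleton_le_iff_mem, Ideal.mem_comap, algebraMap_int_eq, map_natCast]
  exact hv

/-- In `ℚ(ζ_{p²})` there is only one place over `p`. -/
theorem over_unique_cyclo {K : Type*} [Field K] [NumberField K] (p : ℕ) [Fact p.Prime]
    [IsCyclotomicExtension {p ^ (1 + 1)} ℚ K] (v v' : Pl K) (hv : Over v p) (hv' : Over v' p) :
    v = v' := by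
  have hζ := IsCyclotomicExtension.zeta_spec (p ^ (1 + 1)) ℚ K
  have h1 := liesOver_of_over p v hv
  have h2 := liesOver_of_over p v' hv'
  apply HeightOneSpectrum.ext
  rw [IsCyclotomicExtension.Rat.eq_span_zeta_sub_one_of_liesOver p 1 K hζ v.asIdeal,
    IsCyclotomicExtension.Rat.eq_span_zeta_sub_one_of_liesOver p 1 K hζ v'.asIdeal]

end InertiaP

/-- `p` is totally ramified in `ℚ(ζ_{p²})`: if the only element of the decomposition group of `Λ ∣ p`
fixing `ζ` is `1`, then the decomposition (even inertia) group of `Λ` contains an element with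
`σ ζ = ζ^(1+p)`. -/
theorem exists_stab_one_add_p (p : ℕ) [Fact p.Prime] [IsGalois ℚ Ω] {ζ : Ω}
    (hζ : IsPrimitiveRoot ζ (p ^ 2)) (Λ : Pl Ω) (hΛ : Over Λ p)
    (hinj : ∀ σ : Ω ≃ₐ[ℚ] Ω, σ • Λ = Λ → σ ζ = ζ → σ = 1) :
    ∃ σ : Ω ≃ₐ[ℚ] Ω, σ • Λ = Λ ∧ σ ζ = ζ ^ (1 + p) := by
  have hp : p.Prime := Fact.out
  haveI : NeZero (p ^ (1 + 1)) := ⟨pow_ne_zero _ hp.ne_zero⟩
  haveI : IsCyclotomicExtension {p ^ (1 + 1)} ℚ (IntermediateField.adjoin ℚ {ζ}) :=
    hζ.intermediateField_adjoin_isCyclotomicExtension ℚ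
  have hcop : (1 + p).Coprime (p ^ 2) := by
    apply Nat.Coprime.pow_right
    simp
  obtain ⟨σ₀, hσ₀⟩ := exists_aut_pow (n := p ^ 2) (pow_pos hp.pos 2) hζ hcop
  obtain ⟨v, hv⟩ := exists_below (IntermediateField.adjoin ℚ {ζ}) Λ
  obtain ⟨v', hv'⟩ := exists_below (IntermediateField.adjoin ℚ {ζ}) (σ₀ • Λ)
  have hvv : v' = v := by
    apply InertiaP.over_unique_cyclo p
    · rw [← over_of_above hv', over_smul_iff]
      exact hΛ
    · rw [← over_of_above hv]
      exact hΛ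
  rw [hvv] at hv'
  obtain ⟨τ, hτ⟩ := exists_smul_eq_of_above hv' hv
  refine ⟨τ.restrictScalars ℚ * σ₀, ?_, ?_⟩
  · rw [mul_smul, restrictScalars_smul]
    exact hτ
  · rw [AlgEquiv.mul_apply, hσ₀, map_pow]
    congr 1
    have := τ.commutes ⟨ζ, IntermediateField.mem_adjoin_simple_self ℚ ζ⟩
    exact this

end Fermat.Agent.CFT
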