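import Fermat.Agent.CFT.Basic
import Fermat.Agent.CFT.OrdGal
import Fermat.Agent.CFT.UnitOf
import Fermat.Agent.CFT.GroupC
import Fermat.Agent.CFT.Config
import Fermat.Agent.CFT.CycloAut
import Fermat.Agent.CFT.InertiaP

set_option autoImplicit false

namespace Fermat.Agent.CFT

open IsDedekindDomain NumberField

namespace ConfigOf

theorem prim_pow_eq_iff {M : Type*} [CommMonoid M] {ζ : M} {k : ℕ} (hk : 0 < k)
    (h : IsPrimitiveRoot ζ k) {m n : ℕ} : ζ ^ m = ζ ^ n ↔ m ≡ n [MOD k] := by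
  have h1 : IsOfFinOrder ζ := isOfFinOrder_iff_pow_eq_one.2 ⟨k, hk, h.pow_eq_one⟩
  rw [h1.pow_eq_pow_iff_modEq, ← h.eq_orderOf]

/-- cocycle at `1` -/
theorem b_one {p : ℕ} {Γ : Type*} [Group Γ] (χ : Γ →* (ZMod p)ˣ) (b : Γ → ZMod p)
    (hb : ∀ σ₁ σ₂, b (σ₁ * σ₂) = b σ₂ + (χ σ₂ : ZMod p) * b σ₁) : b 1 = 0 := by
  have h := hb 1 1
  simp only [mul_one, map_one, Units.val_one, one_mul] at h
  exact left_eq_add.mp h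

theorem b_inv {p : ℕ} {Γ : Type*} [Group Γ] (χ : Γ →* (ZMod p)ˣ) (b : Γ → ZMod p)
    (hb : ∀ σ₁ σ₂, b (σ₁ * σ₂) = b σ₂ + (χ σ₂ : ZMod p) * b σ₁) (σ : Γ) (h : b σ = 0) :
    b σ⁻¹ = 0 := by
  have h1 := hb σ σ⁻¹
  rw [mul_inv_cancel, b_one χ b hb, h, mul_zero, add_zero] at h1
  exact h1.symm

end ConfigOf

open ConfigOf in
/-- If the conclusion of Theorem C fails, we get a `Config`. -/
theorem exists_config (p : ℕ) [Fact p.Prime] (hp2 : p ≠ 2) {Ω : Type*} [Field Ω] [NumberField Ω]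
    [IsGalois ℚ Ω] (ζ : Ω) (hζ : IsPrimitiveRoot ζ (p ^ 2))
    (χ : (Ω ≃ₐ[ℚ] Ω) →* (ZMod p)ˣ) (hχ : ∀ σ : Ω ≃ₐ[ℚ] Ω, σ (ζ ^ p) = (ζ ^ p) ^ ((χ σ : ZMod p).val))
    (b : (Ω ≃ₐ[ℚ] Ω) → ZMod p)
    (hb : ∀ σ₁ σ₂ : Ω ≃ₐ[ℚ] Ω, b (σ₁ * σ₂) = b σ₂ + (χ σ₂ : ZMod p) * b σ₁)
    (hfaith : ∀ σ : Ω ≃ₐ[ℚ] Ω, σ ζ = ζ → b σ = 0 → σ = 1)
    (hunr : ∀ P : Pl Ω, ¬ Over P p → ∀ σ : Ω ≃ₐ[ℚ] Ω,
      (∀ x : 𝓞 Ω, σ • x - x ∈ P.asIdeal) → b σ = 0)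
    (hsplit : ∀ P : Pl Ω, Over P p → ∀ σ : Ω ≃ₐ[ℚ] Ω, σ • P = P → χ σ = 1 → b σ = 0)
    (t₀ : Ω ≃ₐ[ℚ] Ω) (ht₀ : χ t₀ = 1) (hbt₀ : b t₀ ≠ 0) :
    ∃ τ ρ : Ω ≃ₐ[ℚ] Ω, Config p ζ χ τ ρ := by
  have hp : p.Prime := Fact.out
  have hp0 : 0 < p := hp.pos
  have hpp0 : 0 < p ^ 2 := pow_pos hp0 2
  have : NeZero (p ^ 2) := ⟨hpp0.ne'⟩
  have : Fact (1 < p ^ 2) := ⟨Nat.one_lt_pow (by norm_num) hp.one_lt⟩
  have hη : IsPrimitiveRoot (ζ ^ p) p := hζ.pow hpp0 (by ring)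
  set ψ : (Ω ≃ₐ[ℚ] Ω) →* (ZMod (p ^ 2))ˣ := hζ.autToPow ℚ with hψdef
  have hψ : ∀ σ : Ω ≃ₐ[ℚ] Ω, σ ζ = ζ ^ ((ψ σ : ZMod (p ^ 2)).val) := fun σ =>
    (hζ.autToPow_spec ℚ σ).symm
  -- `ψ σ` from the action on `ζ`
  have hψ_of : ∀ (σ : Ω ≃ₐ[ℚ] Ω) (a : ℕ), ¬ p ∣ a → σ ζ = ζ ^ a → ψ σ = unitOf p a := by
    intro σ a ha h
    rw [hψ σ, prim_pow_eq_iff hpp0 hζ] at h
    apply Units.ext
    rw [coe_unitOf p ha, ← ZMod.natCast_zmod_val (ψ σ : ZMod (p ^ 2))]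
    exact (ZMod.natCast_eq_natCast_iff _ _ _).2 h
  have hψ_one : ∀ σ : Ω ≃ₐ[ℚ] Ω, σ ζ = ζ ↔ ψ σ = 1 := by
    intro σ
    constructor
    · intro h
      have := hψ_of σ 1 (fun h1 => hp.one_lt.ne' (Nat.dvd_one.1 h1)) (by simpa using h)
      simpa using this
    · intro h
      rw [hψ σ, h, Units.val_one, ZMod.val_one, pow_one]
  -- comparison of `χ` and `ψ`
  have hcmp : ∀ σ : Ω ≃ₐ[ℚ] Ω, (χ σ : ZMod p).val ≡ (ψ σ : ZMod (p ^ 2)).val [MOD p] := by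
    intro σ
    rw [← prim_pow_eq_iff hp0 hη, ← hχ σ, map_pow, hψ σ, ← pow_mul, ← pow_mul, mul_comm]
  have hχ_one : ∀ σ : Ω ≃ₐ[ℚ] Ω, χ σ = 1 ↔ (ψ σ : ZMod (p ^ 2)).val ≡ 1 [MOD p] := by
    intro σ
    constructor
    · intro h
      have h1 := hcmp σ
      rw [h, Units.val_one, ZMod.val_one] at h1
      exact h1.symm
    · intro h
      have h1 := (hcmp σ).trans h
      apply Units.ext
      rw [Units.val_one, ← ZMod.natCast_zmod_val (χ σ : ZMod p)]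
      have := (ZMod.natCast_eq_natCast_iff _ _ _).2 h1
      simpa using this
  have hχψ : ∀ σ, χ σ = 1 ↔ ∃ j : ℕ, ψ σ = unitOf p (1 + p) ^ j := by
    intro σ
    rw [hχ_one σ]
    constructor
    · intro h
      exact exists_eq_pow_of_val_modEq p (ψ σ) h
    · rintro ⟨j, hj⟩
      rw [hj]
      exact val_pow_one_add_modEq p j
  have hnd : ¬ p ∣ 1 + p := by
    intro h
    have : p ∣ 1 := (Nat.dvd_add_left (dvd_refl p)).1 h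
    exact hp.one_lt.ne' (Nat.dvd_one.1 this)
  -- the element `r`
  obtain ⟨r, hr⟩ := exists_aut_pow (Ω := Ω) hpp0 hζ (a := 1 + p)
    (Nat.Coprime.pow_right 2 ((Nat.coprime_comm.1 ((Nat.Prime.coprime_iff_not_dvd hp).2 hnd))))
  have hr' : ψ r = unitOf p (1 + p) := hψ_of r _ hnd hr
  -- the element `σ₀`
  have hnd2 : ¬ p ∣ 2 := by
    intro h
    exact hp2 ((Nat.prime_dvd_prime_iff_eq hp Nat.prime_two).1 h)
  obtain ⟨σ₀, hσ₀⟩ := exists_aut_pow (Ω := Ω) hpp0 hζ (a := 2)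
    (Nat.Coprime.pow_right 2 ((Nat.coprime_comm.1 ((Nat.Prime.coprime_iff_not_dvd hp).2 hnd2))))
  have hσ₀' : χ σ₀ ≠ 1 := by
    intro h
    rw [hχ_one] at h
    have h2 : (ψ σ₀ : ZMod (p ^ 2)).val ≡ 2 [MOD p ^ 2] := by
      rw [← prim_pow_eq_iff hpp0 hζ, ← hψ σ₀, hσ₀]
    have h3 : (ψ σ₀ : ZMod (p ^ 2)).val ≡ 2 [MOD p] := h2.of_dvd (dvd_pow_self p (by norm_num))
    have h4 : 1 ≡ 2 [MOD p] := h.symm.trans h3
    have h5 : p ∣ 2 - 1 := (Nat.modEq_iff_dvd' (by norm_num)).1 h4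
    exact hp.one_lt.ne' (Nat.dvd_one.1 (by simpa using h5))
  have hfaith' : ∀ σ, ψ σ = 1 → b σ = 0 → σ = 1 := fun σ h1 h2 =>
    hfaith σ ((hψ_one σ).2 h1) h2
  obtain ⟨τ, ρ, hψτ, hbτ, hψρ, hbρ, hoτ, hoρ, hcomm, hconjτ, hconjρ, hgen, hbij⟩ :=
    exists_tau_rho p χ ψ hχψ b hb hfaith' r hr' σ₀ hσ₀' t₀ ht₀ hbt₀
  refine ⟨τ, ρ, ?_⟩
  refine
    { hζ := hζ
      hχ := hχ
      τζ := (hψ_one τ).2 hψτ
      ρζ := by rw [hψ ρ, hψρ, val_unitOf_one_add]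
      ordτ := hoτ
      ordρ := hoρ
      comm := hcomm
      conjτ := hconjτ
      conjρ := hconjρ
      gen := hgen
      unr := ?_
      pτ := ?_
      pρ := ?_ }
  · intro P hP σ hσ
    exact hfaith σ (map_zeta_eq_of_inertia hζ P (not_over_sq P hP) σ hσ) (hunr P hP σ hσ)
  · intro P hP i hi
    have h1 : χ (τ ^ i) = 1 := (hχψ _).2 ⟨0, by rw [map_pow, hψτ, one_pow, pow_zero]⟩
    have h2 : b (τ ^ i) = 0 := hsplit P hP _ hi h1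
    have h3 := hbij i 0
    rw [pow_zero, mul_one, h2] at h3
    have h4 : p ∣ i := (ZMod.natCast_eq_zero_iff i p).1 h3.symm
    rw [← hoτ] at h4
    exact orderOf_dvd_iff_pow_eq_one.1 h4
  · intro P hP
    have hinj : ∀ σ : Ω ≃ₐ[ℚ] Ω, σ • P = P → σ ζ = ζ → σ = 1 := by
      intro σ h1 h2
      have h3 : χ σ = 1 := (hχψ σ).2 ⟨0, by rw [(hψ_one σ).1 h2, pow_zero]⟩
      exact hfaith σ h2 (hsplit P hP σ h1 h3)
    obtain ⟨σ, hσP, hσζ⟩ := exists_stab_one_add_p p hζ P hP hinj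
    have h1 : ψ σ = unitOf p (1 + p) := hψ_of σ _ hnd hσζ
    have h2 : χ σ = 1 := (hχψ σ).2 ⟨1, by rw [h1, pow_one]⟩
    have h3 : b σ = 0 := hsplit P hP σ hσP h2
    have h4 : ρ⁻¹ * σ = 1 := by
      apply hfaith'
      · rw [map_mul, map_inv, hψρ, h1, inv_mul_cancel]
      · rw [hb, h3, b_inv χ b hb ρ hbρ, mul_zero, add_zero]
    have h5 : σ = ρ := by
      have := congrArg (fun x => ρ * x) h4
      simpa using this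
    rw [← h5]
    exact hσP

end Fermat.Agent.CFT
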