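import Fermat.Agent.CFT.Basic
import Fermat.Agent.CFT.OrdGal
import Fermat.Agent.CFT.UnitOf
import Fermat.Agent.CFT.Theta

set_option autoImplicit false

namespace Fermat.Agent.CFT

open IsDedekindDomain NumberField Finset

namespace ThetaClose

variable {K : Type*} [Field K] [NumberField K]

theorem liesOver_of_over (p : ℕ) [hp : Fact p.Prime] {v : Pl K} (hv : Over v p) :
    v.asIdeal.LiesOver (Ideal.span {(p : ℤ)}) := by
  constructor
  have hmax : (Ideal.span {(p : ℤ)}).IsMaximal :=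
    Int.ideal_span_isMaximal_of_prime p
  refine hmax.eq_of_le ?_ ?_
  · exact (Ideal.IsPrime.under ℤ v.asIdeal).ne_top
  · rw [Ideal.span_le, Set.singleton_subset_iff]
    change algebraMap ℤ (𝓞 K) (p : ℤ) ∈ v.asIdeal
    have hv' : (p : 𝓞 K) ∈ v.asIdeal := hv
    simpa using hv'

theorem exists_over (p : ℕ) [hp : Fact p.Prime] : ∃ v : Pl K, Over v p := by
  have hne : Ideal.span {(p : 𝓞 K)} ≠ ⊤ := by
    intro h
    have h1 := Ideal.absNorm_span_natCast (S := 𝓞 K) p
    rw [h, Ideal.absNorm_top] at h1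
    have h2 : 0 < Module.finrank ℤ (𝓞 K) := Module.finrank_pos
    have h3 : 1 < p ^ Module.finrank ℤ (𝓞 K) := Nat.one_lt_pow h2.ne' hp.out.one_lt
    omega
  obtain ⟨m, hm, hle⟩ := Ideal.exists_le_maximal _ hne
  have hpm : (p : 𝓞 K) ∈ m := hle (Ideal.mem_span_singleton_self _)
  refine ⟨⟨m, hm.isPrime, ?_⟩, hpm⟩
  intro h
  rw [h, Ideal.mem_bot] at hpm
  exact hp.out.ne_zero (Nat.cast_eq_zero.mp hpm)

theorem ord_intCast_of_not_dvd (p : ℕ) [hp : Fact p.Prime] {v : Pl K} (hv : Over v p) {z : ℤ}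
    (hz : ¬ (p : ℤ) ∣ z) : ord v (z : K) = 0 := by
  have h1 : (z : 𝓞 K) ∉ v.asIdeal := by
    intro h
    have hcop : IsCoprime (p : ℤ) z :=
      (Nat.prime_iff_prime_int.mp hp.out).coprime_iff_not_dvd.mpr hz
    obtain ⟨a, b, hab⟩ := hcop
    have h3 : (1 : 𝓞 K) ∈ v.asIdeal := by
      have h4 : (1 : 𝓞 K) = (a : 𝓞 K) * (p : 𝓞 K) + (b : 𝓞 K) * (z : 𝓞 K) := by
        have := congrArg (Int.cast : ℤ → 𝓞 K) hab
        push_cast at this
        exact this.symm
      rw [h4]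
      exact v.asIdeal.add_mem (v.asIdeal.mul_mem_left _ hv) (v.asIdeal.mul_mem_left _ h)
    exact v.isPrime.ne_top ((Ideal.eq_top_iff_one _).mpr h3)
  have h2 := ord_eq_zero_of_not_mem v h1
  simpa using h2

/-- an integer of large `v`-adic valuation is divisible by `p²` -/
theorem sq_dvd_of_le_ord (p : ℕ) [hp : Fact p.Prime] {v : Pl K} (hv : Over v p) {z : ℤ}
    (hz : z = 0 ∨ 2 * ord v (p : K) ≤ ord v (z : K)) : (p : ℤ) ^ 2 ∣ z := by
  rcases hz with rfl | hz
  · exact dvd_zero _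
  by_cases hz0 : z = 0
  · rw [hz0]; exact dvd_zero _
  have he : 0 < ord v (p : K) := (over_iff_ord_pos v p hp.out.ne_zero).mp hv
  have hpp : Prime (p : ℤ) := Nat.prime_iff_prime_int.mp hp.out
  obtain ⟨z', hzz', hz'⟩ :=
    (FiniteMultiplicity.of_prime_left hpp hz0).exists_eq_pow_mul_and_not_dvd
  set t := multiplicity (p : ℤ) z
  rw [hzz'] at hz ⊢
  have hp0 : (p : K) ≠ 0 := Nat.cast_ne_zero.mpr hp.out.ne_zero
  have hz'0 : (z' : K) ≠ 0 := by
    intro h
    apply hz'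
    rw [Int.cast_eq_zero.mp h]
    exact dvd_zero _
  have h1 : ord v (((p : ℤ) ^ t * z' : ℤ) : K) = t * ord v (p : K) := by
    push_cast
    rw [ord_mul v (pow_ne_zero _ hp0) hz'0, ord_pow, ord_intCast_of_not_dvd p hv hz', add_zero]
  rw [h1] at hz
  have h2 : 2 ≤ t := by
    by_contra hcon
    have : (t : ℤ) ≤ 1 := by omega
    nlinarith
  exact Dvd.dvd.mul_right (pow_dvd_pow _ h2) _

end ThetaClose

/-- `K = ℚ(ζ_p)` has only one place above `p`. -/
theorem over_p_unique (p : ℕ) [Fact p.Prime] {K : Type*} [Field K] [NumberField K]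
    [IsCyclotomicExtension {p} ℚ K] {v v' : Pl K} (hv : Over v p) (hv' : Over v' p) : v = v' := by
  have hζ := IsCyclotomicExtension.zeta_spec p ℚ K
  have h1 := ThetaClose.liesOver_of_over p hv
  have h2 := ThetaClose.liesOver_of_over p hv'
  apply HeightOneSpectrum.ext
  rw [IsCyclotomicExtension.Rat.eq_span_zeta_sub_one_of_liesOver' p K hζ v.asIdeal,
    IsCyclotomicExtension.Rat.eq_span_zeta_sub_one_of_liesOver' p K hζ v'.asIdeal]

/-- **Reciprocity for `ℚ(ζ_{p²})/ℚ`, pulled back to `K = ℚ(ζ_p)`.**  If `x ∈ K^*` is close to `1` at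
the places above `p` (`x ≡ 1 mod p²`) then `Θ(x) = 1`. -/
theorem Theta_eq_one_of_close (p : ℕ) [Fact p.Prime] (hp2 : p ≠ 2) {K : Type*} [Field K]
    [NumberField K] [IsCyclotomicExtension {p} ℚ K] {x : K} (hx0 : x ≠ 0)
    (hx : ∀ v : Pl K, Over v p → x = 1 ∨ 2 * ord v (p : K) ≤ ord v (x - 1)) : Theta p x = 1 := by
  have hp : p.Prime := Fact.out
  obtain ⟨v, hv⟩ := ThetaClose.exists_over (K := K) p
  rcases hx v hv with rfl | hxv
  · exact Theta_one p
  have hgal : IsGalois ℚ K := IsCyclotomicExtension.isGalois {p} ℚ K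
  have he : 0 < ord v (p : K) := (over_iff_ord_pos v p hp.ne_zero).mp hv
  obtain ⟨e, he'⟩ : ∃ e : ℕ, ord v (p : K) = (e : ℤ) + 1 :=
    ⟨(ord v (p : K) - 1).toNat, by omega⟩
  -- all conjugates are principal units of level `> 2e+1`
  let xu : Kˣ := Units.mk0 x hx0
  have hconj : ∀ σ : K ≃ₐ[ℚ] K, Units.map (σ : K →* K) xu ∈ PU v (2 * e + 1) := by
    intro σ
    rw [mem_PU_iff]
    by_cases h1 : x = 1
    · left
      simp [xu, h1]
    right
    have h2 : ((Units.map (σ : K →* K) xu : Kˣ) : K) - 1 = σ (x - 1) := by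
      simp [xu]
    have h3 : ord v (σ (x - 1)) = ord (σ⁻¹ • v) (x - 1) := ord_smul' σ v _
    have h4 : σ⁻¹ • v = v := over_p_unique p ((over_smul_iff σ⁻¹ v p).mpr hv) hv
    rw [h2, h3, h4]
    push_cast
    omega
  have hprod : ∏ σ : K ≃ₐ[ℚ] K, Units.map (σ : K →* K) xu ∈ PU v (2 * e + 1) :=
    Subgroup.prod_mem _ fun σ _ => hconj σ
  set r : ℚ := Algebra.norm ℚ x with hr
  have hcoe : ((∏ σ : K ≃ₐ[ℚ] K, Units.map (σ : K →* K) xu : Kˣ) : K) = (r : K) := by
    rw [Units.coe_prod]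
    have := Algebra.norm_eq_prod_automorphisms ℚ x
    rw [eq_ratCast] at this
    rw [hr, this]
    rfl
  have hUD := PU_le_UD v _ hprod
  rw [mem_UD_iff, hcoe] at hUD
  rw [mem_PU_iff, hcoe] at hprod
  obtain ⟨k, a, b, ha, hb, hab, hΘ⟩ := exists_norm_eq_Theta p hx0
  rw [← hr] at hab
  have ha' : ¬ (p : ℤ) ∣ (a : ℤ) := fun h => ha (Int.natCast_dvd_natCast.mp h)
  have hb' : ¬ (p : ℤ) ∣ (b : ℤ) := fun h => hb (Int.natCast_dvd_natCast.mp h)
  have ha0 : (a : K) ≠ 0 := by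
    intro h
    apply ha
    rw [Nat.cast_eq_zero.mp h]
    exact dvd_zero _
  have hb0 : (b : K) ≠ 0 := by
    intro h
    apply hb
    rw [Nat.cast_eq_zero.mp h]
    exact dvd_zero _
  have hb0' : (b : ℚ) ≠ 0 := by
    intro h
    apply hb
    rw [Nat.cast_eq_zero.mp h]
    exact dvd_zero _
  have hp0 : (p : K) ≠ 0 := Nat.cast_ne_zero.mpr hp.ne_zero
  have hoa : ord v (a : K) = 0 := by
    have := ThetaClose.ord_intCast_of_not_dvd p hv ha'
    simpa using this
  have hob : ord v (b : K) = 0 := by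
    have := ThetaClose.ord_intCast_of_not_dvd p hv hb'
    simpa using this
  -- a sign
  obtain ⟨s, hs, hrs⟩ : ∃ s : ℤ, (s = 1 ∨ s = -1) ∧ r = s * ((p : ℚ) ^ k * a / b) := by
    rcases abs_choice r with h | h
    · exact ⟨1, Or.inl rfl, by rw [← hab, h]; simp⟩
    · exact ⟨-1, Or.inr rfl, by rw [← hab, h]; simp⟩
  have hs0 : (s : K) ≠ 0 := by
    rcases hs with rfl | rfl <;> simp
  have hos : ord v (s : K) = 0 := by
    rcases hs with rfl | rfl <;> simp
  have hrK : (r : K) = (s : K) * ((p : K) ^ k * a / b) := by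
    rw [hrs]
    push_cast
    ring
  -- `k = 0`
  have hk : k = 0 := by
    rw [hrK, ord_mul v hs0 (div_ne_zero (mul_ne_zero (zpow_ne_zero _ hp0) ha0) hb0),
      ord_div v (mul_ne_zero (zpow_ne_zero _ hp0) ha0) hb0, ord_mul v (zpow_ne_zero _ hp0) ha0,
      ord_zpow, hos, hoa, hob] at hUD
    have : k * ord v (p : K) = 0 := by linarith
    rcases mul_eq_zero.mp this with h | h
    · exact h
    · omega
  subst hk
  rw [zpow_zero, one_mul] at hrK
  -- `p² ∣ s a - b`
  have hdvd : (p : ℤ) ^ 2 ∣ s * a - b := by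
    apply ThetaClose.sq_dvd_of_le_ord p hv
    have h1 : (r : K) - 1 = ((s * a - b : ℤ) : K) / b := by
      rw [hrK]
      push_cast
      field_simp
    rcases hprod with h | h
    · left
      rw [h, sub_self] at h1
      have h2 : ((s * a - b : ℤ) : K) = 0 := by
        rcases div_eq_zero_iff.mp h1.symm with h3 | h3
        · exact h3
        · exact absurd h3 hb0
      exact Int.cast_eq_zero.mp h2
    · by_cases hz : ((s * a - b : ℤ) : K) = 0
      · left
        exact Int.cast_eq_zero.mp hz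
      · right
        rw [h1, ord_div v hz hb0, hob, sub_zero] at h
        push_cast at h ⊢
        omega
  -- conclusion in `ZMod (p^2)`
  have hZ : ((s : ZMod (p ^ 2)) * (a : ZMod (p ^ 2))) = (b : ZMod (p ^ 2)) := by
    have h1 : ((s * a - b : ℤ) : ZMod (p ^ 2)) = 0 := by
      rw [ZMod.intCast_zmod_eq_zero_iff_dvd]
      push_cast
      exact hdvd
    push_cast at h1
    exact sub_eq_zero.mp h1
  have hη := IsCyclotomicExtension.zeta_spec p ℚ K
  obtain ⟨j, hj⟩ := exists_Theta_eq_pow p hη x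
  rcases hs with rfl | rfl
  · rw [hΘ, div_eq_one]
    ext
    rw [coe_unitOf p ha, coe_unitOf p hb, ← hZ]
    simp
  · exfalso
    apply neg_one_ne_pow p hp2 j
    rw [← hj, hΘ, eq_div_iff_mul_eq']
    ext
    rw [Units.val_mul, coe_unitOf p ha, coe_unitOf p hb, ← hZ]
    simp

end Fermat.Agent.CFT
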