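import Fermat.Agent.CFT.Basic
import Fermat.Agent.CFT.OrdGal
import Fermat.Agent.CFT.UnitOf
import Fermat.Agent.CFT.Config
import Fermat.Agent.CFT.ConfigBasic
import Fermat.Agent.CFT.ConfigFrob
import Fermat.Agent.CFT.Theta

set_option autoImplicit false

namespace Fermat.Agent.CFT

open IsDedekindDomain NumberField Finset

variable {p : ℕ} [Fact p.Prime] {Ω : Type*} [Field Ω] [NumberField Ω] {ζ : Ω}
  {χ : (Ω ≃ₐ[ℚ] Ω) →* (ZMod p)ˣ} {τ ρ : Ω ≃ₐ[ℚ] Ω}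
variable {K : Type*} [Field K] [NumberField K] [Algebra K Ω]

/-- `Θ` kills `N_ρ(μ')` when `μ'` is fixed by `τ` (i.e. norms from `Ω^τ ∋ ζ_{p²}`), factor by factor. -/
theorem Config.Theta_norm_of_fixed [IsGalois ℚ Ω] (cfg : Config p ζ χ τ ρ) (hK : FixK K χ)
    {μ' : Ω} (hμ' : μ' ≠ 0) (hτμ' : τ μ' = μ') {γ' : K}
    (hγ' : algebraMap K Ω γ' = ∏ j ∈ range p, (ρ ^ j) μ') : Theta p γ' = 1 := by
  have hp : p.Prime := Fact.out
  refine Theta_eq_one_of_forall p fun v hv => ?_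
  obtain ⟨P, hP⟩ := exists_above (N' := Ω) v
  have hPp : ¬ Over P p := fun h => hv ((over_of_above hP p).mp h)
  obtain ⟨i, j, hfix, hu⟩ := cfg.exists_frob hK hP hv
  rw [hu]
  by_cases hj : p ∣ j
  · rw [(unitOf_one_add_pow_eq_one_iff p j).mpr hj, one_zpow]
  -- `p ∣ ord v γ'`
  have hρp : ρ ^ p = 1 := by rw [← cfg.ordρ]; exact pow_orderOf_eq_one ρ
  have hcomm : Commute τ ρ := cfg.comm
  let F : (Ω ≃ₐ[ℚ] Ω) → ℤ := fun σ => ord (σ • P) μ'
  have hτpow : ∀ a : ℕ, (τ ^ a) μ' = μ' := by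
    intro a
    induction a with
    | zero => simp
    | succ n ih => rw [pow_succ, AlgEquiv.mul_apply, hτμ', ih]
  have hFa : ∀ (a : ℕ) (σ : Ω ≃ₐ[ℚ] Ω), F (τ ^ a * σ) = F σ := by
    intro a σ
    simp only [F]
    rw [mul_smul, ord_smul]
    congr 1
    have h1 : (τ ^ a) μ' = μ' := hτpow a
    change (τ ^ a)⁻¹ μ' = μ'
    conv_lhs => rw [← h1]
    exact (τ ^ a).symm_apply_apply μ'
  have hFb : ∀ σ : Ω ≃ₐ[ℚ] Ω, F (σ * (τ ^ i * ρ ^ j)) = F σ := by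
    intro σ
    simp only [F]
    rw [mul_smul, hfix]
  have hstep : ∀ k : ℕ, F (ρ ^ (k + j)) = F (ρ ^ k) := by
    intro k
    rw [← hFa i (ρ ^ (k + j)), ← hFb (ρ ^ k)]
    congr 1
    rw [pow_add, ← mul_assoc, ← mul_assoc, (hcomm.pow_pow i k).eq]
  have hmul : ∀ t : ℕ, F (ρ ^ (j * t)) = F 1 := by
    intro t
    induction t with
    | zero => simp
    | succ n ih => rw [Nat.mul_succ, hstep, ih]
  have hconst : ∀ k : ℕ, F (ρ ^ k) = F 1 := by
    intro k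
    have hcop : Nat.Coprime j p := ((Nat.Prime.coprime_iff_not_dvd hp).mpr hj).symm
    obtain ⟨j', -, hj'⟩ := Nat.exists_mul_mod_eq_one_of_coprime hcop hp.one_lt
    have h1 : ρ ^ (j * (j' * k)) = ρ ^ k := by
      rw [← mul_assoc, pow_mul]
      have h2 : ρ ^ (j * j') = ρ := by
        conv_lhs => rw [← Nat.mod_add_div (j * j') p, hj', pow_add, pow_mul, hρp, one_pow, mul_one,
          pow_one]
      rw [h2]
    rw [← h1, hmul]
  have hinv : ∀ k : ℕ, (ρ ^ k)⁻¹ = ρ ^ ((p - 1) * k) := by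
    intro k
    rw [inv_eq_iff_mul_eq_one, ← pow_add]
    have : k + (p - 1) * k = p * k := by
      have := hp.pos
      obtain ⟨p', rfl⟩ : ∃ p', p = p' + 1 := ⟨p - 1, by omega⟩
      simp only [Nat.add_sub_cancel]
      ring
    rw [this, pow_mul, hρp, one_pow]
  have hord : ord v γ' = (p : ℤ) * F 1 := by
    rw [← cfg.ord_algebraMap hP hPp γ', hγ', ord_prod P _ _ (fun k _ => (map_ne_zero _).mpr hμ')]
    have h1 : ∀ k ∈ range p, ord P ((ρ ^ k) μ') = F 1 := by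
      intro k _
      have h2 : ord P ((ρ ^ k) μ') = ord ((ρ ^ k)⁻¹ • P) μ' := ord_smul' (ρ ^ k) P μ'
      rw [h2, hinv]
      exact hconst _
    rw [Finset.sum_congr rfl h1]
    simp
  rw [hord, ← zpow_natCast, ← zpow_mul, mul_comm (j : ℤ), mul_assoc, zpow_mul, zpow_natCast,
    (unitOf_one_add_pow_eq_one_iff p p).mpr dvd_rfl, one_zpow]

end Fermat.Agent.CFT
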