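import Fermat.Agent.CFT.Basic
import Fermat.Agent.CFT.OrdGal
import Fermat.Agent.CFT.UnitOf
import Fermat.Agent.CFT.Config
import Fermat.Agent.CFT.ConfigBasic
import Fermat.Agent.CFT.Theta
import Fermat.Agent.CFT.ThetaClose
import Fermat.Agent.CFT.ThetaNorm
import Fermat.Agent.CFT.ApproxFix

set_option autoImplicit false

namespace Fermat.Agent.CFT

open IsDedekindDomain NumberField Finset

variable {p : ℕ} [Fact p.Prime] {Ω : Type*} [Field Ω] [NumberField Ω] {ζ : Ω}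
  {χ : (Ω ≃ₐ[ℚ] Ω) →* (ZMod p)ˣ} {τ ρ : Ω ≃ₐ[ℚ] Ω}
variable {K : Type*} [Field K] [NumberField K] [Algebra K Ω]

namespace CycloRecip

/-- The norm `∏_{j<n} σ^j x` is fixed by `σ` when `σ^n = 1`. -/
theorem map_prod_pow_eq (σ : Ω ≃ₐ[ℚ] Ω) {n : ℕ} (hσ : σ ^ n = 1) (x : Ω) :
    σ (∏ j ∈ range n, (σ ^ j) x) = ∏ j ∈ range n, (σ ^ j) x := by
  rw [map_prod]
  have h1 : ∀ j, σ ((σ ^ j) x) = (σ ^ (j + 1)) x := by
    intro j
    rw [pow_succ', AlgEquiv.mul_apply]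
  simp only [h1]
  have h2 := Finset.prod_range_succ (fun j => (σ ^ j) x) n
  have h3 := Finset.prod_range_succ' (fun j => (σ ^ j) x) n
  rw [h2] at h3
  rw [hσ] at h3
  simp only [pow_zero] at h3
  have hx : ((1 : Ω ≃ₐ[ℚ] Ω) x) = x := rfl
  rw [hx] at h3
  by_cases hx0 : x = 0
  · subst hx0
    simp
  · exact (mul_right_cancel₀ hx0 h3).symm

/-- The norm `∏_{j<n} ρ^j x` is fixed by `τ` when `τ` commutes with `ρ` and fixes `x`. -/
theorem map_prod_pow_eq_of_comm (τ ρ : Ω ≃ₐ[ℚ] Ω) (hc : τ * ρ = ρ * τ) (n : ℕ) {x : Ω}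
    (hx : τ x = x) : τ (∏ j ∈ range n, (ρ ^ j) x) = ∏ j ∈ range n, (ρ ^ j) x := by
  rw [map_prod]
  refine Finset.prod_congr rfl fun j _ => ?_
  have hcj : τ * ρ ^ j = ρ ^ j * τ := (Commute.pow_right (show Commute τ ρ from hc) j)
  calc τ ((ρ ^ j) x) = (τ * ρ ^ j) x := rfl
    _ = (ρ ^ j * τ) x := by rw [hcj]
    _ = (ρ ^ j) (τ x) := rfl
    _ = (ρ ^ j) x := by rw [hx]

end CycloRecip

open CycloRecip in
/-- **Cyclotomic reciprocity.**  If `γ ∈ K^*` is `N_ρ(μ)` then `Θ(γ) = 1`. -/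
theorem Config.cycloRecip [IsGalois ℚ Ω] [IsCyclotomicExtension {p} ℚ K] (hp2 : p ≠ 2)
    (cfg : Config p ζ χ τ ρ) (hK : FixK K χ) {μ : Ω} (hμ : μ ≠ 0) {γ : K}
    (hγ : algebraMap K Ω γ = ∏ j ∈ range p, (ρ ^ j) μ) : Theta p γ = 1 := by
  have hinj : Function.Injective (algebraMap K Ω) := (algebraMap K Ω).injective
  have hprod0 : ∀ y : Ω, y ≠ 0 → (∏ j ∈ range p, (ρ ^ j) y) ≠ 0 := by
    intro y hy
    refine Finset.prod_ne_zero_iff.mpr fun j _ => ?_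
    exact (map_ne_zero_iff _ (ρ ^ j).injective).mpr hy
  have hγ0 : γ ≠ 0 := by
    intro h
    rw [h, map_zero] at hγ
    exact hprod0 μ hμ hγ.symm
  by_cases hex : ∃ v : Pl K, Over v p
  swap
  · exact Theta_eq_one_of_close p hp2 hγ0 (fun v hv => absurd ⟨v, hv⟩ hex)
  obtain ⟨v, hv⟩ := hex
  obtain ⟨Λ, hΛv⟩ := exists_above (N' := Ω) v
  have hΛ : Over Λ p := (over_of_above hΛv p).mpr hv
  obtain ⟨μ', hμ'0, hτμ', hclose⟩ :=
    cfg.exists_fixed_approx_norm Λ hΛ hμ (2 * ord Λ ((p : ℕ) : Ω)).toNat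
  have hρp : ρ ^ p = 1 := by rw [← cfg.ordρ]; exact pow_orderOf_eq_one ρ
  obtain ⟨γ', hγ'⟩ := cfg.mem_range_of_fixed (K := K) hK
    (map_prod_pow_eq_of_comm τ ρ cfg.comm p hτμ') (map_prod_pow_eq ρ hρp μ')
  have hγ'0 : γ' ≠ 0 := by
    intro h
    rw [h, map_zero] at hγ'
    exact hprod0 μ' hμ'0 hγ'.symm
  have hΘ' : Theta p γ' = 1 := cfg.Theta_norm_of_fixed hK hμ'0 hτμ' hγ'
  have hx0 : γ / γ' ≠ 0 := div_ne_zero hγ0 hγ'0
  have hmap : algebraMap K Ω (γ / γ') =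
      (∏ j ∈ range p, (ρ ^ j) μ) / (∏ j ∈ range p, (ρ ^ j) μ') := by
    rw [map_div₀, hγ, hγ']
  have hΘx : Theta p (γ / γ') = 1 := by
    refine Theta_eq_one_of_close p hp2 hx0 fun v' hv' => ?_
    have hvv : v' = v := over_p_unique p hv' hv
    subst hvv
    rw [← hmap] at hclose
    rcases hclose with h1 | h2
    · left
      apply hinj
      rw [h1, map_one]
    · right
      have he := ramificationIdx_pos hΛv
      have e1 : ord Λ (algebraMap K Ω (γ / γ') - 1) =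
          (Ideal.ramificationIdx' v'.asIdeal Λ.asIdeal : ℤ) * ord v' (γ / γ' - 1) := by
        rw [← _root_.Fermat.Agent.CFT.ord_algebraMap hΛv, map_sub, map_one]
      have e2 : ord Λ ((p : ℕ) : Ω) =
          (Ideal.ramificationIdx' v'.asIdeal Λ.asIdeal : ℤ) * ord v' ((p : ℕ) : K) := by
        rw [← _root_.Fermat.Agent.CFT.ord_algebraMap hΛv, map_natCast]
      have h3 : 2 * ord Λ ((p : ℕ) : Ω) ≤ ((2 * ord Λ ((p : ℕ) : Ω)).toNat : ℤ) :=
        Int.self_le_toNat _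
      have h4 : 2 * ord Λ ((p : ℕ) : Ω) ≤ ord Λ (algebraMap K Ω (γ / γ') - 1) := h3.trans h2
      rw [e1, e2] at h4
      have he' : (0 : ℤ) < (Ideal.ramificationIdx' v'.asIdeal Λ.asIdeal : ℤ) := by exact_mod_cast he
      have h5 : (Ideal.ramificationIdx' v'.asIdeal Λ.asIdeal : ℤ) * (2 * ord v' ((p : ℕ) : K)) ≤
          (Ideal.ramificationIdx' v'.asIdeal Λ.asIdeal : ℤ) * ord v' (γ / γ' - 1) := by
        calc _ = 2 * ((Ideal.ramificationIdx' v'.asIdeal Λ.asIdeal : ℤ) * ord v' ((p : ℕ) : K)) := by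
              ring
          _ ≤ _ := h4
      exact le_of_mul_le_mul_left h5 he'
  have hfin : γ = (γ / γ') * γ' := by field_simp
  rw [hfin, Theta_mul p hx0 hγ'0, hΘx, hΘ', one_mul]

end Fermat.Agent.CFT
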