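import Fermat.Agent.CFT.EX0

/-!
# EX1: Kummer corollaries of EX0

* `infinite_nonresidue`: if `u` is not a `p`-th power in a number field `M ∋ ζ_p`, then there are
  infinitely many primes `w` of `M` modulo which `u` is not a `p`-th power.
-/

namespace Fermat.Agent.CFT.EX1

open NumberField Ideal IsDedekindDomain
open scoped Pointwise

universe u

variable {M M' : Type*} [Field M] [NumberField M] [Field M'] [NumberField M'] [Algebra M M']
  [IsGalois M M']

/-- In a Galois extension of prime degree, the fundamental identity. -/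
lemma efg {p : ℕ} (hdeg : Module.finrank M M' = p) (w : Ideal (𝓞 M)) [w.IsPrime] :
    (primesOver w (𝓞 M')).ncard * (ramificationIdxIn w (𝓞 M') * inertiaDegIn w (𝓞 M')) = p := by
  rw [ncard_primesOver_mul_ramificationIdxIn_mul_inertiaDegIn w (𝓞 M') Gal(M'/M),
    IsGaloisGroup.card_eq_finrank Gal(M'/M) M M', hdeg]

lemma absNorm_eq_pow (w : Ideal (𝓞 M)) [w.IsPrime] (hw0 : w ≠ ⊥)
    (P : Ideal (𝓞 M')) [P.IsPrime] [P.LiesOver w] :
    absNorm P = absNorm w ^ inertiaDegIn w (𝓞 M') := by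
  have hwmax : w.IsMaximal := IsPrime.isMaximal inferInstance hw0
  have hP0 : P ≠ ⊥ := Ideal.ne_bot_of_liesOver_of_ne_bot hw0 P
  have hPmax : P.IsMaximal := IsPrime.isMaximal inferInstance hP0
  rw [inertiaDegIn_eq_inertiaDeg w P Gal(M'/M), ← inertiaDeg'_eq_inertiaDeg w P]
  exact absNorm_eq_pow_inertiaDeg'_of_liesOver P w inferInstance hw0

/-- If a prime `P` is moved by some Galois element (prime degree), it has degree one. -/
lemma absNorm_eq_of_smul_ne {p : ℕ} (hp : p.Prime) (hdeg : Module.finrank M M' = p)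
    (w : Ideal (𝓞 M)) [w.IsPrime]
    (P : Ideal (𝓞 M')) [P.IsPrime] [P.LiesOver w] (σ : Gal(M'/M)) (hσ : σ • P ≠ P) :
    inertiaDegIn w (𝓞 M') = 1 := by
  have h := efg hdeg w
  have hg : 1 < (primesOver w (𝓞 M')).ncard := by
    rw [Set.one_lt_ncard_iff (Algebra.QuasiFinite.finite_primesOver w)]
    exact ⟨σ • P, P, ⟨inferInstance, inferInstance⟩, ⟨inferInstance, inferInstance⟩, hσ⟩
  have hdvd : (primesOver w (𝓞 M')).ncard ∣ p := ⟨_, h.symm⟩
  have hgp : (primesOver w (𝓞 M')).ncard = p := by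
    rcases (Nat.dvd_prime hp).mp hdvd with h1 | h1
    · omega
    · exact h1
  rw [hgp] at h
  have h1 : ramificationIdxIn w (𝓞 M') * inertiaDegIn w (𝓞 M') = 1 := by
    have := hp.pos
    nlinarith
  exact Nat.eq_one_of_mul_eq_one_left h1

lemma inertiaDegIn_eq_one_or {p : ℕ} (hp : p.Prime) (hdeg : Module.finrank M M' = p)
    (w : Ideal (𝓞 M)) [w.IsPrime] :
    inertiaDegIn w (𝓞 M') = 1 ∨ inertiaDegIn w (𝓞 M') = p := by
  have h := efg hdeg w
  have hdvd : inertiaDegIn w (𝓞 M') ∣ p :=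
    ⟨(primesOver w (𝓞 M')).ncard * ramificationIdxIn w (𝓞 M'), by rw [← h]; ring⟩
  exact (Nat.dvd_prime hp).mp hdvd

lemma sub_one_dvd_natCast {R : Type*} [CommRing R] [IsDomain R] {p : ℕ} (hp : 1 < p) {ζ : R}
    (hζ : IsPrimitiveRoot ζ p) : (ζ - 1) ∣ (p : R) := by
  have h0 := hζ.geom_sum_eq_zero hp
  have h1 : (p : R) = - ∑ i ∈ Finset.range p, (ζ ^ i - 1) := by
    rw [Finset.sum_sub_distrib, h0]
    simp
  rw [h1, dvd_neg]
  refine Finset.dvd_sum fun i _ => ?_
  simpa using sub_dvd_pow_sub_pow ζ 1 i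

/-- Splitting criterion: if `u` is a `p`-th power residue at `w ∤ p u`, then `w` has two distinct
degree one primes above it in `M' = M(u^{1/p})`. -/
theorem two_primes_of_residue {p : ℕ} (hp : p.Prime) (hdeg : Module.finrank M M' = p)
    {ζ : 𝓞 M} (hζ : IsPrimitiveRoot ζ p) {u : 𝓞 M} {a : 𝓞 M'}
    (ha : a ^ p = algebraMap (𝓞 M) (𝓞 M') u)
    (τ : Gal(M'/M)) (hτ : τ • a = algebraMap (𝓞 M) (𝓞 M') ζ * a)
    (w : Ideal (𝓞 M)) [w.IsPrime] (hw0 : w ≠ ⊥) (hpw : (p : 𝓞 M) ∉ w) (huw : u ∉ w)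
    (t : 𝓞 M) (ht : t ^ p - u ∈ w) :
    ∃ P₁ P₂ : Ideal (𝓞 M'), P₁ ≠ P₂ ∧ P₁.IsPrime ∧ P₂.IsPrime ∧ P₁.under (𝓞 M) = w ∧
      P₂.under (𝓞 M) = w ∧ absNorm P₁ = absNorm w ∧ absNorm P₂ = absNorm w := by
  obtain ⟨⟨P, hPprime, hPover⟩⟩ := (inferInstance : Nonempty (primesOver w (𝓞 M')))
  have : NeZero p := ⟨hp.ne_zero⟩
  have hinj : Function.Injective (algebraMap (𝓞 M) (𝓞 M')) :=
    FaithfulSMul.algebraMap_injective _ _
  have hζ' : IsPrimitiveRoot (algebraMap (𝓞 M) (𝓞 M') ζ) p := hζ.map_of_injective hinj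
  have hmem : ∀ x : 𝓞 M, algebraMap (𝓞 M) (𝓞 M') x ∈ P ↔ x ∈ w := by
    intro x
    rw [hPover.over, Ideal.mem_comap]
  -- some `a - ξ t ∈ P`
  have h1 : a ^ p - (algebraMap (𝓞 M) (𝓞 M') t) ^ p ∈ P := by
    rw [ha, ← map_pow, ← map_sub, hmem, ← neg_mem_iff (S := Ideal (𝓞 M))]
    simpa using ht
  rw [hζ'.pow_sub_pow_eq_prod_sub_mul _ _ hp.pos, hPprime.prod_mem_iff] at h1
  obtain ⟨ξ, hξ, hξP⟩ := h1
  rw [Polynomial.mem_nthRootsFinset hp.pos] at hξ
  obtain ⟨i, -, rfl⟩ := hζ'.eq_pow_of_pow_eq_one hξ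
  have hne : τ • P ≠ P := by
    intro hτP
    have h2 : τ • (a - (algebraMap (𝓞 M) (𝓞 M') ζ) ^ i * algebraMap (𝓞 M) (𝓞 M') t) ∈ τ • P :=
      (Ideal.smul_mem_pointwise_smul_iff).mpr hξP
    rw [hτP, smul_sub, hτ, ← map_pow, ← map_mul, smul_algebraMap] at h2
    have h3 := P.sub_mem h2 (by simpa using hξP)
    have h4 : algebraMap (𝓞 M) (𝓞 M') (ζ - 1) * a ∈ P := by
      convert h3 using 1
      rw [map_sub, map_one, map_mul, map_pow]
      ring
    rcases hPprime.mem_or_mem h4 with h5 | h5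
    · rw [hmem] at h5
      exact hpw (w.mem_of_dvd (sub_one_dvd_natCast hp.one_lt hζ) h5)
    · have : a ^ p ∈ P := P.pow_mem_of_mem h5 p hp.pos
      rw [ha, hmem] at this
      exact huw this
  have hf := absNorm_eq_of_smul_ne hp hdeg w P τ hne
  have hn1 := absNorm_eq_pow w hw0 P
  have hn2 := absNorm_eq_pow w hw0 (τ • P)
  rw [hf, pow_one] at hn1 hn2
  exact ⟨τ • P, P, hne, inferInstance, inferInstance, ((τ • P).over_def w).symm,
    (P.over_def w).symm, hn2, hn1⟩

omit [NumberField M'] [Algebra M M'] [IsGalois M M'] [Field M'] in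
lemma finite_primes_containing {x : 𝓞 M} (hx : x ≠ 0) :
    {w : HeightOneSpectrum (𝓞 M) | x ∈ w.asIdeal}.Finite := by
  have h := Ideal.finite_factors (I := Ideal.span {x}) (by simpa using hx)
  refine h.subset fun w hw => ?_
  simpa [Ideal.dvd_span_singleton] using hw

open Polynomial in
omit [NumberField M'] [Algebra M M'] [IsGalois M M'] [Field M'] in
/-- Existence of the Kummer extension `M(u^{1/p})` as a package. -/
theorem exists_kummer {M : Type u} [Field M] [NumberField M]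
    {p : ℕ} (hp : p.Prime) {ζ : 𝓞 M} (hζ : IsPrimitiveRoot ζ p)
    (u : 𝓞 M) (hu : ∀ b : M, b ^ p ≠ (u : M)) :
    ∃ (L : Type u) (_ : Field L) (_ : NumberField L) (_ : Algebra M L) (_ : IsGalois M L),
      Module.finrank M L = p ∧ ∃ (a : 𝓞 L) (τ : Gal(L/M)),
        a ^ p = algebraMap (𝓞 M) (𝓞 L) u ∧ τ • a = algebraMap (𝓞 M) (𝓞 L) ζ * a := by
  have : NeZero p := ⟨hp.ne_zero⟩
  have H : Irreducible (X ^ p - C (u : M)) := X_pow_sub_C_irreducible_of_prime hp hu
  have hζM : IsPrimitiveRoot (ζ : M) p :=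
    hζ.map_of_injective (f := algebraMap (𝓞 M) M) (FaithfulSMul.algebraMap_injective _ _)
  have hζne : (primitiveRoots p M).Nonempty := ⟨ζ, (mem_primitiveRoots hp.pos).mpr hζM⟩
  let L := (X ^ p - C (u : M)).SplittingField
  have : NumberField L := NumberField.of_module_finite M L
  have : IsGalois M L := isGalois_of_isSplittingField_X_pow_sub_C hζne H L
  have hdeg : Module.finrank M L = p := finrank_of_isSplittingField_X_pow_sub_C hζne H L
  let α : L := rootOfSplitsXPowSubC hp.pos (u : M) L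
  have hα : α ^ p = algebraMap M L (u : M) := rootOfSplitsXPowSubC_pow (u : M) L
  have hαint : IsIntegral ℤ α := by
    apply IsIntegral.of_pow hp.pos
    rw [hα]
    exact (RingOfIntegers.isIntegral_coe u).algebraMap
  let a : 𝓞 L := ⟨α, hαint⟩
  have ha : a ^ p = algebraMap (𝓞 M) (𝓞 L) u := by
    apply RingOfIntegers.ext
    exact hα
  let τ : Gal(L/M) := (autEquivZmod H L hζM).symm (Multiplicative.ofAdd ((1 : ℕ) : ZMod p))
  have hτ0 : τ α = (ζ : M) ^ 1 • α := autEquivZmod_symm_apply_natCast H L hα hζM 1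
  have hτ : τ • a = algebraMap (𝓞 M) (𝓞 L) ζ * a := by
    apply RingOfIntegers.ext
    change τ α = algebraMap M L (ζ : M) * α
    rw [hτ0, pow_one, Algebra.smul_def]
  exact ⟨L, inferInstance, inferInstance, inferInstance, inferInstance, hdeg, a, τ, ha, hτ⟩

omit [NumberField M'] [Algebra M M'] [IsGalois M M'] [Field M'] in
/-- **EX1**. If `u` is not a `p`-th power in `M ∋ ζ_p`, there are infinitely many primes of `M`
modulo which `u` is not a `p`-th power. -/
theorem infinite_nonresidue {p : ℕ} (hp : p.Prime) {ζ : 𝓞 M} (hζ : IsPrimitiveRoot ζ p)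
    (u : 𝓞 M) (hu : ∀ b : M, b ^ p ≠ (u : M)) :
    {w : HeightOneSpectrum (𝓞 M) | ¬ ∃ t : 𝓞 M, t ^ p - u ∈ w.asIdeal}.Infinite := by
  obtain ⟨L, _, _, _, _, hdeg, a, τ, ha, hτ⟩ := exists_kummer hp hζ u hu
  have hu0 : u ≠ 0 := by
    rintro rfl
    exact hu 0 (by simp [hp.ne_zero])
  have hpu : (p : 𝓞 M) * u ≠ 0 := mul_ne_zero (by exact_mod_cast hp.ne_zero) hu0
  have hinf := EX0.infinite_not_two_primes M L
  have hinf2 := hinf.sdiff (finite_primes_containing hpu)
  refine hinf2.mono ?_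
  rintro w ⟨hw1, hw2⟩ ⟨t, ht⟩
  apply hw1
  have hw2' : (p : 𝓞 M) * u ∉ w.asIdeal := hw2
  have := w.isPrime
  exact two_primes_of_residue hp hdeg hζ ha τ hτ w.asIdeal w.ne_bot
    (fun h => hw2' (w.asIdeal.mul_mem_right _ h)) (fun h => hw2' (w.asIdeal.mul_mem_left _ h)) t ht

/-! ### The relative version -/

lemma exists_pow_eq_of_pow_card {F : Type*} [Field F] [Finite F] {p q : ℕ} (hp : p.Prime)
    (hq : 2 ≤ q) (hF : Nat.card F = q ^ p) {x : F} (hx : x ^ q = x) : ∃ y, y ^ p = x := by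
  classical
  have : Fintype F := Fintype.ofFinite F
  rcases eq_or_ne x 0 with rfl | hx0
  · exact ⟨0, by simp [hp.ne_zero]⟩
  let xu : Fˣ := Units.mk0 x hx0
  suffices h : ∃ y : Fˣ, y ^ p = xu by
    obtain ⟨y, hy⟩ := h
    exact ⟨y, by rw [← Units.val_pow_eq_pow_val, hy]; rfl⟩
  have hcard : Nat.card Fˣ = q ^ p - 1 := by
    rw [Nat.card_units, hF]
  set S := ∑ i ∈ Finset.range p, q ^ i with hS
  have hSn : S * (q - 1) = q ^ p - 1 := by
    have := Nat.geomSum_eq hq p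
    rw [hS, this]
    exact Nat.div_mul_cancel (by simpa using Nat.sub_dvd_pow_sub_pow q 1 p)
  have hxu : xu ^ (q - 1) = 1 := by
    apply Units.ext
    rw [Units.val_pow_eq_pow_val, Units.val_one]
    change x ^ (q - 1) = 1
    have h1 : x ^ (q - 1) * x = 1 * x := by
      rw [← pow_succ, Nat.sub_add_cancel (by omega), hx, one_mul]
    exact mul_right_cancel₀ hx0 h1
  by_cases hpS : p ∣ S
  · obtain ⟨g, hg⟩ := IsCyclic.exists_monoid_generator (α := Fˣ)
    obtain ⟨e, he⟩ := hg xu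
    have hord : orderOf g = q ^ p - 1 := by
      rw [← hcard]
      exact orderOf_eq_card_of_forall_mem_powers hg
    have he' : g ^ e = xu := he
    have h1 : g ^ (e * (q - 1)) = 1 := by rw [pow_mul, he', hxu]
    have h2 : S * (q - 1) ∣ e * (q - 1) := by
      rw [hSn, ← hord]; exact orderOf_dvd_of_pow_eq_one h1
    have h3 : S ∣ e := Nat.dvd_of_mul_dvd_mul_right (by omega) h2
    obtain ⟨c, hc⟩ := hpS.trans h3
    exact ⟨g ^ c, by rw [← pow_mul, mul_comm, ← hc, he']⟩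
  · have hpq : ¬ p ∣ q - 1 := by
      intro h
      apply hpS
      have h1 : q ≡ 1 [MOD p] := ((Nat.modEq_iff_dvd' (by omega)).mpr h).symm
      have h2 : S ≡ ∑ i ∈ Finset.range p, 1 [MOD p] := by
        rw [hS]
        unfold Nat.ModEq
        rw [Finset.sum_nat_mod, Finset.sum_nat_mod (f := fun _ => 1)]
        congr 1
        refine Finset.sum_congr rfl fun i _ => ?_
        have := h1.pow i
        rw [one_pow] at this
        exact this
      simp only [Finset.sum_const, Finset.card_range, smul_eq_mul, mul_one] at h2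
      exact (Nat.modEq_zero_iff_dvd.mp (h2.trans (by simp [Nat.ModEq])))
    have hcop : (Nat.card Fˣ).Coprime p := by
      rw [hcard, ← hSn, Nat.coprime_comm, hp.coprime_iff_not_dvd, hp.dvd_mul]
      tauto
    exact ⟨(powCoprime hcop).symm xu, (powCoprime hcop).apply_symm_apply xu⟩

omit [NumberField M'] [Algebra M M'] [IsGalois M M'] [Field M'] in
lemma pow_absNorm_sub_mem (w : Ideal (𝓞 M)) [w.IsPrime] (hw0 : w ≠ ⊥) (x : 𝓞 M) :
    x ^ absNorm w - x ∈ w := by
  have hwmax : w.IsMaximal := IsPrime.isMaximal inferInstance hw0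
  let _ : Field (𝓞 M ⧸ w) := Ideal.Quotient.field w
  have : Finite (𝓞 M ⧸ w) := Ideal.finiteQuotientOfFreeOfNeBot w hw0
  rw [← Ideal.Quotient.eq_zero_iff_mem, map_sub, map_pow, sub_eq_zero, absNorm_apply,
    Submodule.cardQuot_apply]
  have : Fintype (𝓞 M ⧸ w) := Fintype.ofFinite _
  rw [Nat.card_eq_fintype_card]
  exact FiniteField.pow_card _

omit [IsGalois M M'] in
lemma exists_sub_mem_of_absNorm_eq (w : Ideal (𝓞 M)) [w.IsPrime] (hw0 : w ≠ ⊥)
    (P : Ideal (𝓞 M')) [P.IsPrime] [P.LiesOver w] (h : absNorm P = absNorm w) (a : 𝓞 M') :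
    ∃ t : 𝓞 M, algebraMap (𝓞 M) (𝓞 M') t - a ∈ P := by
  have hwmax : w.IsMaximal := IsPrime.isMaximal inferInstance hw0
  let _ : Field (𝓞 M ⧸ w) := Ideal.Quotient.field w
  have hP0 : P ≠ ⊥ := Ideal.ne_bot_of_liesOver_of_ne_bot hw0 P
  have : Finite (𝓞 M ⧸ w) := Ideal.finiteQuotientOfFreeOfNeBot w hw0
  have : Finite (𝓞 M' ⧸ P) := Ideal.finiteQuotientOfFreeOfNeBot P hP0
  have hinj : Function.Injective (algebraMap (𝓞 M ⧸ w) (𝓞 M' ⧸ P)) := RingHom.injective _
  have hbij := hinj.bijective_of_nat_card_le (by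
    rw [absNorm_apply, Submodule.cardQuot_apply, absNorm_apply, Submodule.cardQuot_apply] at h
    exact h.le)
  obtain ⟨t', ht'⟩ := hbij.2 (Ideal.Quotient.mk P a)
  obtain ⟨t, rfl⟩ := Ideal.Quotient.mk_surjective t'
  refine ⟨t, ?_⟩
  rw [← Ideal.Quotient.eq_zero_iff_mem, map_sub, sub_eq_zero, ← ht']
  rfl

omit [NumberField M] [NumberField M'] in
/-- Kummer theory, one step: a `p`-th root in `M' = M(a)` of an element `v` of `M`. -/
lemma kummer_descent {p : ℕ} (hp : p.Prime) (hdeg : Module.finrank M M' = p)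
    {ζ : M} (hζ : IsPrimitiveRoot ζ p) {α : M} {a : M'} (ha0 : a ≠ 0)
    (ha : a ^ p = algebraMap M M' α) (τ : Gal(M'/M)) (hτ : τ a = algebraMap M M' ζ * a)
    {v : M} {y : M'} (hy : y ^ p = algebraMap M M' v) :
    ∃ (j : ℕ) (z : M), z ^ p = v * α ^ j := by
  have : NeZero p := ⟨hp.ne_zero⟩
  have : Fact p.Prime := ⟨hp⟩
  have : FiniteDimensional M M' := Module.finite_of_finrank_pos (by rw [hdeg]; exact hp.pos)
  have hζ' : IsPrimitiveRoot (algebraMap M M' ζ) p :=
    hζ.map_of_injective (algebraMap M M').injective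
  rcases eq_or_ne y 0 with rfl | hy0
  · refine ⟨0, 0, ?_⟩
    rw [zero_pow hp.ne_zero] at hy
    have : v = 0 := (algebraMap M M').injective (by rw [← hy, map_zero])
    simp [this, hp.ne_zero]
  have h1 : (τ y / y) ^ p = 1 := by
    rw [div_pow, ← map_pow, hy, AlgEquiv.commutes, div_self]
    rw [← hy]
    exact pow_ne_zero _ hy0
  obtain ⟨k, hk, hξ⟩ := hζ'.eq_pow_of_pow_eq_one h1
  have hτy : τ y = (algebraMap M M' ζ) ^ k * y := by
    rw [hξ, div_mul_cancel₀ _ hy0]
  set z' := y * a ^ (p - k) with hz'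
  have hfix : τ z' = z' := by
    rw [hz', map_mul, map_pow, hτy, hτ, mul_pow]
    have : (algebraMap M M' ζ) ^ k * (algebraMap M M' ζ) ^ (p - k) = 1 := by
      rw [← pow_add, Nat.add_sub_cancel' hk.le, hζ'.pow_eq_one]
    calc (algebraMap M M' ζ) ^ k * y * ((algebraMap M M' ζ) ^ (p - k) * a ^ (p - k))
        = ((algebraMap M M' ζ) ^ k * (algebraMap M M' ζ) ^ (p - k)) * (y * a ^ (p - k)) := by ring
      _ = y * a ^ (p - k) := by rw [this, one_mul]
  have hτ1 : τ ≠ 1 := by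
    rintro rfl
    have h2 : (algebraMap M M' ζ - 1) * a = 0 := by
      rw [sub_mul, one_mul, ← hτ]; simp
    rcases mul_eq_zero.mp h2 with h3 | h3
    · exact hζ'.ne_one hp.one_lt (sub_eq_zero.mp h3)
    · exact ha0 h3
  have hcard : Nat.card Gal(M'/M) = p := by rw [IsGalois.card_aut_eq_finrank, hdeg]
  have htop := zpowers_eq_top_of_prime_card hcard hτ1
  have hall : ∀ σ : Gal(M'/M), σ z' = z' := by
    intro σ
    have h2 : Subgroup.zpowers τ ≤ MulAction.stabilizer Gal(M'/M) z' := by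
      rw [Subgroup.zpowers_le]
      exact hfix
    have h3 : σ ∈ MulAction.stabilizer Gal(M'/M) z' := h2 (htop ▸ Subgroup.mem_top σ)
    exact h3
  obtain ⟨z, hz⟩ := (IsGalois.mem_range_algebraMap_iff_fixed z').mpr hall
  refine ⟨p - k, z, (algebraMap M M').injective ?_⟩
  rw [map_pow, hz, hz', mul_pow, hy, map_mul, map_pow, ← ha, ← pow_mul, ← pow_mul, mul_comm p]

omit [NumberField M'] [Algebra M M'] [IsGalois M M'] [Field M'] in
/-- **EX2**. If `u ∉ ⟨α⟩ M^p`, there are infinitely many primes `w` of `M` modulo which `α` is a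
`p`-th power and `u` is not. -/
theorem infinite_residue_nonresidue {M : Type u} [Field M] [NumberField M]
    {p : ℕ} (hp : p.Prime) {ζ : 𝓞 M} (hζ : IsPrimitiveRoot ζ p)
    (α u : 𝓞 M) (hu : ∀ (j : ℕ) (b : M), b ^ p ≠ (u : M) * (α : M) ^ j) :
    {w : HeightOneSpectrum (𝓞 M) | (∃ t : 𝓞 M, t ^ p - α ∈ w.asIdeal) ∧
      ¬ ∃ t : 𝓞 M, t ^ p - u ∈ w.asIdeal}.Infinite := by
  have hu' : ∀ b : M, b ^ p ≠ (u : M) := fun b => by simpa using hu 0 b
  have hζM : IsPrimitiveRoot (ζ : M) p :=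
    hζ.map_of_injective (f := algebraMap (𝓞 M) M) (FaithfulSMul.algebraMap_injective _ _)
  by_cases hα : ∃ b : M, b ^ p = (α : M)
  · -- `α` is a `p`-th power
    obtain ⟨b, hb⟩ := hα
    have hbint : IsIntegral ℤ b := by
      apply IsIntegral.of_pow hp.pos
      rw [hb]
      exact RingOfIntegers.isIntegral_coe α
    let b' : 𝓞 M := ⟨b, hbint⟩
    have hb' : b' ^ p = α := RingOfIntegers.ext hb
    refine (infinite_nonresidue hp hζ u hu').mono fun w hw => ⟨⟨b', ?_⟩, hw⟩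
    rw [hb', sub_self]
    exact zero_mem _
  · push Not at hα
    obtain ⟨L, _, _, _, _, hdeg, a, τ, ha, hτ⟩ := exists_kummer hp hζ α hα
    have hα0 : α ≠ 0 := by
      rintro rfl
      exact hα 0 (by simp [hp.ne_zero])
    have hinj : Function.Injective (algebraMap (𝓞 M) (𝓞 L)) :=
      FaithfulSMul.algebraMap_injective _ _
    have ha0 : (a : L) ≠ 0 := by
      intro h
      have h1 : a = 0 := RingOfIntegers.ext h
      rw [h1, zero_pow hp.ne_zero] at ha
      exact hα0 (hinj (by rw [← ha, map_zero]))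
    -- `u` is not a `p`-th power in `L`
    have huL : ∀ y : L, y ^ p ≠ ((algebraMap (𝓞 M) (𝓞 L) u : 𝓞 L) : L) := by
      intro y hy
      have ha' : (a : L) ^ p = algebraMap M L (α : M) := congrArg (fun x : 𝓞 L => (x : L)) ha
      have hτ' : τ (a : L) = algebraMap M L (ζ : M) * (a : L) :=
        congrArg (fun x : 𝓞 L => (x : L)) hτ
      obtain ⟨j, z, hz⟩ := kummer_descent hp hdeg hζM ha0 ha' τ hτ' (v := (u : M)) hy
      exact hu j z hz
    have hinf := infinite_nonresidue hp (hζ.map_of_injective hinj) (algebraMap (𝓞 M) (𝓞 L) u) huL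
    -- push down to `M`
    set T := {W : HeightOneSpectrum (𝓞 L) |
      ¬ ∃ t : 𝓞 L, t ^ p - algebraMap (𝓞 M) (𝓞 L) u ∈ W.asIdeal} with hT
    have himg : (HeightOneSpectrum.under (𝓞 M) '' T).Infinite := by
      intro hfin
      apply hinf
      refine Set.Finite.of_finite_fibers (HeightOneSpectrum.under (𝓞 M)) hfin fun w _ => ?_
      have hfin2 : (primesOver w.asIdeal (𝓞 L)).Finite :=
        Algebra.QuasiFinite.finite_primesOver w.asIdeal
      refine Set.Finite.of_finite_image (f := HeightOneSpectrum.asIdeal) (hfin2.subset ?_)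
        (fun x _ y _ h => HeightOneSpectrum.ext h)
      rintro _ ⟨W, ⟨-, hW⟩, rfl⟩
      refine ⟨W.isPrime, ⟨?_⟩⟩
      rw [← (show W.under (𝓞 M) = w from hW)]
      rfl
    refine himg.mono ?_
    rintro _ ⟨W, hW, rfl⟩
    have hWp := W.isPrime
    have hwp := (W.under (𝓞 M)).isPrime
    have hover : W.asIdeal.LiesOver (W.under (𝓞 M)).asIdeal := ⟨rfl⟩
    have hmem : ∀ x : 𝓞 M, algebraMap (𝓞 M) (𝓞 L) x ∈ W.asIdeal ↔ x ∈ (W.under (𝓞 M)).asIdeal :=
      fun x => Iff.rfl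
    have hnorm := absNorm_eq_pow (W.under (𝓞 M)).asIdeal (W.under (𝓞 M)).ne_bot W.asIdeal
    constructor
    · rcases inertiaDegIn_eq_one_or (M' := L) hp hdeg (W.under (𝓞 M)).asIdeal with hf | hf
      · rw [hf, pow_one] at hnorm
        obtain ⟨t, ht⟩ := exists_sub_mem_of_absNorm_eq (W.under (𝓞 M)).asIdeal
          (W.under (𝓞 M)).ne_bot W.asIdeal hnorm a
        refine ⟨t, ?_⟩
        rw [← hmem, map_sub, map_pow, ← ha]
        exact W.asIdeal.mem_of_dvd (sub_dvd_pow_sub_pow _ _ _) ht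
      · exfalso
        apply hW
        rw [hf] at hnorm
        have hWmax : W.asIdeal.IsMaximal := W.isMaximal
        let _ : Field (𝓞 L ⧸ W.asIdeal) := Ideal.Quotient.field W.asIdeal
        have : Finite (𝓞 L ⧸ W.asIdeal) := Ideal.finiteQuotientOfFreeOfNeBot _ W.ne_bot
        have hq : 2 ≤ absNorm (W.under (𝓞 M)).asIdeal := by
          have h0 : absNorm (W.under (𝓞 M)).asIdeal ≠ 0 := by
            rw [Ne, absNorm_eq_zero_iff]; exact (W.under (𝓞 M)).ne_bot
          have h1 : absNorm (W.under (𝓞 M)).asIdeal ≠ 1 := by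
            rw [Ne, absNorm_eq_one_iff]; exact hwp.ne_top
          omega
        have hcard : Nat.card (𝓞 L ⧸ W.asIdeal) = absNorm (W.under (𝓞 M)).asIdeal ^ p := by
          rw [← hnorm, absNorm_apply, Submodule.cardQuot_apply]
        have hx : (Ideal.Quotient.mk W.asIdeal (algebraMap (𝓞 M) (𝓞 L) u)) ^
            absNorm (W.under (𝓞 M)).asIdeal =
            Ideal.Quotient.mk W.asIdeal (algebraMap (𝓞 M) (𝓞 L) u) := by
          rw [← map_pow, ← map_pow, ← sub_eq_zero, ← map_sub, ← map_sub,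
            Ideal.Quotient.eq_zero_iff_mem, hmem]
          exact pow_absNorm_sub_mem _ (W.under (𝓞 M)).ne_bot u
        obtain ⟨y', hy'⟩ := exists_pow_eq_of_pow_card hp hq hcard hx
        obtain ⟨y, rfl⟩ := Ideal.Quotient.mk_surjective y'
        refine ⟨y, ?_⟩
        rw [← Ideal.Quotient.eq_zero_iff_mem, map_sub, map_pow, hy', sub_self]
    · rintro ⟨t, ht⟩
      apply hW
      refine ⟨algebraMap (𝓞 M) (𝓞 L) t, ?_⟩
      rw [← map_pow, ← map_sub, hmem]
      exact ht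

end Fermat.Agent.CFT.EX1
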