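import Fermat.Agent.CFT.Basic
import Fermat.Agent.CFT.OrdGal

set_option autoImplicit false

namespace Fermat.Agent.CFT

open IsDedekindDomain NumberField

variable {N : Type*} [Field N] [NumberField N]

/-- The local factor `(N v)^(ord_v p)` (`= p^(e f)` if `v ∣ p`, `= 1` otherwise). -/
noncomputable def locFac (p : ℕ) (v : Pl N) : ℕ :=
  (Ideal.absNorm v.asIdeal) ^ (ord v (p : N)).toNat

theorem LP_le_PD (p : ℕ) (ζ : N) (v : Pl N) : LP p ζ v ≤ PD p v := by
  unfold LP
  rw [sup_le_iff]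
  constructor
  · intro x hx
    have h := (mem_UD_iff v x).1 (PU_le_UD v _ hx)
    rw [mem_PD_iff, h]
    exact dvd_zero _
  · intro x hx
    obtain ⟨y, rfl⟩ := (mem_PW_iff p x).1 hx
    rw [mem_PD_iff, Units.val_pow_eq_pow_val, ord_pow]
    exact dvd_mul_right _ _

/-- `∏_{v ∈ S} (N v)^(ord_v p) = p^[N:ℚ]` if `S` contains all places over `p`. -/
theorem prod_locFac (p : ℕ) [Fact p.Prime] (S : Finset (Pl N)) (hS : ∀ v : Pl N, Over v p → v ∈ S) :
    ∏ v ∈ S, locFac p v = p ^ Module.finrank ℚ N := by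
  have hp0 : p ≠ 0 := (Fact.out : p.Prime).ne_zero
  have hpN : (p : 𝓞 N) ≠ 0 := by exact_mod_cast hp0
  have h1 := span_singleton_eq_finprod (N := N) hpN
  have h2 : ∏ᶠ v : Pl N, v.asIdeal ^ (ord v (((p : 𝓞 N) : 𝓞 N) : N)).toNat
      = ∏ v ∈ S, v.asIdeal ^ (ord v (p : N)).toNat := by
    rw [finprod_eq_prod_of_mulSupport_subset (s := S)]
    · rfl
    · intro v hv
      rw [Function.mem_mulSupport] at hv
      by_contra hvS
      apply hv
      have h3 : ¬ Over v p := fun h => hvS (Finset.mem_coe.2 (hS v h))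
      rw [over_iff_ord_pos v p hp0] at h3
      have h4 : (ord v (((p : 𝓞 N) : 𝓞 N) : N)).toNat = 0 := by
        have : (((p : 𝓞 N) : 𝓞 N) : N) = (p : N) := by simp
        rw [this]
        omega
      rw [h4, pow_zero, Ideal.one_eq_top]
  rw [h2] at h1
  have h5 := congrArg Ideal.absNorm h1
  rw [map_prod, Ideal.absNorm_span_singleton] at h5
  simp only [map_pow] at h5
  unfold locFac
  rw [← h5]
  have h6 : Algebra.norm ℤ (p : 𝓞 N) = (p : ℤ) ^ Module.finrank ℚ N := by
    have := Algebra.norm_algebraMap (S := 𝓞 N) (p : ℤ)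
    rw [RingOfIntegers.rank] at this
    simpa using this
  rw [h6]
  simp [Int.natAbs_pow]

end Fermat.Agent.CFT
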