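import Fermat.Agent.CFT.Basic
import Fermat.Agent.CFT.OrdGal
import Fermat.Agent.CFT.LPBasic

set_option autoImplicit false

namespace Fermat.Agent.CFT

open IsDedekindDomain NumberField

namespace LPIndex

/-- bounding a relative index by a map into a finite type separating the cosets. -/
theorem relIndex_le_of_map {G : Type*} [Group G] (H K : Subgroup G) {F : Type*} [Finite F]
    (φ : G → F) (h : ∀ a ∈ K, ∀ b ∈ K, φ a = φ b → a⁻¹ * b ∈ H) :
    H.relIndex K ≠ 0 ∧ H.relIndex K ≤ Nat.card F := by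
  have hinj : Function.Injective
      (fun x : K ⧸ H.subgroupOf K => φ ((Quotient.out x : K) : G)) := by
    intro x y hxy
    have h1 := h _ (Quotient.out x : K).2 _ (Quotient.out y : K).2 hxy
    have h2 : (QuotientGroup.mk (Quotient.out x) : K ⧸ H.subgroupOf K) =
        QuotientGroup.mk (Quotient.out y) := by
      rw [QuotientGroup.eq, Subgroup.mem_subgroupOf]
      simpa using h1
    simpa using h2
  have hfin : Finite (K ⧸ H.subgroupOf K) := Finite.of_injective _ hinj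
  refine ⟨?_, ?_⟩
  · exact Subgroup.index_ne_zero_of_finite
  · exact Nat.card_le_card_of_injective _ hinj

/-- kernel and cokernel of `x ↦ x ^ p` on `B / A` have the same size. -/
theorem relIndex_sup_map_pow {G : Type*} [CommGroup G] (A B : Subgroup G) (hAB : A ≤ B)
    (h0 : A.relIndex B ≠ 0) (p : ℕ) :
    (A ⊔ B.map (powMonoidHom p : G →* G)).relIndex B =
      A.relIndex (A.comap (powMonoidHom p : G →* G) ⊓ B) := by
  set f : G →* G := powMonoidHom p with hf
  have hBf : B.map f ≤ B := by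
    rintro _ ⟨b, hb, rfl⟩
    exact B.pow_mem hb p
  have hAf : A ≤ A.comap f := fun a ha => A.pow_mem ha p
  have e1 : A.relIndex (A.comap f ⊓ B) * (A.comap f ⊓ B).relIndex B = A.relIndex B :=
    Subgroup.relIndex_mul_relIndex _ _ _ (le_inf hAf hAB) inf_le_right
  have e2 : A.relIndex (A ⊔ B.map f) * (A ⊔ B.map f).relIndex B = A.relIndex B :=
    Subgroup.relIndex_mul_relIndex _ _ _ le_sup_left (sup_le hAB hBf)
  have e3 : (A.comap f ⊓ B).relIndex B = A.relIndex (A ⊔ B.map f) := by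
    rw [Subgroup.inf_relIndex_right, Subgroup.relIndex_comap, Subgroup.relIndex_sup_left]
  rw [e3] at e1
  have hne : A.relIndex (A ⊔ B.map f) ≠ 0 := by
    intro h
    rw [h, zero_mul] at e2
    exact h0 e2.symm
  have : A.relIndex (A ⊔ B.map f) * (A ⊔ B.map f).relIndex B =
      A.relIndex (A ⊔ B.map f) * A.relIndex (A.comap f ⊓ B) := by
    rw [e2, ← e1, mul_comm]
  exact Nat.eq_of_mul_eq_mul_left (Nat.pos_of_ne_zero hne) this

/-- enlarging both groups by `C` does not increase the index. -/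
theorem relIndex_sup_sup_le {G : Type*} [CommGroup G] (A B C : Subgroup G) (hAB : A ≤ B)
    (h0 : A.relIndex B ≠ 0) :
    (A ⊔ C).relIndex (B ⊔ C) ≠ 0 ∧ (A ⊔ C).relIndex (B ⊔ C) ≤ A.relIndex B := by
  have e : B ⊔ C = (A ⊔ C) ⊔ B := by
    apply le_antisymm
    · exact sup_le le_sup_right (le_sup_right.trans le_sup_left)
    · exact sup_le (sup_le (hAB.trans le_sup_left) le_sup_right) le_sup_left
  rw [e, Subgroup.relIndex_sup_left]
  refine ⟨fun h => h0 (Subgroup.relIndex_eq_zero_of_le_left le_sup_left h), ?_⟩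
  exact Subgroup.relIndex_le_of_le_left le_sup_left h0


variable {N : Type*} [Field N] [NumberField N]

/-- a `v`-integral element is close to an integer. -/
theorem exists_int_near (v : Pl N) (x : N) (hx : 0 ≤ ord v x) (n : ℕ) :
    ∃ r : 𝓞 N, x - (r : N) = 0 ∨ (n : ℤ) ≤ ord v (x - (r : N)) := by
  by_cases hx0 : x = 0
  · exact ⟨0, Or.inl (by simp [hx0])⟩
  have hfin := finite_ord_ne_zero (N := N) hx0
  set T := hfin.toFinset with hT
  set M : ℕ := n + 1 + ∑ w ∈ T, (ord w x).natAbs with hM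
  obtain ⟨ε, hε1, hε2⟩ := exists_idempotent_like T v M
  have hεne : ε ≠ 0 := by
    rintro rfl
    have h1 : (0 - 1 : 𝓞 N) ∈ v.asIdeal := Ideal.pow_le_self (by omega) hε1
    apply v.isPrime.ne_top
    rw [Ideal.eq_top_iff_one]
    simpa using h1
  have hεne' : (ε : N) ≠ 0 := by
    intro h
    exact hεne (by exact_mod_cast h)
  have hint : ∀ w : Pl N, 0 ≤ ord w ((ε : N) * x) := by
    intro w
    rw [ord_mul w hεne' hx0]
    by_cases hwv : w = v
    · subst hwv
      exact add_nonneg (ord_nonneg_of_integer _ _) hx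
    by_cases hwT : w ∈ T
    · have h1 : (M : ℤ) ≤ ord w (ε : N) := (le_ord_iff_mem_pow w hεne M).mpr (hε2 w hwT hwv)
      have h2 : (ord w x).natAbs ≤ ∑ w ∈ T, (ord w x).natAbs :=
        Finset.single_le_sum (f := fun w => (ord w x).natAbs) (fun _ _ => Nat.zero_le _) hwT
      omega
    · have h3 : ord w x = 0 := by simpa [hT] using hwT
      rw [h3, add_zero]
      exact ord_nonneg_of_integer w ε
  obtain ⟨r, hr⟩ := isIntegral_of_forall_ord_nonneg hint
  refine ⟨r, ?_⟩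
  by_cases hε : ε = 1
  · left
    rw [hr, hε]
    simp
  · right
    have h1 : x - (r : N) = ((1 - ε : 𝓞 N) : N) * x := by
      rw [hr]; push_cast; ring
    have h2 : (1 - ε : 𝓞 N) ≠ 0 := sub_ne_zero.mpr (Ne.symm hε)
    have h2' : ((1 - ε : 𝓞 N) : N) ≠ 0 := by
      intro h
      exact h2 (by exact_mod_cast h)
    rw [h1, ord_mul v h2' hx0]
    have h3 : (M : ℤ) ≤ ord v ((1 - ε : 𝓞 N) : N) :=
      (le_ord_iff_mem_pow v h2 M).mpr (by
        have := neg_mem hε1
        simpa using this)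
    omega

/-- a choice of integer close to `x`. -/
noncomputable def near (v : Pl N) (n : ℕ) (x : N) : 𝓞 N :=
  open Classical in if h : 0 ≤ ord v x then (exists_int_near v x h n).choose else 0

theorem near_spec (v : Pl N) (n : ℕ) (x : N) (h : 0 ≤ ord v x) :
    x - (near v n x : N) = 0 ∨ (n : ℤ) ≤ ord v (x - (near v n x : N)) := by
  unfold near
  rw [dif_pos h]
  exact (exists_int_near v x h n).choose_spec

theorem card_quot_pow (v : Pl N) (j : ℕ) :
    Nat.card (𝓞 N ⧸ v.asIdeal ^ j) = Ideal.absNorm v.asIdeal ^ j := by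
  rw [← map_pow, Ideal.absNorm_apply, Submodule.cardQuot_apply]

theorem absNorm_ne_zero (v : Pl N) : Ideal.absNorm v.asIdeal ≠ 0 := by
  rw [Ne, Ideal.absNorm_eq_zero_iff]
  exact v.ne_bot

theorem finite_quot_pow (v : Pl N) (j : ℕ) : Finite (𝓞 N ⧸ v.asIdeal ^ j) := by
  apply Nat.finite_of_card_ne_zero
  rw [card_quot_pow]
  exact pow_ne_zero _ (absNorm_ne_zero v)

/-- the general counting lemma. -/
theorem relIndex_PU_le_aux (v : Pl N) (K : Subgroup Nˣ) (hK : K ≤ UD v) (d c : N) (hc : c ≠ 0)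
    (j m : ℕ) (hcm : (m : ℤ) + 1 ≤ ord v c + j)
    (hx : ∀ a ∈ K, 0 ≤ ord v (((a : Nˣ) - d : N) / c)) :
    (PU v m).relIndex K ≠ 0 ∧ (PU v m).relIndex K ≤ Ideal.absNorm v.asIdeal ^ j := by
  have := finite_quot_pow v j
  rw [← card_quot_pow v j]
  refine relIndex_le_of_map (PU v m) K
    (fun a : Nˣ => Ideal.Quotient.mk (v.asIdeal ^ j) (near v j (((a : N) - d) / c))) ?_
  intro a ha b hb hab
  rw [Ideal.Quotient.eq] at hab
  set ra := near v j (((a : N) - d) / c) with hra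
  set rb := near v j (((b : N) - d) / c) with hrb
  have h1 := near_spec v j _ (hx a ha)
  have h2 := near_spec v j _ (hx b hb)
  rw [← hra] at h1
  rw [← hrb] at h2
  have h3 : ((ra - rb : 𝓞 N) : N) = 0 ∨ (j : ℤ) ≤ ord v ((ra - rb : 𝓞 N) : N) := by
    by_cases h0 : ra - rb = 0
    · left; rw [h0]; simp
    · right; exact (le_ord_iff_mem_pow v h0 j).mpr hab
  have h4 := le_ord_sub v (le_ord_add v h1 h3) h2
  have h5 : ((a : N) - d) / c - (ra : N) + ((ra - rb : 𝓞 N) : N) - (((b : N) - d) / c - (rb : N)) =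
      ((a : N) - b) / c := by
    push_cast
    field_simp
    ring
  rw [h5] at h4
  rw [mem_PU_iff]
  have ha0 : (a : N) ≠ 0 := a.ne_zero
  by_cases hab' : (a : N) = b
  · left
    push_cast
    rw [hab']
    field_simp
  · right
    have hsub : (a : N) - b ≠ 0 := sub_ne_zero.mpr hab'
    have h6 : (j : ℤ) ≤ ord v (((a : N) - b) / c) := by
      rcases h4 with h4 | h4
      · exfalso
        rw [div_eq_zero_iff] at h4
        tauto
      · exact h4
    rw [ord_div v hsub hc] at h6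
    have h7 : (((a⁻¹ * b : Nˣ) : Nˣ) : N) - 1 = -(((a : N) - b) / a) := by
      push_cast
      field_simp
      ring
    rw [h7, ord_neg, ord_div v hsub ha0, (mem_UD_iff v a).mp (hK ha)]
    omega

theorem relIndex_PU_UD_ne_zero (v : Pl N) (m : ℕ) : (PU v m).relIndex (UD v) ≠ 0 := by
  refine (relIndex_PU_le_aux v (UD v) le_rfl 0 1 one_ne_zero (m + 1) m (by simp) ?_).1
  intro a ha
  simp [(mem_UD_iff v a).mp ha]

theorem relIndex_PU_PU_le (v : Pl N) {k m : ℕ} (h : k ≤ m) :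
    (PU v m).relIndex (PU v k) ≠ 0 ∧
      (PU v m).relIndex (PU v k) ≤ Ideal.absNorm v.asIdeal ^ (m - k) := by
  obtain ⟨π, hπ⟩ := exists_uniformizer v
  have hπ0 : (π : N) ≠ 0 := by
    intro h0
    rw [h0, ord_zero] at hπ
    exact zero_ne_one hπ
  have hc : ((π : N) ^ (k + 1)) ≠ 0 := pow_ne_zero _ hπ0
  have hord : ord v ((π : N) ^ (k + 1)) = k + 1 := by
    rw [ord_pow, hπ]; push_cast; ring
  refine relIndex_PU_le_aux v (PU v k) (PU_le_UD v k) 1 _ hc (m - k) m ?_ ?_
  · rw [hord]; omega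
  · intro a ha
    rcases (mem_PU_iff v k a).mp ha with h1 | h1
    · rw [h1]; simp
    · have hne : (a : N) - 1 ≠ 0 := by
        intro h0
        rw [h0, ord_zero] at h1
        omega
      rw [ord_div v hne hc, hord]
      omega


theorem ord_eq_zero_of_pow_eq_one (v : Pl N) {μ : N} {p : ℕ} (hp : p ≠ 0) (hμ : μ ^ p = 1) :
    ord v μ = 0 := by
  have h := ord_pow v μ p
  rw [hμ, ord_one] at h
  have hp' : (p : ℤ) ≠ 0 := by exact_mod_cast hp
  rcases mul_eq_zero.mp h.symm with h | h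
  · exact absurd h hp'
  · exact h

/-- `y ^ p ≡ 1` to high order forces `y ≡ ζ ^ i` to order `> e₀`. -/
theorem comap_pow_PU_le (p : ℕ) [Fact p.Prime] (ζ : Nˣ) (hζ : IsPrimitiveRoot (ζ : N) p)
    (v : Pl N) (e0 : ℕ) :
    (PU v (p * e0)).comap (powMonoidHom p : Nˣ →* Nˣ) ≤ Subgroup.zpowers ζ ⊔ PU v e0 := by
  have hp : p.Prime := Fact.out
  have : NeZero p := ⟨hp.ne_zero⟩
  intro y hy
  rw [Subgroup.mem_comap, powMonoidHom_apply, mem_PU_iff] at hy
  -- the key claim
  have key : ∃ μ : N, μ ^ p = 1 ∧ ((y : N) = μ ∨ (e0 : ℤ) < ord v ((y : N) - μ)) := by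
    rcases hy with hy | hy
    · exact ⟨y, by simpa using hy, Or.inl rfl⟩
    · by_contra hcon
      push Not at hcon
      have hprod := hζ.pow_sub_pow_eq_prod_sub_mul (y : N) 1 hp.pos
      simp only [one_pow, mul_one] at hprod
      have hne : ∀ μ ∈ Polynomial.nthRootsFinset p (1 : N), (y : N) - μ ≠ 0 := by
        intro μ hμ
        rw [Polynomial.mem_nthRootsFinset hp.pos] at hμ
        exact sub_ne_zero.mpr (hcon μ hμ).1
      have hsum : ord v ((y : N) ^ p - 1) =
          ∑ μ ∈ Polynomial.nthRootsFinset p (1 : N), ord v ((y : N) - μ) := by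
        rw [hprod, ord_prod v _ _ hne]
      have hle : ∑ μ ∈ Polynomial.nthRootsFinset p (1 : N), ord v ((y : N) - μ) ≤
          (Polynomial.nthRootsFinset p (1 : N)).card • (e0 : ℤ) := by
        apply Finset.sum_le_card_nsmul
        intro μ hμ
        rw [Polynomial.mem_nthRootsFinset hp.pos] at hμ
        exact (hcon μ hμ).2
      rw [hζ.card_nthRootsFinset] at hle
      rw [Units.val_pow_eq_pow_val, hsum] at hy
      simp only [nsmul_eq_mul] at hle
      push_cast at hy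
      omega
  obtain ⟨μ, hμ, hyμ⟩ := key
  obtain ⟨i, -, hi⟩ := hζ.eq_pow_of_pow_eq_one hμ
  rw [Subgroup.mem_sup]
  refine ⟨ζ ^ i, Subgroup.pow_mem _ (Subgroup.mem_zpowers ζ) i, (ζ ^ i)⁻¹ * y, ?_, by group⟩
  rw [mem_PU_iff]
  have hμ0 : μ ≠ 0 := by
    intro h0
    rw [h0, zero_pow hp.ne_zero] at hμ
    exact zero_ne_one hμ
  have hval : (((ζ ^ i)⁻¹ * y : Nˣ) : N) = (y : N) / μ := by
    push_cast
    rw [hi]
    field_simp
  rcases hyμ with h | h
  · left
    rw [hval, h]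
    field_simp
  · right
    have hne : (y : N) - μ ≠ 0 := by
      intro h0
      rw [h0, ord_zero] at h
      omega
    have : (y : N) / μ - 1 = ((y : N) - μ) / μ := by field_simp
    rw [hval, this, ord_div v hne hμ0, ord_eq_zero_of_pow_eq_one v hp.ne_zero hμ]
    omega

theorem index_PD (p : ℕ) [Fact p.Prime] (v : Pl N) :
    (PD p v).index ≠ 0 ∧ (PD p v).index ≤ p := by
  have hp : p.Prime := Fact.out
  have : NeZero p := ⟨hp.ne_zero⟩
  have h := relIndex_le_of_map (PD p v) ⊤ (fun a : Nˣ => ((ord v (a : N) : ℤ) : ZMod p)) (by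
    intro a _ b _ hab
    rw [mem_PD_iff]
    rw [ZMod.intCast_eq_intCast_iff_dvd_sub] at hab
    push_cast
    rw [ord_mul v (inv_ne_zero a.ne_zero) b.ne_zero, ord_inv]
    have : -ord v (a : N) + ord v (b : N) = ord v (b : N) - ord v (a : N) := by ring
    rwa [this])
  rwa [Subgroup.relIndex_top_right, Nat.card_zmod] at h

theorem PD_eq_sup (p : ℕ) (v : Pl N) : PD p v = UD v ⊔ PW p Nˣ := by
  apply le_antisymm
  · intro x hx
    rw [mem_PD_iff] at hx
    obtain ⟨k, hk⟩ := hx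
    obtain ⟨π, hπ⟩ := exists_uniformizer v
    have hπ0 : (π : N) ≠ 0 := by
      intro h0
      rw [h0, ord_zero] at hπ
      exact zero_ne_one hπ
    set ϖ : Nˣ := Units.mk0 (π : N) hπ0 with hϖ
    have hϖ1 : ord v (ϖ : N) = 1 := by simpa [hϖ] using hπ
    rw [Subgroup.mem_sup]
    refine ⟨x * (ϖ ^ (-(p * k : ℤ))), ?_, (ϖ ^ k) ^ p, ?_, ?_⟩
    · rw [mem_UD_iff, Units.val_mul, ord_mul v x.ne_zero (Units.ne_zero _), ord_units_zpow, hϖ1, hk]
      ring
    · rw [mem_PW_iff]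
      exact ⟨_, rfl⟩
    · rw [← zpow_natCast (ϖ ^ k) p, ← zpow_mul, mul_assoc, ← zpow_add]
      have : -(p * k : ℤ) + k * p = 0 := by ring
      rw [this, zpow_zero, mul_one]
  · apply sup_le
    · intro x hx
      rw [mem_PD_iff, (mem_UD_iff v x).mp hx]
      exact dvd_zero _
    · intro x hx
      rw [mem_PW_iff] at hx
      obtain ⟨y, rfl⟩ := hx
      rw [mem_PD_iff, Units.val_pow_eq_pow_val, ord_pow]
      exact dvd_mul_right _ _


theorem toNat_ord_p (p : ℕ) [Fact p.Prime] (v : Pl N) {ζ : N} (hζ : IsPrimitiveRoot ζ p) :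
    (ord v (p : N)).toNat = p * (ord v (1 - ζ)).toNat - (ord v (1 - ζ)).toNat := by
  have hp : p.Prime := Fact.out
  rw [ord_p_eq p v hζ]
  obtain ⟨q, rfl⟩ : ∃ q, p = q + 1 := ⟨p - 1, by have := hp.pos; omega⟩
  simp only [Nat.add_sub_cancel]
  rcases le_total 0 (ord v (1 - ζ)) with h | h
  · obtain ⟨z, hz⟩ := Int.eq_ofNat_of_zero_le h
    rw [hz]
    have : ((q : ℤ) * (z : ℤ)).toNat = q * z := by
      rw [← Nat.cast_mul, Int.toNat_natCast]
    rw [this, Int.toNat_natCast, Nat.add_mul, one_mul, Nat.add_sub_cancel]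
  · have h1 : (ord v (1 - ζ)).toNat = 0 := Int.toNat_of_nonpos h
    have h2 : ((q : ℤ) * ord v (1 - ζ)).toNat = 0 :=
      Int.toNat_of_nonpos (mul_nonpos_of_nonneg_of_nonpos (by positivity) h)
    rw [h1, h2]
    simp

end LPIndex


variable {N : Type*} [Field N] [NumberField N]

open LPIndex in
/-- `[{x : p ∣ ord_v x} : L_v] ≤ p (N v)^(ord_v p)`. -/
theorem LP_relIndex_PD_le (p : ℕ) [Fact p.Prime] (ζ : N) (hζ : IsPrimitiveRoot ζ p) (v : Pl N) :
    (LP p ζ v).relIndex (PD p v) ≠ 0 ∧ (LP p ζ v).relIndex (PD p v) ≤ p * locFac p v := by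
  have hp : p.Prime := Fact.out
  set e0 : ℕ := (ord v (1 - ζ)).toNat with he0
  set A : Subgroup Nˣ := PU v (p * e0) with hA
  set B : Subgroup Nˣ := UD v with hB
  set f : Nˣ →* Nˣ := powMonoidHom p with hf
  set ζu : Nˣ := Units.mk0 ζ (hζ.ne_zero hp.ne_zero) with hζu
  have hζ' : IsPrimitiveRoot (ζu : N) p := by simpa [hζu] using hζ
  set Z : Subgroup Nˣ := Subgroup.zpowers ζu with hZ
  set E : Subgroup Nˣ := PU v e0 with hE
  have hAB : A ≤ B := PU_le_UD v _
  have h0 : A.relIndex B ≠ 0 := relIndex_PU_UD_ne_zero v _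
  have hle : e0 ≤ p * e0 := Nat.le_mul_of_pos_left _ hp.pos
  have hAE : A ≤ E := PU_anti v hle
  have h1 := relIndex_sup_map_pow A B hAB h0 p
  have hK : A.comap f ⊓ B ≤ Z ⊔ E := inf_le_left.trans (comap_pow_PU_le p ζu hζ' v e0)
  have h2 : A.relIndex E * E.relIndex (Z ⊔ E) = A.relIndex (Z ⊔ E) :=
    Subgroup.relIndex_mul_relIndex _ _ _ hAE le_sup_right
  have h3 := relIndex_PU_PU_le v hle
  have h4 : E.relIndex (Z ⊔ E) ∣ p := by
    rw [Subgroup.relIndex_sup_right]
    have := Subgroup.relIndex_dvd_card E Z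
    rwa [hZ, Nat.card_zpowers, ← (IsPrimitiveRoot.coe_units_iff.mp hζ').eq_orderOf] at this
  have h4' : E.relIndex (Z ⊔ E) ≠ 0 := fun h => hp.ne_zero (by simpa [h] using h4)
  have h4'' : E.relIndex (Z ⊔ E) ≤ p := Nat.le_of_dvd hp.pos h4
  have h5 : A.relIndex (Z ⊔ E) ≠ 0 := by
    rw [← h2]; exact mul_ne_zero h3.1 h4'
  have h6 : A.relIndex (Z ⊔ E) ≤ p * locFac p v := by
    rw [← h2, mul_comm, locFac, toNat_ord_p p v hζ]
    exact Nat.mul_le_mul h4'' h3.2
  have h7 : A.relIndex (A.comap f ⊓ B) ≤ A.relIndex (Z ⊔ E) :=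
    Subgroup.relIndex_le_of_le_right hK h5
  have h7' : A.relIndex (A.comap f ⊓ B) ≠ 0 :=
    fun h => h5 (Subgroup.relIndex_eq_zero_of_le_right hK h)
  have hBf : B.map f ≤ B := by
    rintro _ ⟨b, hb, rfl⟩
    exact B.pow_mem hb p
  have h8 := relIndex_sup_sup_le (A ⊔ B.map f) B (PW p Nˣ) (sup_le hAB hBf) (by rw [h1]; exact h7')
  have hLP : LP p ζ v = (A ⊔ B.map f) ⊔ PW p Nˣ := by
    have : B.map f ≤ PW p Nˣ := Subgroup.map_le_range _ _
    rw [sup_assoc, sup_eq_right.mpr this]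
    rfl
  rw [hLP, PD_eq_sup]
  exact ⟨h8.1, h8.2.trans (by rw [h1]; exact h7.trans h6)⟩

open LPIndex in
/-- `[N^* : L_v] ≤ p^2 (N v)^(ord_v p)`. -/
theorem LP_index_le (p : ℕ) [Fact p.Prime] (ζ : N) (hζ : IsPrimitiveRoot ζ p) (v : Pl N) :
    (LP p ζ v).index ≠ 0 ∧ (LP p ζ v).index ≤ p ^ 2 * locFac p v := by
  have h1 := LP_relIndex_PD_le p ζ hζ v
  have h2 := index_PD p v
  rw [← Subgroup.relIndex_mul_index (LP_le_PD p ζ v)]
  refine ⟨mul_ne_zero h1.1 h2.1, ?_⟩
  calc (LP p ζ v).relIndex (PD p v) * (PD p v).index ≤ (p * locFac p v) * p :=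
        Nat.mul_le_mul h1.2 h2.2
    _ = p ^ 2 * locFac p v := by ring

end Fermat.Agent.CFT
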