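import Fermat.Agent.CFT.Basic
import Fermat.Agent.CFT.OrdGal
import Fermat.Agent.CFT.LPBasic

set_option autoImplicit false

namespace Fermat.Agent.CFT

open IsDedekindDomain NumberField

namespace LPMap

theorem dvd_geom_sum (p x : ℕ) (hx : p ∣ x) : p ∣ ∑ i ∈ Finset.range p, (x + 1) ^ i := by
  rw [← ZMod.natCast_eq_zero_iff] at hx ⊢
  push_cast
  rw [hx]
  simp

/-- In a finite field with `(x+1) ^ p` elements, `p ∣ x`, every `x`-th root of unity is a
`p`-th power. -/
theorem exists_pow_eq_of_card {F : Type*} [Field F] [Finite F] (p x : ℕ) (hx0 : 0 < x)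
    (hx : p ∣ x) (hcard : Nat.card F = (x + 1) ^ p) (a : F) (ha : a ≠ 0) (h : a ^ x = 1) :
    ∃ y : F, y ≠ 0 ∧ y ^ p = a := by
  classical
  obtain ⟨g, hg⟩ := IsCyclic.exists_generator (α := Fˣ)
  have hord : orderOf g = Nat.card Fˣ := orderOf_eq_card_of_forall_mem_zpowers hg
  have hcu : Nat.card Fˣ = (∑ i ∈ Finset.range p, (x + 1) ^ i) * x := by
    rw [Nat.card_units, hcard, ← geom_sum_mul_add x p]
    simp
  obtain ⟨k, hk⟩ := (mem_powers_iff_mem_zpowers (x := g)).mpr (hg (Units.mk0 a ha))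
  simp only at hk
  have h1 : g ^ (k * x) = 1 := by
    rw [pow_mul, hk]
    ext
    simpa using h
  have h2 : (∑ i ∈ Finset.range p, (x + 1) ^ i) * x ∣ k * x := by
    rw [← hcu, ← hord]
    exact orderOf_dvd_of_pow_eq_one h1
  have h3 : (∑ i ∈ Finset.range p, (x + 1) ^ i) ∣ k := Nat.dvd_of_mul_dvd_mul_right hx0 h2
  obtain ⟨m, hm⟩ := (dvd_geom_sum p x hx).trans h3
  refine ⟨((g ^ m : Fˣ) : F), Units.ne_zero _, ?_⟩
  have : (g ^ m) ^ p = Units.mk0 a ha := by
    rw [← pow_mul, mul_comm, ← hm, hk]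
  have := congrArg (Units.val) this
  simpa using this

section one

variable {N : Type*} [Field N] [NumberField N]

instance finite_quot (v : Pl N) : Finite (𝓞 N ⧸ v.asIdeal) :=
  Ideal.finiteQuotientOfFreeOfNeBot v.asIdeal v.ne_bot

theorem card_quot (v : Pl N) : Nat.card (𝓞 N ⧸ v.asIdeal) = Ideal.absNorm v.asIdeal := by
  rw [Ideal.absNorm_apply, Submodule.cardQuot_apply]

/-- `a ^ (N v - 1) ≡ 1 mod v` for `a ∉ v`. -/
theorem pow_absNorm_sub_one_sub_one_mem (v : Pl N) (a : 𝓞 N) (ha : a ∉ v.asIdeal) :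
    a ^ (Ideal.absNorm v.asIdeal - 1) - 1 ∈ v.asIdeal := by
  classical
  have : v.asIdeal.IsMaximal := v.isMaximal
  let _ : Field (𝓞 N ⧸ v.asIdeal) := Ideal.Quotient.field v.asIdeal
  let _ : Fintype (𝓞 N ⧸ v.asIdeal) := Fintype.ofFinite _
  have h0 : (Ideal.Quotient.mk v.asIdeal a) ≠ 0 := by
    rwa [Ne, Ideal.Quotient.eq_zero_iff_mem]
  have h1 := FiniteField.pow_card_sub_one_eq_one _ h0
  rw [← Nat.card_eq_fintype_card, card_quot] at h1
  rw [← Ideal.Quotient.eq_zero_iff_mem, map_sub, map_pow, h1, map_one, sub_self]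

/-- `p ∣ N v - 1` if `N` contains a primitive `p`-th root of unity and `v ∤ p`. -/
theorem dvd_absNorm_sub_one (p : ℕ) [Fact p.Prime] (ζ : N) (hζ : IsPrimitiveRoot ζ p) (v : Pl N)
    (hv : ¬ Over v p) : p ∣ Ideal.absNorm v.asIdeal - 1 := by
  classical
  have : v.asIdeal.IsMaximal := v.isMaximal
  let _ : Field (𝓞 N ⧸ v.asIdeal) := Ideal.Quotient.field v.asIdeal
  let _ : Fintype (𝓞 N ⧸ v.asIdeal) := Fintype.ofFinite _
  have : NeZero p := ⟨(Fact.out : p.Prime).ne_zero⟩
  have hζ' : IsPrimitiveRoot hζ.toInteger p := hζ.toInteger_isPrimitiveRoot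
  set z : 𝓞 N ⧸ v.asIdeal := Ideal.Quotient.mk v.asIdeal hζ.toInteger with hz
  have hzp : z ^ p = 1 := by
    rw [hz, ← map_pow, hζ'.pow_eq_one, map_one]
  have hz1 : z ≠ 1 := by
    intro h
    have h2 : hζ.toInteger ^ 1 - hζ.toInteger ^ 0 ∈ v.asIdeal := by
      rw [← Ideal.Quotient.eq_zero_iff_mem, map_sub, pow_one, pow_zero, map_one, ← hz, h, sub_self]
    have h3 := pow_eq_pow_of_sub_mem v hv hζ' h2
    rw [pow_one, pow_zero] at h3
    exact hζ'.ne_one (Fact.out : p.Prime).one_lt h3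
  have hz0 : z ≠ 0 := by
    intro h
    rw [h, zero_pow (Fact.out : p.Prime).ne_zero] at hzp
    exact zero_ne_one hzp
  have ho : orderOf (Units.mk0 z hz0) = p := by
    apply orderOf_eq_prime
    · ext; simpa using hzp
    · intro h
      exact hz1 (by simpa using congrArg Units.val h)
  have := orderOf_dvd_card (x := Units.mk0 z hz0)
  rw [ho, Fintype.card_units, ← Nat.card_eq_fintype_card, card_quot] at this
  exact this

theorem one_lt_absNorm (v : Pl N) : 1 < Ideal.absNorm v.asIdeal := by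
  have : v.asIdeal.IsMaximal := v.isMaximal
  let _ : Field (𝓞 N ⧸ v.asIdeal) := Ideal.Quotient.field v.asIdeal
  rw [← card_quot]
  exact Finite.one_lt_card

/-- the unit of `N` attached to a non zero integer -/
noncomputable def unitOf (a : 𝓞 N) (ha : a ≠ 0) : Nˣ :=
  Units.mk0 (a : N) (by simpa using ha)

end one

end LPMap

variable {N : Type*} [Field N] [NumberField N] {N' : Type*} [Field N'] [NumberField N']
  [Algebra N N']

/-- Functoriality of `LP` at places not over `p`. -/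
theorem map_mem_LP (p : ℕ) [Fact p.Prime] (ζ : N) (hζ : IsPrimitiveRoot ζ p) (v : Pl N) (w : Pl N')
    (hw : Above w v) (hv : ¬ Over v p) (x : Nˣ) (hx : x ∈ LP p ζ v) :
    Units.map (algebraMap N N' : N →* N') x ∈ LP p (algebraMap N N' ζ) w := by
  have hζ' : IsPrimitiveRoot (algebraMap N N' ζ) p :=
    hζ.map_of_injective (algebraMap N N').injective
  have hw' : ¬ Over w p := fun h => hv ((over_of_above hw p).mp h)
  rw [mem_LP_iff] at hx ⊢
  obtain ⟨u, hu, y, rfl⟩ := hx
  rw [ord_one_sub_zeta_of_not_over p v hv hζ] at hu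
  rw [ord_one_sub_zeta_of_not_over p w hw' hζ']
  simp only [Int.toNat_zero, mul_zero] at hu ⊢
  refine ⟨Units.map (algebraMap N N' : N →* N') u, ?_, Units.map (algebraMap N N' : N →* N') y, ?_⟩
  · rw [mem_PU_iff] at hu ⊢
    rcases hu with hu | hu
    · left
      simp [hu]
    · right
      have : ((Units.map (algebraMap N N' : N →* N') u : N'ˣ) : N') - 1
          = algebraMap N N' ((u : N) - 1) := by simp
      rw [this, ord_algebraMap hw]
      have h1 := ramificationIdx_pos hw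
      simp only [Nat.cast_zero] at hu ⊢
      positivity
  · simp

/-- If `v ∤ p` is unramified and not split in the degree `p` Galois extension `N'/N` (i.e. inert),
every `v`-unit of `N` becomes a local `p`-th power at the place above `v`. -/
theorem map_mem_LP_of_inert (p : ℕ) [Fact p.Prime] (ζ : N) (hζ : IsPrimitiveRoot ζ p) [IsGalois N N']
    (hdeg : Module.finrank N N' = p) (v : Pl N) (w : Pl N') (hw : Above w v) (hv : ¬ Over v p)
    (hunr : Unram N w) (hns : ¬ Split N' v) (x : Nˣ) (hx : x ∈ UD v) :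
    Units.map (algebraMap N N' : N →* N') x ∈ LP p (algebraMap N N' ζ) w := by
  classical
  have hp : p.Prime := Fact.out
  have hζ' : IsPrimitiveRoot (algebraMap N N' ζ) p :=
    hζ.map_of_injective (algebraMap N N').injective
  have hw' : ¬ Over w p := fun h => hv ((over_of_above hw p).mp h)
  -- `N w = (N v) ^ p`
  have hstab : Nat.card (MulAction.stabilizer (N' ≃ₐ[N] N') w) = p := by
    have : MulAction.stabilizer (N' ≃ₐ[N] N') w = ⊤ := by
      rw [eq_top_iff]
      intro σ _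
      exact smul_eq_of_not_split hp hdeg hw hns σ
    rw [this, Subgroup.card_top, IsGalois.card_aut_eq_finrank, hdeg]
  have hf : Ideal.inertiaDeg' v.asIdeal w.asIdeal = p := by
    have := card_stabilizer_eq hw
    rw [hstab, ramificationIdx_eq_one_of_unram hw hunr, one_mul] at this
    exact this.symm
  have hNw : Ideal.absNorm w.asIdeal = Ideal.absNorm v.asIdeal ^ p := by
    rw [absNorm_eq_pow_inertiaDeg hw, hf]
  -- residue classes of `v`-units are `p`-th powers mod `w`
  have key : ∀ a : 𝓞 N, a ∉ v.asIdeal →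
      ∃ y : 𝓞 N', y ∉ w.asIdeal ∧ algebraMap (𝓞 N) (𝓞 N') a - y ^ p ∈ w.asIdeal := by
    intro a ha
    have : w.asIdeal.IsMaximal := w.isMaximal
    let _ : Field (𝓞 N' ⧸ w.asIdeal) := Ideal.Quotient.field w.asIdeal
    have h1 := LPMap.one_lt_absNorm v
    have hx1 : Ideal.absNorm v.asIdeal - 1 + 1 = Ideal.absNorm v.asIdeal := by omega
    have hcard : Nat.card (𝓞 N' ⧸ w.asIdeal) = (Ideal.absNorm v.asIdeal - 1 + 1) ^ p := by
      rw [LPMap.card_quot, hNw, hx1]
    have ha0 : Ideal.Quotient.mk w.asIdeal (algebraMap (𝓞 N) (𝓞 N') a) ≠ 0 := by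
      rw [Ne, Ideal.Quotient.eq_zero_iff_mem, ← (above_iff w v).mp hw a]
      exact ha
    have hax : (Ideal.Quotient.mk w.asIdeal (algebraMap (𝓞 N) (𝓞 N') a)) ^
        (Ideal.absNorm v.asIdeal - 1) = 1 := by
      have h2 := LPMap.pow_absNorm_sub_one_sub_one_mem v a ha
      rw [(above_iff w v).mp hw, ← Ideal.Quotient.eq_zero_iff_mem, map_sub, map_sub, map_pow,
        map_pow, map_one, map_one, sub_eq_zero] at h2
      exact h2
    obtain ⟨y, hy0, hy⟩ := LPMap.exists_pow_eq_of_card p (Ideal.absNorm v.asIdeal - 1) (by omega)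
      (LPMap.dvd_absNorm_sub_one p ζ hζ v hv) hcard _ ha0 hax
    obtain ⟨y, rfl⟩ := Ideal.Quotient.mk_surjective y
    refine ⟨y, ?_, ?_⟩
    · rwa [Ne, Ideal.Quotient.eq_zero_iff_mem] at hy0
    · rw [← Ideal.Quotient.eq_zero_iff_mem, map_sub, map_pow, hy, sub_self]
  have key2 : ∀ (a : 𝓞 N) (_ : a ∉ v.asIdeal) (u : Nˣ), (u : N) = (a : N) →
      Units.map (algebraMap N N' : N →* N') u ∈ LP p (algebraMap N N' ζ) w := by
    intro a ha u hu
    obtain ⟨y, hyw, hy⟩ := key a ha
    have hy0 : y ≠ 0 := fun h => hyw (h ▸ w.asIdeal.zero_mem)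
    have hy0' : (y : N') ≠ 0 := by simpa using hy0
    rw [LP_eq_of_not_over p w hw' hζ']
    have hdec : Units.map (algebraMap N N' : N →* N') u =
        (Units.map (algebraMap N N' : N →* N') u * ((Units.mk0 (y : N') hy0') ^ p)⁻¹) *
          (Units.mk0 (y : N') hy0') ^ p := by
      simp
    rw [hdec]
    refine Subgroup.mul_mem_sup ?_ ((mem_PW_iff p _).mpr ⟨_, rfl⟩)
    rw [mem_PU_iff]
    have hval : ((Units.map (algebraMap N N' : N →* N') u * ((Units.mk0 (y : N') hy0') ^ p)⁻¹ :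
        N'ˣ) : N') - 1 = ((algebraMap (𝓞 N) (𝓞 N') a - y ^ p : 𝓞 N') : N') / (y : N') ^ p := by
      have : ((algebraMap (𝓞 N) (𝓞 N') a - y ^ p : 𝓞 N') : N') =
          algebraMap N N' (a : N) - (y : N') ^ p := by
        simp only [map_sub, map_pow]
        rfl
      rw [this]
      simp only [Units.val_mul, Units.val_inv_eq_inv_val, Units.val_pow_eq_pow_val, Units.coe_map,
        MonoidHom.coe_coe, hu, Units.val_mk0]
      field_simp
    by_cases h0 : algebraMap (𝓞 N) (𝓞 N') a - y ^ p = 0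
    · left
      have := hval
      rw [h0] at this
      simpa [sub_eq_zero] using this
    · right
      rw [hval, ord_div w (RingOfIntegers.coe_ne_zero_iff.mpr h0) (pow_ne_zero _ hy0'), ord_pow,
        ord_eq_zero_of_not_mem w hyw]
      simpa using (ord_pos_iff_mem w h0).mpr hy
  obtain ⟨a, b, ha, hb, hab⟩ := exists_div_not_mem_of_unit v x.ne_zero ((mem_UD_iff v x).mp hx)
  have ha0 : (a : N) ≠ 0 := by
    have : a ≠ 0 := fun h => ha (h ▸ v.asIdeal.zero_mem)
    simpa using this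
  have hb0 : (b : N) ≠ 0 := by
    have : b ≠ 0 := fun h => hb (h ▸ v.asIdeal.zero_mem)
    simpa using this
  have hx' : x = Units.mk0 (a : N) ha0 / Units.mk0 (b : N) hb0 := by
    ext
    simp [hab]
  rw [hx', map_div]
  exact Subgroup.div_mem _ (key2 a ha _ rfl) (key2 b hb _ rfl)

end Fermat.Agent.CFT
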