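import Fermat.Agent.CFT.Basic
import Fermat.Agent.CFT.OrdGal
import Fermat.Agent.CFT.LPBasic

set_option autoImplicit false

namespace Fermat.Agent.CFT

open IsDedekindDomain NumberField

variable {N : Type*} [Field N] [NumberField N] {N' : Type*} [Field N'] [NumberField N']
  [Algebra N N']

namespace LPSplit

/-- pigeonhole: some `p`-th root of unity is very close to `t`. -/
theorem exists_close (p : ℕ) [Fact p.Prime] (ζ' : N') (hζ' : IsPrimitiveRoot ζ' p) (w : Pl N')
    (t : N') (E : ℤ) (h1 : t ^ p - 1 ≠ 0) (hE : (p : ℤ) * E < ord w (t ^ p - 1)) :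
    ∃ μ : N', μ ^ p = 1 ∧ t - μ ≠ 0 ∧ E < ord w (t - μ) := by
  have hp : 0 < p := (Fact.out : p.Prime).pos
  have hprod : t ^ p - 1 = ∏ μ ∈ Polynomial.nthRootsFinset p (1 : N'), (t - μ) := by
    have := hζ'.pow_sub_pow_eq_prod_sub_mul t 1 hp
    simpa using this
  have hne : ∀ μ ∈ Polynomial.nthRootsFinset p (1 : N'), t - μ ≠ 0 := by
    intro μ hμ h0
    apply h1
    rw [hprod]
    exact Finset.prod_eq_zero hμ h0
  by_contra hcon
  push Not at hcon
  have hle : ∀ μ ∈ Polynomial.nthRootsFinset p (1 : N'), ord w (t - μ) ≤ E := by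
    intro μ hμ
    exact hcon μ ((Polynomial.mem_nthRootsFinset hp 1).mp hμ) (hne μ hμ)
  have hsum := Finset.sum_le_card_nsmul _ _ _ hle
  rw [← ord_prod w _ _ hne, ← hprod, hζ'.card_nthRootsFinset, nsmul_eq_mul] at hsum
  omega

end LPSplit

/-- **Splitting criterion.** If `x` is a local `p`-th power at `v` then `v` splits completely in
`N' = N(x^(1/p))`. -/
theorem split_of_mem_LP (p : ℕ) [Fact p.Prime] (ζ : N) (hζ : IsPrimitiveRoot ζ p) [IsGalois N N']
    (θ : N') (x : Nˣ) (hθ : θ ^ p = algebraMap N N' x)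
    (hgen : ∀ σ : N' ≃ₐ[N] N', σ θ = θ → σ = 1) (v : Pl N) (hx : x ∈ LP p ζ v) :
    Split N' v := by
  intro w hw σ hσ
  have hp0 : p ≠ 0 := (Fact.out : p.Prime).ne_zero
  obtain ⟨u, hu, y, rfl⟩ := (mem_LP_iff p ζ v x).mp hx
  set ζ' : N' := algebraMap N N' ζ with hζ'def
  have hζ' : IsPrimitiveRoot ζ' p := hζ.map_of_injective (algebraMap N N').injective
  set y' : N' := algebraMap N N' (y : N) with hy'def
  have hy' : y' ≠ 0 := by
    rw [hy'def]
    exact (map_ne_zero _).mpr y.ne_zero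
  set t : N' := θ * y'⁻¹ with htdef
  have ht : t ^ p = algebraMap N N' (u : N) := by
    rw [htdef, mul_pow, hθ, inv_pow, Units.val_mul, Units.val_pow_eq_pow_val, map_mul, map_pow,
      ← hy'def]
    field_simp
  have hu0 : algebraMap N N' (u : N) ≠ 0 := (map_ne_zero _).mpr u.ne_zero
  have ht0 : t ≠ 0 := by
    intro h
    rw [h, zero_pow hp0] at ht
    exact hu0 ht.symm
  -- it is enough to show that `σ` fixes `t`
  suffices hfix : σ t = t by
    apply hgen
    have h1 : θ = t * y' := by rw [htdef]; field_simp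
    rw [h1, map_mul, hfix, hy'def, AlgEquiv.commutes]
  -- roots of unity are fixed
  have hroot : ∀ μ : N', μ ^ p = 1 → σ μ = μ := by
    intro μ hμ
    have : NeZero p := ⟨hp0⟩
    obtain ⟨i, -, rfl⟩ := hζ'.eq_pow_of_pow_eq_one hμ
    rw [map_pow, hζ'def, AlgEquiv.commutes]
  by_cases h1 : t ^ p - 1 = 0
  · exact hroot t (sub_eq_zero.mp h1)
  -- `σ t = ζ'^i t`
  have hσt : (σ t / t) ^ p = 1 := by
    rw [div_pow, ← map_pow, ht, AlgEquiv.commutes]
    exact div_self hu0
  have : NeZero p := ⟨hp0⟩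
  obtain ⟨i, hi, hi'⟩ := hζ'.eq_pow_of_pow_eq_one hσt
  have hσt' : σ t = ζ' ^ i * t := by
    rw [hi']; field_simp
  by_contra hne
  have hi0 : ¬ i ≡ 0 [MOD p] := by
    intro h
    apply hne
    have : p ∣ i := (Nat.modEq_zero_iff_dvd).mp h
    rw [hσt', (hζ'.pow_eq_one_iff_dvd i).mpr this, one_mul]
  -- valuations
  set e : ℤ := (Ideal.ramificationIdx' v.asIdeal w.asIdeal : ℤ) with hedef
  have he : 0 < e := by
    rw [hedef]; exact_mod_cast ramificationIdx_pos hw
  set E : ℤ := ord w (1 - ζ') with hEdef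
  have hE : E = e * ord v (1 - ζ) := by
    rw [hEdef, hζ'def, ← map_one (algebraMap N N'), ← map_sub, ord_algebraMap hw]
  have hu1 : (u : N) ≠ 1 := by
    intro h
    apply h1
    rw [ht, h, map_one, sub_self]
  have hlt : ((p * (ord v (1 - ζ)).toNat : ℕ) : ℤ) < ord v ((u : N) - 1) := by
    rcases (mem_PU_iff v _ u).mp hu with h | h
    · exact absurd h hu1
    · exact h
  have hlt' : (p : ℤ) * E < ord w (t ^ p - 1) := by
    rw [ht, ← map_one (algebraMap N N'), ← map_sub, ord_algebraMap hw, hE, ← hedef]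
    have h2 : ord v (1 - ζ) ≤ ((ord v (1 - ζ)).toNat : ℤ) := Int.self_le_toNat _
    have h3 : (p : ℤ) * ord v (1 - ζ) < ord v ((u : N) - 1) := by
      push_cast at hlt
      have : (p : ℤ) * ord v (1 - ζ) ≤ (p : ℤ) * ((ord v (1 - ζ)).toNat : ℤ) :=
        mul_le_mul_of_nonneg_left h2 (by positivity)
      omega
    calc (p : ℤ) * (e * ord v (1 - ζ)) = e * ((p : ℤ) * ord v (1 - ζ)) := by ring
      _ < e * ord v ((u : N) - 1) := mul_lt_mul_of_pos_left h3 he
  obtain ⟨μ, hμ, hμ0, hμE⟩ := LPSplit.exists_close p ζ' hζ' w t E h1 hlt'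
  -- apply `σ`
  have hσw : σ⁻¹ • w = w := by
    rw [inv_smul_eq_iff, hσ]
  have hμE' : E < ord w (σ t - μ) := by
    have : σ t - μ = σ • (t - μ) := by
      rw [AlgEquiv.smul_def, map_sub, hroot μ hμ]
    rw [this, ord_smul', hσw]
    exact hμE
  have hdiff := le_ord_sub w (x := σ t - μ) (y := t - μ) (n := E + 1)
    (Or.inr (by omega)) (Or.inr (by omega))
  have hd : σ t - μ - (t - μ) = (ζ' ^ i - ζ' ^ 0) * t := by
    rw [hσt']; ring
  have hz : ζ' ^ i - ζ' ^ 0 ≠ 0 := by
    intro h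
    apply hne
    rw [hσt', sub_eq_zero.mp h, pow_zero, one_mul]
  have hordt : ord w t = 0 := by
    have h2 : (p : ℤ) * ord w t = 0 := by
      rw [← ord_pow, ht, ord_algebraMap hw, (mem_UD_iff v u).mp (PU_le_UD v _ hu), mul_zero]
    rcases mul_eq_zero.mp h2 with h | h
    · exact absurd (by exact_mod_cast h) hp0
    · exact h
  rw [hd] at hdiff
  rcases hdiff with h | h
  · exact (mul_ne_zero hz ht0) h
  · rw [ord_mul w hz ht0, ord_zeta_pow_sub p w hζ' hi0, hordt] at h
    omega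

end Fermat.Agent.CFT
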