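import Fermat.Agent.CFT.Basic
import Fermat.Agent.CFT.OrdGal
import Fermat.Agent.CFT.LPBasic

set_option autoImplicit false

namespace Fermat.Agent.CFT

open IsDedekindDomain NumberField

variable {N : Type*} [Field N] [NumberField N]

namespace LPUnit

/-- In a finite commutative group the index of the `p`-th powers is the number of elements killed
by `p`. -/
theorem index_PW_eq_card_ker (p : ℕ) (G : Type*) [CommGroup G] [Finite G] :
    (PW p G).index = Nat.card (powMonoidHom p : G →* G).ker := by
  have h1 := Subgroup.card_mul_index (PW p G)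
  have h2 := Subgroup.card_mul_index (powMonoidHom p : G →* G).ker
  rw [Subgroup.index_ker] at h2
  have h3 : Nat.card (PW p G) = Nat.card (powMonoidHom p : G →* G).range := rfl
  rw [h3] at h1
  have hpos : 0 < Nat.card (powMonoidHom p : G →* G).range := Nat.card_pos
  have : Nat.card (powMonoidHom p : G →* G).range * (PW p G).index
      = Nat.card (powMonoidHom p : G →* G).range * Nat.card (powMonoidHom p : G →* G).ker := by
    rw [h1, ← h2, mul_comm]
  exact Nat.eq_of_mul_eq_mul_left hpos this

/-- In a finite field containing an element of order `p`, the `p`-th powers have index `p` in the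
unit group. -/
theorem index_PW_units (p : ℕ) [Fact p.Prime] (k : Type*) [Field k] [Finite k] (z : kˣ)
    (hz : z ^ p = 1) (hz1 : z ≠ 1) : (PW p kˣ).index = p := by
  classical
  rw [index_PW_eq_card_ker]
  have hp : p.Prime := Fact.out
  have : NeZero p := ⟨hp.ne_zero⟩
  have hord : orderOf z = p := orderOf_eq_prime hz hz1
  have hprim : IsPrimitiveRoot z p := hord ▸ IsPrimitiveRoot.orderOf z
  have hprim' : IsPrimitiveRoot (z : k) p := hprim.map_of_injective (f := Units.coeHom k)
    Units.val_injective
  have hcard := hprim'.card_rootsOfUnity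
  have hker : (powMonoidHom p : kˣ →* kˣ).ker = rootsOfUnity p k := by
    ext x
    simp [MonoidHom.mem_ker, mem_rootsOfUnity]
  rw [hker, hcard]

variable (v : Pl N)

/-- the valuation subring of `v`. -/
noncomputable abbrev VA : ValuationSubring N := (v.valuation N).valuationSubring

theorem UD_eq : UD v = (VA v).unitGroup := by
  ext x
  exact (Valuation.mem_unitGroup_iff N (v.valuation N) x).symm

theorem PU_zero_eq : PU v 0 = (VA v).principalUnitGroup := by
  ext x
  rw [ValuationSubring.mem_principalUnitGroup_iff]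
  have h := (Valuation.isEquiv_valuation_valuationSubring (v.valuation N)).lt_one_iff_lt_one
    (x := (x : N) - 1)
  rw [← h]
  show v.valuation N ((x : N) - 1) < WithZero.exp (-((0 : ℕ) : ℤ)) ↔ _
  simp

/-- the ring hom from the integers to the residue field of the valuation ring. -/
noncomputable def toRes : 𝓞 N →+* IsLocalRing.ResidueField (VA v) :=
  (IsLocalRing.residue (VA v)).comp
    ((algebraMap (𝓞 N) N).codRestrict (VA v).toSubring (fun x => by
      show v.valuation N _ ≤ 1
      exact v.valuation_le_one x))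

theorem toRes_eq_zero {x : 𝓞 N} (hx : x ∈ v.asIdeal) : toRes v x = 0 := by
  unfold toRes
  rw [RingHom.comp_apply, IsLocalRing.residue_eq_zero_iff, Valuation.mem_maximalIdeal_iff]
  exact (v.valuation_lt_one_iff_mem x).mpr hx

theorem toRes_surjective : Function.Surjective (toRes v) := by
  intro z
  obtain ⟨a, rfl⟩ := IsLocalRing.residue_surjective z
  have ha : v.valuation N (a : N) ≤ 1 := a.2
  have hord : 0 ≤ ord v (a : N) := by
    by_cases h0 : (a : N) = 0
    · rw [h0, ord_zero]
    · have := (valuation_le_exp_neg_iff v h0 0).mp (by simpa using ha)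
      exact this
  obtain ⟨c, d, hd, hcd⟩ := exists_div_not_mem v hord
  have : v.asIdeal.IsMaximal := v.isMaximal
  obtain ⟨e, i, hi, hei⟩ := Ideal.IsMaximal.exists_inv (I := v.asIdeal) inferInstance hd
  refine ⟨c * e, ?_⟩
  unfold toRes
  rw [RingHom.comp_apply, ← sub_eq_zero, ← map_sub, IsLocalRing.residue_eq_zero_iff,
    Valuation.mem_maximalIdeal_iff]
  have hd0 : (d : N) ≠ 0 := by
    intro h
    apply hd
    have : d = 0 := by exact_mod_cast h
    rw [this]; exact zero_mem _
  have hdv : v.valuation N (d : N) = 1 := by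
    exact (v.valuation_eq_one_iff_notMem (K := N)).mpr hd
  have hkey : ((c * e : 𝓞 N) : N) - (a : N) = - ((c : N) * (i : N)) / (d : N) := by
    have h1 : (e : N) * (d : N) + (i : N) = 1 := by exact_mod_cast congrArg (fun t : 𝓞 N => (t : N)) hei
    rw [hcd]
    field_simp
    push_cast
    linear_combination (c : N) * h1
  show v.valuation N (((c * e : 𝓞 N) : N) - (a : N)) < 1
  rw [hkey, map_div₀, hdv, div_one, Valuation.map_neg, map_mul]
  have hc := v.valuation_le_one (K := N) c
  have hiv := (v.valuation_lt_one_iff_mem (K := N) i).mpr hi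
  exact mul_lt_of_le_one_of_lt hc hiv

instance finite_res : Finite (IsLocalRing.ResidueField (VA v)) := by
  have : Finite (𝓞 N ⧸ v.asIdeal) := v.asIdeal.finiteQuotientOfFreeOfNeBot v.ne_bot
  let g : 𝓞 N ⧸ v.asIdeal →+* IsLocalRing.ResidueField (VA v) :=
    Ideal.Quotient.lift v.asIdeal (toRes v) (fun x hx => toRes_eq_zero v hx)
  refine Finite.of_surjective g ?_
  intro z
  obtain ⟨x, rfl⟩ := toRes_surjective v z
  exact ⟨Ideal.Quotient.mk _ x, by simp [g]⟩

end LPUnit

open LPUnit in
/-- For `v ∤ p`: `[O_v^* : L_v ∩ O_v^*] = p`. -/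
theorem LP_relIndex_UD (p : ℕ) [Fact p.Prime] (ζ : N) (hζ : IsPrimitiveRoot ζ p) (v : Pl N)
    (hv : ¬ Over v p) : (LP p ζ v).relIndex (UD v) = p := by
  have hp : p.Prime := Fact.out
  rw [LP_eq_of_not_over p v hv hζ, UD_eq, PU_zero_eq]
  set A := VA v with hA
  set f := A.unitGroupToResidueFieldUnits with hf
  have hsurj : Function.Surjective f := A.surjective_unitGroupToResidueFieldUnits
  have hker : f.ker = A.principalUnitGroup.comap A.unitGroup.subtype :=
    A.ker_unitGroupToResidueFieldUnits
  -- the key identification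
  have hcomap : (A.principalUnitGroup ⊔ PW p Nˣ).subgroupOf A.unitGroup
      = (PW p (IsLocalRing.ResidueField A)ˣ).comap f := by
    ext x
    rw [Subgroup.mem_subgroupOf, Subgroup.mem_comap, Subgroup.mem_sup, mem_PW_iff]
    constructor
    · rintro ⟨u, hu, w, hw, huw⟩
      obtain ⟨y, rfl⟩ := (mem_PW_iff p w).mp hw
      -- y is a unit at v
      have hu' : u ∈ A.unitGroup := A.principal_units_le_units hu
      have hyp : y ^ p ∈ A.unitGroup := by
        have : y ^ p = u⁻¹ * (x : Nˣ) := by rw [← huw]; group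
        rw [this]
        exact A.unitGroup.mul_mem (A.unitGroup.inv_mem hu') x.2
      have hy : y ∈ A.unitGroup := by
        rw [ValuationSubring.mem_unitGroup_iff] at hyp ⊢
        rw [Units.val_pow_eq_pow_val, map_pow] at hyp
        exact (pow_eq_one_iff_of_nonneg zero_le hp.ne_zero).mp hyp
      refine ⟨f ⟨y, hy⟩, ?_⟩
      have hx : x = ⟨u, hu'⟩ * ⟨y, hy⟩ ^ p := by
        ext
        simp [← huw]
      have hfu : f ⟨u, hu'⟩ = 1 := by
        rw [← MonoidHom.mem_ker, hker]
        exact hu
      rw [hx, map_mul, map_pow, hfu, one_mul]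
    · rintro ⟨z, hz⟩
      obtain ⟨y, rfl⟩ := hsurj z
      refine ⟨(x * (y ^ p)⁻¹ : A.unitGroup), ?_, ((y : Nˣ)) ^ p, (mem_PW_iff p _).mpr ⟨_, rfl⟩, ?_⟩
      · have : x * (y ^ p)⁻¹ ∈ f.ker := by
          rw [MonoidHom.mem_ker, map_mul, map_inv, map_pow, hz, mul_inv_cancel]
        rw [hker] at this
        exact this
      · simp
  rw [Subgroup.relIndex, hcomap, Subgroup.index_comap_of_surjective _ hsurj]
  -- a primitive root in the residue field
  have hζ0 : ζ ≠ 0 := hζ.ne_zero hp.ne_zero
  set ζu : Nˣ := Units.mk0 ζ hζ0 with hζu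
  have hζp : ζu ^ p = 1 := by
    ext
    simp [hζu, hζ.pow_eq_one]
  have hζmem : ζu ∈ A.unitGroup := by
    rw [ValuationSubring.mem_unitGroup_iff]
    have : A.valuation ((ζu : Nˣ) : N) ^ p = 1 := by
      rw [← map_pow, ← Units.val_pow_eq_pow_val, hζp]
      simp
    exact (pow_eq_one_iff_of_nonneg zero_le hp.ne_zero).mp this
  refine index_PW_units p _ (f ⟨ζu, hζmem⟩) ?_ ?_
  · rw [← map_pow]
    have : (⟨ζu, hζmem⟩ : A.unitGroup) ^ p = 1 := by
      ext
      simp [hζ.pow_eq_one, hζu]
    rw [this, map_one]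
  · intro h
    have h1 : (⟨ζu, hζmem⟩ : A.unitGroup) ∈ f.ker := h
    rw [hker] at h1
    have h2 : ζu ∈ A.principalUnitGroup := h1
    rw [← PU_zero_eq, mem_PU_iff] at h2
    have hne : ζ ≠ 1 := hζ.ne_one hp.one_lt
    rcases h2 with h2 | h2
    · exact hne h2
    · have h3 := ord_one_sub_zeta_of_not_over p v hv hζ
      rw [ord_sub_comm] at h3
      have : ((ζu : Nˣ) : N) = ζ := rfl
      rw [this, h3] at h2
      simp at h2

end Fermat.Agent.CFT
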