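import Fermat.Agent.CFT.LPBasic
import Fermat.Agent.CFT.LPIndex
import Fermat.Agent.CFT.LPUnit
import Fermat.Agent.CFT.LPSplit
import Fermat.Agent.CFT.LPMap

/-! Aggregator: local `p`-th powers. -/
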