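import Fermat.Agent.CFT.Basic
import Fermat.Agent.CFT.OrdGal
import Fermat.Agent.CFT.NotSplit
import Fermat.Agent.CFT.EX1
import Fermat.Agent.CFT.LocalPower

set_option autoImplicit false

namespace Fermat.Agent.CFT

open IsDedekindDomain NumberField

namespace EX

variable {M : Type*} [Field M] [NumberField M]

/-- clearing denominators by a `p`-th power -/
theorem exists_int_mul_pow (p : ℕ) (hp : 0 < p) (x : M) :
    ∃ u d : 𝓞 M, d ≠ 0 ∧ (u : M) = x * (d : M) ^ p := by
  obtain ⟨a, b, hb, rfl⟩ := exists_int_div x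
  refine ⟨a * b ^ (p - 1), b, hb, ?_⟩
  have hb' : (b : M) ≠ 0 := by simpa using hb
  obtain ⟨k, rfl⟩ : ∃ k, p = k + 1 := ⟨p - 1, by omega⟩
  simp only [Nat.add_sub_cancel, map_mul, map_pow]
  rw [pow_succ]
  field_simp

/-- residue implies local power (`w ∤ p`) -/
theorem mem_LP_of_residue (p : ℕ) [Fact p.Prime] (ζ : M) (hζ : IsPrimitiveRoot ζ p) (w : Pl M)
    (hw : ¬ Over w p) (α : Mˣ) (a : 𝓞 M) (ha : (a : M) = α) (haw : a ∉ w.asIdeal)
    (t : 𝓞 M) (ht : t ^ p - a ∈ w.asIdeal) : α ∈ LP p ζ w := by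
  have hp : p.Prime := Fact.out
  have htw : t ∉ w.asIdeal := by
    intro h
    apply haw
    have h1 : t ^ p ∈ w.asIdeal := Ideal.pow_mem_of_mem _ h _ hp.pos
    have := w.asIdeal.sub_mem h1 ht
    simpa using this
  have ht0 : (t : M) ≠ 0 := by
    intro h
    apply htw
    have : t = 0 := by simpa using h
    rw [this]; exact zero_mem _
  let tu : Mˣ := Units.mk0 (t : M) ht0
  rw [LP_eq_of_not_over p w hw hζ]
  have hdec : α = (α / tu ^ p) * tu ^ p := by simp
  rw [hdec]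
  refine Subgroup.mul_mem_sup ?_ ((mem_PW_iff p _).2 ⟨tu, rfl⟩)
  rw [mem_PU_iff]
  by_cases h0 : a - t ^ p = 0
  · left
    have : (a : M) = (t : M) ^ p := by
      have := congrArg (fun z : 𝓞 M => (z : M)) (sub_eq_zero.mp h0)
      simpa using this
    simp only [Units.val_div_eq_div_val, Units.val_pow_eq_pow_val, tu, Units.val_mk0]
    rw [← ha, this, div_self (pow_ne_zero _ ht0)]
  · right
    have h1 : ((α / tu ^ p : Mˣ) : M) - 1 = ((a - t ^ p : 𝓞 M) : M) / (t : M) ^ p := by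
      simp only [Units.val_div_eq_div_val, Units.val_pow_eq_pow_val, tu, Units.val_mk0, map_sub,
        map_pow]
      rw [← ha]
      field_simp
    have h0' : ((a - t ^ p : 𝓞 M) : M) ≠ 0 := RingOfIntegers.coe_ne_zero_iff.mpr h0
    rw [h1, ord_div w h0' (pow_ne_zero _ ht0), ord_pow, ord_eq_zero_of_not_mem w htw]
    have h2 : a - t ^ p ∈ w.asIdeal := by
      have := w.asIdeal.neg_mem ht
      simpa using this
    have := (ord_pos_iff_mem w h0).2 h2
    simpa using this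

/-- local power implies residue (`w ∤ p`) -/
theorem residue_of_mem_LP (p : ℕ) [Fact p.Prime] (ζ : M) (hζ : IsPrimitiveRoot ζ p) (w : Pl M)
    (hw : ¬ Over w p) (uu : Mˣ) (u : 𝓞 M) (hu : (u : M) = uu) (huw : u ∉ w.asIdeal)
    (h : uu ∈ LP p ζ w) : ∃ t : 𝓞 M, t ^ p - u ∈ w.asIdeal := by
  have hp : p.Prime := Fact.out
  rw [LP_eq_of_not_over p w hw hζ, Subgroup.mem_sup] at h
  obtain ⟨u₁, hu₁, z, hz, huz⟩ := h
  obtain ⟨s, rfl⟩ := (mem_PW_iff p z).1 hz
  have h1 : ord w (u₁ : M) = 0 := (mem_UD_iff w u₁).1 (PU_le_UD w 0 hu₁)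
  have h2 : ord w (uu : M) = 0 := by rw [← hu]; exact ord_eq_zero_of_not_mem w huw
  have h3 : ord w (s : M) = 0 := by
    have := congrArg (fun x : Mˣ => ord w (x : M)) huz
    simp only [Units.val_mul, Units.val_pow_eq_pow_val] at this
    rw [ord_mul w u₁.ne_zero (pow_ne_zero _ s.ne_zero), ord_pow, h1, h2, zero_add] at this
    have hp0 : (p : ℤ) ≠ 0 := by exact_mod_cast hp.ne_zero
    exact (mul_eq_zero.mp this).resolve_left hp0
  obtain ⟨a', b', ha', hb', hs⟩ := exists_div_not_mem_of_unit w s.ne_zero h3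
  have hb0 : (b' : M) ≠ 0 := by
    intro h
    apply hb'
    have : b' = 0 := by simpa using h
    rw [this]; exact zero_mem _
  have hwmax : w.asIdeal.IsMaximal := w.isMaximal
  obtain ⟨c, i, hi, hci⟩ := hwmax.exists_inv hb'
  -- key membership
  have hkey : u * b' ^ p - a' ^ p ∈ w.asIdeal := by
    by_cases h0 : u * b' ^ p - a' ^ p = 0
    · rw [h0]; exact zero_mem _
    rw [← ord_pos_iff_mem w h0]
    have h4 : ((u * b' ^ p - a' ^ p : 𝓞 M) : M) = ((u₁ : M) - 1) * (a' : M) ^ p := by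
      have h5 : (uu : M) = (u₁ : M) * (s : M) ^ p := by
        rw [← huz]; simp
      rw [show ((u * b' ^ p - a' ^ p : 𝓞 M) : M) = (u : M) * (b' : M) ^ p - (a' : M) ^ p from by simp,
        hu, h5, hs, div_pow, mul_assoc, div_mul_cancel₀ _ (pow_ne_zero p hb0)]
      ring
    have h0' : ((u * b' ^ p - a' ^ p : 𝓞 M) : M) ≠ 0 := RingOfIntegers.coe_ne_zero_iff.mpr h0
    rw [h4] at h0' ⊢
    have h6 : (u₁ : M) - 1 ≠ 0 := left_ne_zero_of_mul h0'
    have h7 : (a' : M) ^ p ≠ 0 := right_ne_zero_of_mul h0'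
    rw [ord_mul w h6 h7, ord_pow, ord_eq_zero_of_not_mem w ha']
    rcases (mem_PU_iff w 0 u₁).1 hu₁ with h8 | h8
    · exact absurd (sub_eq_zero.mpr h8) h6
    · simpa using h8
  refine ⟨c * a', ?_⟩
  rw [← Ideal.Quotient.eq_zero_iff_mem] at hkey ⊢
  have hcb : Ideal.Quotient.mk w.asIdeal c * Ideal.Quotient.mk w.asIdeal b' = 1 := by
    have := congrArg (Ideal.Quotient.mk w.asIdeal) hci
    rw [map_add, map_mul, Ideal.Quotient.eq_zero_iff_mem.mpr hi, add_zero, map_one] at this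
    exact this
  simp only [map_sub, map_mul, map_pow] at hkey ⊢
  have h9 : Ideal.Quotient.mk w.asIdeal a' ^ p =
      Ideal.Quotient.mk w.asIdeal u * Ideal.Quotient.mk w.asIdeal b' ^ p := (sub_eq_zero.mp hkey).symm
  rw [mul_pow, h9]
  have : Ideal.Quotient.mk w.asIdeal c ^ p * (Ideal.Quotient.mk w.asIdeal u *
      Ideal.Quotient.mk w.asIdeal b' ^ p) = Ideal.Quotient.mk w.asIdeal u *
      (Ideal.Quotient.mk w.asIdeal c * Ideal.Quotient.mk w.asIdeal b') ^ p := by ring
  rw [this, hcb, one_pow, mul_one, sub_self]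

end EX

variable {M : Type*} [Field M] [NumberField M] {M' : Type*} [Field M'] [NumberField M']
  [Algebra M M']

/-- `M'/M` unramified Galois of degree `p`, `y ∈ M^*` not a `p`-th power in `M'`.  Then there are
places `w` of `M` (outside any finite set), split in `M'`, prime to `p`, with `y` a unit and not a
`p`-th power residue at `w`. -/
theorem exists_split_nonresidue (p : ℕ) [Fact p.Prime] (ζ : M) (hζ : IsPrimitiveRoot ζ p)
    [IsGalois M M'] (hdeg : Module.finrank M M' = p) (hunr : ∀ w : Pl M', Unram M w)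
    (y : Mˣ) (hy : ∀ z : M', z ^ p ≠ algebraMap M M' y) (S₀ : Set (Pl M)) (hS₀ : S₀.Finite) :
    ∃ w : Pl M, w ∉ S₀ ∧ Split M' w ∧ ¬ Over w p ∧ y ∈ UD w ∧ y ∉ LP p ζ w := by
  have hp : p.Prime := Fact.out
  have : NeZero p := ⟨hp.ne_zero⟩
  have hfd : FiniteDimensional M M' := Module.finite_of_finrank_pos (by rw [hdeg]; exact hp.pos)
  have hcyc : IsCyclic (M' ≃ₐ[M] M') :=
    isCyclic_of_prime_card (p := p) (by rw [IsGalois.card_aut_eq_finrank, hdeg])
  obtain ⟨θ, ⟨α₀, hα₀⟩, hθtop⟩ := exists_root_adjoin_eq_top_of_isCyclic M M'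
    ⟨ζ, by rw [hdeg, mem_primitiveRoots hp.pos]; exact hζ⟩
  rw [hdeg] at hα₀
  have hθ0 : θ ≠ 0 := by
    rintro rfl
    have h1 : Module.finrank M M' = 1 := by
      have h2 : IntermediateField.adjoin M {(0 : M')} = ⊥ := IntermediateField.adjoin_zero
      rw [h2] at hθtop
      rw [← IntermediateField.finrank_top', ← hθtop, IntermediateField.finrank_bot]
    rw [hdeg] at h1
    exact hp.one_lt.ne' h1
  have hα₀0 : α₀ ≠ 0 := by
    rintro rfl
    rw [map_zero] at hα₀
    exact pow_ne_zero p hθ0 hα₀.symm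
  obtain ⟨a, b, hb, hab⟩ := EX.exists_int_mul_pow p hp.pos α₀
  obtain ⟨u, d, hd, hud⟩ := EX.exists_int_mul_pow p hp.pos (y : M)
  have hb' : (b : M) ≠ 0 := by simpa using hb
  have hd' : (d : M) ≠ 0 := by simpa using hd
  have ha' : (a : M) ≠ 0 := by rw [hab]; exact mul_ne_zero hα₀0 (pow_ne_zero _ hb')
  have hu' : (u : M) ≠ 0 := by rw [hud]; exact mul_ne_zero y.ne_zero (pow_ne_zero _ hd')
  have ha0 : a ≠ 0 := by rintro rfl; simp at ha'
  have hu0 : u ≠ 0 := by rintro rfl; simp at hu'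
  let θ' : M' := θ * algebraMap M M' b
  have hθ' : θ' ^ p = algebraMap M M' (a : M) := by
    rw [hab, map_mul, map_pow, hα₀, mul_pow]
  have hθ'0 : θ' ≠ 0 := mul_ne_zero hθ0 (by simpa using hb')
  have hgen : ∀ σ : M' ≃ₐ[M] M', σ θ' = θ' → σ = 1 := by
    intro σ hσ
    have h1 : σ θ = θ := by
      have h2 : σ θ' = σ θ * algebraMap M M' b := by
        simp only [θ', map_mul, AlgEquiv.commutes]
      rw [h2] at hσ
      exact mul_right_cancel₀ (by simpa using hb') hσ
    have hadj : Algebra.adjoin M {θ} = ⊤ := by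
      rw [← IntermediateField.adjoin_simple_toSubalgebra_of_isAlgebraic
        (IsAlgebraic.of_finite M θ), hθtop, IntermediateField.top_toSubalgebra]
    have h3 : (σ : M' →ₐ[M] M') = (AlgHom.id M M') := by
      apply AlgHom.ext_of_adjoin_eq_top hadj
      intro x hx
      rw [Set.mem_singleton_iff.mp hx]
      simpa using h1
    ext x
    have := congrArg (fun f : M' →ₐ[M] M' => f x) h3
    simpa using this
  have hcond : ∀ (j : ℕ) (c : M), c ^ p ≠ (u : M) * (a : M) ^ j := by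
    intro j c hc
    apply hy (algebraMap M M' c / (θ' ^ j * algebraMap M M' d))
    have h1 : algebraMap M M' (y : M) = algebraMap M M' (u : M) / (algebraMap M M' (d : M)) ^ p := by
      rw [hud, map_mul, map_pow, mul_div_assoc, div_self (pow_ne_zero _ (by simpa using hd')),
        mul_one]
    rw [h1, div_pow, mul_pow, ← pow_mul, mul_comm j p, pow_mul, hθ', ← map_pow, hc, map_mul, map_pow]
    have h2 : algebraMap M M' (a : M) ^ j ≠ 0 := pow_ne_zero _ (by simpa using ha')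
    have h3 : algebraMap M M' (d : M) ^ p ≠ 0 := pow_ne_zero _ (by simpa using hd')
    field_simp
  have hinf := EX1.infinite_residue_nonresidue hp hζ.toInteger_isPrimitiveRoot a u hcond
  have hX : (p : 𝓞 M) * a * u * d ≠ 0 :=
    mul_ne_zero (mul_ne_zero (mul_ne_zero (by exact_mod_cast hp.ne_zero) ha0) hu0) hd
  obtain ⟨w, hw, hwbad⟩ := (hinf.sdiff (hS₀.union (EX1.finite_primes_containing hX))).nonempty
  obtain ⟨⟨t, ht⟩, hnon⟩ := hw
  have hwS : w ∉ S₀ := fun h => hwbad (Or.inl h)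
  have hwX : (p : 𝓞 M) * a * u * d ∉ w.asIdeal := fun h => hwbad (Or.inr h)
  have hwd : d ∉ w.asIdeal := fun h => hwX (Ideal.mul_mem_left _ _ h)
  have hwu : u ∉ w.asIdeal := fun h => hwX (Ideal.mul_mem_right _ _ (Ideal.mul_mem_left _ _ h))
  have hwa : a ∉ w.asIdeal := fun h =>
    hwX (Ideal.mul_mem_right _ _ (Ideal.mul_mem_right _ _ (Ideal.mul_mem_left _ _ h)))
  have hwp : ¬ Over w p := fun h =>
    hwX (Ideal.mul_mem_right _ _ (Ideal.mul_mem_right _ _ (Ideal.mul_mem_right _ _ h)))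
  let αu : Mˣ := Units.mk0 (a : M) ha'
  let du : Mˣ := Units.mk0 (d : M) hd'
  refine ⟨w, hwS, ?_, hwp, ?_, ?_⟩
  · exact split_of_mem_LP p ζ hζ θ' αu hθ' hgen w
      (EX.mem_LP_of_residue p ζ hζ w hwp αu a rfl hwa t ht)
  · rw [mem_UD_iff]
    have h1 := ord_eq_zero_of_not_mem w hwu
    rw [hud, ord_mul w y.ne_zero (pow_ne_zero _ hd'), ord_pow, ord_eq_zero_of_not_mem w hwd] at h1
    simpa using h1
  · intro hyLP
    apply hnon
    refine EX.residue_of_mem_LP p ζ hζ w hwp (y * du ^ p) u ?_ hwu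
      (mul_mem hyLP (pow_mem_LP p ζ w du))
    rw [hud]
    simp [du]

end Fermat.Agent.CFT
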