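import Mathlib

/-!
# The exchange lemma, abstract form

`G` a commutative group (think `Ωˣ`), `τ ρ` commuting endomorphisms with `τ^p = ρ^p = 1`,
`ρ δ / δ = μ / τ μ`, `β = ∏ τ^i δ`, `γ = ∏ ρ^j μ`.  If `ord : G → ℤ` is additive and invariant
under `τ^a ρ^b` then `b * ord γ ≡ a * ord β (mod p)`.
-/

namespace Fermat.Agent.CFT.ExchangeAlg

open Finset

/-- Summation by parts on `ZMod p`. -/
lemma sum_mul_shift {p : ℕ} [NeZero p] (f : ZMod p → ZMod p) (k : ZMod p) :
    ∑ i : ZMod p, i * f (i + k) = ∑ i : ZMod p, i * f i - k * ∑ i : ZMod p, f i := by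
  have h := Equiv.sum_comp (Equiv.addRight k) (fun i : ZMod p => (i - k) * f i)
  simp only [Equiv.coe_addRight, add_sub_cancel_right] at h
  rw [h, Finset.mul_sum, ← Finset.sum_sub_distrib]
  exact Finset.sum_congr rfl fun i _ => by ring

lemma sum_range_eq_sum_zmod {p : ℕ} [NeZero p] {M : Type*} [AddCommMonoid M] (g : ZMod p → M) :
    ∑ n ∈ range p, g (n : ZMod p) = ∑ i : ZMod p, g i := by
  refine Finset.sum_nbij' (fun n => (n : ZMod p)) (fun i => i.val) ?_ ?_ ?_ ?_ ?_
  · intro n _; exact mem_univ _
  · intro i _; exact mem_range.mpr (ZMod.val_lt i)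
  · intro n hn; exact ZMod.val_cast_of_lt (mem_range.mp hn)
  · intro i _; exact ZMod.natCast_zmod_val i
  · intro n _; rfl

section

variable {G : Type*} [CommGroup G] {p : ℕ} [hp : Fact p.Prime]

omit hp in
lemma iterate_mod (τ : G →* G) (hτ : ∀ x, τ^[p] x = x) (n : ℕ) (x : G) :
    τ^[n % p] x = τ^[n] x := by
  conv_rhs => rw [← Nat.mod_add_div n p]
  rw [Function.iterate_add_apply]
  congr 1
  induction n / p with
  | zero => simp
  | succ m ih => rw [Nat.mul_succ, Function.iterate_add_apply, hτ, ← ih]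

omit hp in
lemma iterate_eq_of_modEq (τ : G →* G) (hτ : ∀ x, τ^[p] x = x) {m n : ℕ} (h : m ≡ n [MOD p])
    (x : G) : τ^[m] x = τ^[n] x := by
  rw [← iterate_mod τ hτ m, ← iterate_mod τ hτ n, h]

/-- **Exchange lemma**, abstract form. -/
theorem exchange (τ ρ : G →* G) (hτ : ∀ x, τ^[p] x = x) (hρ : ∀ x, ρ^[p] x = x)
    (hcomm : ∀ x, τ (ρ x) = ρ (τ x))
    (ord : G → ℤ) (hord : ∀ x y, ord (x * y) = ord x + ord y)
    (a b : ℕ) (hinv : ∀ x, ord (τ^[a] (ρ^[b] x)) = ord x)
    (δ μ : G) (h : ρ δ / δ = μ / τ μ) :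
    (b : ZMod p) * (ord (∏ j ∈ range p, ρ^[j] μ) : ZMod p) =
      (a : ZMod p) * (ord (∏ i ∈ range p, τ^[i] δ) : ZMod p) := by
  have hp0 : p ≠ 0 := hp.out.ne_zero
  -- the additive function with values in `ZMod p`
  let oz : G → ZMod p := fun x => (ord x : ZMod p)
  have oz_mul : ∀ x y, oz (x * y) = oz x + oz y := by
    intro x y; simp only [oz, hord]; push_cast; ring
  have oz_one : oz 1 = 0 := by
    have := oz_mul 1 1
    rw [mul_one] at this
    exact left_eq_add.mp this
  have oz_div : ∀ x y, oz (x / y) = oz x - oz y := by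
    intro x y
    have := oz_mul (x / y) y
    rw [div_mul_cancel] at this
    rw [this]; ring
  have oz_prod : ∀ (s : Finset ℕ) (f : ℕ → G), oz (∏ i ∈ s, f i) = ∑ i ∈ s, oz (f i) := by
    intro s f
    induction s using Finset.induction_on with
    | empty => simpa using oz_one
    | insert i s hi ih => rw [prod_insert hi, sum_insert hi, oz_mul, ih]
  have hcomm' : ∀ (m n : ℕ) (x : G), τ^[m] (ρ^[n] x) = ρ^[n] (τ^[m] x) := by
    intro m n x
    have h1 : Function.Commute τ ρ := hcomm
    exact (h1.iterate_iterate m n) x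
  have hinv' : ∀ (n : ℕ) (x : G), ord (τ^[a * n] (ρ^[b * n] x)) = ord x := by
    intro n
    induction n with
    | zero => intro x; simp
    | succ n ih =>
      intro x
      rw [Nat.mul_succ, Nat.mul_succ, Function.iterate_add_apply, Function.iterate_add_apply,
        hcomm' a (b * n), ih, hinv]
  change (b : ZMod p) * oz _ = (a : ZMod p) * oz _
  rw [oz_prod, oz_prod]
  by_cases hb : (b : ZMod p) = 0
  · -- `p ∣ b`
    rw [hb, zero_mul]
    by_cases ha : (a : ZMod p) = 0
    · rw [ha, zero_mul]
    · -- `ord` is `τ`-invariant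
      have hb' : b ≡ 0 [MOD p] := (ZMod.natCast_eq_natCast_iff b 0 p).mp (by simpa using hb)
      obtain ⟨a', ha'⟩ : ∃ a' : ℕ, a * a' ≡ 1 [MOD p] := by
        refine ⟨((a : ZMod p)⁻¹).val, ?_⟩
        rw [← ZMod.natCast_eq_natCast_iff]
        push_cast
        rw [ZMod.natCast_zmod_val, mul_inv_cancel₀ ha]
      have hτinv : ∀ x, ord (τ x) = ord x := by
        intro x
        have h1 := hinv' a' x
        have h2 : ρ^[b * a'] x = x := by
          have : b * a' ≡ 0 [MOD p] := by simpa using hb'.mul_right a'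
          rw [iterate_eq_of_modEq ρ hρ this]; rfl
        have h3 : τ^[a * a'] x = τ x := by
          rw [iterate_eq_of_modEq τ hτ ha']; rfl
        rw [h2, h3] at h1
        exact h1
      have hτinv' : ∀ (n : ℕ) x, ord (τ^[n] x) = ord x := by
        intro n
        induction n with
        | zero => intro x; rfl
        | succ n ih => intro x; rw [Function.iterate_succ_apply', hτinv, ih]
      simp only [oz, hτinv', sum_const, card_range, nsmul_eq_mul, CharP.cast_eq_zero, zero_mul,
        mul_zero]
  · -- `p ∤ b`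
    obtain ⟨b', hb'⟩ : ∃ b' : ℕ, b * b' ≡ 1 [MOD p] := by
      refine ⟨((b : ZMod p)⁻¹).val, ?_⟩
      rw [← ZMod.natCast_eq_natCast_iff]
      push_cast
      rw [ZMod.natCast_zmod_val, mul_inv_cancel₀ hb]
    have hbb' : (b : ZMod p) * (b' : ZMod p) = 1 := by
      have := (ZMod.natCast_eq_natCast_iff _ _ p).mpr hb'
      simpa using this
    set k : ℕ := (p - 1) * (a * b') with hk
    have hkz : (k : ZMod p) = - ((a : ZMod p) * b') := by
      rw [hk]
      push_cast
      rw [Nat.cast_sub hp.out.one_le]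
      simp
    have hρτ : ∀ y, ord (ρ y) = ord (τ^[k] y) := by
      intro y
      have h1 := hinv' b' (τ^[k] y)
      have h2 : ρ^[b * b'] (τ^[k] y) = ρ (τ^[k] y) := by
        rw [iterate_eq_of_modEq ρ hρ hb']; rfl
      rw [h2] at h1
      have h3 : τ^[a * b'] (ρ (τ^[k] y)) = ρ y := by
        have h4 := hcomm' (a * b') 1 (τ^[k] y)
        simp only [Function.iterate_one] at h4
        rw [h4, ← Function.iterate_add_apply]
        have h5 : a * b' + k ≡ 0 [MOD p] := by
          rw [← ZMod.natCast_eq_natCast_iff]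
          push_cast
          rw [hkz]; ring
        rw [iterate_eq_of_modEq τ hτ h5]; rfl
      rw [h3] at h1
      exact h1
    have hρτ' : ∀ (j : ℕ) y, ord (ρ^[j] y) = ord (τ^[k * j] y) := by
      intro j
      induction j with
      | zero => intro y; rfl
      | succ j ih =>
        intro y
        rw [Function.iterate_succ_apply', hρτ, Nat.mul_succ, add_comm, Function.iterate_add_apply]
        have h4 := hcomm' k j y
        rw [h4, ih, ← Function.iterate_add_apply, ← Function.iterate_add_apply, add_comm]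
    -- periodic functions
    let d : ZMod p → ZMod p := fun i => oz (τ^[i.val] δ)
    let m : ZMod p → ZMod p := fun i => oz (τ^[i.val] μ)
    have hd : ∀ n : ℕ, oz (τ^[n] δ) = d n := by
      intro n
      simp only [d, ZMod.val_natCast, iterate_mod τ hτ]
    have hm : ∀ n : ℕ, oz (τ^[n] μ) = m n := by
      intro n
      simp only [m, ZMod.val_natCast, iterate_mod τ hτ]
    have hrel : ∀ i : ZMod p, d (i + k) - d i = m i - m (i + 1) := by
      intro i
      obtain ⟨n, rfl⟩ : ∃ n : ℕ, (n : ZMod p) = i := ⟨i.val, ZMod.natCast_zmod_val i⟩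
      have h1 := congrArg (fun x => oz (τ^[n] x)) h
      simp only [iterate_map_div, oz_div] at h1
      have h2 : oz (τ^[n] (ρ δ)) = d (n + k) := by
        have h4 := hcomm' n 1 δ
        simp only [Function.iterate_one] at h4
        rw [h4]
        simp only [oz]
        rw [hρτ, ← Function.iterate_add_apply]
        have := hd (k + n)
        simp only [oz] at this
        rw [this]
        push_cast
        rw [add_comm]
      have h3 : oz (τ^[n] (τ μ)) = m (n + 1) := by
        rw [← Function.iterate_succ_apply]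
        have := hm (n + 1)
        rw [this]
        push_cast
        rfl
      rw [h2, h3, hd, hm] at h1
      exact h1
    have hsum : ∑ i : ZMod p, m i = - (k : ZMod p) * ∑ i : ZMod p, d i := by
      have h1 : ∑ i : ZMod p, i * (d (i + k) - d i) = ∑ i : ZMod p, i * (m i - m (i + 1)) :=
        Finset.sum_congr rfl fun i _ => by rw [hrel]
      simp only [mul_sub, Finset.sum_sub_distrib, sum_mul_shift] at h1
      linear_combination -h1
    have hβ : ∑ i ∈ range p, oz (τ^[i] δ) = ∑ i : ZMod p, d i := by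
      rw [← sum_range_eq_sum_zmod d]
      exact Finset.sum_congr rfl fun n _ => hd n
    have hγ : ∑ j ∈ range p, oz (ρ^[j] μ) = ∑ j : ZMod p, m (k * j) := by
      rw [← sum_range_eq_sum_zmod (fun j : ZMod p => m ((k : ZMod p) * j))]
      refine Finset.sum_congr rfl fun n _ => ?_
      simp only [oz]
      rw [hρτ']
      have := hm (k * n)
      simp only [oz] at this
      rw [this]
      push_cast
      rfl
    rw [hβ, hγ]
    by_cases hk0 : (k : ZMod p) = 0
    · have ha : (a : ZMod p) = 0 := by
        have h1 : (a : ZMod p) * b' = 0 := by rw [hkz] at hk0; exact neg_eq_zero.mp hk0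
        have h2 : (b' : ZMod p) ≠ 0 := by
          intro h3; rw [h3, mul_zero] at hbb'; exact zero_ne_one hbb'
        exact (mul_eq_zero.mp h1).resolve_right h2
      simp [hk0, ha]
    · have h1 : ∑ j : ZMod p, m (k * j) = ∑ i : ZMod p, m i :=
        Equiv.sum_comp (Equiv.mulLeft₀ (k : ZMod p) hk0) m
      rw [h1, hsum, hkz]
      linear_combination ((a : ZMod p) * ∑ i : ZMod p, d i) * hbb'

end

end Fermat.Agent.CFT.ExchangeAlg
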