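import Fermat.Agent.CFT.Basic
import Fermat.Agent.CFT.OrdGal
import Fermat.Agent.CFT.ExchangeAlg

set_option autoImplicit false

namespace Fermat.Agent.CFT.Exchange

open Finset

/-- Hilbert 90 for an automorphism of finite order `n`. -/
theorem hilbert90 {F Ω : Type*} [Field F] [Field Ω] [Algebra F Ω] (n : ℕ) (hn : 0 < n)
    (τ : Ω ≃ₐ[F] Ω) (hτ : orderOf τ = n) (a : Ω)
    (ha : ∏ i ∈ range n, (τ ^ i) a = 1) : ∃ μ : Ω, μ ≠ 0 ∧ a * τ μ = μ := by
  by_contra hcon
  push Not at hcon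
  set c : Ω → Ω := fun x => ∑ i ∈ range n, (∏ j ∈ range i, (τ ^ j) a) * (τ ^ i) x with hc
  have hτn : τ ^ n = 1 := by rw [← hτ]; exact pow_orderOf_eq_one τ
  have key : ∀ x, a * τ (c x) = c x := by
    intro x
    have h1 : a * τ (c x) = ∑ i ∈ range n, (∏ j ∈ range (i + 1), (τ ^ j) a) * (τ ^ (i + 1)) x := by
      simp only [hc, map_sum, map_mul, map_prod, mul_sum]
      refine sum_congr rfl fun i _ => ?_
      rw [prod_range_succ', ← mul_assoc]
      congr 1
      · rw [mul_comm]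
        congr 1
        · refine prod_congr rfl fun j _ => ?_
          rw [pow_succ', AlgEquiv.mul_apply]
      · rw [pow_succ', AlgEquiv.mul_apply]
    rw [h1]
    have h2 := sum_range_succ (fun i => (∏ j ∈ range i, (τ ^ j) a) * (τ ^ i) x) n
    have h3 := sum_range_succ' (fun i => (∏ j ∈ range i, (τ ^ j) a) * (τ ^ i) x) n
    rw [h2] at h3
    simp only [ha, hτn, range_zero, prod_empty, pow_zero, AlgEquiv.one_apply, one_mul] at h3
    exact (add_right_cancel h3).symm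
  have hzero : ∀ x, c x = 0 := fun x => by_contra fun h => hcon (c x) h (key x)
  have hli := linearIndependent_monoidHom Ω Ω
  have hinj : Function.Injective
      (fun i : Fin n => (((τ ^ (i : ℕ) : Ω ≃ₐ[F] Ω) : Ω →+* Ω) : Ω →* Ω)) := by
    intro i j hij
    have h1 : τ ^ (i : ℕ) = τ ^ (j : ℕ) := by
      ext x
      exact DFunLike.congr_fun hij x
    have h2 := (pow_inj_mod (x := τ)).mp h1
    rw [hτ, Nat.mod_eq_of_lt i.2, Nat.mod_eq_of_lt j.2] at h2
    exact Fin.ext h2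
  have h4 := hli.comp _ hinj
  rw [Fintype.linearIndependent_iff] at h4
  have h5 := h4 (fun i => ∏ j ∈ range (i : ℕ), (τ ^ j) a) (by
    ext x
    have := hzero x
    simp only [hc] at this
    rw [← Fin.sum_univ_eq_sum_range (fun i => (∏ j ∈ range i, (τ ^ j) a) * (τ ^ i) x) n] at this
    simpa using this) ⟨0, hn⟩
  simp at h5

/-- An automorphism as an endomorphism of the unit group. -/
noncomputable def unitsHom {F Ω : Type*} [Field F] [Field Ω] [Algebra F Ω] (σ : Ω ≃ₐ[F] Ω) :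
    Ωˣ →* Ωˣ := Units.map ((σ : Ω →+* Ω) : Ω →* Ω)

theorem unitsHom_val {F Ω : Type*} [Field F] [Field Ω] [Algebra F Ω] (σ : Ω ≃ₐ[F] Ω) (x : Ωˣ) :
    ((unitsHom σ x : Ωˣ) : Ω) = σ (x : Ω) := rfl

theorem unitsHom_iterate_val {F Ω : Type*} [Field F] [Field Ω] [Algebra F Ω] (σ : Ω ≃ₐ[F] Ω)
    (i : ℕ) (x : Ωˣ) : (((unitsHom σ)^[i] x : Ωˣ) : Ω) = (σ ^ i) (x : Ω) := by
  induction i with
  | zero => simp
  | succ i ih => rw [Function.iterate_succ_apply', unitsHom_val, ih, pow_succ', AlgEquiv.mul_apply]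

/-- The norm product is invariant under a generator. -/
theorem map_prod_pow {F Ω : Type*} [Field F] [Field Ω] [Algebra F Ω] (n : ℕ)
    (σ : Ω ≃ₐ[F] Ω) (hσ : σ ^ n = 1) (x : Ω) :
    ∏ j ∈ range n, (σ ^ (j + 1)) x = ∏ j ∈ range n, (σ ^ j) x := by
  have h2 := prod_range_succ (fun i => (σ ^ i) x) n
  have h3 := prod_range_succ' (fun i => (σ ^ i) x) n
  rw [h2] at h3
  simp only [hσ, pow_zero] at h3
  by_cases hx : x = 0
  · subst hx; simp
  · exact (mul_right_cancel₀ (by simpa using hx) h3).symm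

end Fermat.Agent.CFT.Exchange

namespace Fermat.Agent.CFT

open IsDedekindDomain NumberField Finset

variable {Ω : Type*} [Field Ω] [NumberField Ω]

/-- **Exchange lemma.** `τ, ρ` commuting automorphisms of order `p`; `β = N_τ(δ)` is fixed by `ρ`.
Then there are `μ` and `γ = N_ρ(μ)`, fixed by `τ` and `ρ`, such that for every place `P` of `Ω`
fixed by `τ^a ρ^b`:  `b * ord_P γ ≡ a * ord_P β (mod p)`. -/
theorem exchange (p : ℕ) [Fact p.Prime] (τ ρ : Ω ≃ₐ[ℚ] Ω) (hcomm : τ * ρ = ρ * τ)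
    (hτ : orderOf τ = p) (hρ : orderOf ρ = p)
    (β δ : Ω) (hδ0 : δ ≠ 0) (hδ : ∏ i ∈ range p, (τ ^ i) δ = β) (hβρ : ρ β = β) :
    ∃ μ γ : Ω, μ ≠ 0 ∧ γ = ∏ j ∈ range p, (ρ ^ j) μ ∧ τ γ = γ ∧ ρ γ = γ ∧
      ∀ (P : Pl Ω) (a b : ℕ), (τ ^ a * ρ ^ b) • P = P →
        (p : ℤ) ∣ (b : ℤ) * ord P γ - (a : ℤ) * ord P β := by
  have hp : p.Prime := Fact.out
  have hτp : τ ^ p = 1 := by rw [← hτ]; exact pow_orderOf_eq_one τ
  have hρp : ρ ^ p = 1 := by rw [← hρ]; exact pow_orderOf_eq_one ρ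
  have hC : Commute τ ρ := hcomm
  have hcomm1 : ∀ x, τ (ρ x) = ρ (τ x) := fun x => by
    have := DFunLike.congr_fun hcomm x
    simpa [AlgEquiv.mul_apply] using this
  have hcommi : ∀ (i : ℕ) x, (τ ^ i) (ρ x) = ρ ((τ ^ i) x) := fun i x => by
    have := DFunLike.congr_fun (hC.pow_left i).eq x
    simpa [AlgEquiv.mul_apply] using this
  have hcommj : ∀ (j : ℕ) x, τ ((ρ ^ j) x) = (ρ ^ j) (τ x) := fun j x => by
    have := DFunLike.congr_fun (hC.pow_right j).eq x
    simpa [AlgEquiv.mul_apply] using this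
  have hβ0 : β ≠ 0 := by
    rw [← hδ]
    exact prod_ne_zero_iff.mpr fun i _ => (map_ne_zero (τ ^ i)).mpr hδ0
  have hρδ0 : ρ δ ≠ 0 := by simpa using hδ0
  -- Hilbert 90
  have hN : ∏ i ∈ range p, (τ ^ i) (ρ δ / δ) = 1 := by
    simp only [map_div₀, prod_div_distrib, hcommi]
    rw [← map_prod, hδ, hβρ, div_self hβ0]
  obtain ⟨μ, hμ0, hμ⟩ := Exchange.hilbert90 p hp.pos τ hτ (ρ δ / δ) hN
  have hτμ0 : τ μ ≠ 0 := by simpa using hμ0
  refine ⟨μ, ∏ j ∈ range p, (ρ ^ j) μ, hμ0, rfl, ?_, ?_, ?_⟩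
  · -- `τ γ = γ`
    have h1 : ∏ j ∈ range p, (ρ ^ j) (ρ δ / δ) = 1 := by
      simp only [map_div₀, prod_div_distrib]
      have h2 : ∏ j ∈ range p, (ρ ^ j) (ρ δ) = ∏ j ∈ range p, (ρ ^ j) δ := by
        rw [← Exchange.map_prod_pow p ρ hρp δ]
        refine prod_congr rfl fun j _ => ?_
        rw [pow_succ, AlgEquiv.mul_apply]
      rw [h2, div_self]
      exact prod_ne_zero_iff.mpr fun i _ => (map_ne_zero (ρ ^ i)).mpr hδ0
    have h3 : ∏ j ∈ range p, (ρ ^ j) μ =
        (∏ j ∈ range p, (ρ ^ j) (ρ δ / δ)) * ∏ j ∈ range p, (ρ ^ j) (τ μ) := by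
      rw [← prod_mul_distrib]
      refine prod_congr rfl fun j _ => ?_
      rw [← map_mul, hμ]
    rw [map_prod]
    simp only [hcommj]
    rw [h3, h1, one_mul]
  · -- `ρ γ = γ`
    rw [map_prod, ← Exchange.map_prod_pow p ρ hρp μ]
    refine prod_congr rfl fun j _ => ?_
    rw [pow_succ', AlgEquiv.mul_apply]
  · intro P a b hP
    have hmain := ExchangeAlg.exchange (p := p) (Exchange.unitsHom τ) (Exchange.unitsHom ρ)
      (fun x => by
        apply Units.ext
        rw [Exchange.unitsHom_iterate_val, hτp, AlgEquiv.one_apply])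
      (fun x => by
        apply Units.ext
        rw [Exchange.unitsHom_iterate_val, hρp, AlgEquiv.one_apply])
      (fun x => by
        apply Units.ext
        simp only [Exchange.unitsHom_val, hcomm1])
      (fun x => ord P (x : Ω))
      (fun x y => by
        rw [Units.val_mul, ord_mul P x.ne_zero y.ne_zero])
      a b
      (fun x => by
        rw [Exchange.unitsHom_iterate_val, Exchange.unitsHom_iterate_val]
        have h := ord_smul_smul (τ ^ a * ρ ^ b) P (x : Ω)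
        rw [hP] at h
        rw [← h]
        rfl)
      (Units.mk0 δ hδ0) (Units.mk0 μ hμ0)
      (by
        apply Units.ext
        simp only [Units.val_div_eq_div_val, Exchange.unitsHom_val, Units.val_mk0]
        rw [eq_div_iff hτμ0, hμ])
    simp only [Units.coe_prod, Exchange.unitsHom_iterate_val, Units.val_mk0, hδ] at hmain
    rw [← ZMod.intCast_zmod_eq_zero_iff_dvd]
    push_cast
    rw [hmain, sub_self]

end Fermat.Agent.CFT
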