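import Mathlib

/-!
# The algebraic heart of the first inequality

`A` an abelian group with an automorphism `τ` of prime order `p`, `B = A^τ`,
`N = 1 + τ + ⋯ + τ^(p-1)`.  If `ker N = (τ-1)A` (Hilbert 90 for `A`), `|A/pA| = p^a`,
`|B/pB| = p^b` and some element of `B` is a `p`-th multiple in `A` but not in `B`, then
`|B/NA| = p^k` with `(p-1) k + a + 1 ≤ p b`.
-/

namespace Fermat.Agent.CFT.FIalg

open Polynomial

/-- `(X-1)^(p-1) = 1 + X + ⋯ + X^(p-1) + p g(X)` in `ℤ[X]`. -/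
lemma exists_sub_one_pow_eq (p : ℕ) [hp : Fact p.Prime] :
    ∃ g : ℤ[X], (X - 1 : ℤ[X]) ^ (p - 1) = (∑ i ∈ Finset.range p, X ^ i) + C (p : ℤ) * g := by
  have key : ((X - 1 : ℤ[X]) ^ (p - 1) - ∑ i ∈ Finset.range p, X ^ i).map
      (Int.castRingHom (ZMod p)) = 0 := by
    simp only [Polynomial.map_sub, Polynomial.map_pow, Polynomial.map_X, Polynomial.map_one,
      Polynomial.map_sum]
    rw [sub_eq_zero]
    have hX : (X - 1 : (ZMod p)[X]) ≠ 0 := by
      have := X_sub_C_ne_zero (1 : ZMod p)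
      simpa using this
    apply mul_right_cancel₀ hX
    rw [← pow_succ, Nat.sub_add_cancel hp.out.pos, geom_sum_mul, sub_pow_char, one_pow]
  have hdvd : C (p : ℤ) ∣ ((X - 1 : ℤ[X]) ^ (p - 1) - ∑ i ∈ Finset.range p, X ^ i) := by
    rw [C_dvd_iff_dvd_coeff]
    intro i
    have := congrArg (fun f => f.coeff i) key
    simp only [coeff_map, coeff_zero] at this
    exact (ZMod.intCast_zmod_eq_zero_iff_dvd _ p).mp this
  obtain ⟨g, hg⟩ := hdvd
  exact ⟨g, by rw [← hg]; ring⟩

section Additive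

variable {A : Type*} [AddCommGroup A] {p : ℕ} [hp : Fact p.Prime]

/-- Additive form. -/
theorem add_version (τ : Module.End ℤ A) (hτ : τ ^ p = 1)
    (H90 : ∀ x, (∑ i ∈ Finset.range p, τ ^ i) x = 0 → ∃ y, x = τ y - y)
    {a b : ℕ}
    (hA : (nsmulAddMonoidHom p : A →+ A).range.index = p ^ a)
    (hB : (((τ - 1).toAddMonoidHom.ker).map (nsmulAddMonoidHom p : A →+ A)).relIndex
      ((τ - 1).toAddMonoidHom.ker) = p ^ b)
    (a₀ : A) (h₀ : τ (p • a₀) = p • a₀) (h₀' : ∀ y, τ y = y → p • a₀ ≠ p • y) :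
    ∃ k, ((∑ i ∈ Finset.range p, τ ^ i).toAddMonoidHom.range).relIndex
      ((τ - 1).toAddMonoidHom.ker) = p ^ k ∧ (p - 1) * k + a + 1 ≤ p * b := by
  set D : Module.End ℤ A := τ - 1 with hD
  set Nn : Module.End ℤ A := ∑ i ∈ Finset.range p, τ ^ i with hNn
  set B : AddSubgroup A := D.toAddMonoidHom.ker with hBdef
  set P : A →+ A := nsmulAddMonoidHom p with hP
  have hp0 : 0 < p := hp.out.pos
  have memB : ∀ x, x ∈ B ↔ τ x = x := by
    intro x
    simp [hBdef, hD, AddMonoidHom.mem_ker, sub_eq_zero]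
  have hND : Nn * D = 0 := by
    rw [hNn, hD, geom_sum_mul, hτ, sub_self]
  have hDN : D * Nn = 0 := by
    rw [hNn, hD, mul_geom_sum, hτ, sub_self]
  have hNB : ∀ x ∈ B, Nn x = p • x := by
    intro x hx
    have h1 : ∀ i : ℕ, (τ ^ i) x = x := by
      intro i
      induction i with
      | zero => simp
      | succ n ih => rw [pow_succ, Module.End.mul_apply, (memB x).mp hx, ih]
    simp [hNn, LinearMap.sum_apply, h1]
  -- the chain `X k = B + D^k A`
  let X : ℕ → AddSubgroup A := fun k => B ⊔ (D ^ k).toAddMonoidHom.range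
  have hX0 : X 0 = ⊤ := by
    have : (D ^ 0).toAddMonoidHom.range = ⊤ := by
      rw [AddMonoidHom.range_eq_top]
      intro x
      exact ⟨x, by simp⟩
    simp only [X, this, le_top, sup_of_le_right]
  have hrange : ∀ k, (D ^ (k + 1)).toAddMonoidHom.range ≤ (D ^ k).toAddMonoidHom.range := by
    rintro k _ ⟨y, rfl⟩
    exact ⟨D y, by simp [pow_succ]⟩
  have hXanti : ∀ k, X (k + 1) ≤ X k := fun k => sup_le_sup_left (hrange k) B
  have hDkB : ∀ k, ∀ x ∈ B, (D ^ k) x ∈ B := by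
    intro k x hx
    have hx0 : D x = 0 := hx
    change D ((D ^ k) x) = 0
    rw [← Module.End.mul_apply, ← pow_succ', pow_succ, Module.End.mul_apply, hx0, map_zero]
  have hstep : ∀ k, (X (k + 1)).relIndex (X k) ∣ (X 1).index := by
    intro k
    have h1 : X k = X (k + 1) ⊔ (D ^ k).toAddMonoidHom.range := by
      apply le_antisymm
      · exact sup_le (le_sup_of_le_left le_sup_left) le_sup_right
      · exact sup_le (hXanti k) le_sup_right
    rw [h1, AddSubgroup.relIndex_sup_left, ← AddSubgroup.index_comap]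
    apply AddSubgroup.index_dvd_of_le
    intro x hx
    obtain ⟨b', hb', z, ⟨y, rfl⟩, rfl⟩ := AddSubgroup.mem_sup.mp hx
    rw [AddSubgroup.mem_comap, map_add]
    refine (X (k + 1)).add_mem (AddSubgroup.mem_sup_left (hDkB k b' hb'))
      (AddSubgroup.mem_sup_right ⟨y, ?_⟩)
    simp [pow_succ]
  have hXk : ∀ k, (X k).index ∣ (X 1).index ^ k := by
    intro k
    induction k with
    | zero => simp [hX0]
    | succ n ih =>
      rw [← AddSubgroup.relIndex_mul_index (hXanti n), pow_succ, mul_comm]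
      exact mul_dvd_mul ih (hstep n)
  -- `X (p-1) ≤ B + pA`
  have hXp : X (p - 1) ≤ B ⊔ P.range := by
    obtain ⟨g, hg⟩ := exists_sub_one_pow_eq p
    have h1 := congrArg (aeval τ) hg
    simp only [map_pow, map_sub, aeval_X, map_one, map_add, map_sum, map_mul, aeval_C] at h1
    refine sup_le le_sup_left ?_
    rintro _ ⟨y, rfl⟩
    have h2 : (D ^ (p - 1)) y = Nn y + p • ((aeval τ g) y) := by
      rw [hD, h1]
      simp [hNn]
    change (D ^ (p - 1)) y ∈ _
    rw [h2]
    refine (B ⊔ P.range).add_mem (AddSubgroup.mem_sup_left ?_)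
      (AddSubgroup.mem_sup_right ⟨_, rfl⟩)
    change D (Nn y) = 0
    rw [← Module.End.mul_apply, hDN, LinearMap.zero_apply]
  set pB : AddSubgroup A := B.map P with hpB
  set NA : AddSubgroup A := Nn.toAddMonoidHom.range with hNA
  have hpB_le_N : pB ≤ NA := by
    rintro _ ⟨x, hx, rfl⟩
    exact ⟨x, hNB x hx⟩
  have hN_le_B : NA ≤ B := by
    rintro _ ⟨y, rfl⟩
    change D (Nn y) = 0
    rw [← Module.End.mul_apply, hDN, LinearMap.zero_apply]
  have h12 : pB.relIndex NA * NA.relIndex B = p ^ b := by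
    rw [AddSubgroup.relIndex_mul_relIndex _ _ _ hpB_le_N hN_le_B, hB]
  have hcomap : pB.comap Nn.toAddMonoidHom = X 1 := by
    ext x
    constructor
    · intro hx
      obtain ⟨y, hy, hyx⟩ := hx
      have hyx' : p • y = Nn x := hyx
      have h1 : Nn (x - y) = 0 := by rw [map_sub, hNB y hy, hyx', sub_self]
      obtain ⟨z, hz⟩ := H90 _ h1
      have h2 : x = y + (D ^ 1) z := by
        rw [pow_one, hD, LinearMap.sub_apply, Module.End.one_apply, ← hz]
        abel
      rw [h2]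
      exact (X 1).add_mem (AddSubgroup.mem_sup_left hy) (AddSubgroup.mem_sup_right ⟨z, rfl⟩)
    · intro hx
      obtain ⟨b', hb', z, ⟨y, rfl⟩, rfl⟩ := AddSubgroup.mem_sup.mp hx
      refine ⟨b', hb', ?_⟩
      change p • b' = Nn (b' + (D ^ 1) y)
      rw [map_add, hNB b' hb', pow_one, ← Module.End.mul_apply, hND, LinearMap.zero_apply,
        add_zero]
  have hX1 : (X 1).index = pB.relIndex NA := by rw [← hcomap, AddSubgroup.index_comap]
  -- step 5
  have h5a : P.range.relIndex B * (B ⊔ P.range).index = p ^ a := by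
    rw [← hA, ← AddSubgroup.relIndex_mul_index (le_sup_right : P.range ≤ B ⊔ P.range),
      AddSubgroup.relIndex_sup_right]
  have hpB_le : pB ≤ P.range ⊓ B := by
    rintro _ ⟨x, hx, rfl⟩
    refine ⟨⟨x, rfl⟩, ?_⟩
    exact B.nsmul_mem hx p
  have h5b : pB.relIndex (P.range ⊓ B) * P.range.relIndex B = p ^ b := by
    rw [← AddSubgroup.inf_relIndex_right P.range B,
      AddSubgroup.relIndex_mul_relIndex _ _ _ hpB_le inf_le_right, hB]
  have h5c : pB.relIndex (P.range ⊓ B) ≠ 1 := by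
    intro h
    rw [AddSubgroup.relIndex_eq_one] at h
    have h1 : p • a₀ ∈ P.range ⊓ B := ⟨⟨a₀, rfl⟩, (memB _).mpr h₀⟩
    obtain ⟨y, hy, hy'⟩ := h h1
    exact h₀' y ((memB y).mp hy) hy'.symm
  -- arithmetic
  obtain ⟨c, -, hc⟩ := (Nat.dvd_prime_pow hp.out).mp (Dvd.intro _ h12)
  obtain ⟨k, -, hk⟩ := (Nat.dvd_prime_pow hp.out).mp (Dvd.intro_left _ h12)
  obtain ⟨j, -, hj⟩ := (Nat.dvd_prime_pow hp.out).mp (Dvd.intro _ h5b)
  obtain ⟨b', -, hb'⟩ := (Nat.dvd_prime_pow hp.out).mp (Dvd.intro_left _ h5b)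
  obtain ⟨d, -, hd⟩ := (Nat.dvd_prime_pow hp.out).mp (Dvd.intro_left _ h5a)
  have hp1 : 1 < p := hp.out.one_lt
  have e1 : c + k = b := by
    rw [hc, hk, ← pow_add] at h12
    exact Nat.pow_right_injective hp1 h12
  have e2 : j + b' = b := by
    rw [hj, hb', ← pow_add] at h5b
    exact Nat.pow_right_injective hp1 h5b
  have e3 : b' + d = a := by
    rw [hb', hd, ← pow_add] at h5a
    exact Nat.pow_right_injective hp1 h5a
  have e4 : 1 ≤ j := by
    rcases Nat.eq_zero_or_pos j with h | h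
    · rw [h, pow_zero] at hj
      exact absurd hj h5c
    · exact h
  have e5 : d ≤ c * (p - 1) := by
    have h1 : (B ⊔ P.range).index ∣ (X 1).index ^ (p - 1) :=
      (AddSubgroup.index_dvd_of_le hXp).trans (hXk (p - 1))
    rw [hd, hX1, hc, ← pow_mul] at h1
    exact (Nat.pow_dvd_pow_iff_le_right hp1).mp h1
  refine ⟨k, hk, ?_⟩
  obtain ⟨p', rfl⟩ : ∃ p', p = p' + 1 := ⟨p - 1, by omega⟩
  simp only [Nat.add_sub_cancel] at e5 ⊢
  subst e1
  nlinarith

end Additive

section Multiplicative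

variable {A B : Type*} [CommGroup A] [CommGroup B] {p : ℕ} [hp : Fact p.Prime]

/-- **FIalg**, multiplicative form.  `ι : B → A` identifies `B` with the fixed points of `τ`,
`Nm : A → B` is the norm. -/
theorem mul_version (ι : B →* A) (hι : Function.Injective ι) (τ : A →* A)
    (hτ : ∀ x, τ^[p] x = x) (hfix : ∀ x, τ x = x ↔ x ∈ ι.range)
    (Nm : A →* B) (hN : ∀ x, ι (Nm x) = ∏ i ∈ Finset.range p, τ^[i] x)
    (H90 : ∀ x, Nm x = 1 → ∃ y, x = τ y / y)
    {a b : ℕ}
    (hA : (powMonoidHom p : A →* A).range.index = p ^ a)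
    (hB : (powMonoidHom p : B →* B).range.index = p ^ b)
    (a₀ : A) (b₀ : B) (h₀ : a₀ ^ p = ι b₀) (hb₀ : b₀ ∉ (powMonoidHom p : B →* B).range) :
    ∃ k, Nm.range.index = p ^ k ∧ (p - 1) * k + a + 1 ≤ p * b := by
  let τ' : Module.End ℤ (Additive A) := (MonoidHom.toAdditive τ).toIntLinearMap
  have hτ'pow : ∀ (i : ℕ) (x : Additive A), (τ' ^ i) x = Additive.ofMul (τ^[i] x.toMul) := by
    intro i
    induction i with
    | zero => intro x; simp
    | succ n ih =>
      intro x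
      rw [pow_succ', Module.End.mul_apply, ih, Function.iterate_succ_apply']
      rfl
  have hsum : ∀ x : Additive A, (∑ i ∈ Finset.range p, τ' ^ i) x =
      Additive.ofMul (ι (Nm x.toMul)) := by
    intro x
    rw [LinearMap.sum_apply, hN, ofMul_prod]
    exact Finset.sum_congr rfl fun i _ => hτ'pow i x
  have hker : (τ' - 1).toAddMonoidHom.ker = Subgroup.toAddSubgroup ι.range := by
    ext x
    rw [AddMonoidHom.mem_ker]
    change τ' x - x = 0 ↔ x.toMul ∈ ι.range
    rw [sub_eq_zero, ← hfix]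
    rfl
  have hPA : (nsmulAddMonoidHom p : Additive A →+ Additive A).range =
      Subgroup.toAddSubgroup (powMonoidHom p : A →* A).range := by
    ext x
    rfl
  have hPB : ((τ' - 1).toAddMonoidHom.ker).map (nsmulAddMonoidHom p : Additive A →+ Additive A) =
      Subgroup.toAddSubgroup ((powMonoidHom p : B →* B).range.map ι) := by
    rw [hker]
    ext x
    constructor
    · rintro ⟨y, ⟨z, hz⟩, rfl⟩
      refine ⟨z ^ p, ⟨z, rfl⟩, ?_⟩
      rw [map_pow, hz]
      rfl
    · rintro ⟨_, ⟨z, rfl⟩, hz⟩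
      refine ⟨Additive.ofMul (ι z), ⟨z, rfl⟩, ?_⟩
      rw [← ofMul_toMul x, ← hz]
      simp
  have hNA : (∑ i ∈ Finset.range p, τ' ^ i).toAddMonoidHom.range =
      Subgroup.toAddSubgroup (Nm.range.map ι) := by
    ext x
    constructor
    · rintro ⟨y, rfl⟩
      exact ⟨Nm y.toMul, ⟨_, rfl⟩, (hsum y).symm⟩
    · rintro ⟨_, ⟨z, rfl⟩, hz⟩
      exact ⟨Additive.ofMul z, (hsum _).trans hz⟩
  have hrel : ∀ H : Subgroup B, (H.map ι).relIndex ι.range = H.index := by
    intro H
    rw [MonoidHom.range_eq_map, Subgroup.relIndex_map_map_of_injective _ _ hι,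
      Subgroup.relIndex_top_right]
  have main := add_version (p := p) τ' (a := a) (b := b) ?_ ?_ ?_ ?_ (Additive.ofMul a₀) ?_ ?_
  · obtain ⟨k, hk, hk'⟩ := main
    rw [hNA, hker, Subgroup.relIndex_toAddSubgroup, hrel] at hk
    exact ⟨k, hk, hk'⟩
  · ext x
    rw [hτ'pow, hτ]
    rfl
  · intro x hx
    rw [hsum] at hx
    have h1 : ι (Nm x.toMul) = 1 := hx
    have h2 : Nm x.toMul = 1 := hι (by rw [h1, map_one])
    obtain ⟨y, hy⟩ := H90 _ h2
    exact ⟨Additive.ofMul y, hy⟩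
  · rw [hPA, Subgroup.index_toAddSubgroup, hA]
  · rw [hPB, hker, Subgroup.relIndex_toAddSubgroup, hrel, hB]
  · change τ (a₀ ^ p) = a₀ ^ p
    rw [hfix, h₀]
    exact ⟨b₀, rfl⟩
  · intro y hy h
    have hy' : τ y.toMul = y.toMul := hy
    obtain ⟨z, hz⟩ := (hfix _).mp hy'
    have h' : a₀ ^ p = y.toMul ^ p := h
    apply hb₀
    refine ⟨z, hι ?_⟩
    rw [← h₀, h', ← hz]
    simp

end Multiplicative

end Fermat.Agent.CFT.FIalg
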