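import Fermat.Agent.CFT.Basic

/-!
# Lemmas on places, Galois action and extensions (API for `Basic.lean`)
-/

set_option autoImplicit false

namespace Fermat.Agent.CFT.PlaceLemmas

open IsDedekindDomain NumberField
open scoped Pointwise

section galois

variable {N' : Type*} [Field N'] [NumberField N'] {G : Type*} [Group G] [MulSemiringAction G N']

theorem intValuation_smul (σ : G) (w : Pl N') (x : 𝓞 N') :
    (σ • w).intValuation (σ • x) = w.intValuation x := by
  rcases eq_or_ne x 0 with rfl | hx
  · simp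
  have hx' : σ • x ≠ 0 := by
    intro h
    apply hx
    have := congrArg (fun y => σ⁻¹ • y) h
    simpa using this
  rw [HeightOneSpectrum.intValuation_eq_exp_neg_multiplicity _ hx',
    HeightOneSpectrum.intValuation_eq_exp_neg_multiplicity _ hx]
  have h1 : Ideal.span {σ • x} = σ • Ideal.span {x} := by
    rw [Ideal.pointwise_smul_def, Ideal.map_span, Set.image_singleton]
    rfl
  rw [h1, smul_asIdeal]
  have h2 := multiplicity_map_eq (MulSemiringAction.toRingEquiv G (Ideal (𝓞 N')) σ)
    (a := w.asIdeal) (b := Ideal.span {x})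
  simp only [MulSemiringAction.toRingEquiv_apply_apply] at h2
  rw [h2]

theorem valuation_smul (σ : G) (w : Pl N') (x : N') :
    (σ • w).valuation N' (σ • x) = w.valuation N' x := by
  obtain ⟨a, b, hb, rfl⟩ := IsFractionRing.div_surjective (A := 𝓞 N') x
  have h1 : σ • (algebraMap (𝓞 N') N' a / algebraMap (𝓞 N') N' b) =
      algebraMap (𝓞 N') N' (σ • a) / algebraMap (𝓞 N') N' (σ • b) := by
    rw [smul_div₀']
    rfl
  rw [h1, map_div₀, map_div₀, HeightOneSpectrum.valuation_of_algebraMap,
    HeightOneSpectrum.valuation_of_algebraMap, HeightOneSpectrum.valuation_of_algebraMap,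
    HeightOneSpectrum.valuation_of_algebraMap, intValuation_smul, intValuation_smul]

theorem ord_smul (σ : G) (w : Pl N') (x : N') : ord (σ • w) (σ • x) = ord w x := by
  unfold ord
  rw [valuation_smul]

theorem valuation_smul' (σ : G) (w : Pl N') (x : N') :
    w.valuation N' (σ • x) = (σ⁻¹ • w).valuation N' x := by
  conv_lhs => rw [← smul_inv_smul σ w]
  rw [valuation_smul]

end galois

section ext

variable {N : Type*} [Field N] [NumberField N] {N' : Type*} [Field N'] [NumberField N']
  [Algebra N N']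

theorem valuation_algebraMap_of_above {w : Pl N'} {v : Pl N} (h : Above w v) (x : N) :
    w.valuation N' (algebraMap N N' x) =
      v.valuation N x ^ (v.asIdeal.ramificationIdx' w.asIdeal) := by
  have := h
  exact (HeightOneSpectrum.valuation_liesOver N' v w x).symm

theorem ramificationIdx'_ne_zero_of_above {w : Pl N'} {v : Pl N} (h : Above w v) :
    v.asIdeal.ramificationIdx' w.asIdeal ≠ 0 := by
  have := h
  exact Ideal.IsDedekindDomain.ramificationIdx'_ne_zero_of_liesOver w.asIdeal v.ne_bot

theorem valuation_algebraMap_eq_one_iff {w : Pl N'} {v : Pl N} (h : Above w v) (x : N) :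
    w.valuation N' (algebraMap N N' x) = 1 ↔ v.valuation N x = 1 := by
  rw [valuation_algebraMap_of_above h, pow_eq_one_iff_left (ramificationIdx'_ne_zero_of_above h)]

theorem ord_algebraMap_of_above {w : Pl N'} {v : Pl N} (h : Above w v) (x : N) :
    ord w (algebraMap N N' x) = (v.asIdeal.ramificationIdx' w.asIdeal : ℤ) * ord v x := by
  unfold ord
  rw [valuation_algebraMap_of_above h, WithZero.log_pow]
  simp

variable (N') in
theorem exists_above (v : Pl N) : ∃ w : Pl N', Above w v := by
  obtain ⟨⟨P, hP, hPv⟩⟩ := v.asIdeal.nonempty_primesOver (S := 𝓞 N')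
  exact ⟨⟨P, hP, Ideal.ne_bot_of_liesOver_of_ne_bot v.ne_bot P⟩, hPv⟩

variable (N) in
/-- The place of `N` below a place of `N'`. -/
noncomputable def below (w : Pl N') : Pl N :=
  ⟨w.asIdeal.under (𝓞 N), inferInstance, Ideal.under_ne_bot (𝓞 N) w.ne_bot⟩

theorem above_below (w : Pl N') : Above w (below N w) := ⟨rfl⟩

theorem eq_below_of_above {w : Pl N'} {v : Pl N} (h : Above w v) : v = below N w := by
  apply HeightOneSpectrum.ext
  exact h.over

theorem above_unique {w : Pl N'} {v v' : Pl N} (h : Above w v) (h' : Above w v') : v = v' :=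
  (eq_below_of_above h).trans (eq_below_of_above h').symm

theorem mem_upSet_iff {S : Set (Pl N)} {w : Pl N'} : w ∈ upSet N' S ↔ below N w ∈ S := by
  constructor
  · rintro ⟨v, hv, hw⟩
    rwa [← eq_below_of_above hw]
  · intro h
    exact ⟨_, h, above_below w⟩

theorem mem_upSet_iff_of_above {S : Set (Pl N)} {w : Pl N'} {v : Pl N} (h : Above w v) :
    w ∈ upSet N' S ↔ v ∈ S := by
  rw [mem_upSet_iff, ← eq_below_of_above h]

omit [NumberField N] [NumberField N'] in
theorem smul_algebraMap_ringOfIntegers (σ : N' ≃ₐ[N] N') (a : 𝓞 N) :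
    σ • (algebraMap (𝓞 N) (𝓞 N') a) = algebraMap (𝓞 N) (𝓞 N') a := by
  apply RingOfIntegers.ext
  change σ (algebraMap (𝓞 N') N' (algebraMap (𝓞 N) (𝓞 N') a)) =
    algebraMap (𝓞 N') N' (algebraMap (𝓞 N) (𝓞 N') a)
  rw [← IsScalarTower.algebraMap_apply, IsScalarTower.algebraMap_apply (𝓞 N) N N',
    AlgEquiv.commutes]

theorem above_smul {w : Pl N'} {v : Pl N} (h : Above w v) (σ : N' ≃ₐ[N] N') :
    Above (σ • w) v := by
  constructor
  rw [h.over]
  ext a
  rw [Ideal.mem_comap, Ideal.mem_comap, smul_asIdeal, Ideal.mem_pointwise_smul_iff_inv_smul_mem,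
    smul_algebraMap_ringOfIntegers]

theorem below_smul (w : Pl N') (σ : N' ≃ₐ[N] N') : below N (σ • w) = below N w :=
  (eq_below_of_above (above_smul (above_below w) σ)).symm

theorem exists_smul_eq_of_above [IsGalois N N'] {w w' : Pl N'} {v : Pl N} (h : Above w v)
    (h' : Above w' v) : ∃ σ : N' ≃ₐ[N] N', σ • w = w' := by
  have := h
  have := h'
  obtain ⟨σ, hσ⟩ := Ideal.exists_smul_eq_of_isGaloisGroup v.asIdeal w.asIdeal w'.asIdeal
    (N' ≃ₐ[N] N')
  exact ⟨σ, HeightOneSpectrum.ext hσ⟩

/-- Trivial inertia group implies ramification index one. -/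
theorem ramificationIdx'_eq_one_of_unram [IsGalois N N'] {w : Pl N'} {v : Pl N} (h : Above w v)
    (hw : Unram N w) : v.asIdeal.ramificationIdx' w.asIdeal = 1 := by
  have := h
  rw [Ideal.ramificationIdx'_eq_ramificationIdx v.asIdeal w.asIdeal v.ne_bot,
    ← Ideal.ramificationIdxIn_eq_ramificationIdx v.asIdeal w.asIdeal (N' ≃ₐ[N] N'),
    ← Ideal.card_inertia_eq_ramificationIdxIn (G := N' ≃ₐ[N] N') v.asIdeal w.asIdeal]
  rw [Subgroup.card_eq_one, Subgroup.eq_bot_iff_forall]
  intro σ hσ
  exact hw σ hσ

theorem valuation_algebraMap_of_unram [IsGalois N N'] {w : Pl N'} {v : Pl N} (h : Above w v)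
    (hw : Unram N w) (x : N) : w.valuation N' (algebraMap N N' x) = v.valuation N x := by
  rw [valuation_algebraMap_of_above h, ramificationIdx'_eq_one_of_unram h hw, pow_one]

theorem ord_algebraMap_of_unram [IsGalois N N'] {w : Pl N'} {v : Pl N} (h : Above w v)
    (hw : Unram N w) (x : N) : ord w (algebraMap N N' x) = ord v x := by
  unfold ord
  rw [valuation_algebraMap_of_unram h hw]

theorem finite_valuation_ne_one {x : N} (hx : x ≠ 0) : {v : Pl N | v.valuation N x ≠ 1}.Finite := by
  have h1 := HeightOneSpectrum.Support.finite (𝓞 N) x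
  have h2 := HeightOneSpectrum.Support.finite (𝓞 N) x⁻¹
  refine (h1.union h2).subset ?_
  intro v hv
  rcases lt_or_gt_of_ne hv with h | h
  · right
    change 1 < v.valuation N x⁻¹
    rw [map_inv₀]
    exact (one_lt_inv₀ (zero_lt_iff.mpr (valuation_ne_zero v hx))).mpr h
  · left
    exact h

theorem ord_eq_zero_iff (v : Pl N) {x : N} (hx : x ≠ 0) : ord v x = 0 ↔ v.valuation N x = 1 := by
  unfold ord
  rw [neg_eq_zero]
  constructor
  · intro h
    have h1 := WithZero.exp_log (valuation_ne_zero v hx)
    rw [h, WithZero.exp_zero] at h1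
    exact h1.symm
  · intro h
    rw [h, WithZero.log_one]

/-- The places above `v`. -/
def fiber (N' : Type*) [Field N'] [NumberField N'] [Algebra N N'] (v : Pl N) : Set (Pl N') :=
  {w | Above w v}

theorem fiber_eq_orbit [IsGalois N N'] {w : Pl N'} {v : Pl N} (h : Above w v) :
    fiber N' v = MulAction.orbit (N' ≃ₐ[N] N') w := by
  ext w'
  constructor
  · intro h'
    obtain ⟨σ, hσ⟩ := exists_smul_eq_of_above h h'
    exact ⟨σ, hσ⟩
  · rintro ⟨σ, rfl⟩
    exact above_smul h σ

theorem fiber_finite [IsGalois N N'] (v : Pl N) : (fiber N' v).Finite := by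
  obtain ⟨w, hw⟩ := exists_above N' v
  rw [fiber_eq_orbit hw]
  exact Set.finite_range _

theorem ncard_fiber_of_split [IsGalois N N'] {v : Pl N} (hv : Split N' v) :
    (fiber N' v).ncard = Module.finrank N N' := by
  obtain ⟨w, hw⟩ := exists_above N' v
  rw [fiber_eq_orbit hw, ← MulAction.index_stabilizer]
  have : MulAction.stabilizer (N' ≃ₐ[N] N') w = ⊥ := by
    rw [Subgroup.eq_bot_iff_forall]
    intro σ hσ
    exact hv w hw σ hσ
  rw [this, Subgroup.index_bot, IsGalois.card_aut_eq_finrank]

theorem ncard_fiber_of_not_split [IsGalois N N'] {p : ℕ} [hp : Fact p.Prime]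
    (hdeg : Module.finrank N N' = p) {v : Pl N} (hv : ¬ Split N' v) :
    (fiber N' v).ncard = 1 := by
  unfold Split at hv
  push Not at hv
  obtain ⟨w, hw, σ, hσ, hσ1⟩ := hv
  rw [fiber_eq_orbit hw, ← MulAction.index_stabilizer]
  have hcard : Nat.card (N' ≃ₐ[N] N') = p := by rw [IsGalois.card_aut_eq_finrank, hdeg]
  have : Fact (Nat.card (N' ≃ₐ[N] N')).Prime := ⟨hcard ▸ hp.out⟩
  rcases Subgroup.eq_bot_or_eq_top_of_prime_card (MulAction.stabilizer (N' ≃ₐ[N] N') w)
    with h | h
  · exfalso
    apply hσ1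
    have : σ ∈ MulAction.stabilizer (N' ≃ₐ[N] N') w := hσ
    rw [h] at this
    exact this
  · rw [h, Subgroup.index_top]

open Classical in
/-- The places above a finite set, as a finset. -/
noncomputable def upFinset (N' : Type*) [Field N'] [NumberField N'] [Algebra N N'] [IsGalois N N']
    (S : Finset (Pl N)) : Finset (Pl N') :=
  S.biUnion fun v => (fiber_finite (N' := N') v).toFinset

theorem coe_upFinset [IsGalois N N'] (S : Finset (Pl N)) :
    (upFinset N' S : Set (Pl N')) = upSet N' (S : Set (Pl N)) := by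
  classical
  ext w
  simp only [upFinset, Finset.coe_biUnion, Set.Finite.coe_toFinset, Set.mem_iUnion, upSet, fiber]
  simp

open Classical in
theorem card_upFinset [IsGalois N N'] {p : ℕ} [hp : Fact p.Prime]
    (hdeg : Module.finrank N N' = p) (S : Finset (Pl N)) :
    (upFinset N' S).card + (p - 1) * (S.filter fun v => ¬ Split N' v).card = p * S.card := by
  have h1 : (upFinset N' S).card = ∑ v ∈ S, (fiber N' v).ncard := by
    unfold upFinset
    rw [Finset.card_biUnion]
    · refine Finset.sum_congr rfl fun v _ => ?_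
      rw [Set.ncard_eq_toFinset_card _ (fiber_finite v)]
    · intro v _ v' _ hvv'
      change Disjoint _ _
      rw [Finset.disjoint_left]
      intro w hw hw'
      rw [Set.Finite.mem_toFinset] at hw hw'
      exact hvv' (above_unique hw hw')
  have h2 : ∀ v ∈ S, (fiber N' v).ncard + (p - 1) * (if ¬ Split N' v then 1 else 0) = p := by
    intro v _
    have hp1 : 1 ≤ p := hp.out.one_le
    by_cases hv : Split N' v
    · rw [ncard_fiber_of_split hv, hdeg]; simp [hv]
    · rw [ncard_fiber_of_not_split hdeg hv]; simp only [hv, not_false_eq_true, if_true]; omega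
  rw [h1, Finset.card_filter, Finset.mul_sum, ← Finset.sum_add_distrib, Finset.sum_congr rfl h2]
  simp [mul_comm]

end ext

end Fermat.Agent.CFT.PlaceLemmas
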