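import Mathlib

set_option autoImplicit false

namespace Fermat.Agent.CFT

open Subgroup

section General

variable {G H A C Z : Type*} [CommGroup G] [CommGroup H] [CommGroup A] [CommGroup C] [CommGroup Z]

/-- The index of the subgroup of `p`-th powers. -/
noncomputable def powIndex (G : Type*) [CommGroup G] (p : ℕ) : ℕ :=
  (powMonoidHom p : G →* G).range.index

theorem powIndex_eq_card (G : Type*) [CommGroup G] (p : ℕ) :
    powIndex G p = Nat.card (G ⧸ (powMonoidHom p : G →* G).range) := rfl

theorem powIndex_congr (e : G ≃* H) (p : ℕ) : powIndex G p = powIndex H p := by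
  unfold powIndex
  rw [← index_map_equiv (powMonoidHom p : G →* G).range e]
  congr 1
  ext y
  simp only [mem_map, MonoidHom.mem_range, powMonoidHom_apply, MonoidHom.coe_coe,
    exists_exists_eq_and, map_pow]
  constructor
  · rintro ⟨x, rfl⟩
    exact ⟨e x, rfl⟩
  · rintro ⟨x, rfl⟩
    exact ⟨e.symm x, by simp⟩

theorem powIndex_of_surjective (f : A →* C) (hf : Function.Surjective f) (p : ℕ)
    (hC : ∀ c : C, c ^ p = 1 → c = 1) :
    powIndex A p = powIndex f.ker p * powIndex C p := by
  unfold powIndex
  set P : Subgroup A := (powMonoidHom p : A →* A).range with hP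
  have h1 : (P.map f) = (powMonoidHom p : C →* C).range := by
    ext y
    simp only [hP, mem_map, MonoidHom.mem_range, powMonoidHom_apply, exists_exists_eq_and, map_pow]
    constructor
    · rintro ⟨x, rfl⟩
      exact ⟨f x, rfl⟩
    · rintro ⟨x, rfl⟩
      obtain ⟨a, rfl⟩ := hf x
      exact ⟨a, rfl⟩
  have h2 : (P.map f).index = (P ⊔ f.ker).index := by
    rw [index_map, MonoidHom.range_eq_top.mpr hf, index_top, mul_one]
  have h3 : P.relIndex (P ⊔ f.ker) * (P ⊔ f.ker).index = P.index :=
    relIndex_mul_index le_sup_left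
  have h4 : P.relIndex (P ⊔ f.ker) = P.relIndex f.ker := relIndex_sup_left _ _
  have h5 : P.subgroupOf f.ker = (powMonoidHom p : f.ker →* f.ker).range := by
    ext ⟨y, hy⟩
    simp only [hP, mem_subgroupOf, MonoidHom.mem_range, powMonoidHom_apply, Subtype.exists]
    constructor
    · rintro ⟨x, rfl⟩
      have hx : x ∈ f.ker := by
        rw [MonoidHom.mem_ker] at hy ⊢
        exact hC _ (by rw [← map_pow]; exact hy)
      exact ⟨x, hx, rfl⟩
    · rintro ⟨x, hx, h⟩
      exact ⟨x, congrArg Subtype.val h⟩
  rw [← h3, h4, ← h2, h1, relIndex, h5]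

theorem powIndex_of_finiteIndex (D : Subgroup Z) (p : ℕ) (hinj : ∀ z : Z, z ^ p = 1 → z = 1)
    (hD : D.index ≠ 0) : powIndex D p = powIndex Z p := by
  unfold powIndex
  set φ : Z →* Z := powMonoidHom p with hφ
  have hφinj : Function.Injective φ := by
    rw [injective_iff_map_eq_one]
    exact hinj
  have h1 : (D.map φ).index = D.index * φ.range.index := index_map_of_injective D hφinj
  have hle : D.map φ ≤ D := by
    rintro _ ⟨x, hx, rfl⟩
    exact D.pow_mem hx p
  have h2 : (D.map φ).relIndex D * D.index = (D.map φ).index := relIndex_mul_index hle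
  have h3 : (D.map φ).subgroupOf D = (powMonoidHom p : D →* D).range := by
    ext ⟨y, hy⟩
    simp only [hφ, mem_subgroupOf, mem_map, MonoidHom.mem_range, powMonoidHom_apply, Subtype.exists]
    constructor
    · rintro ⟨x, hx, rfl⟩
      exact ⟨x, hx, rfl⟩
    · rintro ⟨x, hx, h⟩
      exact ⟨x, hx, congrArg Subtype.val h⟩
  rw [← h3, ← relIndex]
  have : (D.map φ).relIndex D * D.index = φ.range.index * D.index := by
    rw [h2, h1, mul_comm]
  exact Nat.eq_of_mul_eq_mul_right (Nat.pos_of_ne_zero hD) this

theorem powIndex_pi_int (ι : Type*) [Fintype ι] (p : ℕ) [NeZero p] :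
    powIndex (ι → Multiplicative ℤ) p = p ^ Fintype.card ι := by
  unfold powIndex
  let ψ : (ι → Multiplicative ℤ) →* (ι → Multiplicative (ZMod p)) :=
    MonoidHom.pi fun i => (AddMonoidHom.toMultiplicative (Int.castAddHom (ZMod p))).comp
      (Pi.evalMonoidHom _ i)
  have hψ : ∀ x i, ψ x i = Multiplicative.ofAdd (((x i).toAdd : ℤ) : ZMod p) := fun x i => rfl
  have hsurj : Function.Surjective ψ := by
    intro y
    refine ⟨fun i => Multiplicative.ofAdd ((y i).toAdd.val : ℤ), ?_⟩
    funext i
    rw [hψ]
    simp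
  have hker : ψ.ker = (powMonoidHom p : (ι → Multiplicative ℤ) →* _).range := by
    ext x
    simp only [MonoidHom.mem_ker, MonoidHom.mem_range, powMonoidHom_apply]
    constructor
    · intro hx
      have h : ∀ i, (p : ℤ) ∣ (x i).toAdd := by
        intro i
        have := congrFun hx i
        rw [hψ] at this
        have h' : (((x i).toAdd : ℤ) : ZMod p) = 0 := by simpa using this
        exact (ZMod.intCast_zmod_eq_zero_iff_dvd _ _).mp h'
      choose y hy using h
      refine ⟨fun i => Multiplicative.ofAdd (y i), ?_⟩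
      funext i
      apply Multiplicative.toAdd.injective
      simp [hy i]
    · rintro ⟨y, rfl⟩
      funext i
      rw [hψ]
      simp
  rw [← hker, index_ker, MonoidHom.range_eq_top.mpr hsurj]
  rw [Subgroup.card_top, Nat.card_pi]
  simp

end General

section Dedekind

open IsDedekindDomain HeightOneSpectrum

variable {R : Type*} [CommRing R] [IsDedekindDomain R]
  (K : Type*) [Field K] [Algebra R K] [IsFractionRing R K]
  (S : Finset (HeightOneSpectrum R))

/-- The `S`-units (Mathlib's `Set.unit`). -/
noncomputable abbrev sUnits : Subgroup Kˣ := (S : Set (HeightOneSpectrum R)).unit K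

/-- The valuation vector of an `S`-unit. -/
noncomputable def valS : sUnits K S →* (S → Multiplicative ℤ) :=
  MonoidHom.pi fun v => (v.1.valuationOfNeZero).comp (sUnits K S).subtype

theorem valS_apply (x : sUnits K S) (v : S) : valS K S x v = v.1.valuationOfNeZero (x : Kˣ) := rfl

theorem valuationOfNeZero_eq_one_iff (v : HeightOneSpectrum R) (x : Kˣ) :
    v.valuationOfNeZero x = 1 ↔ v.valuation K (x : K) = 1 := by
  rw [← valuationOfNeZero_eq, ← WithZero.coe_one, WithZero.coe_inj]

/-- The global units as `S`-units with trivial valuation vector. -/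
noncomputable def unitsToKer : Rˣ →* (valS K S).ker :=
  MonoidHom.codRestrict
    (MonoidHom.codRestrict (Units.map (algebraMap R K : R →* K)) (sUnits K S) (fun u v _ => by
      rw [← valuationOfNeZero_eq_one_iff]
      exact valuation_of_unit_eq v u)) _ (fun u => by
      rw [MonoidHom.mem_ker]
      funext v
      exact valuation_of_unit_eq v.1 u)

theorem unitsToKer_coe (u : Rˣ) : (((unitsToKer K S u : (valS K S).ker) : sUnits K S) : Kˣ) =
    Units.map (algebraMap R K : R →* K) u := rfl

theorem unitsToKer_bijective : Function.Bijective (unitsToKer K S) := by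
  constructor
  · intro u u' h
    have h1 := congrArg (fun z : (valS K S).ker => (((z : sUnits K S) : Kˣ) : K)) h
    simp only [unitsToKer_coe, Units.coe_map, MonoidHom.coe_coe] at h1
    exact Units.ext (IsFractionRing.injective R K h1)
  · rintro ⟨⟨x, hx⟩, hker⟩
    have hall : ∀ v : HeightOneSpectrum R, v.valuation K (x : K) = 1 := by
      intro v
      by_cases hv : v ∈ S
      · rw [MonoidHom.mem_ker] at hker
        have := congrFun hker ⟨v, hv⟩
        rw [← valuationOfNeZero_eq_one_iff]
        exact this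
      · exact hx v (by simpa using hv)
    obtain ⟨a, ha⟩ := mem_integers_of_valuation_le_one K (x : K) (fun v => (hall v).le)
    obtain ⟨b, hb⟩ := mem_integers_of_valuation_le_one K ((x⁻¹ : Kˣ) : K) (fun v => by
      rw [Units.val_inv_eq_inv_val, map_inv₀, hall v, inv_one])
    have hab : a * b = 1 := by
      apply IsFractionRing.injective R K
      rw [map_mul, ha, hb, map_one, Units.mul_inv]
    refine ⟨⟨a, b, hab, by rw [mul_comm]; exact hab⟩, ?_⟩
    apply Subtype.ext
    apply Subtype.ext
    apply Units.ext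
    rw [unitsToKer_coe]
    exact ha

variable [Finite (ClassGroup R)]

omit [Finite (ClassGroup R)] in
open Classical in
theorem exists_sUnit_single (v : S) :
    ∃ a : sUnits K S, valS K S a =
      Pi.mulSingle v (Multiplicative.ofAdd (-(Nat.card (ClassGroup R) : ℤ))) := by
  set h := Nat.card (ClassGroup R) with hh
  have hne : v.1.asIdeal ≠ 0 := v.1.ne_bot
  have hmem : v.1.asIdeal ∈ nonZeroDivisors (Ideal R) := mem_nonZeroDivisors_of_ne_zero hne
  have hpow : ClassGroup.mk0 (⟨v.1.asIdeal, hmem⟩ ^ h) = 1 := by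
    rw [map_pow, hh]
    exact pow_card_eq_one'
  rw [ClassGroup.mk0_eq_one_iff] at hpow
  obtain ⟨a, ha⟩ := hpow.principal
  have ha' : v.1.asIdeal ^ h = Ideal.span {a} := by
    simpa using ha
  have ha0 : a ≠ 0 := by
    rintro rfl
    rw [Set.singleton_zero, Ideal.span_zero] at ha'
    exact hne (eq_zero_of_pow_eq_zero ha')
  have haK : algebraMap R K a ≠ 0 := by
    rwa [Ne, IsFractionRing.to_map_eq_zero_iff]
  have hother : ∀ w : HeightOneSpectrum R, w ≠ v.1 → w.valuation K (algebraMap R K a) = 1 := by
    intro w hw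
    rw [valuation_eq_one_iff_notMem]
    intro hmemw
    have h1 : v.1.asIdeal ^ h ≤ w.asIdeal := by
      rw [ha', Ideal.span_singleton_le_iff_mem]
      exact hmemw
    have h2 : v.1.asIdeal ≤ w.asIdeal := w.isPrime.le_of_pow_le h1
    have h3 : v.1.asIdeal = w.asIdeal := v.1.isMaximal.eq_of_le w.isPrime.ne_top h2
    exact hw (HeightOneSpectrum.ext h3.symm)
  have hself : v.1.valuation K (algebraMap R K a) = WithZero.exp (-(h : ℤ)) := by
    rw [valuation_of_algebraMap]
    apply le_antisymm
    · rw [intValuation_le_pow_iff_dvd, ha']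
    · by_contra hlt
      rw [not_le] at hlt
      have h1 : v.1.intValuation a ≤ WithZero.exp (-((h + 1 : ℕ) : ℤ)) := by
        obtain ⟨m, hm⟩ : ∃ m : ℤ, v.1.intValuation a = WithZero.exp m := by
          have := v.1.intValuation_ne_zero a ha0
          exact ⟨WithZero.log (v.1.intValuation a), (WithZero.exp_log this).symm⟩
        rw [hm] at hlt ⊢
        rw [WithZero.exp_lt_exp] at hlt
        rw [WithZero.exp_le_exp]
        push_cast
        omega
      rw [intValuation_le_pow_iff_dvd, ← ha'] at h1
      have h2 : v.1.asIdeal ^ h ≤ v.1.asIdeal ^ (h + 1) := Ideal.le_of_dvd h1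
      have h3 := Ideal.pow_right_strictAnti v.1.asIdeal v.1.ne_bot v.1.isPrime.ne_top
        (Nat.lt_succ_self h)
      exact absurd h2 (not_le_of_gt h3)
  refine ⟨⟨Units.mk0 _ haK, ?_⟩, ?_⟩
  · intro w hw
    refine hother w ?_
    rintro rfl
    exact hw (by simp)
  · funext w
    rw [valS_apply]
    apply WithZero.coe_injective
    rw [valuationOfNeZero_eq]
    by_cases hw : w = v
    · subst hw
      rw [Pi.mulSingle_eq_same]
      exact hself
    · rw [Pi.mulSingle_eq_of_ne hw]
      exact hother w.1 (fun h => hw (Subtype.ext h))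

theorem valS_range_index_ne_zero : (valS K S).range.index ≠ 0 := by
  classical
  set h := Nat.card (ClassGroup R) with hh
  have hpos : h ≠ 0 := Nat.card_pos.ne'
  have : NeZero h := ⟨hpos⟩
  have hle : (powMonoidHom h : (S → Multiplicative ℤ) →* _).range ≤ (valS K S).range := by
    rintro _ ⟨y, rfl⟩
    have : powMonoidHom h y = ∏ v : S, (Pi.mulSingle v (Multiplicative.ofAdd (-(h : ℤ)))
        : S → Multiplicative ℤ) ^ (-(y v).toAdd) := by
      funext w
      rw [Finset.prod_apply, Finset.prod_eq_single w]
      · simp only [powMonoidHom_apply, Pi.pow_apply, Pi.mulSingle_eq_same]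
        apply Multiplicative.toAdd.injective
        simp
        ring
      · intro b _ hb
        simp [Pi.mulSingle_eq_of_ne (Ne.symm hb)]
      · simp
    rw [this]
    refine Subgroup.prod_mem _ fun v _ => Subgroup.zpow_mem _ ?_ _
    obtain ⟨a, ha⟩ := exists_sUnit_single K S v
    exact ⟨a, ha⟩
  have h1 : (powMonoidHom h : (S → Multiplicative ℤ) →* _).range.index ≠ 0 := by
    have := powIndex_pi_int S h
    unfold powIndex at this
    rw [this]
    exact pow_ne_zero _ hpos
  exact ne_zero_of_dvd_ne_zero h1 (Subgroup.index_dvd_of_le hle)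

/-- `[U_S : U_S^p] = [U : U^p] · p^{|S|}`. -/
theorem powIndex_sUnits (p : ℕ) [NeZero p] :
    powIndex (sUnits K S) p = powIndex Rˣ p * p ^ S.card := by
  have htf : ∀ z : S → Multiplicative ℤ, z ^ p = 1 → z = 1 := by
    intro z hz
    funext v
    have := congrFun hz v
    apply Multiplicative.toAdd.injective
    have h2 : (p : ℤ) * (z v).toAdd = 0 := by
      have := congrArg Multiplicative.toAdd this
      simpa using this
    rcases mul_eq_zero.mp h2 with h | h
    · exact absurd (by exact_mod_cast h) (NeZero.ne p)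
    · simpa using h
  have h1 := powIndex_of_surjective (valS K S).rangeRestrict (valS K S).rangeRestrict_surjective p
    (by
      intro c hc
      apply Subtype.ext
      exact htf c (congrArg Subtype.val hc))
  rw [h1, powIndex_of_finiteIndex _ p htf (valS_range_index_ne_zero K S), powIndex_pi_int,
    Fintype.card_coe]
  congr 1
  have e : Rˣ ≃* (valS K S).ker := MulEquiv.ofBijective _ (unitsToKer_bijective K S)
  rw [powIndex_congr e]
  rw [MonoidHom.ker_rangeRestrict]

end Dedekind

section NumberField

open NumberField NumberField.Units IsDedekindDomain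

variable (M : Type*) [Field M] [NumberField M]

/-- `e ↦ ∏ εᵢ ^ eᵢ` for a fundamental system of units. -/
noncomputable def fundHom : (Fin (rank M) → Multiplicative ℤ) →* (𝓞 M)ˣ where
  toFun e := ∏ i, fundSystem M i ^ (e i).toAdd
  map_one' := by simp
  map_mul' e e' := by
    simp only [Pi.mul_apply, toAdd_mul, zpow_add, Finset.prod_mul_distrib]

/-- Dirichlet's unit theorem as a group isomorphism. -/
noncomputable def unitsEquiv :
    (torsion M × (Fin (rank M) → Multiplicative ℤ)) ≃* (𝓞 M)ˣ :=
  MulEquiv.ofBijective (MonoidHom.coprod (torsion M).subtype (fundHom M)) (by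
    constructor
    · rintro ⟨ζ, e⟩ ⟨ζ', e'⟩ h
      obtain ⟨_, -, huniq⟩ := exist_unique_eq_mul_prod M
        ((MonoidHom.coprod (torsion M).subtype (fundHom M)) (ζ, e))
      have h1 := huniq (ζ, fun i => (e i).toAdd) rfl
      have h2 := huniq (ζ', fun i => (e' i).toAdd) h
      have h3 := h1.trans h2.symm
      rw [Prod.mk.injEq] at h3
      ext1
      · exact h3.1
      · funext i
        exact Multiplicative.toAdd.injective (congrFun h3.2 i)
    · intro x
      obtain ⟨⟨ζ, e⟩, hx, -⟩ := exist_unique_eq_mul_prod M x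
      exact ⟨(ζ, fun i => Multiplicative.ofAdd (e i)), hx.symm⟩)

theorem powIndex_prod (G H : Type*) [CommGroup G] [CommGroup H] (p : ℕ) :
    powIndex (G × H) p = powIndex G p * powIndex H p := by
  unfold powIndex
  rw [← Subgroup.index_prod]
  congr 1
  ext ⟨x, y⟩
  simp only [MonoidHom.mem_range, powMonoidHom_apply, Prod.exists, Prod.pow_mk, Prod.mk.injEq,
    Subgroup.mem_prod]
  constructor
  · rintro ⟨a, b, rfl, rfl⟩
    exact ⟨⟨a, rfl⟩, ⟨b, rfl⟩⟩
  · rintro ⟨⟨a, rfl⟩, ⟨b, rfl⟩⟩
    exact ⟨a, b, rfl, rfl⟩

theorem pi_int_pow_eq_one {ι : Type*} (p : ℕ) [NeZero p] (z : ι → Multiplicative ℤ)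
    (hz : z ^ p = 1) : z = 1 := by
  funext v
  have := congrFun hz v
  apply Multiplicative.toAdd.injective
  have h2 : (p : ℤ) * (z v).toAdd = 0 := by
    have := congrArg Multiplicative.toAdd this
    simpa using this
  rcases mul_eq_zero.mp h2 with h | h
  · exact absurd (by exact_mod_cast h) (NeZero.ne p)
  · simpa using h

/-- `[U : U^p] = gcd(w, p) · p^{r₁ + r₂ - 1}`. -/
theorem powIndex_units (p : ℕ) [NeZero p] :
    powIndex (𝓞 M)ˣ p = (torsionOrder M).gcd p * p ^ rank M := by
  rw [← powIndex_congr (unitsEquiv M), powIndex_prod, powIndex_pi_int, Fintype.card_fin]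
  congr 1
  unfold powIndex
  rw [IsCyclic.index_powMonoidHom_range]
  rfl

/-- **`S`-unit theorem modulo `p`-th powers.** -/
theorem powIndex_sUnits_numberField (S : Finset (HeightOneSpectrum (𝓞 M))) (p : ℕ) [NeZero p] :
    powIndex (sUnits M S) p = (torsionOrder M).gcd p * p ^ (rank M + S.card) := by
  rw [powIndex_sUnits, powIndex_units, pow_add, mul_assoc]

/-- If `M` contains a primitive `p`-th root of unity, `[U_S : U_S^p] = p^{r + |S| + 1}`. -/
theorem powIndex_sUnits_of_isPrimitiveRoot (S : Finset (HeightOneSpectrum (𝓞 M))) (p : ℕ)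
    [NeZero p] {ζ : M} (hζ : IsPrimitiveRoot ζ p) :
    powIndex (sUnits M S) p = p ^ (rank M + S.card + 1) := by
  rw [powIndex_sUnits_numberField, Nat.gcd_eq_right (dvd_torsionOrder_of_isPrimitiveRoot hζ),
    pow_succ, mul_comm]

/-- The same statement as a cardinality. -/
theorem card_sUnits_quot_of_isPrimitiveRoot (S : Finset (HeightOneSpectrum (𝓞 M))) (p : ℕ)
    [NeZero p] {ζ : M} (hζ : IsPrimitiveRoot ζ p) :
    Nat.card (sUnits M S ⧸ (powMonoidHom p : sUnits M S →* sUnits M S).range) =
      p ^ (rank M + S.card + 1) :=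
  powIndex_sUnits_of_isPrimitiveRoot M S p hζ

end NumberField

end Fermat.Agent.CFT
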