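import Fermat.Agent.CFT.Basic
import Fermat.Agent.CFT.PlaceLemmas
import Fermat.Agent.CFT.FIalg
import Fermat.Agent.CFT.SUnitRank

/-!
# The first inequality in `S`-unit form (core proof)
-/

set_option autoImplicit false

namespace Fermat.Agent.CFT.FICore

open IsDedekindDomain NumberField Fermat.Agent.CFT.PlaceLemmas
open scoped Pointwise

section ordlemmas

variable {N : Type*} [Field N] [NumberField N]

theorem ord_units_mul (v : Pl N) (x y : Nˣ) :
    ord v ((x * y : Nˣ) : N) = ord v (x : N) + ord v (y : N) := by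
  rw [Units.val_mul, ord_mul v x.ne_zero y.ne_zero]

theorem ord_units_zpow (v : Pl N) (x : Nˣ) (k : ℤ) :
    ord v ((x ^ k : Nˣ) : N) = k * ord v (x : N) := by
  have h := map_zpow (ordHom v) x k
  have h2 := congrArg Multiplicative.toAdd h
  rw [toAdd_zpow] at h2
  simpa [ordHom] using h2

theorem ord_units_prod_zpow {ι : Type*} (v : Pl N) (s : Finset ι) (f : ι → Nˣ) (k : ι → ℤ) :
    ord v ((∏ i ∈ s, f i ^ k i : Nˣ) : N) = ∑ i ∈ s, k i * ord v (f i : N) := by
  classical
  induction s using Finset.induction_on with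
  | empty => simp
  | insert i s hi ih => rw [Finset.prod_insert hi, Finset.sum_insert hi, ord_units_mul, ih,
      ord_units_zpow]

theorem ord_units_div (v : Pl N) (x y : Nˣ) :
    ord v ((x / y : Nˣ) : N) = ord v (x : N) - ord v (y : N) := by
  rw [div_eq_mul_inv, ord_units_mul, Units.val_inv_eq_inv_val, ord_inv]
  ring

theorem mem_SU_iff_ord (S : Set (Pl N)) (x : Nˣ) : x ∈ SU S ↔ ∀ v, v ∉ S → ord v (x : N) = 0 := by
  constructor
  · intro h v hv
    exact (ord_eq_zero_iff v x.ne_zero).mpr (h v hv)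
  · intro h v hv
    exact (ord_eq_zero_iff v x.ne_zero).mp (h v hv)

end ordlemmas

section descent

variable {N : Type*} [Field N] [NumberField N] {N' : Type*} [Field N'] [NumberField N']
  [Algebra N N'] [IsGalois N N']

/-- The embedding `Nˣ → N'ˣ`. -/
noncomputable abbrev uMap (N N' : Type*) [Field N] [Field N'] [Algebra N N'] : Nˣ →* N'ˣ :=
  Units.map (algebraMap N N' : N →* N')

/-- An element of `N'ˣ` whose divisor outside `S` is Galois invariant is an `S`-unit times an
element of `Nˣ`. -/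
theorem exists_div_mem_SU {S : Set (Pl N)} (hgen : GenCl S)
    (hram : ∀ w : Pl N', w ∉ upSet N' S → Unram N w) (y : N'ˣ)
    (hinv : ∀ w : Pl N', w ∉ upSet N' S → ∀ σ : N' ≃ₐ[N] N',
      w.valuation N' (σ (y : N')) = w.valuation N' (y : N')) :
    ∃ c : Nˣ, y / uMap N N' c ∈ SU (upSet N' S) := by
  classical
  have hW : {w : Pl N' | w.valuation N' (y : N') ≠ 1}.Finite := finite_valuation_ne_one y.ne_zero
  let V : Finset (Pl N) := (hW.toFinset.image (below N)).filter (· ∉ S)
  let cv : Pl N → Nˣ := fun v => if h : v ∈ S then 1 else (hgen v h).choose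
  have hcv1 : ∀ v, v ∉ S → ord v (cv v : N) = 1 := by
    intro v hv
    simp only [cv, dif_neg hv]
    exact (hgen v hv).choose_spec.1
  have hcv0 : ∀ v, v ∉ S → ∀ v', v' ∉ S → v' ≠ v → ord v' (cv v : N) = 0 := by
    intro v hv
    simp only [cv, dif_neg hv]
    exact (hgen v hv).choose_spec.2
  let wv : Pl N → Pl N' := fun v => (exists_above N' v).choose
  have hwv : ∀ v, Above (wv v) v := fun v => (exists_above N' v).choose_spec
  let n : Pl N → ℤ := fun v => ord (wv v) (y : N')
  refine ⟨∏ v ∈ V, cv v ^ n v, ?_⟩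
  rw [mem_SU_iff_ord]
  intro w hw
  set v := below N w with hv
  have hvS : v ∉ S := fun h => hw (mem_upSet_iff.mpr h)
  have hwv' : Above w v := above_below w
  rw [ord_units_div]
  have h1 : ord w ((uMap N N' (∏ v ∈ V, cv v ^ n v) : N'ˣ) : N') =
      ord v ((∏ v ∈ V, cv v ^ n v : Nˣ) : N) :=
    ord_algebraMap_of_unram hwv' (hram w hw) _
  rw [h1, ord_units_prod_zpow, sub_eq_zero]
  by_cases hvV : v ∈ V
  · rw [Finset.sum_eq_single_of_mem v hvV, hcv1 v hvS, mul_one]
    · -- `ord w y = ord (wv v) y`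
      obtain ⟨σ, hσ⟩ := exists_smul_eq_of_above (hwv v) hwv'
      have hnot : wv v ∉ upSet N' S := by
        rw [mem_upSet_iff_of_above (hwv v)]; exact hvS
      have h2 := hinv (wv v) hnot σ⁻¹
      have h3 : w.valuation N' (y : N') = (wv v).valuation N' (σ⁻¹ (y : N')) := by
        rw [← hσ]
        have := valuation_smul σ (wv v) (σ⁻¹ (y : N'))
        rw [← this]
        congr 1
        simp [AlgEquiv.smul_def]
      simp only [n, ord]
      rw [h3, h2]
    · intro v' hv' hne
      have hv'S : v' ∉ S := (Finset.mem_filter.mp hv').2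
      rw [hcv0 v' hv'S v hvS (Ne.symm hne), mul_zero]
  · rw [Finset.sum_eq_zero]
    · rw [ord_eq_zero_iff w y.ne_zero]
      by_contra hne
      apply hvV
      refine Finset.mem_filter.mpr ⟨Finset.mem_image.mpr ⟨w, ?_, rfl⟩, hvS⟩
      rw [Set.Finite.mem_toFinset]
      exact hne
    · intro v' hv'
      have hv'S : v' ∉ S := (Finset.mem_filter.mp hv').2
      have hne : v ≠ v' := fun h => hvV (h ▸ hv')
      rw [hcv0 v' hv'S v hvS hne, mul_zero]

end descent

section maps

variable {N : Type*} [Field N] [NumberField N] {N' : Type*} [Field N'] [NumberField N']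
  [Algebra N N']

theorem uMap_mem_SU {S : Set (Pl N)} {x : Nˣ} (hx : x ∈ SU S) : uMap N N' x ∈ SU (upSet N' S) := by
  intro w hw
  exact (valuation_algebraMap_eq_one_iff (above_below w) _).mpr
    (hx (below N w) (fun h => hw (mem_upSet_iff.mpr h)))

theorem mem_SU_of_uMap_mem {S : Set (Pl N)} {x : Nˣ} (hx : uMap N N' x ∈ SU (upSet N' S)) :
    x ∈ SU S := by
  intro v hv
  obtain ⟨w, hw⟩ := exists_above N' v
  exact (valuation_algebraMap_eq_one_iff hw _).mp
    (hx w (fun h => hv ((mem_upSet_iff_of_above hw).mp h)))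

theorem smul_notMem_upSet {S : Set (Pl N)} {w : Pl N'} (hw : w ∉ upSet N' S) (σ : N' ≃ₐ[N] N') :
    σ • w ∉ upSet N' S := by
  rw [mem_upSet_iff, below_smul, ← mem_upSet_iff]
  exact hw

omit [NumberField N] in
theorem valuation_algEquiv_apply (σ : N' ≃ₐ[N] N') (w : Pl N') (x : N') :
    w.valuation N' (σ x) = (σ⁻¹ • w).valuation N' x :=
  valuation_smul' σ w x

theorem map_algEquiv_mem_SU {S : Set (Pl N)} (σ : N' ≃ₐ[N] N') {x : N'ˣ}
    (hx : x ∈ SU (upSet N' S)) : Units.map (σ : N' →* N') x ∈ SU (upSet N' S) := by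
  intro w hw
  change w.valuation N' (σ (x : N')) = 1
  rw [valuation_algEquiv_apply]
  exact hx _ (smul_notMem_upSet hw _)

theorem map_norm_mem_SU [IsGalois N N'] {S : Set (Pl N)} {x : N'ˣ} (hx : x ∈ SU (upSet N' S)) :
    Units.map (Algebra.norm N : N' →* N) x ∈ SU S := by
  apply mem_SU_of_uMap_mem (N' := N')
  intro w hw
  change w.valuation N' (algebraMap N N' (Algebra.norm N (x : N'))) = 1
  rw [Algebra.norm_eq_prod_automorphisms, map_prod]
  refine Finset.prod_eq_one fun σ _ => ?_
  rw [valuation_algEquiv_apply]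
  exact hx _ (smul_notMem_upSet hw _)

/-- `U_S → U'_S`. -/
noncomputable def iotaSU (N' : Type*) [Field N'] [NumberField N'] [Algebra N N'] (S : Set (Pl N)) :
    SU S →* SU (upSet N' S) :=
  ((uMap N N').comp (SU S).subtype).codRestrict _ fun x => uMap_mem_SU x.2

/-- The action of `σ` on `U'_S`. -/
noncomputable def actSU (S : Set (Pl N)) (σ : N' ≃ₐ[N] N') :
    SU (upSet N' S) →* SU (upSet N' S) :=
  ((Units.map (σ : N' →* N')).comp (SU (upSet N' S)).subtype).codRestrict _
    fun x => map_algEquiv_mem_SU σ x.2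

/-- The norm `U'_S → U_S`. -/
noncomputable def normSUHom (N' : Type*) [Field N'] [NumberField N'] [Algebra N N'] [IsGalois N N']
    (S : Set (Pl N)) : SU (upSet N' S) →* SU S :=
  ((Units.map (Algebra.norm N : N' →* N)).comp (SU (upSet N' S)).subtype).codRestrict _
    fun x => map_norm_mem_SU x.2

theorem actSU_iterate (S : Set (Pl N)) (σ : N' ≃ₐ[N] N') (i : ℕ) (x : SU (upSet N' S)) :
    ((((actSU S σ)^[i] x : SU (upSet N' S)) : N'ˣ) : N') = (σ ^ i) ((x : N'ˣ) : N') := by
  induction i with
  | zero => simp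
  | succ n ih =>
    rw [Function.iterate_succ_apply', pow_succ', AlgEquiv.mul_apply, ← ih]
    rfl

/-- product over a cyclic group of prime order -/
theorem prod_univ_eq_prod_range {G : Type*} [Group G] [Fintype G] {p : ℕ}
    (hcard : Nat.card G = p) {τ : G} (hτ : ∀ σ : G, σ ∈ Subgroup.zpowers τ)
    {M : Type*} [CommMonoid M] (f : G → M) : ∏ σ : G, f σ = ∏ i ∈ Finset.range p, f (τ ^ i) := by
  classical
  have hord : orderOf τ = p := by rw [orderOf_eq_card_of_forall_mem_zpowers hτ, hcard]
  symm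
  refine Finset.prod_nbij (fun i => τ ^ i) (fun _ _ => Finset.mem_univ _) ?_ ?_ (fun _ _ => rfl)
  · intro i hi j hj hij
    have hi' : i < orderOf τ := by rw [hord]; exact Finset.mem_range.mp hi
    have hj' : j < orderOf τ := by rw [hord]; exact Finset.mem_range.mp hj
    exact pow_injOn_Iio_orderOf hi' hj' hij
  · intro σ _
    have h1 := hτ σ
    rw [← mem_powers_iff_mem_zpowers, mem_powers_iff_mem_range_orderOf] at h1
    obtain ⟨i, hi, hi'⟩ := Finset.mem_image.mp h1
    rw [hord] at hi
    exact ⟨i, hi, hi'⟩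

/-- Hilbert 90 for cyclic extensions, universe polymorphic. -/
theorem hilbert90_cyclic {K L : Type*} [Field K] [Field L] [Algebra K L] [FiniteDimensional K L]
    [IsGalois K L] {τ : L ≃ₐ[K] L} (hτ : ∀ σ, σ ∈ Subgroup.zpowers τ) {x : L}
    (hx : Algebra.norm K x = 1) : ∃ y : Lˣ, (y : L) / τ y = x := by
  classical
  set n := Nat.card (L ≃ₐ[K] L) with hn
  have hord : orderOf τ = n := orderOf_eq_card_of_forall_mem_zpowers hτ
  have hn0 : 0 < n := Nat.card_pos
  have hτn : τ ^ n = 1 := hord ▸ pow_orderOf_eq_one τ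
  let c : ℕ → L := fun k => ∏ i ∈ Finset.range k, (τ ^ i) x
  have hc0 : c 0 = 1 := by simp [c]
  have hcn : c n = 1 := by
    have h1 := Algebra.norm_eq_prod_automorphisms K x
    rw [hx, map_one, prod_univ_eq_prod_range hn.symm hτ] at h1
    exact h1.symm
  have hcs : ∀ k, c (k + 1) = x * τ (c k) := by
    intro k
    simp only [c]
    rw [Finset.prod_range_succ', map_prod, mul_comm, pow_zero, AlgEquiv.one_apply]
    congr 1
    refine Finset.prod_congr rfl fun i _ => ?_
    rw [pow_succ', AlgEquiv.mul_apply]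
  let Y : L → L := fun z => ∑ k ∈ Finset.range n, c k * (τ ^ k) z
  have hY : ∀ z, x * τ (Y z) = Y z := by
    intro z
    simp only [Y]
    rw [map_sum, Finset.mul_sum]
    have h1 : ∀ k ∈ Finset.range n, x * τ (c k * (τ ^ k) z) = c (k + 1) * (τ ^ (k + 1)) z := by
      intro k _
      rw [map_mul, ← mul_assoc, ← hcs, pow_succ', AlgEquiv.mul_apply]
    rw [Finset.sum_congr rfl h1]
    have h2 := Finset.sum_range_succ (fun k => c k * (τ ^ k) z) n
    have h3 := Finset.sum_range_succ' (fun k => c k * (τ ^ k) z) n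
    rw [h2] at h3
    simp only [hcn, hτn, hc0, pow_zero] at h3
    exact (add_right_cancel h3).symm
  obtain ⟨z, hz⟩ : ∃ z, Y z ≠ 0 := by
    by_contra hcon
    push Not at hcon
    have hli : LinearIndependent L (fun k : Fin n => (((τ ^ (k : ℕ) : L ≃ₐ[K] L) : L →* L) : L → L)) := by
      refine LinearIndependent.comp (linearIndependent_monoidHom L L)
        (fun k : Fin n => ((τ ^ (k : ℕ) : L ≃ₐ[K] L) : L →* L)) ?_
      intro i j hij
      have h1 : τ ^ (i : ℕ) = τ ^ (j : ℕ) := by
        ext y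
        exact DFunLike.congr_fun hij y
      apply Fin.ext
      exact pow_injOn_Iio_orderOf (by rw [hord]; exact i.2) (by rw [hord]; exact j.2) h1
    rw [Fintype.linearIndependent_iff] at hli
    have h2 := hli (fun k => c k) (by
      funext z
      have := hcon z
      simp only [Y] at this
      rw [← Fin.sum_univ_eq_sum_range (fun k => c k * (τ ^ k) z) n] at this
      simpa [Finset.sum_apply] using this) ⟨0, hn0⟩
    simp only [hc0] at h2
    exact one_ne_zero h2
  refine ⟨Units.mk0 (Y z) hz, ?_⟩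
  have hτY : τ (Y z) ≠ 0 := (map_ne_zero τ).mpr hz
  rw [Units.val_mk0, div_eq_iff hτY, hY]

end maps

section main

theorem two_mul_rank_add_one {N : Type*} [Field N] [NumberField N] {p : ℕ} (hp : 2 < p) {ζ : N}
    (hζ : IsPrimitiveRoot ζ p) : 2 * (Units.rank N + 1) = Module.finrank ℚ N := by
  have h1 := InfinitePlace.card_add_two_mul_card_eq_rank N
  have h2 := InfinitePlace.card_eq_nrRealPlaces_add_nrComplexPlaces N
  have h3 := InfinitePlace.IsPrimitiveRoot.nrRealPlaces_eq_zero_of_two_lt hp hζ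
  have h4 : 0 < Fintype.card (InfinitePlace N) := Fintype.card_pos
  unfold Units.rank
  omega

theorem powIndex_SU {N : Type*} [Field N] [NumberField N] {p : ℕ} [NeZero p] {ζ : N}
    (hζ : IsPrimitiveRoot ζ p) (T : Finset (Pl N)) (S : Set (Pl N)) (hT : (T : Set (Pl N)) = S) :
    (powMonoidHom p : SU S →* SU S).range.index = p ^ (Units.rank N + T.card + 1) := by
  have h1 := powIndex_sUnits_of_isPrimitiveRoot N T p hζ
  have h2 : sUnits N T = SU S := by
    ext x
    rw [← hT]
    rfl
  rw [← h1]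
  exact (powIndex_congr (MulEquiv.subgroupCongr h2) p).symm

variable {N : Type*} [Field N] [NumberField N] {N' : Type*} [Field N'] [NumberField N']
  [Algebra N N']

theorem firstInequality_core (p : ℕ) [hp : Fact p.Prime] (hp2 : p ≠ 2) [IsGalois N N']
    (hdeg : Module.finrank N N' = p) (ζ : N) (hζ : IsPrimitiveRoot ζ p)
    (S : Set (Pl N)) (hS : S.Finite) (hgen : GenCl S)
    (hram : ∀ w : Pl N', w ∉ upSet N' S → Unram N w)
    (θ : N') (α : Nˣ) (hα : α ∈ SU S) (hθ : θ ^ p = algebraMap N N' α)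
    (hθN : ∀ c : N, algebraMap N N' c ≠ θ) :
    ((SU (upSet N' S)).map (Units.map (Algebra.norm N : N' →* N))).relIndex (SU S) ≠ 0 ∧
      ((SU (upSet N' S)).map (Units.map (Algebra.norm N : N' →* N))).relIndex (SU S) * p ≤
        p ^ ({v ∈ S | ¬ Split N' v}.ncard) := by
  classical
  have hp0 : p ≠ 0 := hp.out.ne_zero
  have hp3 : 2 < p := lt_of_le_of_ne hp.out.two_le (Ne.symm hp2)
  have hcard : Nat.card (N' ≃ₐ[N] N') = p := by rw [IsGalois.card_aut_eq_finrank, hdeg]
  have hcyc : IsCyclic (N' ≃ₐ[N] N') := isCyclic_of_prime_card hcard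
  obtain ⟨τ, hτ⟩ := IsCyclic.exists_generator (α := N' ≃ₐ[N] N')
  have hord : orderOf τ = p := by rw [orderOf_eq_card_of_forall_mem_zpowers hτ, hcard]
  have hτp : τ ^ p = 1 := hord ▸ pow_orderOf_eq_one τ
  have hpow : ∀ σ : N' ≃ₐ[N] N', ∃ k : ℕ, τ ^ k = σ := by
    intro σ
    have h1 := hτ σ
    rw [← mem_powers_iff_mem_zpowers] at h1
    exact h1
  set Sf := hS.toFinset with hSf
  have hSfc : (Sf : Set (Pl N)) = S := hS.coe_toFinset
  have hζ' : IsPrimitiveRoot (algebraMap N N' ζ) p :=
    hζ.map_of_injective (algebraMap N N').injective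
  have hB := powIndex_SU hζ Sf S hSfc
  have hA := powIndex_SU hζ' (upFinset N' Sf) (upSet N' S) (by rw [coe_upFinset, hSfc])
  -- the unit `θ`
  have hθ0 : θ ≠ 0 := by
    intro h
    rw [h, zero_pow hp0] at hθ
    exact (map_ne_zero (algebraMap N N')).mpr α.ne_zero hθ.symm
  let θu : N'ˣ := Units.mk0 θ hθ0
  have hθu : θu ^ p = uMap N N' α := by
    ext
    simpa [θu] using hθ
  have hθmem : θu ∈ SU (upSet N' S) := by
    intro w hw
    have h1 : w.valuation N' ((θu ^ p : N'ˣ) : N') = 1 := by
      rw [hθu]; exact uMap_mem_SU hα w hw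
    rw [Units.val_pow_eq_pow_val, map_pow, pow_eq_one_iff_left hp0] at h1
    exact h1
  -- apply the algebraic lemma
  have key : ∃ k, (normSUHom N' S).range.index = p ^ k ∧
      (p - 1) * k + (Units.rank N' + (upFinset N' Sf).card + 1) + 1 ≤
        p * (Units.rank N + Sf.card + 1) := by
    refine FIalg.mul_version (p := p) (iotaSU N' S) ?_ (actSU S τ) ?_ ?_
      (normSUHom N' S) ?_ ?_ hA hB ⟨θu, hθmem⟩ ⟨α, hα⟩ ?_ ?_
    · -- injectivity of `ι`
      intro x y hxy
      have h1 := congrArg (fun z : SU (upSet N' S) => ((z : N'ˣ) : N')) hxy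
      apply Subtype.ext
      apply Units.ext
      exact (algebraMap N N').injective h1
    · -- `τ^p = 1`
      intro x
      apply Subtype.ext
      apply Units.ext
      rw [actSU_iterate, hτp]
      rfl
    · -- fixed points
      intro x
      constructor
      · intro hx
        have hx' : τ ((x : N'ˣ) : N') = ((x : N'ˣ) : N') :=
          congrArg (fun z : SU (upSet N' S) => ((z : N'ˣ) : N')) hx
        have hfix : ∀ σ : N' ≃ₐ[N] N', σ ((x : N'ˣ) : N') = ((x : N'ˣ) : N') := by
          intro σ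
          obtain ⟨k, rfl⟩ := hpow σ
          induction k with
          | zero => simp
          | succ n ih => rw [pow_succ, AlgEquiv.mul_apply, hx', ih]
        obtain ⟨y, hy⟩ := (IsGalois.mem_range_algebraMap_iff_fixed _).mpr hfix
        have hy0 : y ≠ 0 := by
          intro h
          rw [h, map_zero] at hy
          exact x.1.ne_zero hy.symm
        have hyx : uMap N N' (Units.mk0 y hy0) = x.1 := by
          ext
          exact hy
        have hymem : Units.mk0 y hy0 ∈ SU S := by
          apply mem_SU_of_uMap_mem (N' := N')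
          rw [hyx]
          exact x.2
        exact ⟨⟨_, hymem⟩, Subtype.ext hyx⟩
      · rintro ⟨y, rfl⟩
        apply Subtype.ext
        apply Units.ext
        exact τ.commutes _
    · -- the norm
      intro x
      apply Subtype.ext
      apply Units.ext
      change algebraMap N N' (Algebra.norm N ((x : N'ˣ) : N')) = _
      rw [Algebra.norm_eq_prod_automorphisms, prod_univ_eq_prod_range hcard hτ]
      push_cast
      exact Finset.prod_congr rfl fun i _ => (actSU_iterate S τ i x).symm
    · -- Hilbert 90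
      intro x hx
      have hx' : Algebra.norm N ((x : N'ˣ) : N') = 1 :=
        congrArg (fun z : SU S => ((z : Nˣ) : N)) hx
      obtain ⟨y, hy⟩ := hilbert90_cyclic hτ hx'
      -- invariance of the divisor of `y`
      have hstep : ∀ w : Pl N', w ∉ upSet N' S →
          w.valuation N' (τ (y : N')) = w.valuation N' (y : N') := by
        intro w hw
        have h1 : w.valuation N' ((x : N'ˣ) : N') = 1 := x.2 w hw
        rw [← hy, map_div₀, div_eq_one_iff_eq] at h1
        · exact h1.symm
        · exact (Valuation.ne_zero_iff _).mpr ((map_ne_zero τ).mpr y.ne_zero)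
      have hinv : ∀ w : Pl N', w ∉ upSet N' S → ∀ σ : N' ≃ₐ[N] N',
          w.valuation N' (σ (y : N')) = w.valuation N' (y : N') := by
        intro w hw σ
        obtain ⟨k, rfl⟩ := hpow σ
        induction k generalizing w with
        | zero => simp
        | succ n ih =>
          rw [pow_succ', AlgEquiv.mul_apply, valuation_algEquiv_apply,
            ih _ (smul_notMem_upSet hw _), ← valuation_algEquiv_apply, hstep w hw]
      obtain ⟨c, hc⟩ := exists_div_mem_SU hgen hram y hinv
      refine ⟨⟨(y / uMap N N' c)⁻¹, inv_mem hc⟩, ?_⟩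
      apply Subtype.ext
      apply Units.ext
      rw [Subgroup.coe_div, Units.val_div_eq_div_val]
      change ((x : N'ˣ) : N') = τ (((y / uMap N N' c)⁻¹ : N'ˣ) : N') /
        (((y / uMap N N' c)⁻¹ : N'ˣ) : N')
      have hy0 : (y : N') ≠ 0 := y.ne_zero
      have hτy0 : τ (y : N') ≠ 0 := (map_ne_zero τ).mpr hy0
      have hc0 : algebraMap N N' (c : N) ≠ 0 := (map_ne_zero _).mpr c.ne_zero
      rw [← hy]
      simp only [Units.val_inv_eq_inv_val, Units.val_div_eq_div_val, Units.coe_map,
        MonoidHom.coe_coe, map_inv₀, map_div₀, AlgEquiv.commutes]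
      field_simp
    · -- `θ^p = α`
      exact Subtype.ext hθu
    · -- `α` is not a `p`-th power
      rintro ⟨β, hβ⟩
      have hβ' : ((β : Nˣ) : N) ^ p = (α : N) := by
        have := congrArg (fun z : SU S => ((z : Nˣ) : N)) hβ
        simpa using this
      have hβ0 : algebraMap N N' ((β : Nˣ) : N) ≠ 0 := (map_ne_zero _).mpr β.1.ne_zero
      have h1 : (θ / algebraMap N N' ((β : Nˣ) : N)) ^ p = 1 := by
        rw [div_pow, hθ, ← hβ', map_pow, div_self (pow_ne_zero _ hβ0)]
      obtain ⟨i, -, hi⟩ := hζ'.eq_pow_of_pow_eq_one h1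
      apply hθN (ζ ^ i * ((β : Nˣ) : N))
      rw [map_mul, map_pow, hi, div_mul_cancel₀ _ hβ0]
  obtain ⟨k, hk, hk'⟩ := key
  have hrel : ((SU (upSet N' S)).map (Units.map (Algebra.norm N : N' →* N))).relIndex (SU S) =
      (normSUHom N' S).range.index := by
    rw [Subgroup.relIndex]
    congr 1
    ext x
    rw [Subgroup.mem_subgroupOf]
    constructor
    · rintro ⟨a, ha, hax⟩
      exact ⟨⟨a, ha⟩, Subtype.ext hax⟩
    · rintro ⟨a, rfl⟩
      exact ⟨a.1, a.2, rfl⟩
  rw [hrel, hk]
  refine ⟨pow_ne_zero _ hp0, ?_⟩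
  rw [← pow_succ]
  refine Nat.pow_le_pow_right hp.out.pos ?_
  -- numerology
  have hn : {v ∈ S | ¬ Split N' v}.ncard = (Sf.filter fun v => ¬ Split N' v).card := by
    rw [← Set.ncard_coe_finset]
    congr 1
    ext v
    simp [hSf]
  rw [hn]
  have h1 := card_upFinset (N' := N') hdeg Sf
  have h2 := two_mul_rank_add_one hp3 hζ
  have h3 := two_mul_rank_add_one hp3 hζ'
  have h4 : Module.finrank ℚ N * Module.finrank N N' = Module.finrank ℚ N' :=
    Module.finrank_mul_finrank ℚ N N'
  rw [hdeg, ← h2, ← h3] at h4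
  set n := (Sf.filter fun v => ¬ Split N' v).card
  set r := Units.rank N
  set r' := Units.rank N'
  set s' := (upFinset N' Sf).card
  set s := Sf.card
  have h5 : r' + 1 = (r + 1) * p := by nlinarith
  have h6 : (p - 1) * k + 1 ≤ (p - 1) * n := by
    have e1 : p * (r + s + 1) = (r + 1) * p + p * s := by ring
    rw [e1, ← h1, ← h5] at hk'
    omega
  by_contra hcon
  have h7 : n ≤ k := by omega
  have h8 : (p - 1) * n ≤ (p - 1) * k := Nat.mul_le_mul_left _ h7
  omega

end main

end Fermat.Agent.CFT.FICore
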