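import Fermat.Agent.CFT.Basic
import Fermat.Agent.CFT.FICore

set_option autoImplicit false

namespace Fermat.Agent.CFT

open IsDedekindDomain NumberField

variable {N : Type*} [Field N] [NumberField N] {N' : Type*} [Field N'] [NumberField N']
  [Algebra N N']

/-- The subgroup of `Nˣ` of norms of `S'`-units of `N'` (`S'` = places above `S`). -/
noncomputable def normSU (N' : Type*) [Field N'] [NumberField N'] [Algebra N N'] (S : Set (Pl N)) :
    Subgroup Nˣ :=
  (SU (upSet N' S)).map (Units.map (Algebra.norm N : N' →* N))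

/-- **First inequality, S-unit form.** `N'/N` cyclic of prime degree `p`, `ζ_p ∈ N`, `p` odd,
`N' = N(θ)`, `θ^p = α ∈ U_S`, `S` finite, generating the class group, containing all ramified
places.  Then `[U_S : N U'_S] * p ≤ p^n`, `n` = number of non split places in `S`. -/
theorem firstInequality (p : ℕ) [Fact p.Prime] (hp2 : p ≠ 2) [IsGalois N N']
    (hdeg : Module.finrank N N' = p) (ζ : N) (hζ : IsPrimitiveRoot ζ p)
    (S : Set (Pl N)) (hS : S.Finite) (hgen : GenCl S)
    (hram : ∀ w : Pl N', w ∉ upSet N' S → Unram N w)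
    (θ : N') (α : Nˣ) (hα : α ∈ SU S) (hθ : θ ^ p = algebraMap N N' α)
    (hθN : ∀ c : N, algebraMap N N' c ≠ θ) :
    (normSU N' S).relIndex (SU S) ≠ 0 ∧
      (normSU N' S).relIndex (SU S) * p ≤ p ^ ({v ∈ S | ¬ Split N' v}.ncard) :=
  FICore.firstInequality_core p hp2 hdeg ζ hζ S hS hgen hram θ α hα hθ hθN

end Fermat.Agent.CFT
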