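import Fermat.Agent.CFT.Basic
import Fermat.Agent.CFT.OrdGal

set_option autoImplicit false

namespace Fermat.Agent.CFT

open IsDedekindDomain NumberField

namespace GenCl

section abstract

variable {R : Type*} [CommRing R] [IsDedekindDomain R]

/-- If `v * I = (c)` with `v ∤ I`, then `c ∈ v`, `c ∉ v ^ 2`. -/
theorem mem_and_not_mem_sq (v : HeightOneSpectrum R) (I : Ideal R) (c : R)
    (hc : v.asIdeal * I = Ideal.span {c}) (hvI : ¬ v.asIdeal ∣ I) :
    c ∈ v.asIdeal ∧ c ∉ v.asIdeal ^ 2 := by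
  constructor
  · have : c ∈ v.asIdeal * I := by
      rw [hc]
      exact Ideal.mem_span_singleton_self c
    exact Ideal.mul_le_left this
  · intro hmem
    apply hvI
    have hle : Ideal.span {c} ≤ v.asIdeal ^ 2 := by
      rw [Ideal.span_singleton_le_iff_mem]
      exact hmem
    rw [← hc, ← Ideal.dvd_iff_le, pow_two] at hle
    exact (mul_dvd_mul_iff_left v.ne_bot).1 hle

/-- If `v * I = (c)`, `v' ≠ v` and `v' ∤ I`, then `c ∉ v'`. -/
theorem not_mem_of_ne (v v' : HeightOneSpectrum R) (I : Ideal R) (c : R)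
    (hc : v.asIdeal * I = Ideal.span {c}) (hne : v' ≠ v) (hvI : ¬ v'.asIdeal ∣ I) :
    c ∉ v'.asIdeal := by
  intro hmem
  have hle : Ideal.span {c} ≤ v'.asIdeal := by
    rw [Ideal.span_singleton_le_iff_mem]
    exact hmem
  rw [← hc] at hle
  rcases (v'.isPrime.mul_le).1 hle with h | h
  · apply hne
    have hmax : v.asIdeal.IsMaximal := v.isMaximal
    have := hmax.eq_of_le v'.isPrime.ne_top h
    exact (HeightOneSpectrum.ext this).symm
  · exact hvI (Ideal.dvd_iff_le.2 h)

/-- Abstract version of `exists_GenCl` for a Dedekind domain with finite class group. -/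
theorem exists_finite_set [Finite (ClassGroup R)] :
    ∃ T : Set (HeightOneSpectrum R), T.Finite ∧ ∀ v : HeightOneSpectrum R, v ∉ T →
      ∃ c : R, c ≠ 0 ∧ c ∈ v.asIdeal ∧ c ∉ v.asIdeal ^ 2 ∧
        ∀ v' : HeightOneSpectrum R, v' ∉ T → v' ≠ v → c ∉ v'.asIdeal := by
  classical
  choose I hI using (ClassGroup.mk0_surjective (R := R))
  refine ⟨⋃ g : ClassGroup R, {v : HeightOneSpectrum R | v.asIdeal ∣ (I g : Ideal R)},
    Set.finite_iUnion fun g => ?_, ?_⟩
  · exact Ideal.finite_factors (nonZeroDivisors.coe_ne_zero (I g))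
  · intro v hv
    have hv0 : v.asIdeal ∈ nonZeroDivisors (Ideal R) :=
      mem_nonZeroDivisors_of_ne_zero v.ne_bot
    let J : nonZeroDivisors (Ideal R) := ⟨v.asIdeal, hv0⟩
    set g : ClassGroup R := (ClassGroup.mk0 J)⁻¹ with hg
    have hmem : v.asIdeal * (I g : Ideal R) ∈ nonZeroDivisors (Ideal R) := mul_mem hv0 (I g).2
    have hJ : (⟨v.asIdeal * (I g : Ideal R), hmem⟩ : nonZeroDivisors (Ideal R)) = J * I g := rfl
    have hprod : ClassGroup.mk0 (⟨v.asIdeal * (I g : Ideal R), hmem⟩ :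
        nonZeroDivisors (Ideal R)) = 1 := by
      rw [hJ, map_mul, hI g, hg, mul_inv_cancel]
    have hprinc : (v.asIdeal * (I g : Ideal R)).IsPrincipal :=
      (ClassGroup.mk0_eq_one_iff hmem).1 hprod
    obtain ⟨c, hc⟩ := hprinc
    have hc' : v.asIdeal * (I g : Ideal R) = Ideal.span {c} := hc
    have hc0 : c ≠ 0 := by
      rintro rfl
      have h0 : v.asIdeal * (I g : Ideal R) = ⊥ := by
        rw [hc']; simp
      rcases mul_eq_zero.1 h0 with h | h
      · exact v.ne_bot h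
      · exact nonZeroDivisors.coe_ne_zero (I g) h
    have hnot : ∀ w : HeightOneSpectrum R,
        w ∉ ⋃ g : ClassGroup R, {v : HeightOneSpectrum R | v.asIdeal ∣ (I g : Ideal R)} →
        ¬ w.asIdeal ∣ (I g : Ideal R) := by
      intro w hw hdvd
      exact hw (Set.mem_iUnion.2 ⟨g, hdvd⟩)
    obtain ⟨h1, h2⟩ := mem_and_not_mem_sq v _ c hc' (hnot v hv)
    exact ⟨c, hc0, h1, h2, fun v' hv' hne => not_mem_of_ne v v' _ c hc' hne (hnot v' hv')⟩

end abstract

end GenCl

variable {N : Type*} [Field N] [NumberField N]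

/-- Finiteness of the class group: any finite set of places can be enlarged to a finite set
generating the class group. -/
theorem exists_GenCl (S₀ : Set (Pl N)) (hS₀ : S₀.Finite) :
    ∃ S : Set (Pl N), S₀ ⊆ S ∧ S.Finite ∧ GenCl S := by
  obtain ⟨T, hT, h⟩ := GenCl.exists_finite_set (R := 𝓞 N)
  refine ⟨S₀ ∪ T, Set.subset_union_left, hS₀.union hT, ?_⟩
  intro v hv
  obtain ⟨c, hc0, h1, h2, h3⟩ := h v (fun h' => hv (Or.inr h'))
  have hcN : (c : N) ≠ 0 := by simpa using hc0
  refine ⟨Units.mk0 (c : N) hcN, ?_, ?_⟩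
  · have e1 : ((1 : ℕ) : ℤ) ≤ ord v (c : N) := by
      rw [le_ord_iff_mem_pow v hc0 1, pow_one]
      exact h1
    have e2 : ¬ ((2 : ℕ) : ℤ) ≤ ord v (c : N) := by
      rw [le_ord_iff_mem_pow v hc0 2]
      exact h2
    push_cast at e1 e2
    show ord v (c : N) = 1
    omega
  · intro v' hv' hne
    exact ord_eq_zero_of_not_mem v' (h3 v' (fun h' => hv' (Or.inr h')) hne)

theorem GenCl.mono {S S' : Set (Pl N)} (h : GenCl S) (hSS' : S ⊆ S') : GenCl S' := by
  intro v hv
  obtain ⟨c, hc, hc'⟩ := h v (fun h' => hv (hSS' h'))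
  exact ⟨c, hc, fun v' hv' hne => hc' v' (fun h' => hv' (hSS' h')) hne⟩

end Fermat.Agent.CFT
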