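import Fermat.Agent.CFT.Basic
import Fermat.Agent.CFT.OrdGal
import Fermat.Agent.CFT.EX
import Fermat.Agent.CFT.SUnitIface
import Fermat.Agent.CFT.LocalPower

set_option autoImplicit false

namespace Fermat.Agent.CFT.TSelect

/-- In a quotient of prime order, any nontrivial element generates. -/
theorem exists_zpow_div_mem {G : Type*} [CommGroup G] (L U : Subgroup G) {p : ℕ} [Fact p.Prime]
    (h : L.relIndex U = p) {y d : G} (hy : y ∈ U) (hyL : y ∉ L) (hd : d ∈ U) :
    ∃ n : ℤ, y ^ n / d ∈ L := by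
  have hcard : Nat.card (U ⧸ L.subgroupOf U) = p := h
  have hne : (QuotientGroup.mk (⟨y, hy⟩ : U) : U ⧸ L.subgroupOf U) ≠ 1 := by
    intro h1
    rw [QuotientGroup.eq_one_iff] at h1
    exact hyL h1
  obtain ⟨n, hn⟩ := mem_zpowers_of_prime_card hcard hne
    (g' := (QuotientGroup.mk (⟨d, hd⟩ : U) : U ⧸ L.subgroupOf U))
  refine ⟨n, ?_⟩
  have h2 : (QuotientGroup.mk ((⟨y, hy⟩ : U) ^ n) : U ⧸ L.subgroupOf U) =
      QuotientGroup.mk (⟨d, hd⟩ : U) := hn
  rw [QuotientGroup.eq] at h2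
  have h3 : ((⟨y, hy⟩ : U) ^ n)⁻¹ * (⟨d, hd⟩ : U) ∈ L.subgroupOf U := h2
  rw [Subgroup.mem_subgroupOf] at h3
  have h4 := L.inv_mem h3
  have h5 : (((((⟨y, hy⟩ : U) ^ n)⁻¹ * (⟨d, hd⟩ : U) : U) : G))⁻¹ = y ^ n / d := by
    simp [div_eq_mul_inv, mul_comm]
  rwa [h5] at h4

/-- `[B·⟨α⟩ : B] ≤ p` in the form we need. -/
theorem relIndex_le_of_cover {G : Type*} [CommGroup G] (B A : Subgroup G) (α : G) (p : ℕ)
    (hαA : α ∈ A)
    (hcov : ∀ a ∈ A, ∃ j : ℕ, j < p ∧ (α ^ j)⁻¹ * a ∈ B) : B.relIndex A ≤ p := by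
  have hsurj : Function.Surjective (fun j : Fin p =>
      (QuotientGroup.mk (⟨α ^ (j : ℕ), A.pow_mem hαA _⟩ : A) : A ⧸ B.subgroupOf A)) := by
    intro x
    obtain ⟨⟨a, ha⟩, rfl⟩ := QuotientGroup.mk_surjective x
    obtain ⟨j, hj, hja⟩ := hcov a ha
    refine ⟨⟨j, hj⟩, ?_⟩
    rw [QuotientGroup.eq, Subgroup.mem_subgroupOf]
    exact hja
  have h1 := Nat.card_le_card_of_surjective _ hsurj
  have h2 : Nat.card (A ⧸ B.subgroupOf A) ≤ p := by simpa using h1
  exact h2

/-- Kummer theory: if `y ∈ M` becomes a `p`-th power in `M' = M(θ)`, `θ ^ p = α`, then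
`y = α ^ m * c ^ p`. -/
theorem exists_eq_pow_mul_pow {M M' : Type*} [Field M] [Field M'] [Algebra M M'] (p : ℕ)
    [Fact p.Prime] [FiniteDimensional M M'] [IsGalois M M'] (hdeg : Module.finrank M M' = p)
    (θ : M') (α : M) (hα0 : α ≠ 0) (hθ : θ ^ p = algebraMap M M' α)
    (hθM : ∀ c : M, algebraMap M M' c ≠ θ) (y : M) (z : M') (hz : z ^ p = algebraMap M M' y) :
    ∃ (m : ℕ) (c : M), y = α ^ m * c ^ p := by
  have hp : p.Prime := Fact.out
  have hθ0 : θ ≠ 0 := by
    intro h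
    rw [h, zero_pow hp.ne_zero] at hθ
    exact hα0 ((map_eq_zero _).1 hθ.symm)
  by_cases hz0 : z = 0
  · refine ⟨0, 0, ?_⟩
    rw [hz0, zero_pow hp.ne_zero] at hz
    rw [(map_eq_zero _).1 hz.symm, zero_pow hp.ne_zero]
    simp
  -- an automorphism moving `θ`
  obtain ⟨τ, hτ⟩ : ∃ τ : M' ≃ₐ[M] M', τ θ ≠ θ := by
    by_contra hcon
    push Not at hcon
    obtain ⟨c, hc⟩ := (IsGalois.mem_range_algebraMap_iff_fixed θ).2 hcon
    exact hθM c hc
  have hτ1 : τ ≠ 1 := by
    rintro rfl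
    exact hτ rfl
  set ξ : M' := τ θ / θ with hξ
  have hξp : ξ ^ p = 1 := by
    rw [hξ, div_pow, ← map_pow, hθ, AlgEquiv.commutes, div_self]
    rw [← hθ]
    exact pow_ne_zero _ hθ0
  have hξ1 : ξ ≠ 1 := by
    intro h
    rw [hξ, div_eq_one_iff_eq hθ0] at h
    exact hτ h
  have hprim : IsPrimitiveRoot ξ p := by
    have := IsPrimitiveRoot.orderOf ξ
    rwa [orderOf_eq_prime hξp hξ1] at this
  have hzp : (τ z / z) ^ p = 1 := by
    rw [div_pow, ← map_pow, hz, AlgEquiv.commutes, div_self]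
    rw [← hz]
    exact pow_ne_zero _ hz0
  obtain ⟨m, -, hm⟩ := hprim.eq_pow_of_pow_eq_one hzp
  have hfix : τ (z / θ ^ m) = z / θ ^ m := by
    have h1 : τ z = ξ ^ m * z := by
      rw [hm]; field_simp
    have h2 : τ θ = ξ * θ := by
      rw [hξ]; field_simp
    have hξ0 : ξ ≠ 0 := hprim.ne_zero hp.ne_zero
    rw [map_div₀, map_pow, h1, h2, mul_pow]
    field_simp
  have hcard : Nat.card (M' ≃ₐ[M] M') = p := by
    rw [IsGalois.card_aut_eq_finrank, hdeg]
  have hall : ∀ σ : M' ≃ₐ[M] M', σ (z / θ ^ m) = z / θ ^ m := by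
    intro σ
    have hσ : σ ∈ Subgroup.zpowers τ := mem_zpowers_of_prime_card hcard hτ1
    have hle : Subgroup.zpowers τ ≤ MulAction.stabilizer (M' ≃ₐ[M] M') (z / θ ^ m) := by
      rw [Subgroup.zpowers_le]
      exact hfix
    exact hle hσ
  obtain ⟨c, hc⟩ := (IsGalois.mem_range_algebraMap_iff_fixed _).2 hall
  refine ⟨m, c, ?_⟩
  apply (algebraMap M M').injective
  rw [map_mul, map_pow, map_pow, hc, ← hz, ← hθ, div_pow]
  field_simp
  rw [← pow_mul, ← pow_mul, mul_comm]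


open IsDedekindDomain NumberField

theorem mem_SU_of_pow_mem {M : Type*} [Field M] [NumberField M] (S : Set (Pl M)) {p : ℕ}
    (hp : p ≠ 0) {c : Mˣ} (hc : c ^ p ∈ SU S) : c ∈ SU S := by
  intro v hv
  have h := hc v hv
  rw [Units.val_pow_eq_pow_val, map_pow] at h
  exact (pow_eq_one_iff.1 h).resolve_right hp

theorem SU_le_UD {M : Type*} [Field M] [NumberField M] (S : Set (Pl M)) {w : Pl M} (hw : w ∉ S) :
    SU S ≤ UD w := fun _ hx => hx w hw

end Fermat.Agent.CFT.TSelect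

namespace Fermat.Agent.CFT

open IsDedekindDomain NumberField

variable {M : Type*} [Field M] [NumberField M] {M' : Type*} [Field M'] [NumberField M']
  [Algebra M M']

/-- `U_S → ∏_{w ∈ T} O_w^*/(p-th powers)` is onto. -/
def SurjOn (p : ℕ) (ζ : M) (S T : Set (Pl M)) : Prop :=
  ∀ c : Pl M → Mˣ, (∀ w ∈ T, c w ∈ UD w) → ∃ u ∈ SU S, ∀ w ∈ T, u / c w ∈ LP p ζ w

/-- **Choice of the auxiliary set `T`.** -/
theorem exists_T (p : ℕ) [Fact p.Prime] (hp2 : p ≠ 2) (ζ : M) (hζ : IsPrimitiveRoot ζ p)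
    [IsGalois M M'] (hdeg : Module.finrank M M' = p) (hunr : ∀ w : Pl M', Unram M w)
    (S : Set (Pl M)) (hS : S.Finite)
    (θ : M') (α : Mˣ) (hα : α ∈ SU S) (hθ : θ ^ p = algebraMap M M' α)
    (hθM : ∀ c : M, algebraMap M M' c ≠ θ) :
    ∃ T : Set (Pl M), T.Finite ∧ Disjoint T S ∧
      T.ncard + 1 = InfinitePlace.nrComplexPlaces M + S.ncard ∧
      (∀ w ∈ T, Split M' w ∧ ¬ Over w p) ∧ SurjOn p ζ S T := by
  classical
  have hp : p.Prime := Fact.out
  have hfd : FiniteDimensional M M' := Module.finite_of_finrank_pos (by rw [hdeg]; exact hp.pos)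
  set s := InfinitePlace.nrComplexPlaces M + S.ncard with hs
  set B : Subgroup Mˣ := (SU S).map (powMonoidHom p : Mˣ →* Mˣ) with hB
  have hBidx : B.relIndex (SU S) = p ^ s := relIndex_pow_SU p hp2 ζ hζ S hS
  set A' : Subgroup Mˣ := Subgroup.zpowers α ⊔ PW p Mˣ with hA'
  set A : Subgroup Mˣ := A' ⊓ SU S with hA
  have hASU : A ≤ SU S := inf_le_right
  have hBA : B ≤ A := by
    rintro x ⟨c, hc, rfl⟩
    refine ⟨Subgroup.mem_sup_right ⟨c, rfl⟩, ?_⟩
    exact (SU S).pow_mem hc p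
  have hαA : α ∈ A := ⟨Subgroup.mem_sup_left (Subgroup.mem_zpowers α), hα⟩
  have hBAidx : B.relIndex A ≤ p := by
    refine TSelect.relIndex_le_of_cover B A α p hαA ?_
    rintro a ⟨ha', haS⟩
    obtain ⟨x, hx, z, ⟨c, rfl⟩, rfl⟩ := Subgroup.mem_sup.1 ha'
    obtain ⟨n, rfl⟩ := Subgroup.mem_zpowers_iff.1 hx
    have hcS : c ∈ SU S := by
      refine TSelect.mem_SU_of_pow_mem S hp.ne_zero ?_
      have h1 := (SU S).mul_mem ((SU S).inv_mem ((SU S).zpow_mem hα n)) haS
      simpa using h1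
    have hp0 : (p : ℤ) ≠ 0 := by exact_mod_cast hp.ne_zero
    have hpos : (0 : ℤ) < p := by exact_mod_cast hp.pos
    refine ⟨(n % p).toNat, ?_, ?_⟩
    · have h1 := Int.emod_lt_of_pos n hpos
      have h2 := Int.emod_nonneg n hp0
      omega
    · refine ⟨α ^ (n / p) * c, (SU S).mul_mem ((SU S).zpow_mem hα _) hcS, ?_⟩
      have h2 := Int.emod_nonneg n hp0
      have h3 : α ^ (n % p).toNat = α ^ (n % (p : ℤ)) := by
        rw [← zpow_natCast, Int.toNat_of_nonneg h2]
      rw [h3]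
      show (α ^ (n / p) * c) ^ p = _
      have h4 : α ^ n = α ^ (n % (p : ℤ)) * (α ^ (n / (p : ℤ))) ^ p := by
        rw [← zpow_natCast, ← zpow_mul, ← zpow_add]
        congr 1
        rw [mul_comm]
        exact (Int.emod_add_mul_ediv n p).symm
      rw [h4, mul_pow]
      show _ = _ * (_ * c ^ p)
      group
  have key : ∀ (H : Subgroup Mˣ) (k : ℕ), H ≤ SU S → H.relIndex (SU S) ≠ 0 →
      H.relIndex (SU S) ≤ p ^ k → k + 2 ≤ s → ∃ y ∈ H, y ∉ A' := by
    intro H k hH h0 hle hk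
    by_contra hcon
    push Not at hcon
    have hHA : H ≤ A := fun x hx => ⟨hcon x hx, hH hx⟩
    have h1 : A.relIndex (SU S) ≤ p ^ k := (Subgroup.relIndex_le_of_le_left hHA h0).trans hle
    have h2 := Subgroup.relIndex_mul_relIndex B A (SU S) hBA hASU
    rw [hBidx] at h2
    have h3 : p ^ s ≤ p ^ (k + 1) := by
      rw [← h2, pow_succ, mul_comm]
      exact Nat.mul_le_mul h1 hBAidx
    have h4 := (Nat.pow_le_pow_iff_right hp.one_lt).1 h3
    omega
  have ind : ∀ k, k + 1 ≤ s → ∃ (T : Finset (Pl M)) (H : Subgroup Mˣ), T.card = k ∧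
      (∀ w ∈ T, w ∉ S) ∧ (∀ w ∈ T, Split M' w ∧ ¬ Over w p) ∧ SurjOn p ζ S (↑T : Set (Pl M)) ∧
      H ≤ SU S ∧ (∀ u ∈ H, ∀ w ∈ T, u ∈ LP p ζ w) ∧ H.relIndex (SU S) ≠ 0 ∧
      H.relIndex (SU S) ≤ p ^ k := by
    intro k
    induction k with
    | zero =>
      intro _
      refine ⟨∅, SU S, rfl, by simp, by simp, ?_, le_rfl, by simp, ?_, ?_⟩
      · intro c _
        exact ⟨1, (SU S).one_mem, by simp⟩
      · rw [Subgroup.relIndex_self]; exact one_ne_zero
      · rw [Subgroup.relIndex_self]; simp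
    | succ k ih =>
      intro hk
      obtain ⟨T, H, hcard, hTS, hTsplit, hsurj, hHS, hHLP, hH0, hHle⟩ := ih (by omega)
      obtain ⟨y, hyH, hyA⟩ := key H k hHS hH0 hHle (by omega)
      have hy : ∀ z : M', z ^ p ≠ algebraMap M M' y := by
        intro z hz
        obtain ⟨m, c, hmc⟩ := TSelect.exists_eq_pow_mul_pow p hdeg θ (α : M) α.ne_zero hθ hθM
          (y : M) z hz
        have hc0 : c ≠ 0 := by
          rintro rfl
          rw [zero_pow hp.ne_zero, mul_zero] at hmc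
          exact y.ne_zero hmc
        apply hyA
        have h1 : y = α ^ m * (Units.mk0 c hc0) ^ p := by
          apply Units.ext
          simpa using hmc
        rw [h1]
        exact Subgroup.mul_mem_sup (Subgroup.npow_mem_zpowers α m) ⟨Units.mk0 c hc0, rfl⟩
      obtain ⟨w, hwS₀, hwsplit, hwp, hyUD, hyLP⟩ := exists_split_nonresidue p ζ hζ hdeg hunr y hy
        (S ∪ (↑T : Set (Pl M))) (hS.union T.finite_toSet)
      have hwS : w ∉ S := fun h => hwS₀ (Or.inl h)
      have hwT : w ∉ T := fun h => hwS₀ (Or.inr h)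
      have hidx : (LP p ζ w).relIndex (UD w) = p := LP_relIndex_UD p ζ hζ w hwp
      have hidx0 : (LP p ζ w).relIndex (SU S) ≠ 0 := by
        intro h
        have := Subgroup.relIndex_eq_zero_of_le_right (TSelect.SU_le_UD S hwS) h
        rw [hidx] at this
        exact hp.ne_zero this
      have hidxle : (LP p ζ w).relIndex (SU S) ≤ p := by
        have := Subgroup.relIndex_le_of_le_right (H := LP p ζ w) (TSelect.SU_le_UD S hwS)
          (by rw [hidx]; exact hp.ne_zero)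
        rwa [hidx] at this
      refine ⟨insert w T, H ⊓ LP p ζ w, ?_, ?_, ?_, ?_, inf_le_left.trans hHS, ?_, ?_, ?_⟩
      · rw [Finset.card_insert_of_notMem hwT, hcard]
      · intro v hv
        rcases Finset.mem_insert.1 hv with rfl | hv
        · exact hwS
        · exact hTS v hv
      · intro v hv
        rcases Finset.mem_insert.1 hv with rfl | hv
        · exact ⟨hwsplit, hwp⟩
        · exact hTsplit v hv
      · intro c hc
        obtain ⟨u0, hu0, hu0T⟩ := hsurj c (fun v hv => hc v (by simp [Finset.mem_coe.1 hv]))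
        have hd : c w / u0 ∈ UD w :=
          (UD w).div_mem (hc w (by simp)) (TSelect.SU_le_UD S hwS hu0)
        obtain ⟨n, hn⟩ := TSelect.exists_zpow_div_mem (LP p ζ w) (UD w) hidx hyUD hyLP hd
        refine ⟨u0 * y ^ n, (SU S).mul_mem hu0 ((SU S).zpow_mem (hHS hyH) n), ?_⟩
        intro v hv
        rcases Finset.mem_insert.1 (Finset.mem_coe.1 hv) with rfl | hv
        · have h1 : u0 * y ^ n / c v = y ^ n / (c v / u0) := by
            rw [div_div_eq_mul_div, mul_comm]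
          rw [h1]
          exact hn
        · have h1 : u0 * y ^ n / c v = (u0 / c v) * y ^ n := by
            rw [div_mul_eq_mul_div]
          rw [h1]
          exact (LP p ζ v).mul_mem (hu0T v hv) ((LP p ζ v).zpow_mem (hHLP y hyH v hv) n)
      · intro u hu v hv
        rcases Finset.mem_insert.1 hv with rfl | hv
        · exact hu.2
        · exact hHLP u hu.1 v hv
      · exact Subgroup.relIndex_inf_ne_zero hH0 hidx0
      · refine (Subgroup.relIndex_inf_le).trans ?_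
        rw [pow_succ]
        exact Nat.mul_le_mul hHle hidxle
  have hs1 : 1 ≤ s := by
    have h1 := finrank_eq_two_mul p hp2 ζ hζ
    have h2 : 0 < Module.finrank ℚ M := Module.finrank_pos
    omega
  obtain ⟨T, H, hcard, hTS, hTsplit, hsurj, -⟩ := ind (s - 1) (by omega)
  refine ⟨↑T, T.finite_toSet, ?_, ?_, fun w hw => hTsplit w hw, hsurj⟩
  · rw [Set.disjoint_left]
    exact fun w hw => hTS w hw
  · rw [Set.ncard_coe_finset, hcard]
    omega

end Fermat.Agent.CFT
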