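import Fermat.Agent.CFT.Basic
import Fermat.Agent.CFT.OrdGal

set_option autoImplicit false

namespace Fermat.Agent.CFT

open IsDedekindDomain NumberField

variable {N : Type*} [Field N] [NumberField N] {N' : Type*} [Field N'] [NumberField N']
  [Algebra N N']

namespace TameUnram

omit [NumberField N] in
/-- If `θ₁` is a `w`-unit with `σ θ₁ = z ^ i * θ₁` for an integer `z` and `σ` in the inertia
group of `w`, then `z ^ i ≡ 1` modulo `w`. -/
theorem pow_sub_one_mem (w : Pl N') (σ : N' ≃ₐ[N] N')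
    (hσ : ∀ x : 𝓞 N', σ • x - x ∈ w.asIdeal) (θ₁ : N') (h0 : θ₁ ≠ 0) (hord : ord w θ₁ = 0)
    (z : 𝓞 N') (hz : σ θ₁ = (z : N') * θ₁) : z - 1 ∈ w.asIdeal := by
  obtain ⟨a, b, ha, hb, hab⟩ := exists_div_not_mem_of_unit w h0 hord
  have hb0 : (b : N') ≠ 0 := by
    intro h
    apply hb
    have : b = 0 := RingOfIntegers.ext (by simpa using h)
    rw [this]
    exact zero_mem _
  have hσb : σ • b ∉ w.asIdeal := by
    intro h
    apply hb
    have h2 := w.asIdeal.sub_mem h (hσ b)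
    simpa using h2
  have hσb0 : σ (b : N') ≠ 0 := by
    intro h
    exact hb0 ((map_eq_zero σ).1 h)
  -- the key identity in `N'`
  have key : σ (a : N') * (b : N') = (z : N') * (a : N') * σ (b : N') := by
    rw [hab, map_div₀] at hz
    field_simp at hz
    linear_combination hz
  have key' : (σ • a) * b = z * a * (σ • b) := by
    apply RingOfIntegers.ext
    show algebraMap (𝓞 N') N' _ = algebraMap (𝓞 N') N' _
    rw [map_mul, map_mul, map_mul]
    exact key
  have h1 : (σ • a) * b - a * (σ • b) ∈ w.asIdeal := by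
    have : (σ • a) * b - a * (σ • b) = (σ • a - a) * b - a * (σ • b - b) := by ring
    rw [this]
    exact w.asIdeal.sub_mem (w.asIdeal.mul_mem_right _ (hσ a)) (w.asIdeal.mul_mem_left _ (hσ b))
  have h2 : (z - 1) * (a * (σ • b)) ∈ w.asIdeal := by
    have : (z - 1) * (a * (σ • b)) = (σ • a) * b - a * (σ • b) := by
      rw [key']; ring
    rw [this]
    exact h1
  rcases w.isPrime.mem_or_mem h2 with h | h
  · exact h
  · rcases w.isPrime.mem_or_mem h with h | h
    · exact absurd h ha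
    · exact absurd h hσb

end TameUnram

/-- Kummer extensions are unramified at `w ∤ p` when `p ∣ ord_v x`. -/
theorem unram_of_dvd_ord (p : ℕ) [Fact p.Prime] (ζ : N) (hζ : IsPrimitiveRoot ζ p) [IsGalois N N']
    (θ : N') (x : Nˣ) (hθ : θ ^ p = algebraMap N N' x)
    (hgen : ∀ σ : N' ≃ₐ[N] N', σ θ = θ → σ = 1)
    (v : Pl N) (w : Pl N') (hw : Above w v) (hv : ¬ Over v p) (hx : (p : ℤ) ∣ ord v (x : N)) :
    Unram N w := by
  intro σ hσ
  apply hgen
  have hp : p.Prime := Fact.out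
  have hp0 : p ≠ 0 := hp.ne_zero
  have : NeZero p := ⟨hp0⟩
  have hx0 : algebraMap N N' (x : N) ≠ 0 := by
    simp
  have hθ0 : θ ≠ 0 := by
    rintro rfl
    rw [zero_pow hp0] at hθ
    exact hx0 hθ.symm
  -- the root of unity upstairs
  have hζ' : IsPrimitiveRoot (algebraMap N N' ζ) p :=
    hζ.map_of_injective (algebraMap N N').injective
  have hσp : (σ θ / θ) ^ p = 1 := by
    rw [div_pow, ← map_pow, hθ, σ.commutes, div_self hx0]
  obtain ⟨i, -, hi⟩ := hζ'.eq_pow_of_pow_eq_one hσp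
  have hσθ : σ θ = (algebraMap N N' ζ) ^ i * θ := by
    rw [hi]
    field_simp
  set Z : 𝓞 N' := hζ'.toInteger with hZ
  have hZprim : IsPrimitiveRoot Z p := hζ'.toInteger_isPrimitiveRoot
  have hZcoe : (Z : N') = algebraMap N N' ζ := rfl
  -- normalise `θ`
  obtain ⟨k, hk⟩ := hx
  obtain ⟨π, hπ⟩ := exists_uniformizer v
  have hπ0 : (π : N) ≠ 0 := by
    intro h
    rw [h, ord_zero] at hπ
    exact zero_ne_one hπ
  have hπ0' : algebraMap N N' (π : N) ≠ 0 := by
    simpa using hπ0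
  set θ₁ : N' := θ / (algebraMap N N' (π : N)) ^ k with hθ₁
  have hθ₁0 : θ₁ ≠ 0 := div_ne_zero hθ0 (zpow_ne_zero _ hπ0')
  have hpow : θ₁ ^ p = algebraMap N N' ((x : N) / (π : N) ^ ((p : ℤ) * k)) := by
    rw [hθ₁, div_pow, hθ, map_div₀, map_zpow₀, mul_comm (p : ℤ) k, zpow_mul, zpow_natCast]
  have hordv : ord v ((x : N) / (π : N) ^ ((p : ℤ) * k)) = 0 := by
    rw [ord_div v x.ne_zero (zpow_ne_zero _ hπ0), ord_zpow, hπ, hk]
    ring
  have hordw : ord w θ₁ = 0 := by
    have h1 : ord w (θ₁ ^ p) = 0 := by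
      rw [hpow]
      exact (ord_algebraMap_eq_zero_iff hw _).2 hordv
    rw [ord_pow] at h1
    rcases mul_eq_zero.1 h1 with h | h
    · exact absurd (by exact_mod_cast h) hp0
    · exact h
  have hZpow : ((Z ^ i : 𝓞 N') : N') = (algebraMap N N' ζ) ^ i := by
    show algebraMap (𝓞 N') N' _ = _
    rw [map_pow]
    rfl
  have hσθ₁ : σ θ₁ = ((Z ^ i : 𝓞 N') : N') * θ₁ := by
    rw [hZpow, hθ₁, map_div₀, map_zpow₀, σ.commutes, hσθ, mul_div_assoc]
  have hmem := TameUnram.pow_sub_one_mem w σ hσ θ₁ hθ₁0 hordw (Z ^ i) hσθ₁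
  have hwp : ¬ Over w p := fun h => hv ((over_of_above hw p).1 h)
  have hZi : Z ^ i = Z ^ 0 := by
    apply pow_eq_pow_of_sub_mem w hwp hZprim
    simpa using hmem
  have hZi' : (algebraMap N N' ζ) ^ i = 1 := by
    rw [← hZpow, hZi, pow_zero]
    exact map_one (algebraMap (𝓞 N') N')
  rw [hσθ, hZi', one_mul]

end Fermat.Agent.CFT
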