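import Fermat.Agent.CFT.Basic
import Fermat.Agent.CFT.OrdGal
import Fermat.Agent.CFT.LPBasic
import Fermat.Agent.CFT.TameUnram

set_option autoImplicit false

namespace Fermat.Agent.CFT

open IsDedekindDomain NumberField

variable {N : Type*} [Field N] [NumberField N] {N' : Type*} [Field N'] [NumberField N']
  [Algebra N N']

namespace TameNorm

/-- descent of principal units -/
theorem mem_PU_of_map_mem {w : Pl N'} {v : Pl N} (h : Above w v) (s : Nˣ)
    (hs : Units.map (algebraMap N N' : N →* N') s ∈ PU w 0) : s ∈ PU v 0 := by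
  rw [mem_PU_iff] at hs ⊢
  rcases hs with hs | hs
  · left
    have : algebraMap N N' (s : N) = algebraMap N N' 1 := by simpa using hs
    exact (algebraMap N N').injective this
  · right
    have h1 : ((Units.map (algebraMap N N' : N →* N') s : N'ˣ) : N') - 1
        = algebraMap N N' ((s : N) - 1) := by
      simp
    rw [h1, ord_algebraMap h] at hs
    have he := ramificationIdx_pos h
    have he' : (0 : ℤ) < (Ideal.ramificationIdx' v.asIdeal w.asIdeal : ℤ) := by exact_mod_cast he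
    simp only [Nat.cast_zero] at hs ⊢
    exact (mul_pos_iff_of_pos_left he').mp hs

/-- principal units are stable under the decomposition group -/
theorem map_mem_PU {w : Pl N'} (σ : N' ≃ₐ[N] N') (hσ : σ • w = w) (u : N'ˣ) (hu : u ∈ PU w 0) :
    Units.map (σ : N' →* N') u ∈ PU w 0 := by
  rw [mem_PU_iff] at hu ⊢
  rcases hu with hu | hu
  · left
    simp [hu]
  · right
    have h1 : ((Units.map (σ : N' →* N') u : N'ˣ) : N') - 1 = σ • ((u : N') - 1) := by
      simp [AlgEquiv.smul_def]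
    rw [h1]
    have h2 := ord_smul_smul σ w ((u : N') - 1)
    rw [hσ] at h2
    rw [h2]
    exact hu

/-- residue representatives in the base field for units -/
theorem exists_base_approx {w : Pl N'} {v : Pl N} (h : Above w v)
    (hN : Ideal.absNorm w.asIdeal = Ideal.absNorm v.asIdeal) (Y : N'ˣ) (hY : ord w (Y : N') = 0) :
    ∃ t : Nˣ, Y * (Units.map (algebraMap N N' : N →* N') t)⁻¹ ∈ PU w 0 := by
  obtain ⟨c, d, hc, hd, hcd⟩ := exists_div_not_mem_of_unit w Y.ne_zero hY
  obtain ⟨c0, hc0⟩ := exists_sub_mem_of_absNorm_eq h hN c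
  obtain ⟨d0, hd0⟩ := exists_sub_mem_of_absNorm_eq h hN d
  have hc0w : algebraMap (𝓞 N) (𝓞 N') c0 ∉ w.asIdeal := by
    intro hm
    apply hc
    have := w.asIdeal.add_mem hc0 hm
    simpa using this
  have hd0w : algebraMap (𝓞 N) (𝓞 N') d0 ∉ w.asIdeal := by
    intro hm
    apply hd
    have := w.asIdeal.add_mem hd0 hm
    simpa using this
  have hc00 : (c0 : N) ≠ 0 := by
    intro h0
    apply hc0w
    have : c0 = 0 := by exact_mod_cast h0
    simp [this]
  have hd00 : (d0 : N) ≠ 0 := by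
    intro h0
    apply hd0w
    have : d0 = 0 := by exact_mod_cast h0
    simp [this]
  refine ⟨Units.mk0 ((c0 : N) / (d0 : N)) (div_ne_zero hc00 hd00), ?_⟩
  set num : 𝓞 N' := c * algebraMap (𝓞 N) (𝓞 N') d0 - d * algebraMap (𝓞 N) (𝓞 N') c0 with hnum
  set den : 𝓞 N' := d * algebraMap (𝓞 N) (𝓞 N') c0 with hden
  have hnumw : num ∈ w.asIdeal := by
    have h1 : num = (c - algebraMap (𝓞 N) (𝓞 N') c0) * algebraMap (𝓞 N) (𝓞 N') d0
        - (d - algebraMap (𝓞 N) (𝓞 N') d0) * algebraMap (𝓞 N) (𝓞 N') c0 := by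
      rw [hnum]; ring
    rw [h1]
    exact w.asIdeal.sub_mem (w.asIdeal.mul_mem_right _ hc0) (w.asIdeal.mul_mem_right _ hd0)
  have hdenw : den ∉ w.asIdeal := by
    intro hm
    rcases w.isPrime.mem_or_mem hm with h1 | h1
    · exact hd h1
    · exact hc0w h1
  have hden0 : (den : N') ≠ 0 := by
    intro h0
    apply hdenw
    have : den = 0 := by exact_mod_cast h0
    simp [this]
  have hd0' : (d : N') ≠ 0 := by
    intro h0
    apply hd
    have : d = 0 := by exact_mod_cast h0
    simp [this]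
  have hc0' : algebraMap N N' (c0 : N) ≠ 0 := by
    simpa using hc00
  have hd0'' : algebraMap N N' (d0 : N) ≠ 0 := by
    simpa using hd00
  have key : ((Y * (Units.map (algebraMap N N' : N →* N')
      (Units.mk0 ((c0 : N) / (d0 : N)) (div_ne_zero hc00 hd00)))⁻¹ : N'ˣ) : N') - 1
      = (num : N') / (den : N') := by
    rw [hnum, hden]
    simp only [map_sub, map_mul, Units.val_mul, Units.val_inv_eq_inv_val]
    have e1 : (algebraMap (𝓞 N') N') ((algebraMap (𝓞 N) (𝓞 N')) c0) = algebraMap N N' (c0 : N) :=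
      rfl
    have e2 : (algebraMap (𝓞 N') N') ((algebraMap (𝓞 N) (𝓞 N')) d0) = algebraMap N N' (d0 : N) :=
      rfl
    rw [e1, e2, hcd]
    simp only [Units.coe_map, Units.val_mk0, MonoidHom.coe_coe, map_div₀]
    field_simp
  rw [mem_PU_iff]
  by_cases hn0 : num = 0
  · left
    have : ((Y * (Units.map (algebraMap N N' : N →* N')
      (Units.mk0 ((c0 : N) / (d0 : N)) (div_ne_zero hc00 hd00)))⁻¹ : N'ˣ) : N') - 1 = 0 := by
      rw [key, hn0]; simp
    exact sub_eq_zero.mp this
  · right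
    rw [key]
    have hn0' : (num : N') ≠ 0 := by
      intro h0
      apply hn0
      exact_mod_cast h0
    rw [ord_div w hn0' hden0, ord_eq_zero_of_not_mem w hdenw]
    have := (ord_pos_iff_mem w hn0).mpr hnumw
    simpa using this

/-- the norm of an element close to an element of the base field -/
theorem norm_mul_inv_pow_mem_PU [IsGalois N N'] {w : Pl N'}
    (hfix : ∀ σ : N' ≃ₐ[N] N', σ • w = w) (Y : N'ˣ) (t : Nˣ)
    (hYt : Y * (Units.map (algebraMap N N' : N →* N') t)⁻¹ ∈ PU w 0) :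
    Units.map (algebraMap N N' : N →* N')
      (Units.map (Algebra.norm N : N' →* N) Y * (t ^ Module.finrank N N')⁻¹) ∈ PU w 0 := by
  have h1 : Units.map (algebraMap N N' : N →* N')
      (Units.map (Algebra.norm N : N' →* N) Y * (t ^ Module.finrank N N')⁻¹) =
      ∏ σ : N' ≃ₐ[N] N',
        Units.map (σ : N' →* N') (Y * (Units.map (algebraMap N N' : N →* N') t)⁻¹) := by
    ext
    have hc : Fintype.card (N' ≃ₐ[N] N') = Module.finrank N N' := by
      rw [← Nat.card_eq_fintype_card, IsGalois.card_aut_eq_finrank]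
    simp [Algebra.norm_eq_prod_automorphisms, Finset.prod_mul_distrib, hc]
  rw [h1]
  exact Subgroup.prod_mem _ (fun σ _ => map_mem_PU σ (hfix σ) _ hYt)

/-- `N(θ) = x` for `θ ^ p = x`, `p` odd. -/
theorem norm_theta [IsGalois N N'] (p : ℕ) [Fact p.Prime] (hp2 : p ≠ 2) (ζ : N)
    (hζ : IsPrimitiveRoot ζ p) (hdeg : Module.finrank N N' = p) (θ : N') (hθ0 : θ ≠ 0) (x : N)
    (hθ : θ ^ p = algebraMap N N' x) : Algebra.norm N θ = x := by
  have hp : p.Prime := Fact.out
  have hζ' : IsPrimitiveRoot (algebraMap N N' ζ) p := hζ.map_of_injective (algebraMap N N').injective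
  have hχ : ∀ σ : N' ≃ₐ[N] N', ∃ c : N, c ^ p = 1 ∧ σ θ = algebraMap N N' c * θ := by
    intro σ
    have h1 : (σ θ / θ) ^ p = 1 := by
      rw [div_pow, ← map_pow, hθ, AlgEquiv.commutes]
      exact div_self (by rw [← hθ]; exact pow_ne_zero _ hθ0)
    obtain ⟨i, -, hi⟩ := hζ'.eq_pow_of_pow_eq_one h1
    refine ⟨ζ ^ i, ?_, ?_⟩
    · rw [← pow_mul, mul_comm, pow_mul, hζ.pow_eq_one, one_pow]
    · rw [map_pow, hi]
      field_simp
  choose χ hχ1 hχ2 using hχ
  have hinv : ∀ σ : N' ≃ₐ[N] N', χ σ * χ σ⁻¹ = 1 := by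
    intro σ
    apply (algebraMap N N').injective
    have h1 : σ⁻¹ (σ θ) = θ := by
      change σ.symm (σ θ) = θ
      simp
    rw [hχ2 σ, map_mul, AlgEquiv.commutes, hχ2 σ⁻¹, ← mul_assoc] at h1
    rw [map_mul, map_one]
    exact mul_right_cancel₀ hθ0 (by rw [h1, one_mul])
  set P : N := ∏ σ : N' ≃ₐ[N] N', χ σ with hP
  have hPp : P ^ p = 1 := by
    rw [hP, ← Finset.prod_pow]
    exact Finset.prod_eq_one (fun σ _ => hχ1 σ)
  have hP2 : P * P = 1 := by
    have h2 : P = ∏ σ : N' ≃ₐ[N] N', χ σ⁻¹ := by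
      rw [hP]
      exact (Equiv.prod_comp (Equiv.inv (N' ≃ₐ[N] N')) χ).symm
    nth_rewrite 2 [h2]
    rw [hP, ← Finset.prod_mul_distrib]
    exact Finset.prod_eq_one (fun σ _ => hinv σ)
  have hP1 : P = 1 := by
    obtain ⟨k, hk⟩ := hp.odd_of_ne_two hp2
    rw [hk, pow_succ, pow_mul, pow_two, hP2, one_pow, one_mul] at hPp
    exact hPp
  apply (algebraMap N N').injective
  rw [Algebra.norm_eq_prod_automorphisms]
  simp_rw [hχ2]
  rw [Finset.prod_mul_distrib, ← map_prod, ← hP, hP1, map_one, one_mul, Finset.prod_const,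
    Finset.card_univ, ← Nat.card_eq_fintype_card, IsGalois.card_aut_eq_finrank, hdeg, hθ]

end TameNorm

/-- **The tame symbol kills norms.** `N' = N(θ)`, `θ^p = x`, degree `p`; `v ∤ p` not split.
Then for every `z ∈ N'^*`, `(N z)^(ord_v x) * x^(-ord_v (N z))` is a local `p`-th power at `v`. -/
theorem tame_norm_mem_LP (p : ℕ) [Fact p.Prime] (hp2 : p ≠ 2) (ζ : N) (hζ : IsPrimitiveRoot ζ p)
    [IsGalois N N'] (hdeg : Module.finrank N N' = p)
    (θ : N') (x : Nˣ) (hθ : θ ^ p = algebraMap N N' x)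
    (v : Pl N) (hv : ¬ Over v p) (hns : ¬ Split N' v) (z : N'ˣ) :
    (Units.map (Algebra.norm N : N' →* N) z) ^ (ord v (x : N)) *
      x ^ (- ord v ((Algebra.norm N (z : N')) : N)) ∈ LP p ζ v := by
  have hp : p.Prime := Fact.out
  obtain ⟨w, hw⟩ := exists_above (N' := N') v
  have hfix : ∀ σ : N' ≃ₐ[N] N', σ • w = w := fun σ => smul_eq_of_not_split hp hdeg hw hns σ
  have hz0 : (z : N') ≠ 0 := z.ne_zero
  have hcard : Nat.card (N' ≃ₐ[N] N') = p := by rw [IsGalois.card_aut_eq_finrank, hdeg]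
  have hordN : ord w (algebraMap N N' (Algebra.norm N (z : N'))) = p * ord w (z : N') := by
    rw [ord_algebraMap_norm w hz0]
    simp only [hfix, Finset.sum_const, Finset.card_univ, ← Nat.card_eq_fintype_card, hcard,
      nsmul_eq_mul]
  by_cases hθN : ∃ t : N, algebraMap N N' t = θ
  · obtain ⟨t, rfl⟩ := hθN
    have hx : (x : N) = t ^ p := by
      apply (algebraMap N N').injective
      rw [map_pow, hθ]
    have ht0 : t ≠ 0 := by
      rintro rfl
      have := x.ne_zero
      rw [hx] at this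
      simp [hp.ne_zero] at this
    have hx' : x = (Units.mk0 t ht0) ^ p := by ext; simp [hx]
    have ha : (p : ℤ) ∣ ord v (x : N) := by rw [hx, ord_pow]; exact dvd_mul_right _ _
    refine (LP p ζ v).mul_mem (zpow_mem_LP_of_dvd p ζ v _ ha) ?_
    rw [hx', ← zpow_natCast, ← zpow_mul]
    exact zpow_mem_LP_of_dvd p ζ v _ (dvd_mul_right _ _)
  have hgen : ∀ σ : N' ≃ₐ[N] N', σ θ = θ → σ = 1 := by
    intro σ hσ
    by_contra hne
    apply hθN
    have htop : Subgroup.zpowers σ = ⊤ := zpowers_eq_top_of_prime_card hcard hne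
    have hle : Subgroup.zpowers σ ≤ MulAction.stabilizer (N' ≃ₐ[N] N') θ := by
      rw [Subgroup.zpowers_le]
      exact hσ
    have hall : ∀ τ : N' ≃ₐ[N] N', τ θ = θ := by
      intro τ
      have : τ ∈ Subgroup.zpowers σ := by rw [htop]; trivial
      exact hle this
    exact (IsGalois.mem_range_algebraMap_iff_fixed θ).mpr hall
  by_cases hpa : (p : ℤ) ∣ ord v (x : N)
  · have hun : Unram N w := unram_of_dvd_ord p ζ hζ θ x hθ hgen v w hw hv hpa
    have hm : (p : ℤ) ∣ ord v (Algebra.norm N (z : N')) := by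
      rw [← ord_algebraMap_of_unram hw hun, hordN]
      exact dvd_mul_right _ _
    exact (LP p ζ v).mul_mem (zpow_mem_LP_of_dvd p ζ v _ hpa)
      (zpow_mem_LP_of_dvd p ζ v _ ((dvd_neg).mpr hm))
  -- the ramified case
  have hθ0 : θ ≠ 0 := by
    rintro rfl
    rw [zero_pow hp.ne_zero] at hθ
    exact x.ne_zero ((map_eq_zero (algebraMap N N')).mp hθ.symm)
  set e := Ideal.ramificationIdx' v.asIdeal w.asIdeal with he
  set f := Ideal.inertiaDeg' v.asIdeal w.asIdeal with hf
  have hstab : MulAction.stabilizer (N' ≃ₐ[N] N') w = ⊤ := by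
    rw [eq_top_iff]
    intro σ _
    exact hfix σ
  have hef : e * f = p := by
    rw [he, hf, ← card_stabilizer_eq hw, hstab, Subgroup.card_top, hcard]
  have h1 : (p : ℤ) * ord w θ = (e : ℤ) * ord v (x : N) := by
    rw [← ord_pow, hθ, ord_algebraMap hw]
  have hpe : p ∣ e := by
    have h2 : (p : ℤ) ∣ (e : ℤ) * ord v (x : N) := ⟨_, h1.symm⟩
    rcases (Nat.prime_iff_prime_int.mp hp).dvd_or_dvd h2 with h3 | h3
    · exact_mod_cast h3
    · exact absurd h3 hpa
  have hep : e = p := Nat.dvd_antisymm ⟨f, hef.symm⟩ hpe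
  have hf1 : f = 1 := by
    rw [hep] at hef
    exact Nat.eq_of_mul_eq_mul_left hp.pos (by rw [hef, mul_one])
  have hN : Ideal.absNorm w.asIdeal = Ideal.absNorm v.asIdeal := by
    rw [absNorm_eq_pow_inertiaDeg hw, ← hf, hf1, pow_one]
  have hp0 : (p : ℤ) ≠ 0 := by exact_mod_cast hp.ne_zero
  have hordθ : ord w θ = ord v (x : N) := by
    rw [hep] at h1
    exact mul_left_cancel₀ hp0 h1
  have hordz : ord v (Algebra.norm N (z : N')) = ord w (z : N') := by
    have h2 := hordN
    rw [ord_algebraMap hw, ← he, hep] at h2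
    exact mul_left_cancel₀ hp0 h2
  set θu : N'ˣ := Units.mk0 θ hθ0 with hθu
  set Y : N'ˣ := z ^ (ord v (x : N)) * θu ^ (- ord w (z : N')) with hY
  have hYord : ord w (Y : N') = 0 := by
    rw [hY, Units.val_mul, ord_mul w (Units.ne_zero _) (Units.ne_zero _), ord_units_zpow,
      ord_units_zpow, hθu, Units.val_mk0, hordθ]
    ring
  obtain ⟨t, ht⟩ := TameNorm.exists_base_approx hw hN Y hYord
  have h3 := TameNorm.mem_PU_of_map_mem hw _ (TameNorm.norm_mul_inv_pow_mem_PU hfix Y t ht)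
  have hNθ : Units.map (Algebra.norm N : N' →* N) θu = x := by
    ext
    simp only [Units.coe_map, hθu, Units.val_mk0, MonoidHom.coe_coe]
    exact TameNorm.norm_theta p hp2 ζ hζ hdeg θ hθ0 x hθ
  have hNY : Units.map (Algebra.norm N : N' →* N) Y =
      (Units.map (Algebra.norm N : N' →* N) z) ^ (ord v (x : N)) *
      x ^ (- ord v ((Algebra.norm N (z : N')) : N)) := by
    rw [hY, map_mul, map_zpow, map_zpow, hNθ, hordz]
  rw [← hNY, LP_eq_of_not_over p v hv hζ]
  have h4 : Units.map (Algebra.norm N : N' →* N) Y =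
      (Units.map (Algebra.norm N : N' →* N) Y * (t ^ Module.finrank N N')⁻¹) * t ^ p := by
    rw [hdeg]
    group
  rw [h4]
  exact Subgroup.mul_mem_sup h3 ((mem_PW_iff p _).mpr ⟨t, rfl⟩)

end Fermat.Agent.CFT
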