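import Fermat.Agent.CFT.Basic
import Fermat.Agent.CFT.OrdGal
import Fermat.Agent.CFT.FI
import Fermat.Agent.CFT.LocalPower
import Fermat.Agent.CFT.Tame
import Fermat.Agent.CFT.TSelect

set_option autoImplicit false

namespace Fermat.Agent.CFT

open IsDedekindDomain NumberField

namespace KeyLemma

universe u

/-- An element of `L` of order exactly `p` modulo `K` forces `p ∣ [L : K ∩ L]`. -/
theorem dvd_relIndex_of_pow_mem {G : Type*} [CommGroup G] {p : ℕ} (hp : p.Prime)
    (K L : Subgroup G) (g : G) (hgL : g ∈ L) (hgK : g ∉ K) (hgp : g ^ p ∈ K) :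
    p ∣ K.relIndex L := by
  have : Fact p.Prime := ⟨hp⟩
  let q : L ⧸ K.subgroupOf L := QuotientGroup.mk ⟨g, hgL⟩
  have h1 : q ^ p = 1 := by
    rw [← QuotientGroup.mk_pow, QuotientGroup.eq_one_iff]
    exact hgp
  have h2 : q ≠ 1 := by
    intro h
    rw [QuotientGroup.eq_one_iff] at h
    exact hgK h
  have h3 : orderOf q = p := orderOf_eq_prime h1 h2
  rw [← h3]
  exact orderOf_dvd_natCard q

/-- Independent conditions of order `p`: the index is divisible by `p ^ n`. -/
theorem pow_card_dvd_relIndex {G ι : Type*} [CommGroup G] {p : ℕ} (hp : p.Prime) (U : Subgroup G)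
    (K : ι → Subgroup G) (g : ι → G) (I : Finset ι)
    (hgU : ∀ i ∈ I, g i ∈ U) (hgK : ∀ i ∈ I, ∀ j ∈ I, j ≠ i → g i ∈ K j)
    (hg : ∀ i ∈ I, g i ∉ K i) (hgp : ∀ i ∈ I, g i ^ p ∈ K i) :
    p ^ I.card ∣ (⨅ i ∈ I, K i).relIndex U := by
  classical
  induction I using Finset.induction_on with
  | empty => simp
  | insert i I hi ih =>
    rw [Finset.card_insert_of_notMem hi, Finset.iInf_insert, pow_succ',
      ← Subgroup.relIndex_inf_mul_relIndex]
    apply mul_dvd_mul
    · apply dvd_relIndex_of_pow_mem hp _ _ (g i) _ (hg i (Finset.mem_insert_self i I))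
        (hgp i (Finset.mem_insert_self i I))
      refine Subgroup.mem_inf.2 ⟨?_, hgU i (Finset.mem_insert_self i I)⟩
      simp only [Subgroup.mem_iInf]
      intro j hj
      exact hgK i (Finset.mem_insert_self i I) j (Finset.mem_insert_of_mem hj)
        (fun h => hi (h ▸ hj))
    · exact ih (fun j hj => hgU j (Finset.mem_insert_of_mem hj))
        (fun j hj k hk hne => hgK j (Finset.mem_insert_of_mem hj) k (Finset.mem_insert_of_mem hk) hne)
        (fun j hj => hg j (Finset.mem_insert_of_mem hj))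
        (fun j hj => hgp j (Finset.mem_insert_of_mem hj))

/-- If `u ∉ L`, `u ^ p ∈ L` and `p ∤ a` then `u ^ a ∉ L`. -/
theorem zpow_not_mem {G : Type*} [CommGroup G] {p : ℕ} (hp : p.Prime) (L : Subgroup G) (u : G)
    (hu : u ∉ L) (hup : u ^ p ∈ L) {a : ℤ} (ha : ¬ (p : ℤ) ∣ a) : u ^ a ∉ L := by
  intro h
  apply hu
  have hcop : IsCoprime a (p : ℤ) :=
    ((Nat.prime_iff_prime_int.1 hp).coprime_iff_not_dvd.2 ha).symm
  obtain ⟨r, s, hrs⟩ := hcop
  have : u = (u ^ a) ^ r * (u ^ p) ^ s := by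
    rw [← zpow_mul, ← zpow_natCast u p, ← zpow_mul, ← zpow_add]
    have : a * r + (p : ℤ) * s = 1 := by linarith
    rw [this, zpow_one]
  rw [this]
  exact L.mul_mem (L.zpow_mem h r) (L.zpow_mem hup s)

open Polynomial in
/-- The Kummer extension `M(x^{1/p})` as a package. -/
theorem exists_kummer_unit {M : Type u} [Field M] [NumberField M]
    {p : ℕ} (hp : p.Prime) {ζ : M} (hζ : IsPrimitiveRoot ζ p)
    (x : Mˣ) (hx : x ∉ PW p Mˣ) :
    ∃ (L : Type u) (_ : Field L) (_ : NumberField L) (_ : Algebra M L) (_ : IsGalois M L),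
      Module.finrank M L = p ∧ ∃ θ : L, θ ^ p = algebraMap M L x ∧
        (∀ σ : L ≃ₐ[M] L, σ θ = θ → σ = 1) ∧ ∀ c : M, algebraMap M L c ≠ θ := by
  have : NeZero p := ⟨hp.ne_zero⟩
  have hu : ∀ b : M, b ^ p ≠ (x : M) := by
    intro b hb
    apply hx
    have hb0 : b ≠ 0 := by
      rintro rfl
      rw [zero_pow hp.ne_zero] at hb
      exact x.ne_zero hb.symm
    refine (mem_PW_iff p x).2 ⟨Units.mk0 b hb0, ?_⟩
    ext
    simpa using hb
  have H : Irreducible (X ^ p - C (x : M)) := X_pow_sub_C_irreducible_of_prime hp hu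
  have hζne : (primitiveRoots p M).Nonempty := ⟨ζ, (mem_primitiveRoots hp.pos).mpr hζ⟩
  let L := (X ^ p - C (x : M)).SplittingField
  have : NumberField L := NumberField.of_module_finite M L
  have : IsGalois M L := isGalois_of_isSplittingField_X_pow_sub_C hζne H L
  have hdeg : Module.finrank M L = p := finrank_of_isSplittingField_X_pow_sub_C hζne H L
  let α : L := rootOfSplitsXPowSubC hp.pos (x : M) L
  have hα : α ^ p = algebraMap M L (x : M) := rootOfSplitsXPowSubC_pow (x : M) L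
  refine ⟨L, inferInstance, inferInstance, inferInstance, inferInstance, hdeg, α, hα, ?_, ?_⟩
  · intro σ hσ
    have htop : Algebra.adjoin M {α} = ⊤ :=
      Algebra.adjoin_root_eq_top_of_isSplittingField hζne H hα
    have h : (σ : L →ₐ[M] L) = AlgHom.id M L := by
      apply AlgHom.ext_of_adjoin_eq_top htop
      intro y hy
      rw [Set.mem_singleton_iff] at hy
      subst hy
      simpa using hσ
    ext y
    exact DFunLike.congr_fun h y
  · intro c hc
    apply hu c
    apply (algebraMap M L).injective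
    rw [map_pow, hc, hα]

variable {M : Type*} [Field M] [NumberField M]

/-- The tame symbol (with values in `Mˣ`, to be read modulo local `p`-th powers). -/
noncomputable def tame (x : Mˣ) (w : Pl M) : Mˣ →* Mˣ where
  toFun y := y ^ (ord w (x : M)) * x ^ (- ord w (y : M))
  map_one' := by simp
  map_mul' a b := by
    rw [Units.val_mul, ord_mul w a.ne_zero b.ne_zero, mul_zpow, neg_add, zpow_add]
    exact mul_mul_mul_comm _ _ _ _

theorem tame_apply (x : Mˣ) (w : Pl M) (y : Mˣ) :
    tame x w y = y ^ (ord w (x : M)) * x ^ (- ord w (y : M)) := rfl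

theorem tame_of_ord_eq_zero (x : Mˣ) (w : Pl M) (y : Mˣ) (hy : ord w (y : M) = 0) :
    tame x w y = y ^ (ord w (x : M)) := by
  rw [tame_apply, hy]; simp

/-- Construction of the test elements. -/
theorem exists_test (p : ℕ) [Fact p.Prime] (ζ : M) (hζ : IsPrimitiveRoot ζ p)
    (S T : Set (Pl M)) (hgen : GenCl S) (hdisj : Disjoint T S) (hsurj : SurjOn p ζ S T)
    (x : Mˣ) (w : Pl M) (hwT : w ∈ T) (hwp : ¬ Over w p) (hxw : x ∉ LP p ζ w) :
    ∃ g ∈ SU (S ∪ T), tame x w g ∉ LP p ζ w ∧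
      ∀ w' ∈ T, w' ≠ w → tame x w' g ∈ LP p ζ w' := by
  classical
  have hp : p.Prime := Fact.out
  have hTS : ∀ w' ∈ T, w' ∉ S := fun w' h h' => (Set.disjoint_left.1 hdisj) h h'
  by_cases ha : (p : ℤ) ∣ ord w (x : M)
  · -- `p ∣ ord_w x`: use a generator of `w` up to `S`
    obtain ⟨c, hc1, hc0⟩ := hgen w (hTS w hwT)
    obtain ⟨u, huS, hu⟩ := hsurj (fun w' => if w' = w then 1 else c) (by
      intro w' hw'
      by_cases h : w' = w
      · simp [h, (UD w).one_mem]
      · simp only [h, if_false]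
        exact (mem_UD_iff w' c).2 (hc0 w' (hTS w' hw') h))
    have hu0 : ∀ w' ∈ T, ord w' (u : M) = 0 := fun w' hw' =>
      (mem_SU_iff S u).1 huS w' (hTS w' hw')
    refine ⟨c / u, ?_, ?_, ?_⟩
    · refine (SU (S ∪ T)).div_mem ?_ (SU_mono Set.subset_union_left huS)
      rw [mem_SU_iff]
      intro v hv
      refine hc0 v (fun h => hv (Or.inl h)) ?_
      rintro rfl
      exact hv (Or.inr hwT)
    · intro h
      rw [tame_apply] at h
      have h1 : (c / u) ^ (ord w (x : M)) ∈ LP p ζ w := zpow_mem_LP_of_dvd p ζ w _ ha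
      have h2 : x ^ (- ord w ((c / u : Mˣ) : M)) ∈ LP p ζ w := by
        have := (LP p ζ w).mul_mem ((LP p ζ w).inv_mem h1) h
        simpa using this
      have h3 : ord w ((c / u : Mˣ) : M) = 1 := by
        rw [Units.val_div_eq_div_val, ord_div w c.ne_zero u.ne_zero, hc1, hu0 w hwT]
        norm_num
      rw [h3] at h2
      apply hxw
      have := (LP p ζ w).inv_mem h2
      simpa using this
    · intro w' hw' hne
      have h3 : ord w' ((c / u : Mˣ) : M) = 0 := by
        rw [Units.val_div_eq_div_val, ord_div w' c.ne_zero u.ne_zero, hc0 w' (hTS w' hw') hne,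
          hu0 w' hw']
        norm_num
      rw [tame_of_ord_eq_zero x w' _ h3]
      apply (LP p ζ w').zpow_mem
      have := hu w' hw'
      simp only [hne, if_false] at this
      have h4 := (LP p ζ w').inv_mem this
      simpa using h4
  · -- `p ∤ ord_w x`: use a non-residue unit
    have hne : ¬ UD w ≤ LP p ζ w := by
      intro h
      have h1 := LP_relIndex_UD p ζ hζ w hwp
      rw [Subgroup.relIndex_eq_one.2 h] at h1
      exact hp.one_lt.ne h1
    obtain ⟨c₀, hc₀U, hc₀⟩ := SetLike.not_le_iff_exists.1 hne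
    obtain ⟨u, huS, hu⟩ := hsurj (fun w' => if w' = w then c₀ else 1) (by
      intro w' hw'
      by_cases h : w' = w
      · subst h
        simpa using hc₀U
      · simp [h, (UD w').one_mem])
    have hu0 : ∀ w' ∈ T, ord w' (u : M) = 0 := fun w' hw' =>
      (mem_SU_iff S u).1 huS w' (hTS w' hw')
    refine ⟨u, SU_mono Set.subset_union_left huS, ?_, ?_⟩
    · rw [tame_of_ord_eq_zero x w u (hu0 w hwT)]
      refine zpow_not_mem hp _ u ?_ (pow_mem_LP p ζ w u) ha
      intro h
      apply hc₀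
      have h1 := hu w hwT
      simp only [if_true] at h1
      have := (LP p ζ w).mul_mem ((LP p ζ w).inv_mem h1) h
      simpa using this
    · intro w' hw' hne'
      rw [tame_of_ord_eq_zero x w' u (hu0 w' hw')]
      apply (LP p ζ w').zpow_mem
      have := hu w' hw'
      simpa [hne'] using this

end KeyLemma

variable {M : Type*} [Field M] [NumberField M]

open KeyLemma in
/-- **Key lemma.** An `S ∪ T`-unit which is a local `p`-th power at all places of `S` is a
`p`-th power. -/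
theorem keyLemma (p : ℕ) [Fact p.Prime] (hp2 : p ≠ 2) (ζ : M) (hζ : IsPrimitiveRoot ζ p)
    (S T : Set (Pl M)) (hS : S.Finite) (hT : T.Finite) (hgen : GenCl S)
    (hSp : ∀ v : Pl M, Over v p → v ∈ S) (hdisj : Disjoint T S)
    (hsurj : SurjOn p ζ S T)
    (x : Mˣ) (hx : x ∈ SU (S ∪ T)) (hloc : ∀ v ∈ S, x ∈ LP p ζ v) : x ∈ PW p Mˣ := by
  classical
  have hp : p.Prime := Fact.out
  by_contra hxPW
  obtain ⟨L, _, _, _, _, hdeg, θ, hθ, hgenθ, hθN⟩ := exists_kummer_unit hp hζ x hxPW
  have hsplitS : ∀ v ∈ S, Split L v := fun v hv =>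
    split_of_mem_LP p ζ hζ θ x hθ hgenθ v (hloc v hv)
  have hram : ∀ w : Pl L, w ∉ upSet L (S ∪ T) → Unram M w := by
    intro w hw
    obtain ⟨v, hv⟩ := exists_below M w
    have hvS : v ∉ S ∪ T := fun h => hw ⟨v, h, hv⟩
    apply unram_of_dvd_ord p ζ hζ θ x hθ hgenθ v w hv (fun h => hvS (Or.inl (hSp v h)))
    rw [(mem_SU_iff _ _).1 hx v hvS]
    exact dvd_zero _
  obtain ⟨h0, hle⟩ := firstInequality p hp2 hdeg ζ hζ (S ∪ T) (hS.union hT)
    (hgen.mono Set.subset_union_left) hram θ x hx hθ hθN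
  have hfin : {v ∈ S ∪ T | ¬ Split L v}.Finite := (hS.union hT).subset (Set.sep_subset _ _)
  have hT' : ∀ w ∈ hfin.toFinset, w ∈ T ∧ ¬ Split L w := by
    intro w hw
    rw [Set.Finite.mem_toFinset] at hw
    rcases hw.1 with h | h
    · exact absurd (hsplitS w h) hw.2
    · exact ⟨h, hw.2⟩
  have hTp : ∀ w ∈ T, ¬ Over w p := fun w hw h => (Set.disjoint_left.1 hdisj) hw (hSp w h)
  have key : ∀ w, w ∈ hfin.toFinset → ∃ g ∈ SU (S ∪ T), tame x w g ∉ LP p ζ w ∧
      ∀ w' ∈ T, w' ≠ w → tame x w' g ∈ LP p ζ w' := by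
    intro w hw
    obtain ⟨hwT, hns⟩ := hT' w hw
    exact exists_test p ζ hζ S T hgen hdisj hsurj x w hwT (hTp w hwT)
      (fun h => hns (split_of_mem_LP p ζ hζ θ x hθ hgenθ w h))
  choose! g hgU hgw hgw' using key
  have hdvd := pow_card_dvd_relIndex hp (SU (S ∪ T)) (fun w => (LP p ζ w).comap (tame x w)) g
    hfin.toFinset hgU (fun i hi j hj hne => hgw' i hi j (hT' j hj).1 hne) hgw
    (fun i _ => by
      rw [Subgroup.mem_comap, map_pow]
      exact pow_mem_LP p ζ i _)
  have hnorm : normSU L (S ∪ T) ≤ ⨅ w ∈ hfin.toFinset, (LP p ζ w).comap (tame x w) := by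
    intro y hy
    obtain ⟨z, _, rfl⟩ := hy
    simp only [Subgroup.mem_iInf, Subgroup.mem_comap]
    intro w hw
    obtain ⟨hwT, hns⟩ := hT' w hw
    exact tame_norm_mem_LP p hp2 ζ hζ hdeg θ x hθ w (hTp w hwT) hns z
  have hdvd2 := hdvd.trans (Subgroup.relIndex_dvd_of_le_left (SU (S ∪ T)) hnorm)
  have hle2 := Nat.le_of_dvd (Nat.pos_of_ne_zero h0) hdvd2
  rw [Set.ncard_eq_toFinset_card _ hfin] at hle
  have hpos : 0 < p ^ hfin.toFinset.card := pow_pos hp.pos _
  have h2 : 2 ≤ p := hp.two_le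
  nlinarith

end Fermat.Agent.CFT
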