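import Fermat.Agent.CFT.Basic
import Fermat.Agent.CFT.OrdGal
import Fermat.Agent.CFT.SUnitIface
import Fermat.Agent.CFT.LocalPower
import Fermat.Agent.CFT.TSelect
import Fermat.Agent.CFT.KeyLemma

set_option autoImplicit false

namespace Fermat.Agent.CFT

open IsDedekindDomain NumberField

namespace SI

/-- Abstract counting lemma: `A ≤ B`, `[G:A] ≤ p^(2n)`, `[X : A ∩ X] = p^(2n-1)`
imply `[G:B] ≤ [X : X ∩ B] * p`. -/
theorem index_le_relIndex_mul {G : Type*} [CommGroup G] (X A B : Subgroup G) (hAB : A ≤ B)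
    (p n : ℕ) (hp : 0 < p) (hA0 : A.index ≠ 0) (hA : A.index ≤ p ^ (n + 1))
    (hX : A.relIndex X = p ^ n) :
    B.index ≤ (X ⊓ B).relIndex X * p := by
  have h1 : A.relIndex (X ⊔ A) * (X ⊔ A).index = A.index :=
    Subgroup.relIndex_mul_index le_sup_right
  rw [Subgroup.relIndex_sup_right, hX] at h1
  have h2 : (X ⊔ A).index ≤ p := by
    have h3 : p ^ n * (X ⊔ A).index ≤ p ^ n * p := by
      rw [h1, ← pow_succ]; exact hA
    exact Nat.le_of_mul_le_mul_left h3 (pow_pos hp n)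
  have hfin : (X ⊔ A).FiniteIndex := by
    refine ⟨fun h0 => hA0 ?_⟩
    rw [← h1, h0, mul_zero]
  have h4 : (X ⊔ B).index ≤ (X ⊔ A).index :=
    Subgroup.index_antitone (sup_le_sup_left hAB X)
  have h5 : B.relIndex (X ⊔ B) * (X ⊔ B).index = B.index :=
    Subgroup.relIndex_mul_index le_sup_right
  rw [Subgroup.relIndex_sup_right] at h5
  rw [Subgroup.inf_relIndex_left, ← h5]
  exact Nat.mul_le_mul_left _ (h4.trans h2)

end SI

variable {M : Type*} [Field M] [NumberField M]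

namespace SI

/-- the residues mod `p` of the valuations at the places of `Si`. -/
noncomputable def ordModHom (p : ℕ) (Si : Set (Pl M)) : Mˣ →* Multiplicative (Si → ZMod p) where
  toFun x := Multiplicative.ofAdd fun v => ((ord v.1 (x : M) : ℤ) : ZMod p)
  map_one' := by
    ext v
    simp
  map_mul' x y := by
    rw [← ofAdd_add]
    congr 1
    ext v
    simp [ord_mul v.1 x.ne_zero y.ne_zero]

theorem ker_ordModHom (p : ℕ) (Si : Set (Pl M)) :
    (ordModHom p Si).ker = ⨅ v ∈ Si, PD p v := by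
  ext x
  simp only [MonoidHom.mem_ker, Subgroup.mem_iInf, mem_PD_iff]
  constructor
  · intro h v hv
    have := congrFun (Multiplicative.ofAdd.injective (h.trans ofAdd_zero.symm)) ⟨v, hv⟩
    exact (ZMod.intCast_zmod_eq_zero_iff_dvd _ _).mp this
  · intro h
    change Multiplicative.ofAdd _ = _
    rw [← ofAdd_zero]
    congr 1
    ext v
    exact (ZMod.intCast_zmod_eq_zero_iff_dvd _ _).mpr (h v.1 v.2)

theorem ordModHom_surjective (p : ℕ) [NeZero p] (Si : Set (Pl M)) (hSi : Si.Finite) :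
    Function.Surjective (ordModHom p Si) := by
  classical
  intro k
  obtain ⟨x, hx0, hx⟩ := exists_ord_eq hSi.toFinset
    (fun v => if h : v ∈ Si then ((Multiplicative.toAdd k ⟨v, h⟩ : ZMod p).val : ℤ) else 0)
  refine ⟨Units.mk0 x hx0, ?_⟩
  change Multiplicative.ofAdd _ = _
  rw [← ofAdd_toAdd k]
  congr 1
  ext v
  have := hx v.1 (hSi.mem_toFinset.mpr v.2)
  simp only [Units.val_mk0]
  rw [this, dif_pos v.2]
  simp

theorem index_iInf_PD (p : ℕ) [NeZero p] (Si : Set (Pl M)) (hSi : Si.Finite) :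
    (⨅ v ∈ Si, PD p v).index = p ^ Si.ncard := by
  classical
  have := hSi.fintype
  rw [← ker_ordModHom, Subgroup.index_ker,
    MonoidHom.range_eq_top.mpr (ordModHom_surjective p Si hSi)]
  rw [Subgroup.card_top, Nat.card_congr Multiplicative.toAdd, Nat.card_eq_fintype_card,
    Fintype.card_fun, ZMod.card, Set.ncard_eq_toFinset_card' Si, Set.toFinset_card]

theorem inf_eq_map_pow (p : ℕ) [Fact p.Prime] (hp2 : p ≠ 2) (ζ : M) (hζ : IsPrimitiveRoot ζ p)
    (S T : Set (Pl M)) (hS : S.Finite) (hT : T.Finite) (hgen : GenCl S)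
    (hSp : ∀ v : Pl M, Over v p → v ∈ S) (hdisj : Disjoint T S)
    (hsurj : SurjOn p ζ S T) :
    (⨅ v ∈ S, LP p ζ v) ⊓ SU (S ∪ T) = (SU (S ∪ T)).map (powMonoidHom p : Mˣ →* Mˣ) := by
  have hp0 : p ≠ 0 := (Fact.out : p.Prime).ne_zero
  ext x
  constructor
  · intro hx
    obtain ⟨hxA, hxX⟩ := Subgroup.mem_inf.mp hx
    have hloc : ∀ v ∈ S, x ∈ LP p ζ v := by
      intro v hv
      have := hxA
      simp only [Subgroup.mem_iInf] at this
      exact this v hv
    obtain ⟨y, rfl⟩ := (mem_PW_iff p x).mp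
      (keyLemma p hp2 ζ hζ S T hS hT hgen hSp hdisj hsurj x hxX hloc)
    refine ⟨y, ?_, rfl⟩
    intro v hv
    have h1 := hxX v hv
    rw [Units.val_pow_eq_pow_val, map_pow] at h1
    exact (pow_eq_one_iff_of_nonneg zero_le hp0).mp h1
  · rintro ⟨y, hy, rfl⟩
    refine Subgroup.mem_inf.mpr ⟨?_, Subgroup.pow_mem _ hy p⟩
    simp only [Subgroup.mem_iInf]
    intro v _
    exact pow_mem_LP p ζ v y

theorem index_iInf_LP (p : ℕ) [Fact p.Prime] (hp2 : p ≠ 2) (ζ : M) (hζ : IsPrimitiveRoot ζ p)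
    (S : Set (Pl M)) (hS : S.Finite) (hSp : ∀ v : Pl M, Over v p → v ∈ S) :
    (⨅ v ∈ S, LP p ζ v).index ≠ 0 ∧
      (⨅ v ∈ S, LP p ζ v).index ≤ p ^ (2 * (InfinitePlace.nrComplexPlaces M + S.ncard)) := by
  classical
  have := hS.fintype
  have e : (⨅ v ∈ S, LP p ζ v) = ⨅ v : S, LP p ζ v.1 := iInf_subtype'
  rw [e]
  refine ⟨Subgroup.index_iInf_ne_zero fun v => (LP_index_le p ζ hζ v.1).1, ?_⟩
  refine (Subgroup.index_iInf_le _).trans ?_
  calc ∏ v : S, (LP p ζ v.1).index ≤ ∏ v : S, p ^ 2 * locFac p v.1 :=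
        Finset.prod_le_prod' fun v _ => (LP_index_le p ζ hζ v.1).2
    _ = (p ^ 2) ^ S.ncard * ∏ v ∈ hS.toFinset, locFac p v := by
        rw [Finset.prod_mul_distrib, Finset.prod_const, Finset.card_univ,
          Set.ncard_eq_toFinset_card' S, Set.toFinset_card]
        congr 1
        rw [← Finset.prod_coe_sort hS.toFinset (fun v => locFac p v)]
        refine Fintype.prod_equiv (Equiv.subtypeEquivRight (fun v => by simp)) _ _ (fun v => rfl)
    _ = p ^ (2 * (InfinitePlace.nrComplexPlaces M + S.ncard)) := by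
        rw [prod_locFac p hS.toFinset (fun v hv => hS.mem_toFinset.mpr (hSp v hv)),
          finrank_eq_two_mul p hp2 ζ hζ, ← pow_mul, ← pow_add]
        congr 1
        ring

end SI

/-- **Second inequality, S-unit form.** -/
theorem secondInequality (p : ℕ) [Fact p.Prime] (hp2 : p ≠ 2) (ζ : M) (hζ : IsPrimitiveRoot ζ p)
    (S T : Set (Pl M)) (hS : S.Finite) (hT : T.Finite) (hgen : GenCl S)
    (hSp : ∀ v : Pl M, Over v p → v ∈ S) (hdisj : Disjoint T S)
    (hcard : T.ncard + 1 = InfinitePlace.nrComplexPlaces M + S.ncard)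
    (hsurj : SurjOn p ζ S T) (Si : Set (Pl M)) (hSi : Si ⊆ S) :
    p ^ Si.ncard ≤ ((SU (S ∪ T)) ⊓ ⨅ v ∈ Si, PD p v).relIndex (SU (S ∪ T)) * p := by
  have hpp : p.Prime := Fact.out
  have : NeZero p := ⟨hpp.ne_zero⟩
  rw [← SI.index_iInf_PD p Si (hS.subset hSi)]
  obtain ⟨hA0, hA⟩ := SI.index_iInf_LP p hp2 ζ hζ S hS hSp
  refine SI.index_le_relIndex_mul (SU (S ∪ T)) (⨅ v ∈ S, LP p ζ v) (⨅ v ∈ Si, PD p v) ?_ p
    (InfinitePlace.nrComplexPlaces M + S.ncard + T.ncard) hpp.pos hA0 ?_ ?_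
  · refine le_iInf₂ fun v hv => ?_
    exact (iInf₂_le v (hSi hv)).trans (LP_le_PD p ζ v)
  · refine hA.trans (le_of_eq ?_)
    congr 1
    omega
  · rw [← Subgroup.inf_relIndex_right,
      SI.inf_eq_map_pow p hp2 ζ hζ S T hS hT hgen hSp hdisj hsurj,
      relIndex_pow_SU p hp2 ζ hζ (S ∪ T) (hS.union hT),
      Set.ncard_union_eq hdisj.symm hS hT, add_assoc]

end Fermat.Agent.CFT
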