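import Fermat.Agent.CFT.Basic
import Fermat.Agent.CFT.OrdGal
import Fermat.Agent.CFT.SUnitIface
import Fermat.Agent.CFT.FI
import Fermat.Agent.CFT.LocalPower
import Fermat.Agent.CFT.TSelect
import Fermat.Agent.CFT.KeyLemma
import Fermat.Agent.CFT.SI
import Fermat.Agent.CFT.GenCl

set_option autoImplicit false

namespace Fermat.Agent.CFT

open IsDedekindDomain NumberField

variable {M : Type*} [Field M] [NumberField M] {M' : Type*} [Field M'] [NumberField M']
  [Algebra M M']

namespace HNT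

/-- Kummer generator of a Galois extension of prime degree. -/
theorem exists_kummer (p : ℕ) [Fact p.Prime] (ζ : M) (hζ : IsPrimitiveRoot ζ p)
    [IsGalois M M'] (hdeg : Module.finrank M M' = p) :
    ∃ (θ : M') (α : Mˣ), θ ^ p = algebraMap M M' α ∧ ∀ c : M, algebraMap M M' c ≠ θ := by
  have hp : p.Prime := Fact.out
  have hcard : Nat.card (M' ≃ₐ[M] M') = p := by rw [IsGalois.card_aut_eq_finrank, hdeg]
  have hcyc : IsCyclic (M' ≃ₐ[M] M') := isCyclic_of_prime_card hcard
  have hprim : (primitiveRoots (Module.finrank M M') M).Nonempty := by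
    rw [hdeg]
    exact ⟨ζ, (mem_primitiveRoots hp.pos).mpr hζ⟩
  obtain ⟨θ, ⟨a, ha⟩, htop⟩ := exists_root_adjoin_eq_top_of_isCyclic M M' hprim
  rw [hdeg] at ha
  have hnot : ∀ c : M, algebraMap M M' c ≠ θ := by
    intro c hc
    have hbot : IntermediateField.adjoin M {θ} = ⊥ := by
      rw [IntermediateField.adjoin_simple_eq_bot_iff, IntermediateField.mem_bot]
      exact ⟨c, hc⟩
    rw [hbot] at htop
    have h1 := IntermediateField.finrank_bot (F := M) (E := M')
    rw [htop, IntermediateField.finrank_top'] at h1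
    rw [hdeg] at h1
    exact hp.one_lt.ne' h1
  have hθ0 : θ ≠ 0 := by
    intro h
    exact hnot 0 (by rw [map_zero, h])
  have ha0 : a ≠ 0 := by
    intro h
    rw [h, map_zero] at ha
    exact pow_ne_zero p hθ0 ha.symm
  exact ⟨θ, Units.mk0 a ha0, ha.symm, hnot⟩

/-- norms of `S'`-units are `S`-units. -/
theorem norm_mem_SU [IsGalois M M'] (S : Set (Pl M)) {z : M'ˣ} (hz : z ∈ SU (upSet M' S)) :
    Units.map (Algebra.norm M : M' →* M) z ∈ SU S := by
  rw [mem_SU_iff] at hz ⊢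
  intro v hv
  obtain ⟨w, hw⟩ := exists_above (N' := M') v
  rw [← ord_algebraMap_eq_zero_iff hw]
  show ord w (algebraMap M M' (Algebra.norm M (z : M'))) = 0
  rw [ord_algebraMap_norm w z.ne_zero]
  apply Finset.sum_eq_zero
  intro σ _
  apply hz
  rintro ⟨v', hv', hab⟩
  have h1 : Above (σ⁻¹ • w) v := above_smul hw σ⁻¹
  rw [below_unique hab h1] at hv'
  exact hv hv'

/-- at a non split unramified place, norms have valuation divisible by `p`. -/
theorem norm_mem_PD (p : ℕ) [Fact p.Prime] [IsGalois M M'] (hdeg : Module.finrank M M' = p)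
    (hunr : ∀ w : Pl M', Unram M w) {v : Pl M} (hv : ¬ Split M' v) (z : M'ˣ) :
    Units.map (Algebra.norm M : M' →* M) z ∈ PD p v := by
  rw [mem_PD_iff]
  obtain ⟨w, hw⟩ := exists_above (N' := M') v
  show (p : ℤ) ∣ ord v (Algebra.norm M (z : M'))
  rw [← ord_algebraMap_of_unram hw (hunr w), ord_algebraMap_norm w z.ne_zero]
  have h1 : ∀ σ : M' ≃ₐ[M] M', ord (σ⁻¹ • w) (z : M') = ord w (z : M') := by
    intro σ
    rw [smul_eq_of_not_split (Fact.out : p.Prime) hdeg hw hv σ⁻¹]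
  rw [Finset.sum_congr rfl (fun σ _ => h1 σ), Finset.sum_const, Finset.card_univ,
    ← Nat.card_eq_fintype_card, IsGalois.card_aut_eq_finrank, hdeg, nsmul_eq_mul]
  exact Dvd.intro _ rfl

end HNT

/-- **Theorem A: Hasse norm theorem for unramified cyclic Kummer extensions of degree `p` in which
the places over `p` split.** -/
theorem hasseNorm (p : ℕ) [Fact p.Prime] (hp2 : p ≠ 2) (ζ : M) (hζ : IsPrimitiveRoot ζ p)
    [IsGalois M M'] (hdeg : Module.finrank M M' = p) (hunr : ∀ w : Pl M', Unram M w)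
    (hsplit : ∀ v : Pl M, Over v p → Split M' v)
    (β : Mˣ) (hβ : ∀ v : Pl M, ¬ Split M' v → (p : ℤ) ∣ ord v (β : M)) :
    ∃ δ : M', Algebra.norm M δ = (β : M) := by
  have hp : p.Prime := Fact.out
  obtain ⟨θ, α, hθ, hθM⟩ := HNT.exists_kummer (M' := M') p ζ hζ hdeg
  -- the set `S`
  have hS₀ : ({v : Pl M | Over v p} ∪ {v : Pl M | ord v (α : M) ≠ 0} ∪
      {v : Pl M | ord v (β : M) ≠ 0}).Finite :=
    ((finite_over p hp.ne_zero).union (finite_ord_ne_zero α.ne_zero)).union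
      (finite_ord_ne_zero β.ne_zero)
  obtain ⟨S, hS₀S, hS, hgen⟩ := exists_GenCl _ hS₀
  have hSp : ∀ v : Pl M, Over v p → v ∈ S := fun v hv => hS₀S (Or.inl (Or.inl hv))
  have hα : α ∈ SU S := by
    rw [mem_SU_iff]
    intro v hv
    by_contra h
    exact hv (hS₀S (Or.inl (Or.inr h)))
  have hβS : β ∈ SU S := by
    rw [mem_SU_iff]
    intro v hv
    by_contra h
    exact hv (hS₀S (Or.inr h))
  obtain ⟨T, hT, hdisj, hcard, hTsplit, hsurj⟩ :=
    exists_T p hp2 ζ hζ hdeg hunr S hS θ α hα hθ hθM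
  have hsub : S ⊆ S ∪ T := Set.subset_union_left
  -- first inequality
  obtain ⟨hFI0, hFI⟩ := firstInequality p hp2 hdeg ζ hζ (S ∪ T) (hS.union hT) (hgen.mono hsub)
    (fun w _ => hunr w) θ α (SU_mono hsub hα) hθ hθM
  set Si : Set (Pl M) := {v ∈ S | ¬ Split M' v} with hSi
  have hSi' : {v ∈ S ∪ T | ¬ Split M' v} = Si := by
    ext v
    simp only [hSi, Set.mem_ofPred_eq, Set.mem_union]
    constructor
    · rintro ⟨h1 | h1, h2⟩
      · exact ⟨h1, h2⟩
      · exact absurd (hTsplit v h1).1 h2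
    · rintro ⟨h1, h2⟩
      exact ⟨Or.inl h1, h2⟩
  rw [hSi'] at hFI
  -- second inequality
  have hSI := secondInequality p hp2 ζ hζ S T hS hT hgen hSp hdisj hcard hsurj Si
    (fun v hv => hv.1)
  set U := SU (S ∪ T) with hU
  set W := U ⊓ ⨅ v ∈ Si, PD p v with hW
  set H := normSU M' (S ∪ T) with hH
  have hHW : H ≤ W := by
    rintro x ⟨z, hz, rfl⟩
    refine Subgroup.mem_inf.mpr ⟨HNT.norm_mem_SU _ hz, ?_⟩
    refine Subgroup.mem_iInf.mpr fun v => Subgroup.mem_iInf.mpr fun hv => ?_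
    exact HNT.norm_mem_PD p hdeg hunr hv.2 z
  have hWU : W ≤ U := inf_le_left
  have hmul := Subgroup.relIndex_mul_relIndex H W U hHW hWU
  have hle : H.relIndex U ≤ W.relIndex U :=
    Nat.le_of_mul_le_mul_right (hFI.trans hSI) hp.pos
  have hWU0 : W.relIndex U ≠ 0 := by
    intro h
    rw [h, mul_zero] at hmul
    exact hFI0 hmul.symm
  have hone : H.relIndex W = 1 := by
    rw [← hmul] at hle
    have h1 : H.relIndex W * W.relIndex U ≤ 1 * W.relIndex U := by rwa [one_mul]
    have h2 := Nat.le_of_mul_le_mul_right h1 (Nat.pos_of_ne_zero hWU0)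
    have h3 : H.relIndex W ≠ 0 := by
      intro h
      rw [h, zero_mul] at hmul
      exact hFI0 hmul.symm
    omega
  have hWH : W ≤ H := Subgroup.relIndex_eq_one.mp hone
  have hβW : β ∈ W := by
    refine Subgroup.mem_inf.mpr ⟨SU_mono hsub hβS, ?_⟩
    refine Subgroup.mem_iInf.mpr fun v => Subgroup.mem_iInf.mpr fun hv => ?_
    exact hβ v hv.2
  obtain ⟨z, -, hz⟩ := hWH hβW
  exact ⟨(z : M'), by rw [← hz]; rfl⟩

end Fermat.Agent.CFT
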