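import Fermat.Agent.CFT.Basic
import Fermat.Agent.CFT.OrdGal
import Fermat.Agent.CFT.HNT

set_option autoImplicit false

namespace Fermat.Agent.CFT

open IsDedekindDomain NumberField Finset

namespace HNTsub

variable {Ω : Type*} [Field Ω] [NumberField Ω]

/-- every automorphism over the fixed field of `τ` is a natural power of `τ`. -/
theorem exists_pow_eq (τ : Ω ≃ₐ[ℚ] Ω)
    (σ : Ω ≃ₐ[IntermediateField.fixedField (Subgroup.zpowers τ)] Ω) :
    ∃ i : ℕ, σ.restrictScalars ℚ = τ ^ i := by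
  have h1 : σ.restrictScalars ℚ ∈
      (IntermediateField.fixedField (Subgroup.zpowers τ)).fixingSubgroup := by
    rw [IntermediateField.mem_fixingSubgroup_iff]
    intro x hx
    exact σ.commutes ⟨x, hx⟩
  rw [IntermediateField.fixingSubgroup_fixedField] at h1
  have h2 : σ.restrictScalars ℚ ∈ Submonoid.powers τ :=
    (isOfFinOrder_of_finite τ).mem_powers_iff_mem_zpowers.mpr h1
  obtain ⟨i, hi⟩ := h2
  exact ⟨i, hi.symm⟩

theorem restrictScalars_injective {K : IntermediateField ℚ Ω} {σ σ' : Ω ≃ₐ[K] Ω}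
    (h : σ.restrictScalars ℚ = σ'.restrictScalars ℚ) : σ = σ' := by
  ext x
  exact congrArg (fun f : Ω ≃ₐ[ℚ] Ω => f x) h

theorem mem_fixedField_of_fixed (τ : Ω ≃ₐ[ℚ] Ω) {x : Ω} (hx : τ x = x) :
    x ∈ IntermediateField.fixedField (Subgroup.zpowers τ) := by
  rw [IntermediateField.mem_fixedField_iff]
  intro f hf
  obtain ⟨n, rfl⟩ := Subgroup.mem_zpowers_iff.mp hf
  have : τ ∈ MulAction.stabilizer (Ω ≃ₐ[ℚ] Ω) x := by
    rw [MulAction.mem_stabilizer_iff]; exact hx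
  have h2 := Subgroup.zpow_mem _ this n
  rw [MulAction.mem_stabilizer_iff] at h2
  exact h2

/-- `τ` as an automorphism over its fixed field. -/
noncomputable def lift (τ : Ω ≃ₐ[ℚ] Ω) :
    Ω ≃ₐ[IntermediateField.fixedField (Subgroup.zpowers τ)] Ω :=
  IntermediateField.fixingSubgroupEquiv (IntermediateField.fixedField (Subgroup.zpowers τ))
    ⟨τ, by
      rw [IntermediateField.fixingSubgroup_fixedField]
      exact Subgroup.mem_zpowers τ⟩

theorem lift_apply (τ : Ω ≃ₐ[ℚ] Ω) (x : Ω) : lift τ x = τ x := rfl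

theorem lift_restrictScalars (τ : Ω ≃ₐ[ℚ] Ω) : (lift τ).restrictScalars ℚ = τ := by
  ext x; rfl

theorem lift_pow_apply (τ : Ω ≃ₐ[ℚ] Ω) (i : ℕ) (x : Ω) : (lift τ ^ i) x = (τ ^ i) x := by
  induction i generalizing x with
  | zero => rfl
  | succ n ih =>
    rw [pow_succ, pow_succ, AlgEquiv.mul_apply, AlgEquiv.mul_apply, ih, lift_apply]

theorem eq_lift_pow (τ : Ω ≃ₐ[ℚ] Ω)
    (σ : Ω ≃ₐ[IntermediateField.fixedField (Subgroup.zpowers τ)] Ω) :
    ∃ i : ℕ, σ = lift τ ^ i := by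
  obtain ⟨i, hi⟩ := exists_pow_eq τ σ
  refine ⟨i, ?_⟩
  ext x
  rw [lift_pow_apply, ← hi]
  rfl

theorem orderOf_lift (τ : Ω ≃ₐ[ℚ] Ω) : orderOf (lift τ) = orderOf τ := by
  apply orderOf_eq_orderOf_iff.mpr
  intro n
  constructor
  · intro h
    ext x
    rw [← lift_pow_apply, h]
    rfl
  · intro h
    ext x
    rw [lift_pow_apply, h]
    rfl

end HNTsub

open HNTsub in
/-- **Theorem A, automorphism form** (apply `hasseNorm` to `M = fixedField (zpowers τ) ⊆ Ω`). -/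
theorem hasseNorm_aut (p : ℕ) [Fact p.Prime] (hp2 : p ≠ 2) {Ω : Type*} [Field Ω] [NumberField Ω]
    (τ : Ω ≃ₐ[ℚ] Ω) (hτ : orderOf τ = p) (η : Ω) (hη : IsPrimitiveRoot η p) (hτη : τ η = η)
    (hunr : ∀ (P : Pl Ω) (i : ℕ), (∀ x : 𝓞 Ω, (τ ^ i) • x - x ∈ P.asIdeal) → τ ^ i = 1)
    (hsplit : ∀ P : Pl Ω, Over P p → ∀ i : ℕ, (τ ^ i) • P = P → τ ^ i = 1)
    (β : Ω) (hβ0 : β ≠ 0) (hτβ : τ β = β) (hβ : ∀ P : Pl Ω, τ • P = P → (p : ℤ) ∣ ord P β) :
    ∃ δ : Ω, δ ≠ 0 ∧ ∏ i ∈ range p, (τ ^ i) δ = β := by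
  classical
  have hp : p.Prime := Fact.out
  set M := IntermediateField.fixedField (Subgroup.zpowers τ) with hM
  have hdeg : Module.finrank M Ω = p := by
    rw [hM, IntermediateField.finrank_fixedField_eq_card, Nat.card_zpowers, hτ]
  have hgal : IsGalois M Ω := IsGalois.of_fixed_field Ω (Subgroup.zpowers τ)
  -- translation of automorphisms
  have key1 : ∀ σ : Ω ≃ₐ[M] Ω, ∀ i : ℕ, σ.restrictScalars ℚ = τ ^ i → τ ^ i = 1 → σ = 1 := by
    intro σ i hi h1
    apply restrictScalars_injective (K := M)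
    rw [hi, h1]
    rfl
  have hunr' : ∀ w : Pl Ω, Unram M w := by
    intro w σ hσ
    obtain ⟨i, hi⟩ := exists_pow_eq τ σ
    refine key1 σ i hi (hunr w i ?_)
    intro x
    have : (τ ^ i) • x = σ • x := by
      apply Subtype.ext
      show (τ ^ i) (x : Ω) = σ (x : Ω)
      rw [← hi]
      rfl
    rw [this]
    exact hσ x
  have hsplit' : ∀ v : Pl M, Over v p → Split Ω v := by
    intro v hv w hw σ hσ
    obtain ⟨i, hi⟩ := exists_pow_eq τ σ
    refine key1 σ i hi (hsplit w ((over_of_above hw p).mpr hv) i ?_)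
    rw [← hi, restrictScalars_smul]
    exact hσ
  let ζ : M := ⟨η, mem_fixedField_of_fixed τ hτη⟩
  have hζ : IsPrimitiveRoot ζ p := by
    have : (algebraMap M Ω) ζ = η := rfl
    exact IsPrimitiveRoot.of_map_of_injective (f := algebraMap M Ω)
      (hf := (algebraMap M Ω).injective) (by rw [this]; exact hη)
  let β₀ : M := ⟨β, mem_fixedField_of_fixed τ hτβ⟩
  have hβ₀ : β₀ ≠ 0 := by
    intro h
    exact hβ0 (congrArg Subtype.val h)
  let βu : Mˣ := Units.mk0 β₀ hβ₀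
  have hβ' : ∀ v : Pl M, ¬ Split Ω v → (p : ℤ) ∣ ord v (βu : M) := by
    intro v hv
    obtain ⟨w, hw⟩ := exists_above (N' := Ω) v
    have h1 := smul_eq_of_not_split hp hdeg hw hv (lift τ)
    have h2 : τ • w = w := by
      rw [← restrictScalars_smul, lift_restrictScalars] at h1
      exact h1
    have h3 := hβ w h2
    have h4 := ord_algebraMap_of_unram hw (hunr' w) β₀
    have h5 : algebraMap M Ω β₀ = β := rfl
    rw [h5] at h4
    rw [h4] at h3
    exact h3
  obtain ⟨δ, hδ⟩ := hasseNorm p hp2 ζ hζ hdeg hunr' hsplit' βu hβ'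
  have hδ0 : δ ≠ 0 := by
    rintro rfl
    rw [Algebra.norm_zero] at hδ
    exact hβ₀ hδ.symm
  refine ⟨δ, hδ0, ?_⟩
  have h6 : algebraMap M Ω (Algebra.norm M δ) = β := by
    rw [hδ]; rfl
  rw [Algebra.norm_eq_prod_automorphisms] at h6
  rw [← h6]
  have himg : (Finset.univ : Finset (Ω ≃ₐ[M] Ω)) =
      Finset.image (fun i => lift τ ^ i) (range p) := by
    ext σ
    simp only [Finset.mem_univ, Finset.mem_image, Finset.mem_range, true_iff]
    obtain ⟨i, hi⟩ := eq_lift_pow τ σ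
    refine ⟨i % p, Nat.mod_lt _ hp.pos, ?_⟩
    rw [hi, ← hτ, ← orderOf_lift, pow_mod_orderOf]
  rw [himg, Finset.prod_image]
  · apply Finset.prod_congr rfl
    intro i _
    rw [lift_pow_apply]
  · intro i hi j hj hij
    have hi' : i ∈ Set.Iio (orderOf (lift τ)) := by
      rw [orderOf_lift, hτ]; simpa using hi
    have hj' : j ∈ Set.Iio (orderOf (lift τ)) := by
      rw [orderOf_lift, hτ]; simpa using hj
    exact pow_injOn_Iio_orderOf hi' hj' hij

end Fermat.Agent.CFT
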