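import Fermat.Agent.CFT.Basic
import Fermat.Agent.CFT.OrdGal
import Fermat.Agent.CFT.UnitOf
import Fermat.Agent.CFT.Config
import Fermat.Agent.CFT.ConfigBasic
import Fermat.Agent.CFT.CycloAut
import Fermat.Agent.CFT.ChooseQ
import Fermat.Agent.CFT.HNTsub
import Fermat.Agent.CFT.Exchange

set_option autoImplicit false

namespace Fermat.Agent.CFT

open IsDedekindDomain NumberField Finset

variable {p : ℕ} [Fact p.Prime] {Ω : Type*} [Field Ω] [NumberField Ω] {ζ : Ω}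
  {χ : (Ω ≃ₐ[ℚ] Ω) →* (ZMod p)ˣ} {τ ρ : Ω ≃ₐ[ℚ] Ω}
variable {K : Type*} [Field K] [NumberField K] [Algebra K Ω]

/-- **Theorem A + exchange lemma.** -/
theorem QData.exists_gamma [IsGalois ℚ Ω] (hp2 : p ≠ 2)
    (cfg : Config p ζ χ τ ρ) (hK : FixK K χ) {𝔔 : Pl Ω} {q : ℕ} (qd : QData p χ τ ρ 𝔔 q)
    (β : Kˣ) (hβ : ∀ P : Pl Ω, ¬ Over P q → ord P (algebraMap K Ω β) = 0) :
    ∃ (γ : K) (μ : Ω), γ ≠ 0 ∧ μ ≠ 0 ∧ algebraMap K Ω γ = ∏ j ∈ range p, (ρ ^ j) μ ∧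
      ∀ (P : Pl Ω) (a b : ℕ), (τ ^ a * ρ ^ b) • P = P →
        (p : ℤ) ∣ (b : ℤ) * ord P (algebraMap K Ω γ) - (a : ℤ) * ord P (algebraMap K Ω β) := by
  have hp : p.Prime := Fact.out
  have hη : IsPrimitiveRoot (ζ ^ p) p :=
    cfg.hζ.pow (pow_pos hp.pos 2) (by rw [pow_two])
  have hτη : τ (ζ ^ p) = ζ ^ p := by rw [map_pow, cfg.τζ]
  have hβ0 : algebraMap K Ω (β : K) ≠ 0 := by
    simp
  have hunr : ∀ (P : Pl Ω) (i : ℕ), (∀ x : 𝓞 Ω, (τ ^ i) • x - x ∈ P.asIdeal) → τ ^ i = 1 := by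
    intro P i hi
    by_cases hP : Over P p
    · exact cfg.pτ P hP i (smul_eq_of_inertia P (τ ^ i) hi)
    · exact cfg.unr P hP (τ ^ i) hi
  obtain ⟨δ, hδ0, hδ⟩ := hasseNorm_aut p hp2 τ cfg.ordτ (ζ ^ p) hη hτη hunr cfg.pτ
    (algebraMap K Ω (β : K)) hβ0 (cfg.τ_algebraMap hK _) (by
      intro P hP
      have hPq : ¬ Over P q := fun h => qd.τ_smul_ne cfg P h hP
      rw [hβ P hPq]
      exact dvd_zero _)
  obtain ⟨μ, γ, hμ0, hγ, hτγ, hργ, hcong⟩ := exchange p τ ρ cfg.comm cfg.ordτ cfg.ordρ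
    (algebraMap K Ω (β : K)) δ hδ0 hδ (cfg.ρ_algebraMap hK _)
  obtain ⟨γ₀, hγ₀⟩ := cfg.mem_range_of_fixed hK hτγ hργ
  refine ⟨γ₀, μ, ?_, hμ0, ?_, ?_⟩
  · rintro rfl
    rw [map_zero] at hγ₀
    rw [← hγ₀] at hγ
    have : ∏ j ∈ range p, (ρ ^ j) μ ≠ 0 :=
      prod_ne_zero_iff.mpr fun j _ => (map_ne_zero (ρ ^ j)).mpr hμ0
    exact this hγ.symm
  · rw [hγ₀, hγ]
  · intro P a b hP
    rw [hγ₀]
    exact hcong P a b hP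

end Fermat.Agent.CFT
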