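import Fermat.Agent.CFT.Basic
import Fermat.Agent.CFT.OrdGal
import Fermat.Agent.CFT.UnitOf
import Fermat.Agent.CFT.Config
import Fermat.Agent.CFT.ConfigBasic
import Fermat.Agent.CFT.CycloAut
import Fermat.Agent.CFT.ChooseQ
import Fermat.Agent.CFT.ConfigFrob
import Fermat.Agent.CFT.Theta

set_option autoImplicit false

namespace Fermat.Agent.CFT

open IsDedekindDomain NumberField Finset

namespace ThetaGamma

/-- product of integer powers of a fixed group element -/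
theorem prod_zpow_eq_zpow_sum {ι G : Type*} [CommGroup G] (s : Finset ι) (g : G) (f : ι → ℤ) :
    ∏ i ∈ s, g ^ f i = g ^ ∑ i ∈ s, f i := by
  classical
  induction s using Finset.induction_on with
  | empty => simp
  | insert a s ha ih => rw [Finset.prod_insert ha, Finset.sum_insert ha, ih, zpow_add]

/-- Reindexing the sum over the units `c` with `2 c < p`. -/
theorem sum_units_eq (p : ℕ) [Fact p.Prime] :
    ∑ c : (ZMod p)ˣ, (((c : ZMod p).val : ZMod p) *
        ((if 2 * (c : ZMod p).val < p then (1 : ℤ) else 0 : ℤ) : ZMod p)) =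
      ∑ c ∈ Finset.Icc 1 ((p - 1) / 2), (c : ZMod p) := by
  classical
  have hp : p.Prime := Fact.out
  have h1 : ∑ c : (ZMod p)ˣ, (((c : ZMod p).val : ZMod p) *
        ((if 2 * (c : ZMod p).val < p then (1 : ℤ) else 0 : ℤ) : ZMod p)) =
      ∑ c ∈ Finset.univ.filter (fun c : (ZMod p)ˣ => 2 * (c : ZMod p).val < p),
        (((c : ZMod p).val : ℕ) : ZMod p) := by
    rw [Finset.sum_filter]
    refine Finset.sum_congr rfl fun c _ => ?_
    split_ifs <;> simp
  rw [h1]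
  refine Finset.sum_bij (fun c _ => (c : ZMod p).val) ?_ ?_ ?_ ?_
  · intro c hc
    rw [Finset.mem_filter] at hc
    rw [Finset.mem_Icc]
    have h0 : (c : ZMod p).val ≠ 0 := by
      rw [Ne, ZMod.val_eq_zero]
      exact c.ne_zero
    omega
  · intro c _ c' _ h
    exact Units.ext (ZMod.val_injective p h)
  · intro n hn
    rw [Finset.mem_Icc] at hn
    have hlt : n < p := by omega
    have hcop : n.Coprime p := by
      rw [Nat.coprime_comm]
      exact (Nat.Prime.coprime_iff_not_dvd hp).mpr (fun h => by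
        have := Nat.le_of_dvd (by omega) h
        omega)
    refine ⟨ZMod.unitOfCoprime n hcop, ?_, ?_⟩
    · rw [Finset.mem_filter]
      refine ⟨Finset.mem_univ _, ?_⟩
      rw [ZMod.coe_unitOfCoprime, ZMod.val_natCast_of_lt hlt]
      omega
    · rw [ZMod.coe_unitOfCoprime, ZMod.val_natCast_of_lt hlt]
  · intro c _
    rfl

end ThetaGamma

variable {p : ℕ} [Fact p.Prime] {Ω : Type*} [Field Ω] [NumberField Ω] {ζ : Ω}
  {χ : (Ω ≃ₐ[ℚ] Ω) →* (ZMod p)ˣ} {τ ρ : Ω ≃ₐ[ℚ] Ω}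
variable {K : Type*} [Field K] [NumberField K] [Algebra K Ω]

/-- **Computation of `Θ(γ)`.** -/
theorem QData.Theta_gamma [IsGalois ℚ Ω] (cfg : Config p ζ χ τ ρ) (hK : FixK K χ) {𝔔 : Pl Ω} {q : ℕ}
    (qd : QData p χ τ ρ 𝔔 q) (β : Kˣ)
    (hβ1 : ∀ P : Pl Ω, ¬ Over P q → ord P (algebraMap K Ω β) = 0)
    (hβ2 : ∀ s : Ω ≃ₐ[ℚ] Ω, ord (s⁻¹ • 𝔔) (algebraMap K Ω β) =
        if 2 * (χ s : ZMod p).val < p then 1 else 0)
    (γ : K) (hγ0 : γ ≠ 0)
    (hγ : ∀ (P : Pl Ω) (a b : ℕ), (τ ^ a * ρ ^ b) • P = P →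
        (p : ℤ) ∣ (b : ℤ) * ord P (algebraMap K Ω γ) - (a : ℤ) * ord P (algebraMap K Ω β)) :
    ∃ n : ℤ, Theta p γ = unitOf p q ^ n ∧
      (n : ZMod p) = ∑ c ∈ Finset.Icc 1 ((p - 1) / 2), (c : ZMod p) := by
  classical
  have hp : p.Prime := Fact.out
  choose s hs using cfg.exists_χ_eq
  choose v hv using fun c : (ZMod p)ˣ => exists_below (N := K) ((s c)⁻¹ • 𝔔)
  have hinj : Function.Injective v := by
    intro c c' h
    have h1 := qd.χ_eq_of_above cfg hK (hv c) (h ▸ hv c')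
    rwa [hs, hs] at h1
  -- the places `(s c)⁻¹ 𝔔` are not over `p`
  have hnp : ∀ σ : Ω ≃ₐ[ℚ] Ω, ¬ Over (σ • 𝔔) p := by
    intro σ h
    rw [over_smul_iff] at h
    exact qd.ne (over_unique 𝔔 qd.prime hp qd.overq h)
  have hout : ∀ v' : Pl K, v' ∉ Finset.univ.image v →
      (unitOf p (Ideal.absNorm v'.asIdeal)) ^ (ord v' γ) = 1 := by
    intro v' hv'
    by_cases hv'p : Over v' p
    · rw [unitOf_absNorm_of_over p hv'p, one_zpow]
    obtain ⟨P, hP⟩ := exists_above (N' := Ω) v'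
    have hPp : ¬ Over P p := by rwa [over_of_above hP]
    by_cases hPq : Over P q
    · exfalso
      obtain ⟨σ, hσ⟩ := exists_smul_eq_of_over qd.prime hPq qd.overq
      -- `σ • P = 𝔔`
      apply hv'
      rw [Finset.mem_image]
      refine ⟨χ σ, Finset.mem_univ _, ?_⟩
      have h1 : (s (χ σ))⁻¹ • 𝔔 = ((s (χ σ))⁻¹ * σ) • P := by
        rw [mul_smul, hσ]
      have h2 : χ ((s (χ σ))⁻¹ * σ) = 1 := by
        rw [map_mul, map_inv, hs, inv_mul_cancel]
      have h3 : Above ((s (χ σ))⁻¹ • 𝔔) v' := by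
        rw [h1]
        exact cfg.above_smul hK hP _ h2
      exact below_unique (hv (χ σ)) h3
    · obtain ⟨i, j, hij, hN⟩ := cfg.exists_frob hK hP hv'p
      have h1 := hγ P i j hij
      rw [hβ1 P hPq, mul_zero, sub_zero, cfg.ord_algebraMap hP hPp γ] at h1
      rw [hN, ← zpow_natCast, ← zpow_mul, unitOf_one_add_zpow_eq_one_iff]
      exact h1
  refine ⟨∑ c : (ZMod p)ˣ, ord (v c) γ, ?_, ?_⟩
  · rw [Theta_eq_prod p (Finset.univ.image v) hout, Finset.prod_image (fun c _ c' _ h => hinj h),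
      ← ThetaGamma.prod_zpow_eq_zpow_sum]
    refine Finset.prod_congr rfl fun c _ => ?_
    rw [qd.absNorm_eq cfg hK (s c)⁻¹ (hv c)]
  · rw [← ThetaGamma.sum_units_eq p, Int.cast_sum]
    refine Finset.sum_congr rfl fun c _ => ?_
    have h1 := hγ ((s c)⁻¹ • 𝔔) ((χ (s c) : ZMod p).val) 1 (qd.fix_conj cfg (s c))
    rw [hβ2 (s c), cfg.ord_algebraMap (hv c) (hnp _) γ, hs] at h1
    rw [← (ZMod.intCast_zmod_eq_zero_iff_dvd _ p)] at h1
    push_cast at h1 ⊢
    rw [one_mul, sub_eq_zero] at h1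
    exact h1

end Fermat.Agent.CFT
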