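import Fermat.Agent.CFT.Basic
import Fermat.Agent.CFT.OrdGal
import Fermat.Agent.CFT.UnitOf
import Fermat.Agent.CFT.Config
import Fermat.Agent.CFT.ConfigBasic
import Fermat.Agent.CFT.CycloAut
import Fermat.Agent.CFT.ChooseQ
import Fermat.Agent.CFT.Beta
import Fermat.Agent.CFT.Gamma
import Fermat.Agent.CFT.ThetaGamma
import Fermat.Agent.CFT.CycloRecip

set_option autoImplicit false

namespace Fermat.Agent.CFT

open IsDedekindDomain NumberField Finset

variable {p : ℕ} [Fact p.Prime] {Ω : Type*} [Field Ω] [NumberField Ω] {ζ : Ω}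
  {χ : (Ω ≃ₐ[ℚ] Ω) →* (ZMod p)ˣ} {τ ρ : Ω ≃ₐ[ℚ] Ω}

theorem FinalC.sum_Icc_mul_two (m : ℕ) : (∑ c ∈ Finset.Icc 1 m, c) * 2 = m * (m + 1) := by
  induction m with
  | zero => simp
  | succ k ih =>
    rw [Finset.sum_Icc_succ_top (by omega), add_mul, ih]
    ring

/-- `∑_{c ≤ (p-1)/2} c = (p²-1)/8` is a unit mod `p`. -/
theorem sum_Icc_ne_zero (hp2 : p ≠ 2) : (∑ c ∈ Finset.Icc 1 ((p - 1) / 2), (c : ZMod p)) ≠ 0 := by
  have hp : p.Prime := Fact.out
  intro h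
  rw [← Nat.cast_sum, ZMod.natCast_eq_zero_iff] at h
  have h2 := FinalC.sum_Icc_mul_two ((p - 1) / 2)
  have hdvd : p ∣ ((p - 1) / 2) * ((p - 1) / 2 + 1) := h2 ▸ Dvd.dvd.mul_right h 2
  have hp3 : 3 ≤ p := by
    have := hp.two_le
    omega
  rcases (Nat.Prime.dvd_mul hp).mp hdvd with h1 | h1
  · have := Nat.le_of_dvd (by omega) h1
    omega
  · have := Nat.le_of_dvd (by omega) h1
    omega

theorem Config.false_aux {K : Type*} [Field K] [NumberField K] [Algebra K Ω] [IsGalois ℚ Ω]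
    [IsCyclotomicExtension {p} ℚ K] (hp2 : p ≠ 2) (cfg : Config p ζ χ τ ρ) (hK : FixK K χ) :
    False := by
  obtain ⟨𝔔, q, qd⟩ := cfg.exists_QData
  obtain ⟨β, hβ1, hβ2⟩ := qd.exists_beta hp2 cfg hK
  obtain ⟨γ, μ, hγ0, hμ0, hγμ, hγ⟩ := qd.exists_gamma hp2 cfg hK β hβ1
  have hΘ : Theta p γ = 1 := cfg.cycloRecip hp2 hK hμ0 hγμ
  obtain ⟨n, hn, hnsum⟩ := qd.Theta_gamma cfg hK β hβ1 hβ2 γ hγ0 hγ
  obtain ⟨k, hk, hqk⟩ := qd.unit
  rw [hΘ, hqk, ← zpow_natCast, ← zpow_mul] at hn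
  have hdvd : (p : ℤ) ∣ (k : ℤ) * n := (unitOf_one_add_zpow_eq_one_iff p _).mp hn.symm
  have hp : Prime (p : ℤ) := Nat.prime_iff_prime_int.mp Fact.out
  rcases hp.dvd_or_dvd hdvd with h | h
  · exact hk (Int.natCast_dvd_natCast.mp h)
  · exact sum_Icc_ne_zero hp2 (hnsum ▸ (ZMod.intCast_zmod_eq_zero_iff_dvd n p).mpr h)

/-- **A `Config` does not exist.** (Instantiate `K = ℚ(ζ^p) ⊆ Ω`.) -/
theorem Config.false [IsGalois ℚ Ω] (hp2 : p ≠ 2) (cfg : Config p ζ χ τ ρ) : False := by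
  have hp : p.Prime := Fact.out
  have hη : IsPrimitiveRoot (ζ ^ p) p := by
    have := cfg.hζ.pow (n := p ^ 2) (a := p) (b := p) (pow_pos hp.pos 2) (by ring)
    exact this
  have : NeZero p := ⟨hp.ne_zero⟩
  have : IsCyclotomicExtension {p} ℚ (IntermediateField.adjoin ℚ {ζ ^ p}) :=
    hη.intermediateField_adjoin_isCyclotomicExtension ℚ
  refine Config.false_aux (K := IntermediateField.adjoin ℚ {ζ ^ p}) hp2 cfg ?_
  intro σ
  rw [cfg.χ_eq_one_iff]
  constructor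
  · intro h x
    have hx : (x : Ω) ∈ IntermediateField.adjoin ℚ {ζ ^ p} := x.2
    have key : ∀ y ∈ IntermediateField.adjoin ℚ {ζ ^ p}, σ y = y := by
      intro y hy
      induction hy using IntermediateField.adjoin_induction with
      | mem y hy => rw [Set.mem_singleton_iff.mp hy]; exact h
      | algebraMap y => exact σ.commutes y
      | add y z _ _ hy hz => rw [map_add, hy, hz]
      | inv y _ hy => rw [map_inv₀, hy]
      | mul y z _ _ hy hz => rw [map_mul, hy, hz]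
    exact key _ hx
  · intro h
    exact h ⟨ζ ^ p, IntermediateField.subset_adjoin ℚ _ (Set.mem_singleton _)⟩

end Fermat.Agent.CFT
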