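import Mathlib
import Fermat.Agent.Lib.Frobenius

/-!
# Lifting decomposition and inertia elements from a number field to an algebraic closure

`L` is a Galois (typically infinite) extension of `ℚ`, `Ω` a number field inside `L`, Galois over
`ℚ`.  For a prime `P` of `𝓞 Ω` and a valuation subring `A` of `L` above `P`, elements of the
decomposition (inertia) group of `P` lift to elements of the decomposition (inertia) group of `A`.
-/

set_option autoImplicit false

namespace Fermat.Agent.CFT.Lift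

open NumberField Fermat.Agent.Lib.Frobenius
open scoped Pointwise

variable {L : Type*} [Field L]

section Part1

variable [Algebra ℚ L] [Algebra.IsAlgebraic ℚ L]

/-- Criterion for membership in the decomposition group in terms of integral elements. -/
theorem mem_decomposition_of (A : ValuationSubring L) {ℓ : ℕ} (hℓ : ℓ.Prime)
    (hA : (ℓ : L) ∈ A.nonunits) (g : L ≃ₐ[ℚ] L)
    (hg : ∀ b : L, IsIntegral ℤ b → (g b ∈ A.nonunits ↔ b ∈ A.nonunits)) :
    g ∈ A.decompositionSubgroup ℚ := by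
  have hint : ∀ (τ : L ≃ₐ[ℚ] L) (b : L), IsIntegral ℤ b → IsIntegral ℤ (τ b) :=
    fun τ b hb => hb.map (τ.restrictScalars ℤ)
  have hmem : ∀ x ∈ A, g x ∈ A := by
    intro x hx
    obtain ⟨b, s, hb, hs, hsA, hxs⟩ := exists_mul_eq_of_mem A hℓ hA hx
    have hσs : g s ∉ A.nonunits := fun h => hsA ((hg s hs).mp h)
    have h2 : g x = g b * (g s)⁻¹ := by
      rw [← hxs, map_mul, mul_assoc, mul_inv_cancel₀ (ne_zero_of_not_mem_nonunits A hσs), mul_one]
    rw [h2]
    exact A.mul_mem _ _ (mem_of_isIntegral A (hint g b hb)) (inv_mem_of_not_mem_nonunits A hσs)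
  have hmem' : ∀ x ∈ A, g.symm x ∈ A := by
    intro x hx
    obtain ⟨b, s, hb, hs, hsA, hxs⟩ := exists_mul_eq_of_mem A hℓ hA hx
    have hσs : g.symm s ∉ A.nonunits := by
      intro h
      apply hsA
      have := (hg _ (hint g.symm s hs)).mpr h
      simpa using this
    have h2 : g.symm x = g.symm b * (g.symm s)⁻¹ := by
      rw [← hxs, map_mul, mul_assoc, mul_inv_cancel₀ (ne_zero_of_not_mem_nonunits A hσs), mul_one]
    rw [h2]
    exact A.mul_mem _ _ (mem_of_isIntegral A (hint g.symm b hb))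
      (inv_mem_of_not_mem_nonunits A hσs)
  rw [MulAction.mem_stabilizer_iff]
  ext x
  rw [ValuationSubring.mem_pointwise_smul_iff_inv_smul_mem]
  constructor
  · intro h
    have := hmem _ h
    simpa using this
  · intro h
    exact hmem' x h

/-- Criterion for membership in the inertia group in terms of integral elements. -/
theorem mem_inertia_of (A : ValuationSubring L) {ℓ : ℕ} (hℓ : ℓ.Prime)
    (hA : (ℓ : L) ∈ A.nonunits) (g : L ≃ₐ[ℚ] L)
    (hg : ∀ b : L, IsIntegral ℤ b → g b - b ∈ A.nonunits) :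
    g ∈ A.inertiaSubgroupIn ℚ := by
  have h1 : ∀ b : L, IsIntegral ℤ b → (g b ∈ A.nonunits ↔ b ∈ A.nonunits) := by
    intro b hb
    constructor
    · intro h
      have := A.nonunits.sub_mem h (hg b hb)
      simpa using this
    · intro h
      have := A.nonunits.add_mem (hg b hb) h
      simpa using this
  have hdec := mem_decomposition_of A hℓ hA g h1
  refine ⟨⟨g, hdec⟩, ?_, rfl⟩
  change (⟨g, hdec⟩ : A.decompositionSubgroup ℚ) ∈ MonoidHom.ker _
  rw [MonoidHom.mem_ker]
  ext xbar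
  obtain ⟨x, rfl⟩ := IsLocalRing.residue_surjective xbar
  change (⟨g, hdec⟩ : A.decompositionSubgroup ℚ) • (IsLocalRing.residue A x) = IsLocalRing.residue A x
  rw [← IsLocalRing.ResidueField.residue_smul, ← sub_eq_zero, ← map_sub,
    IsLocalRing.residue_eq_zero_iff, ← A.coe_mem_nonunits_iff]
  change g (x : L) - (x : L) ∈ A.nonunits
  obtain ⟨b, s, hb, hs, hsA, hxs⟩ := exists_mul_eq_of_mem A hℓ hA x.2
  have hσs : g s ∉ A.nonunits := fun h => hsA ((h1 s hs).mp h)
  have h3 : g (x : L) - (x : L) = (g s)⁻¹ * ((g b - b) - (x : L) * (g s - s)) := by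
    have hne := ne_zero_of_not_mem_nonunits A hσs
    rw [← hxs, map_mul]
    field_simp
    ring
  rw [h3]
  exact mul_mem_nonunits A (inv_mem_of_not_mem_nonunits A hσs)
    (A.nonunits.sub_mem (hg b hb) (mul_mem_nonunits A x.2 (hg s hs)))

end Part1

section Part2

variable (L) (Ω : Type*) [Field Ω] [NumberField Ω] [Algebra Ω L]

/-- The inclusion of the ring of integers of `Ω` in the ring of all algebraic integers of `L`. -/
noncomputable def toInt : 𝓞 Ω →+* intSubring L :=
  RingHom.codRestrict ((algebraMap Ω L).comp (algebraMap (𝓞 Ω) Ω)) (intSubring L)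
    (fun x => map_isIntegral_int (algebraMap Ω L) (RingOfIntegers.isIntegral_coe x))

/-- The algebra structure (to be used as a local instance). -/
noncomputable abbrev algInt : Algebra (𝓞 Ω) (intSubring L) := (toInt L Ω).toAlgebra

attribute [local instance] algInt

lemma coe_algebraMap_int (x : 𝓞 Ω) :
    ((algebraMap (𝓞 Ω) (intSubring L) x : intSubring L) : L) = algebraMap Ω L (x : Ω) := rfl

instance instIsInvariantSubringTop : IsInvariantSubring (L ≃ₐ[Ω] L) (intSubring L) where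
  smul_mem g x hx := by
    rw [mem_intSubring] at hx ⊢
    exact map_isIntegral_int g hx

lemma coe_smul_int (g : L ≃ₐ[Ω] L) (b : intSubring L) :
    ((g • b : intSubring L) : L) = g (b : L) := rfl

instance instSMulCommClassTop : SMulCommClass (L ≃ₐ[Ω] L) (𝓞 Ω) (intSubring L) where
  smul_comm g x b := by
    apply Subtype.ext
    rw [Algebra.smul_def, Algebra.smul_def, coe_smul_int]
    simp only [Subring.coe_mul, coe_algebraMap_int, coe_smul_int, map_mul, AlgEquiv.commutes]

variable [Algebra ℚ L] [IsGalois ℚ L]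

lemma isGalois_top : IsGalois Ω L := IsGalois.tower_top_of_isGalois ℚ Ω L

instance instIsInvariantTop : Algebra.IsInvariant (𝓞 Ω) (intSubring L) (L ≃ₐ[Ω] L) where
  isInvariant b hb := by
    have := isGalois_top L Ω
    have h1 : ∀ g : L ≃ₐ[Ω] L, g (b : L) = b := fun g => congrArg Subtype.val (hb g)
    obtain ⟨q, hq⟩ := (InfiniteGalois.mem_range_algebraMap_iff_fixed (k := Ω) (b : L)).mpr h1
    have h2 : IsIntegral ℤ q := by
      have := b.2
      rw [mem_intSubring, ← hq] at this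
      exact (isIntegral_algebraMap_iff (algebraMap Ω L).injective).mp this
    exact ⟨⟨q, h2⟩, Subtype.ext hq⟩

variable {L Ω}

/-- `A` lies above the prime `P` of `𝓞 Ω`. -/
def Above (A : ValuationSubring L) (P : Ideal (𝓞 Ω)) : Prop :=
  ∀ x : 𝓞 Ω, x ∈ P ↔ algebraMap Ω L (x : Ω) ∈ A.nonunits

omit [Algebra ℚ L] [IsGalois ℚ L] in
lemma Above.liesOver {A : ValuationSubring L} {P : Ideal (𝓞 Ω)} (h : Above A P) :
    (centre A).LiesOver P := by
  constructor
  ext x
  rw [Ideal.under_def, Ideal.mem_comap, mem_centre, coe_algebraMap_int]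
  exact h x

omit [Algebra ℚ L] [IsGalois ℚ L] in
/-- Existence of a valuation subring above a maximal ideal. -/
theorem exists_above (P : Ideal (𝓞 Ω)) [hP : P.IsMaximal] :
    ∃ A : ValuationSubring L, Above A P := by
  have hint : Algebra.IsIntegral (𝓞 Ω) (intSubring L) := by
    constructor
    intro b
    have h1 : IsIntegral ℤ b := Algebra.IsIntegral.isIntegral b
    exact h1.tower_top
  have hinj : Function.Injective (algebraMap (𝓞 Ω) (intSubring L)) := by
    intro x y hxy
    have := congrArg Subtype.val hxy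
    rw [coe_algebraMap_int, coe_algebraMap_int] at this
    exact RingOfIntegers.ext ((algebraMap Ω L).injective this)
  have : FaithfulSMul (𝓞 Ω) (intSubring L) := (faithfulSMul_iff_algebraMap_injective _ _).mpr hinj
  obtain ⟨Q, hQmax, hQ⟩ := Ideal.exists_maximal_ideal_liesOver_of_isIntegral (S := intSubring L) P
  obtain ⟨A, -, hA⟩ := Ideal.image_subset_nonunits_valuationSubring Q hQmax.ne_top
  refine ⟨A, fun x => ⟨fun hx => ?_, fun hx => ?_⟩⟩
  · apply hA
    refine ⟨algebraMap (𝓞 Ω) (intSubring L) x, ?_, rfl⟩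
    rw [hQ.over] at hx
    exact hx
  · have hle : P ≤ (centre A).comap (algebraMap (𝓞 Ω) (intSubring L)) := by
      intro y hy
      rw [Ideal.mem_comap, mem_centre]
      apply hA
      refine ⟨algebraMap (𝓞 Ω) (intSubring L) y, ?_, rfl⟩
      rw [hQ.over] at hy
      exact hy
    have hne : (centre A).comap (algebraMap (𝓞 Ω) (intSubring L)) ≠ ⊤ :=
      (Ideal.comap_isPrime _ _).ne_top
    have heq := hP.eq_of_le hne hle
    rw [heq, Ideal.mem_comap, mem_centre]
    exact hx

/-- The profinite-group package for `H = Gal(L/Ω)` acting on the algebraic integers. -/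
lemma continuousSMul_top [TopologicalSpace (intSubring L)] [DiscreteTopology (intSubring L)] :
    ContinuousSMul (L ≃ₐ[Ω] L) (intSubring L) := by
  have := isGalois_top L Ω
  rw [continuousSMul_iff_stabilizer_isOpen]
  intro b
  convert stabilizer_isOpen_of_isIntegral (K := Ω) (b : L) using 1
  ext g
  simp only [SetLike.mem_coe, MulAction.mem_stabilizer_iff]
  exact Subtype.ext_iff

variable [IsGalois ℚ Ω]

lemma restrict_apply (g : L ≃ₐ[ℚ] L) (x : Ω) :
    algebraMap Ω L (AlgEquiv.restrictNormalHom Ω g x) = g (algebraMap Ω L x) :=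
  AlgEquiv.restrictNormal_commutes g Ω x

lemma restrict_restrictScalars (h : L ≃ₐ[Ω] L) :
    AlgEquiv.restrictNormalHom Ω (h.restrictScalars ℚ) = 1 := by
  ext x
  apply (algebraMap Ω L).injective
  rw [restrict_apply]
  simp

lemma coe_smul_ringOfIntegers (s : Ω ≃ₐ[ℚ] Ω) (x : 𝓞 Ω) : ((s • x : 𝓞 Ω) : Ω) = s (x : Ω) := rfl

/-- Lifting an element of the decomposition group of `P` to the stabiliser of the centre. -/
theorem exists_lift_stab (A : ValuationSubring L) (P : Ideal (𝓞 Ω)) (hAP : Above A P)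
    (s : Ω ≃ₐ[ℚ] Ω) (hs : s • P = P) :
    ∃ g : L ≃ₐ[ℚ] L, g • centre A = centre A ∧ AlgEquiv.restrictNormalHom Ω g = s := by
  have := isGalois_top L Ω
  obtain ⟨g0, hg0⟩ := AlgEquiv.restrictNormalHom_surjective (F := ℚ) (K₁ := Ω) L s
  let _ : TopologicalSpace (intSubring L) := ⊥
  have : DiscreteTopology (intSubring L) := ⟨rfl⟩
  have := continuousSMul_top (L := L) (Ω := Ω)
  have hover := hAP.liesOver
  have hunder : (g0 • centre A).under (𝓞 Ω) = (centre A).under (𝓞 Ω) := by
    rw [← hover.over]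
    ext x
    rw [Ideal.under_def, Ideal.mem_comap, Ideal.mem_pointwise_smul_iff_inv_smul_mem, mem_centre,
      coe_smul_intSubring, coe_algebraMap_int, ← restrict_apply, map_inv, hg0]
    have h1 : (s⁻¹ (x : Ω)) = ((s⁻¹ • x : 𝓞 Ω) : Ω) := rfl
    rw [h1, ← hAP, ← Ideal.mem_pointwise_smul_iff_inv_smul_mem, hs]
  obtain ⟨h, hh⟩ := Algebra.IsInvariant.exists_smul_of_under_eq_of_profinite (A := 𝓞 Ω)
    (G := L ≃ₐ[Ω] L) (g0 • centre A) (centre A) hunder
  refine ⟨h.restrictScalars ℚ * g0, ?_, ?_⟩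
  · rw [mul_smul]
    conv_rhs => rw [hh]
    ext b
    rw [Ideal.mem_pointwise_smul_iff_inv_smul_mem, Ideal.mem_pointwise_smul_iff_inv_smul_mem (a := h)]
    rfl
  · rw [map_mul, restrict_restrictScalars, one_mul, hg0]

omit [IsGalois ℚ L] in
lemma smul_centre_iff {A : ValuationSubring L} {g : L ≃ₐ[ℚ] L} (hg : g • centre A = centre A)
    (b : L) (hb : IsIntegral ℤ b) : g b ∈ A.nonunits ↔ b ∈ A.nonunits := by
  have h1 : (⟨b, hb⟩ : intSubring L) ∈ centre A ↔ g • (⟨b, hb⟩ : intSubring L) ∈ g • centre A :=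
    (Ideal.smul_mem_pointwise_smul_iff).symm
  rw [hg, mem_centre, mem_centre] at h1
  exact h1.symm

/-- **Lifting decomposition elements.** -/
theorem lift_decomposition (A : ValuationSubring L) {ℓ : ℕ} (hℓ : ℓ.Prime)
    (hA : (ℓ : L) ∈ A.nonunits) (P : Ideal (𝓞 Ω)) (hAP : Above A P)
    (s : Ω ≃ₐ[ℚ] Ω) (hs : s • P = P) :
    ∃ g ∈ A.decompositionSubgroup ℚ, AlgEquiv.restrictNormalHom Ω g = s := by
  obtain ⟨g, hg, hgs⟩ := exists_lift_stab A P hAP s hs
  exact ⟨g, mem_decomposition_of A hℓ hA g (smul_centre_iff hg), hgs⟩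

/-- **Lifting inertia elements.** -/
theorem lift_inertia (A : ValuationSubring L) {ℓ : ℕ} (hℓ : ℓ.Prime)
    (hA : (ℓ : L) ∈ A.nonunits) (P : Ideal (𝓞 Ω)) (hAP : Above A P)
    (s : Ω ≃ₐ[ℚ] Ω) (hs : ∀ x : 𝓞 Ω, s • x - x ∈ P) :
    ∃ g ∈ A.inertiaSubgroupIn ℚ, AlgEquiv.restrictNormalHom Ω g = s := by
  have := isGalois_top L Ω
  have hsP : s • P = P := Ideal.inertia_le_stabilizer (M := Ω ≃ₐ[ℚ] Ω) P hs
  obtain ⟨g1, hg1, hg1s⟩ := exists_lift_stab A P hAP s hsP
  let _ : TopologicalSpace (intSubring L) := ⊥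
  have : DiscreteTopology (intSubring L) := ⟨rfl⟩
  have := continuousSMul_top (L := L) (Ω := Ω)
  have hover := hAP.liesOver
  set Q := centre A with hQ
  let f0 := Ideal.Quotient.stabilizerHom Q (Q.under ℤ) (L ≃ₐ[ℚ] L) ⟨g1, hg1⟩
  let l : (intSubring L ⧸ Q) ≃ₐ[𝓞 Ω ⧸ P] (intSubring L ⧸ Q) :=
    AlgEquiv.ofRingEquiv (f := f0.toRingEquiv) (by
      intro r
      obtain ⟨x, rfl⟩ := Ideal.Quotient.mk_surjective r
      change Ideal.Quotient.mk Q (g1 • algebraMap (𝓞 Ω) (intSubring L) x) =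
        Ideal.Quotient.mk Q (algebraMap (𝓞 Ω) (intSubring L) x)
      rw [Ideal.Quotient.eq, hQ, mem_centre]
      change g1 (algebraMap Ω L (x : Ω)) - algebraMap Ω L (x : Ω) ∈ A.nonunits
      rw [← restrict_apply, hg1s, ← map_sub]
      exact (hAP (s • x - x)).mp (hs x))
  obtain ⟨h', hh'⟩ := Ideal.Quotient.stabilizerHom_surjective_of_profinite
    (G := L ≃ₐ[Ω] L) P Q l
  refine ⟨(h'.1.restrictScalars ℚ)⁻¹ * g1, ?_, ?_⟩
  · apply mem_inertia_of A hℓ hA
    intro b hb
    have h1 := DFunLike.congr_fun hh' (Ideal.Quotient.mk Q ⟨b, hb⟩)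
    have h2 : l (Ideal.Quotient.mk Q ⟨b, hb⟩) = Ideal.Quotient.mk Q (g1 • ⟨b, hb⟩) := rfl
    rw [h2, Ideal.Quotient.stabilizerHom_apply, Ideal.Quotient.eq] at h1
    -- `h' b - g1 b ∈ Q`; apply `h'⁻¹`
    have h3 : h'.1⁻¹ • (h' • (⟨b, hb⟩ : intSubring L) - g1 • ⟨b, hb⟩) ∈ h'.1⁻¹ • Q :=
      Ideal.smul_mem_pointwise_smul_iff.mpr h1
    have h4 : h'.1⁻¹ • Q = Q := by
      have := h'.2
      rw [MulAction.mem_stabilizer_iff] at this
      rw [inv_smul_eq_iff, this]
    rw [h4] at h3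
    have h3' := (mem_centre A _).mp h3
    have h5 : ((h'.1⁻¹ • (h' • (⟨b, hb⟩ : intSubring L) - g1 • ⟨b, hb⟩) : intSubring L) : L) =
        b - h'.1⁻¹ (g1 b) := by
      rw [smul_sub]
      change h'.1⁻¹ (h'.1 b) - h'.1⁻¹ (g1 b) = _
      congr 1
      change (h'.1⁻¹ * h'.1) b = b
      simp
    rw [h5] at h3'
    have h6 := A.nonunits.neg_mem h3'
    rw [neg_sub] at h6
    exact h6
  · rw [map_mul, map_inv, restrict_restrictScalars, inv_one, one_mul, hg1s]

end Part2

end Fermat.Agent.CFT.Lift
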