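import Fermat.Agent.CFT.Basic
import Fermat.Agent.CFT.OrdGal
import Fermat.Agent.CFT.SUnitRank

set_option autoImplicit false

namespace Fermat.Agent.CFT

open IsDedekindDomain NumberField

variable {N : Type*} [Field N] [NumberField N]

namespace SUnitRankMain

theorem SU_eq_sUnits (S : Set (Pl N)) (hS : S.Finite) : SU S = sUnits N hS.toFinset := by
  ext x
  have : ((hS.toFinset : Finset (Pl N)) : Set (Pl N)) = S := hS.coe_toFinset
  change (∀ v, v ∉ S → v.valuation N (x : N) = 1) ↔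
    (∀ v, v ∉ ((hS.toFinset : Finset (Pl N)) : Set (Pl N)) → v.valuation N (x : N) = 1)
  rw [this]

theorem relIndex_map_pow {G : Type*} [CommGroup G] (K : Subgroup G) (p : ℕ) :
    (K.map (powMonoidHom p : G →* G)).relIndex K = powIndex K p := by
  unfold powIndex Subgroup.relIndex
  congr 1
  ext x
  simp only [Subgroup.mem_subgroupOf, Subgroup.mem_map, MonoidHom.mem_range, powMonoidHom_apply]
  constructor
  · rintro ⟨y, hy, hyx⟩
    exact ⟨⟨y, hy⟩, Subtype.ext hyx⟩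
  · rintro ⟨y, hyx⟩
    exact ⟨y, y.2, by rw [← hyx]; rfl⟩

theorem nrRealPlaces_eq_zero (p : ℕ) [Fact p.Prime] (hp2 : p ≠ 2) (ζ : N)
    (hζ : IsPrimitiveRoot ζ p) : InfinitePlace.nrRealPlaces N = 0 := by
  classical
  rw [Fintype.card_eq_zero_iff]
  refine ⟨fun ⟨w, hw⟩ => ?_⟩
  have hp : p.Prime := Fact.out
  have hodd : Odd p := hp.odd_of_ne_two hp2
  let φ : N →+* ℝ := (InfinitePlace.isReal_iff.mp hw).embedding
  have h1 : (φ ζ) ^ p = (1 : ℝ) ^ p := by
    rw [← map_pow, hζ.pow_eq_one, map_one, one_pow]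
  have h2 : φ ζ = 1 := hodd.strictMono_pow.injective h1
  have h3 : ζ = 1 := φ.injective (by rw [h2, map_one])
  exact hp.one_lt.ne' (hζ.unique (h3 ▸ IsPrimitiveRoot.one))

end SUnitRankMain

open SUnitRankMain

/-- **S-unit theorem mod `p`.** If `N ∋ ζ_p`, `p` odd (so `N` is totally complex), then
`|U_S / U_S^p| = p^(r₂ + |S|)`. -/
theorem relIndex_pow_SU (p : ℕ) [Fact p.Prime] (hp2 : p ≠ 2) (ζ : N) (hζ : IsPrimitiveRoot ζ p)
    (S : Set (Pl N)) (hS : S.Finite) :
    ((SU S).map (powMonoidHom p : Nˣ →* Nˣ)).relIndex (SU S) =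
      p ^ (InfinitePlace.nrComplexPlaces N + S.ncard) := by
  have hp : p.Prime := Fact.out
  have : NeZero p := ⟨hp.ne_zero⟩
  rw [relIndex_map_pow, SU_eq_sUnits S hS, powIndex_sUnits_of_isPrimitiveRoot N hS.toFinset p hζ]
  congr 1
  have h1 : Units.rank N + 1 = InfinitePlace.nrComplexPlaces N := by
    have h2 := InfinitePlace.card_eq_nrRealPlaces_add_nrComplexPlaces N
    rw [nrRealPlaces_eq_zero p hp2 ζ hζ, zero_add] at h2
    have h3 : 0 < Fintype.card (InfinitePlace N) := Fintype.card_pos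
    unfold Units.rank
    omega
  rw [Set.ncard_eq_toFinset_card S hS]
  omega

/-- `[N : ℚ] = 2 r₂` when `N ∋ ζ_p`, `p` odd. -/
theorem finrank_eq_two_mul (p : ℕ) [Fact p.Prime] (hp2 : p ≠ 2) (ζ : N) (hζ : IsPrimitiveRoot ζ p) :
    Module.finrank ℚ N = 2 * InfinitePlace.nrComplexPlaces N := by
  rw [← InfinitePlace.card_add_two_mul_card_eq_rank N, nrRealPlaces_eq_zero p hp2 ζ hζ, zero_add]

end Fermat.Agent.CFT
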