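import Fermat.Agent.CFT.Basic

/-!
# Theorem C, part 1: the structure of the Galois group

Under the hypotheses of Theorem C the group `Γ = Gal(Ω/ℚ)` embeds in `(ℤ/p²)ˣ ⋉ 𝔽_p` through
`σ ↦ (ψ σ, b σ)`.
-/

set_option autoImplicit false
set_option linter.unusedSectionVars false

namespace Fermat.Agent.CFT

open IsDedekindDomain NumberField Finset

lemma prim_pow_eq_iff {R : Type*} [CommRing R] {ξ : R} {k : ℕ} (h : IsPrimitiveRoot ξ k)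
    (hk : 0 < k) {n m : ℕ} : ξ ^ n = ξ ^ m ↔ n ≡ m [MOD k] := by
  rw [← pow_mod_orderOf ξ n, ← pow_mod_orderOf ξ m, ← h.eq_orderOf]
  constructor
  · exact fun H => h.pow_inj (Nat.mod_lt _ hk) (Nat.mod_lt _ hk) H
  · intro H
    rw [H]

/-- The hypotheses of Theorem C. -/
structure IsC (p : ℕ) [Fact p.Prime] {Ω : Type*} [Field Ω] [NumberField Ω] [IsGalois ℚ Ω]
    (ζ : Ω) (χ : (Ω ≃ₐ[ℚ] Ω) →* (ZMod p)ˣ) (b : (Ω ≃ₐ[ℚ] Ω) → ZMod p) : Prop where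
  hζ : IsPrimitiveRoot ζ (p ^ 2)
  hχ : ∀ σ : Ω ≃ₐ[ℚ] Ω, σ (ζ ^ p) = (ζ ^ p) ^ ((χ σ : ZMod p).val)
  hb : ∀ σ₁ σ₂ : Ω ≃ₐ[ℚ] Ω, b (σ₁ * σ₂) = b σ₂ + (χ σ₂ : ZMod p) * b σ₁
  hfaith : ∀ σ : Ω ≃ₐ[ℚ] Ω, σ ζ = ζ → b σ = 0 → σ = 1
  hunr : ∀ P : Pl Ω, ¬ Over P p → ∀ σ : Ω ≃ₐ[ℚ] Ω,
      (∀ x : 𝓞 Ω, σ • x - x ∈ P.asIdeal) → b σ = 0
  hsplit : ∀ P : Pl Ω, Over P p → ∀ σ : Ω ≃ₐ[ℚ] Ω, σ • P = P → χ σ = 1 → b σ = 0

namespace IsC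

variable {p : ℕ} [Fact p.Prime] {Ω : Type*} [Field Ω] [NumberField Ω] [IsGalois ℚ Ω]
  {ζ : Ω} {χ : (Ω ≃ₐ[ℚ] Ω) →* (ZMod p)ˣ} {b : (Ω ≃ₐ[ℚ] Ω) → ZMod p}

lemma b_one (H : IsC p ζ χ b) : b 1 = 0 := by
  have h := H.hb 1 1
  rw [mul_one, map_one, Units.val_one, one_mul] at h
  exact left_eq_add.mp h

lemma b_mul_of_ker (H : IsC p ζ χ b) (σ₁ : Ω ≃ₐ[ℚ] Ω) {σ₂ : Ω ≃ₐ[ℚ] Ω} (h₂ : χ σ₂ = 1) :
    b (σ₁ * σ₂) = b σ₁ + b σ₂ := by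
  rw [H.hb, h₂, Units.val_one, one_mul, add_comm]

lemma b_pow (H : IsC p ζ χ b) {σ : Ω ≃ₐ[ℚ] Ω} (h : χ σ = 1) (n : ℕ) :
    b (σ ^ n) = n * b σ := by
  induction n with
  | zero => simp [H.b_one]
  | succ n ih => rw [pow_succ, H.b_mul_of_ker _ h, ih]; push_cast; ring

lemma b_inv (H : IsC p ζ χ b) (σ : Ω ≃ₐ[ℚ] Ω) :
    b σ⁻¹ = - ((χ σ)⁻¹ : (ZMod p)ˣ) * b σ := by
  have h := H.hb σ⁻¹ σ
  rw [inv_mul_cancel, H.b_one] at h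
  have h2 : (χ σ : ZMod p) * b σ⁻¹ = - b σ := by linear_combination -h
  calc b σ⁻¹ = (((χ σ)⁻¹ : (ZMod p)ˣ) : ZMod p) * ((χ σ : ZMod p) * b σ⁻¹) := by
        rw [← mul_assoc, ← Units.val_mul, inv_mul_cancel, Units.val_one, one_mul]
    _ = - ((χ σ)⁻¹ : (ZMod p)ˣ) * b σ := by rw [h2]; ring

/-- Extensionality: an element of `Γ` is determined by its action on `ζ` and by `b`. -/
lemma ext (H : IsC p ζ χ b) {σ σ' : Ω ≃ₐ[ℚ] Ω} (hχ : χ σ = χ σ') (h1 : σ ζ = σ' ζ)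
    (h2 : b σ = b σ') : σ = σ' := by
  have h3 : σ'⁻¹ * σ = 1 := by
    apply H.hfaith
    · rw [AlgEquiv.mul_apply, h1]
      change (σ'⁻¹ * σ') ζ = ζ
      simp
    · rw [H.hb, H.b_inv, hχ, h2]
      have : (χ σ' : ZMod p) * (((χ σ')⁻¹ : (ZMod p)ˣ) : ZMod p) = 1 := by
        rw [← Units.val_mul, mul_inv_cancel, Units.val_one]
      linear_combination (- b σ') * this
  calc σ = σ' * (σ'⁻¹ * σ) := by group
    _ = σ' := by rw [h3, mul_one]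

lemma hη (H : IsC p ζ χ b) : IsPrimitiveRoot (ζ ^ p) p :=
  H.hζ.pow (pow_pos (Fact.out : p.Prime).pos 2) (by ring)

/-- `χ` is determined by the action on `ζ`. -/
lemma chi_eq_of (H : IsC p ζ χ b) {σ σ' : Ω ≃ₐ[ℚ] Ω} (h1 : σ ζ = σ' ζ) : χ σ = χ σ' := by
  have hp : p.Prime := Fact.out
  have : NeZero p := ⟨hp.ne_zero⟩
  have h2 : σ (ζ ^ p) = σ' (ζ ^ p) := by rw [map_pow, map_pow, h1]
  rw [H.hχ, H.hχ] at h2
  have h3 := H.hη.pow_inj (ZMod.val_lt _) (ZMod.val_lt _) h2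
  exact Units.ext (ZMod.val_injective p h3)

lemma ext' (H : IsC p ζ χ b) {σ σ' : Ω ≃ₐ[ℚ] Ω} (h1 : σ ζ = σ' ζ) (h2 : b σ = b σ') : σ = σ' :=
  H.ext (H.chi_eq_of h1) h1 h2

/-- `χ σ = m` if `σ ζ = ζ ^ m`. -/
lemma chi_of_pow (H : IsC p ζ χ b) {σ : Ω ≃ₐ[ℚ] Ω} {m : ℕ} (h : σ ζ = ζ ^ m) :
    (χ σ : ZMod p) = m := by
  have hp : p.Prime := Fact.out
  have : NeZero p := ⟨hp.ne_zero⟩
  have h2 : (ζ ^ p) ^ ((χ σ : ZMod p).val) = (ζ ^ p) ^ m := by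
    rw [← H.hχ, map_pow, h, ← pow_mul, ← pow_mul, mul_comm]
  have h3 := (prim_pow_eq_iff H.hη hp.pos).mp h2
  have h4 := (ZMod.natCast_eq_natCast_iff _ _ _).mpr h3
  rwa [ZMod.natCast_zmod_val] at h4

/-- Every `σ` acts on `ζ` by a power. -/
lemma exists_pow (H : IsC p ζ χ b) (σ : Ω ≃ₐ[ℚ] Ω) : ∃ m : ℕ, σ ζ = ζ ^ m := by
  have hp : p.Prime := Fact.out
  have : NeZero (p ^ 2) := ⟨pow_ne_zero _ hp.ne_zero⟩
  have h1 : (σ ζ) ^ (p ^ 2) = 1 := by rw [← map_pow, H.hζ.pow_eq_one, map_one]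
  obtain ⟨m, -, hm⟩ := H.hζ.eq_pow_of_pow_eq_one h1
  exact ⟨m, hm.symm⟩

/-- The actions on `ζ` commute. -/
lemma apply_comm (H : IsC p ζ χ b) (σ σ' : Ω ≃ₐ[ℚ] Ω) : σ (σ' ζ) = σ' (σ ζ) := by
  obtain ⟨m, hm⟩ := H.exists_pow σ
  obtain ⟨m', hm'⟩ := H.exists_pow σ'
  rw [hm, hm', map_pow, map_pow, hm, hm', ← pow_mul, ← pow_mul, mul_comm]

lemma b_conj (H : IsC p ζ χ b) (s : Ω ≃ₐ[ℚ] Ω) {t : Ω ≃ₐ[ℚ] Ω} (ht : χ t = 1) :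
    b (s * t * s⁻¹) = ((χ s)⁻¹ : (ZMod p)ˣ) * b t := by
  rw [H.hb, H.hb, H.b_inv, ht, map_inv, Units.val_one]
  ring

lemma b_conj' (H : IsC p ζ χ b) (s : Ω ≃ₐ[ℚ] Ω) {t : Ω ≃ₐ[ℚ] Ω} (ht : χ t = 1) :
    b (s⁻¹ * t * s) = (χ s : ZMod p) * b t := by
  have := H.b_conj s⁻¹ ht
  rwa [inv_inv, map_inv, inv_inv] at this

/-- The `p²`-cyclotomic character. -/
noncomputable def psi (H : IsC p ζ χ b) : (Ω ≃ₐ[ℚ] Ω) →* (ZMod (p ^ 2))ˣ :=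
  haveI : NeZero (p ^ 2) := ⟨pow_ne_zero _ (Fact.out : p.Prime).ne_zero⟩
  H.hζ.autToPow ℚ

lemma psi_spec (H : IsC p ζ χ b) (σ : Ω ≃ₐ[ℚ] Ω) :
    ζ ^ ((H.psi σ : ZMod (p ^ 2)).val) = σ ζ := by
  have : NeZero (p ^ 2) := ⟨pow_ne_zero _ (Fact.out : p.Prime).ne_zero⟩
  exact H.hζ.autToPow_spec ℚ σ

lemma psi_eq_iff (H : IsC p ζ χ b) {σ σ' : Ω ≃ₐ[ℚ] Ω} : H.psi σ = H.psi σ' ↔ σ ζ = σ' ζ := by
  have : NeZero (p ^ 2) := ⟨pow_ne_zero _ (Fact.out : p.Prime).ne_zero⟩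
  constructor
  · intro h
    rw [← H.psi_spec, ← H.psi_spec, h]
  · intro h
    rw [← H.psi_spec, ← H.psi_spec] at h
    exact Units.ext (ZMod.val_injective _ (H.hζ.pow_inj (ZMod.val_lt _) (ZMod.val_lt _) h))

lemma psi_eq_one_iff (H : IsC p ζ χ b) {σ : Ω ≃ₐ[ℚ] Ω} : H.psi σ = 1 ↔ σ ζ = ζ := by
  rw [← map_one H.psi, H.psi_eq_iff]
  rfl

lemma psi_of_pow (H : IsC p ζ χ b) {σ : Ω ≃ₐ[ℚ] Ω} {m : ℕ} (h : σ ζ = ζ ^ m) :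
    (H.psi σ : ZMod (p ^ 2)) = m := by
  have hp : p.Prime := Fact.out
  have : NeZero (p ^ 2) := ⟨pow_ne_zero _ hp.ne_zero⟩
  rw [← H.psi_spec] at h
  have h3 := (prim_pow_eq_iff H.hζ (pow_pos hp.pos 2)).mp h
  have h4 := (ZMod.natCast_eq_natCast_iff _ _ _).mpr h3
  rwa [ZMod.natCast_zmod_val] at h4

lemma ext_psi (H : IsC p ζ χ b) {σ σ' : Ω ≃ₐ[ℚ] Ω} (h1 : H.psi σ = H.psi σ') (h2 : b σ = b σ') :
    σ = σ' := H.ext' (H.psi_eq_iff.mp h1) h2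

lemma unitsMap_psi (H : IsC p ζ χ b) (σ : Ω ≃ₐ[ℚ] Ω) :
    ZMod.unitsMap (Dvd.intro_left p (by ring : p * p = p ^ 2)) (H.psi σ) = χ σ := by
  ext
  rw [ZMod.unitsMap_val, H.chi_of_pow (H.psi_spec σ).symm, ZMod.natCast_val]

open Polynomial in
/-- Existence of automorphisms (irreducibility of the cyclotomic polynomial). -/
lemma exists_aut (H : IsC p ζ χ b) {m : ℕ} (hm : m.Coprime p) : ∃ σ : Ω ≃ₐ[ℚ] Ω, σ ζ = ζ ^ m := by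
  have hp : p.Prime := Fact.out
  have hpos : 0 < p ^ 2 := pow_pos hp.pos 2
  have hprim : IsPrimitiveRoot (ζ ^ m) (p ^ 2) := H.hζ.pow_of_coprime m (hm.pow_right 2)
  apply minpoly.exists_algEquiv_of_root' (Algebra.IsAlgebraic.isAlgebraic ζ)
  rw [← cyclotomic_eq_minpoly_rat H.hζ hpos, aeval_def, eval₂_eq_eval_map, map_cyclotomic]
  exact hprim.isRoot_cyclotomic hpos

lemma psi_surjective (H : IsC p ζ χ b) : Function.Surjective H.psi := by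
  have hp : p.Prime := Fact.out
  have : NeZero (p ^ 2) := ⟨pow_ne_zero _ hp.ne_zero⟩
  intro u
  have hcop : ((u : ZMod (p ^ 2)).val).Coprime (p ^ 2) := ZMod.val_coe_unit_coprime u
  have hcop' : ((u : ZMod (p ^ 2)).val).Coprime p :=
    Nat.Coprime.coprime_dvd_right (Dvd.intro_left p (by ring : p * p = p ^ 2)) hcop
  obtain ⟨σ, hσ⟩ := H.exists_aut hcop'
  refine ⟨σ, Units.ext ?_⟩
  rw [H.psi_of_pow hσ, ZMod.natCast_zmod_val]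

lemma chi_surjective (H : IsC p ζ χ b) : Function.Surjective χ := by
  have hp : p.Prime := Fact.out
  have : NeZero (p ^ 2) := ⟨pow_ne_zero _ hp.ne_zero⟩
  intro u
  obtain ⟨v, hv⟩ := ZMod.unitsMap_surjective (Dvd.intro_left p (by ring : p * p = p ^ 2)) u
  obtain ⟨σ, hσ⟩ := H.psi_surjective v
  exact ⟨σ, by rw [← H.unitsMap_psi, hσ, hv]⟩

end IsC

/-- The kernel of `(ℤ/p²)ˣ → (ℤ/p)ˣ`. -/
noncomputable def U1 (p : ℕ) : Subgroup (ZMod (p ^ 2))ˣ :=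
  (ZMod.unitsMap (Dvd.intro_left p (by ring : p * p = p ^ 2))).ker

lemma card_U1 (p : ℕ) [Fact p.Prime] : Nat.card (U1 p) = p := by
  have hp : p.Prime := Fact.out
  have : NeZero (p ^ 2) := ⟨pow_ne_zero _ hp.ne_zero⟩
  have : NeZero p := ⟨hp.ne_zero⟩
  have hsurj := ZMod.unitsMap_surjective (Dvd.intro_left p (by ring : p * p = p ^ 2))
  have h1 := (U1 p).card_mul_index
  rw [U1, Subgroup.index_ker, MonoidHom.range_eq_top.mpr hsurj, Subgroup.card_top,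
    Nat.card_eq_fintype_card (α := (ZMod p)ˣ), Nat.card_eq_fintype_card (α := (ZMod (p ^ 2))ˣ),
    ZMod.card_units_eq_totient, ZMod.card_units_eq_totient, Nat.totient_prime hp,
    Nat.totient_prime_pow hp (by norm_num)] at h1
  have h2 : 0 < p - 1 := by have := hp.two_le; omega
  simp only [Nat.add_one_sub_one, pow_one] at h1
  exact Nat.eq_of_mul_eq_mul_right h2 h1

namespace IsC

variable {p : ℕ} [Fact p.Prime] {Ω : Type*} [Field Ω] [NumberField Ω] [IsGalois ℚ Ω]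
  {ζ : Ω} {χ : (Ω ≃ₐ[ℚ] Ω) →* (ZMod p)ˣ} {b : (Ω ≃ₐ[ℚ] Ω) → ZMod p}

lemma psi_mem_U1_iff (H : IsC p ζ χ b) (σ : Ω ≃ₐ[ℚ] Ω) : H.psi σ ∈ U1 p ↔ χ σ = 1 := by
  rw [U1, MonoidHom.mem_ker, H.unitsMap_psi]

/-- The pair `(τ, ρ)`. -/
structure TR (H : IsC p ζ χ b) (τ ρ : Ω ≃ₐ[ℚ] Ω) : Prop where
  psi_τ : H.psi τ = 1
  b_τ : b τ = 1
  chi_ρ : χ ρ = 1
  b_ρ : b ρ = 0
  psi_ρ : H.psi ρ ≠ 1

theorem exists_TR (H : IsC p ζ χ b) (hp2 : p ≠ 2) {σ₀ : Ω ≃ₐ[ℚ] Ω} (h1 : χ σ₀ = 1)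
    (h2 : b σ₀ ≠ 0) : ∃ τ ρ : Ω ≃ₐ[ℚ] Ω, H.TR τ ρ := by
  have hp : p.Prime := Fact.out
  have : NeZero p := ⟨hp.ne_zero⟩
  -- an element `s` with `χ s ≠ 1`
  have hneg : (-1 : (ZMod p)ˣ) ≠ 1 := by
    intro h
    have h3 : (-1 : ZMod p) = 1 := by
      have := congrArg Units.val h
      simpa using this
    have h4 : ((2 : ℕ) : ZMod p) = 0 := by
      push_cast
      linear_combination -h3
    rw [ZMod.natCast_eq_zero_iff] at h4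
    have := (Nat.prime_dvd_prime_iff_eq hp Nat.prime_two).mp h4
    exact hp2 this
  obtain ⟨s, hs⟩ := H.chi_surjective (-1)
  -- first version of `τ`
  set τ₀ := s * σ₀ * s⁻¹ * σ₀⁻¹ with hτ₀
  have hτ₀ψ : H.psi τ₀ = 1 := by
    rw [hτ₀]
    simp only [map_mul, map_inv]
    rw [mul_comm (H.psi s) (H.psi σ₀)]
    simp
  have hτ₀χ : χ τ₀ = 1 := by rw [← H.unitsMap_psi, hτ₀ψ, map_one]
  have hσ₀inv : χ σ₀⁻¹ = 1 := by rw [map_inv, h1, inv_one]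
  have hτ₀b : b τ₀ = -2 * b σ₀ := by
    rw [hτ₀, H.b_mul_of_ker _ hσ₀inv, H.b_conj s h1, H.b_inv, h1, hs]
    simp
    ring
  have h2ne : (2 : ZMod p) ≠ 0 := by
    intro h4
    have h5 : ((2 : ℕ) : ZMod p) = 0 := by exact_mod_cast h4
    rw [ZMod.natCast_eq_zero_iff] at h5
    exact hp2 ((Nat.prime_dvd_prime_iff_eq hp Nat.prime_two).mp h5)
  have hτ₀b0 : b τ₀ ≠ 0 := by
    rw [hτ₀b]
    exact mul_ne_zero (neg_ne_zero.mpr h2ne) h2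
  -- normalise
  set τ := τ₀ ^ ((b τ₀)⁻¹).val with hτ
  have hτψ : H.psi τ = 1 := by rw [hτ, map_pow, hτ₀ψ, one_pow]
  have hτχ : χ τ = 1 := by rw [hτ, map_pow, hτ₀χ, one_pow]
  have hτb : b τ = 1 := by
    rw [hτ, H.b_pow hτ₀χ, ZMod.natCast_zmod_val, inv_mul_cancel₀ hτ₀b0]
  -- an element of `ker χ` moving `ζ`
  have hcard := card_U1 p
  have : Nontrivial (U1 p) := by
    have : Finite (U1 p) := Nat.finite_of_card_ne_zero (by rw [hcard]; exact hp.ne_zero)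
    rw [← Finite.one_lt_card_iff_nontrivial, hcard]
    exact hp.one_lt
  obtain ⟨u, hu⟩ := exists_ne (1 : U1 p)
  obtain ⟨t, ht⟩ := H.psi_surjective (u : (ZMod (p ^ 2))ˣ)
  have htχ : χ t = 1 := by rw [← H.psi_mem_U1_iff, ht]; exact u.2
  set ρ := t * τ ^ (- b t).val with hρ
  have hτk : χ (τ ^ (- b t).val) = 1 := by rw [map_pow, hτχ, one_pow]
  refine ⟨τ, ρ, hτψ, hτb, ?_, ?_, ?_⟩
  · rw [hρ, map_mul, htχ, hτk, one_mul]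
  · rw [hρ, H.b_mul_of_ker _ hτk, H.b_pow hτχ, hτb, ZMod.natCast_zmod_val]
    ring
  · rw [hρ, map_mul, map_pow, hτψ, one_pow, mul_one, ht]
    intro h
    exact hu (Subtype.ext h)

namespace TR

variable {H : IsC p ζ χ b} {τ ρ : Ω ≃ₐ[ℚ] Ω}

lemma chi_τ (T : H.TR τ ρ) : χ τ = 1 := by rw [← H.unitsMap_psi, T.psi_τ, map_one]

lemma τ_apply (T : H.TR τ ρ) : τ ζ = ζ := H.psi_eq_one_iff.mp T.psi_τ

lemma ρ_apply_ne (T : H.TR τ ρ) : ρ ζ ≠ ζ := fun h => T.psi_ρ (H.psi_eq_one_iff.mpr h)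

lemma chi_mul_pow (T : H.TR τ ρ) (i j : ℕ) : χ (τ ^ i * ρ ^ j) = 1 := by
  rw [map_mul, map_pow, map_pow, T.chi_τ, T.chi_ρ, one_pow, one_pow, one_mul]

lemma b_mul_pow (T : H.TR τ ρ) (i j : ℕ) : b (τ ^ i * ρ ^ j) = i := by
  have h1 : χ (ρ ^ j) = 1 := by rw [map_pow, T.chi_ρ, one_pow]
  rw [H.b_mul_of_ker _ h1, H.b_pow T.chi_τ, H.b_pow T.chi_ρ, T.b_τ, T.b_ρ]
  ring

lemma psi_mul_pow (T : H.TR τ ρ) (i j : ℕ) : H.psi (τ ^ i * ρ ^ j) = H.psi ρ ^ j := by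
  rw [map_mul, map_pow, map_pow, T.psi_τ, one_pow, one_mul]

lemma comm (T : H.TR τ ρ) : τ * ρ = ρ * τ := by
  apply H.ext_psi
  · rw [map_mul, map_mul, mul_comm]
  · rw [H.b_mul_of_ker _ T.chi_ρ, H.b_mul_of_ker _ T.chi_τ, add_comm]

lemma psi_ρ_pow (T : H.TR τ ρ) : H.psi ρ ^ p = 1 := by
  have h1 : H.psi ρ ∈ U1 p := (H.psi_mem_U1_iff ρ).mpr T.chi_ρ
  have h2 : (⟨H.psi ρ, h1⟩ : U1 p) ^ p = 1 := by
    have h3 : (⟨H.psi ρ, h1⟩ : U1 p) ^ Nat.card (U1 p) = 1 := pow_card_eq_one'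
    rwa [card_U1 p] at h3
  exact congrArg Subtype.val h2

lemma orderOf_psi_ρ (T : H.TR τ ρ) : orderOf (H.psi ρ) = p :=
  orderOf_eq_prime T.psi_ρ_pow T.psi_ρ

lemma orderOf_τ (T : H.TR τ ρ) : orderOf τ = p := by
  apply orderOf_eq_prime
  · apply H.ext_psi
    · rw [map_pow, T.psi_τ, one_pow, map_one]
    · rw [H.b_pow T.chi_τ, H.b_one]
      simp
  · rintro rfl
    have := T.b_τ
    rw [H.b_one] at this
    exact zero_ne_one this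

lemma orderOf_ρ (T : H.TR τ ρ) : orderOf ρ = p := by
  apply orderOf_eq_prime
  · apply H.ext_psi
    · rw [map_pow, T.psi_ρ_pow, map_one]
    · rw [H.b_pow T.chi_ρ, H.b_one, T.b_ρ, mul_zero]
  · rintro rfl
    exact T.psi_ρ (map_one _)

/-- `ker χ` is generated by `τ` and `ρ`. -/
lemma exists_eq_mul_pow (T : H.TR τ ρ) {σ : Ω ≃ₐ[ℚ] Ω} (hσ : χ σ = 1) :
    ∃ i j : ℕ, σ = τ ^ i * ρ ^ j := by
  have hp : p.Prime := Fact.out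
  have : NeZero p := ⟨hp.ne_zero⟩
  have h1 : H.psi ρ ∈ U1 p := (H.psi_mem_U1_iff ρ).mpr T.chi_ρ
  have h2 : H.psi σ ∈ U1 p := (H.psi_mem_U1_iff σ).mpr hσ
  have hne : (⟨H.psi ρ, h1⟩ : U1 p) ≠ 1 := fun h => T.psi_ρ (congrArg Subtype.val h)
  obtain ⟨j, hj⟩ := mem_powers_of_prime_card (card_U1 p) hne (g' := ⟨H.psi σ, h2⟩)
  have hj' : H.psi ρ ^ j = H.psi σ := congrArg Subtype.val hj
  refine ⟨(b σ).val, j, H.ext_psi ?_ ?_⟩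
  · rw [T.psi_mul_pow, hj']
  · rw [T.b_mul_pow, ZMod.natCast_zmod_val]

lemma mul_pow_eq_one_iff (T : H.TR τ ρ) (i j : ℕ) : τ ^ i * ρ ^ j = 1 ↔ p ∣ i ∧ p ∣ j := by
  constructor
  · intro h
    have h1 := T.b_mul_pow i j
    rw [h, H.b_one] at h1
    have h2 := T.psi_mul_pow i j
    rw [h, map_one] at h2
    refine ⟨(ZMod.natCast_eq_zero_iff i p).mp h1.symm, ?_⟩
    rw [← T.orderOf_psi_ρ]
    exact orderOf_dvd_of_pow_eq_one h2.symm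
  · rintro ⟨h1, h2⟩
    rw [← T.orderOf_τ] at h1
    rw [← T.orderOf_ρ] at h2
    rw [orderOf_dvd_iff_pow_eq_one.mp h1, orderOf_dvd_iff_pow_eq_one.mp h2, one_mul]

/-- Conjugation on `τ`. -/
lemma conj_τ (T : H.TR τ ρ) (s : Ω ≃ₐ[ℚ] Ω) {k : ℕ} (hk : (k : ZMod p) = χ s) :
    s⁻¹ * τ * s = τ ^ k := by
  apply H.ext_psi
  · simp only [map_mul, map_inv, map_pow, T.psi_τ]
    simp
  · rw [H.b_conj' s T.chi_τ, H.b_pow T.chi_τ, T.b_τ, hk]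

/-- Conjugation on `ρ`. -/
lemma conj_ρ (T : H.TR τ ρ) (s : Ω ≃ₐ[ℚ] Ω) : s⁻¹ * ρ * s = ρ := by
  apply H.ext_psi
  · simp only [map_mul, map_inv]
    rw [mul_comm, ← mul_assoc, mul_inv_cancel, one_mul]
  · rw [H.b_conj' s T.chi_ρ, T.b_ρ, mul_zero]

end TR

end IsC

end Fermat.Agent.CFT
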