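import Fermat.Agent.CFT.Basic
import Fermat.Agent.CFT.OrdGal
import Fermat.Agent.CFT.ConfigOf
import Fermat.Agent.CFT.FinalC

set_option autoImplicit false

namespace Fermat.Agent.CFT

open IsDedekindDomain NumberField Finset

/-- **Theorem C** (finite level form of S14).  `Ω/ℚ` finite Galois, `ζ ∈ Ω` a primitive `p²`-th root
of unity, `χ` the mod `p` cyclotomic character of `Gal(Ω/ℚ)`, `b` a "cocycle":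
`σ v₀ = χ(σ) v₀ + b(σ) c₀`.  `Gal(Ω/ℚ)` acts faithfully on `(ζ, b)`; `b` vanishes on inertia groups
outside `p`, and on `D_P ∩ ker χ` for `P ∣ p`.  Then `b` vanishes on `ker χ`. -/
theorem theoremC (p : ℕ) [Fact p.Prime] (hp2 : p ≠ 2) {Ω : Type*} [Field Ω] [NumberField Ω]
    [IsGalois ℚ Ω] (ζ : Ω) (hζ : IsPrimitiveRoot ζ (p ^ 2))
    (χ : (Ω ≃ₐ[ℚ] Ω) →* (ZMod p)ˣ) (hχ : ∀ σ : Ω ≃ₐ[ℚ] Ω, σ (ζ ^ p) = (ζ ^ p) ^ ((χ σ : ZMod p).val))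
    (b : (Ω ≃ₐ[ℚ] Ω) → ZMod p)
    (hb : ∀ σ₁ σ₂ : Ω ≃ₐ[ℚ] Ω, b (σ₁ * σ₂) = b σ₂ + (χ σ₂ : ZMod p) * b σ₁)
    (hfaith : ∀ σ : Ω ≃ₐ[ℚ] Ω, σ ζ = ζ → b σ = 0 → σ = 1)
    (hunr : ∀ P : Pl Ω, ¬ Over P p → ∀ σ : Ω ≃ₐ[ℚ] Ω,
      (∀ x : 𝓞 Ω, σ • x - x ∈ P.asIdeal) → b σ = 0)
    (hsplit : ∀ P : Pl Ω, Over P p → ∀ σ : Ω ≃ₐ[ℚ] Ω, σ • P = P → χ σ = 1 → b σ = 0) :
    ∀ σ : Ω ≃ₐ[ℚ] Ω, χ σ = 1 → b σ = 0 := by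
  intro t₀ ht₀
  by_contra hbt₀
  obtain ⟨τ, ρ, cfg⟩ := exists_config p hp2 ζ hζ χ hχ b hb hfaith hunr hsplit t₀ ht₀ hbt₀
  exact cfg.false hp2

end Fermat.Agent.CFT
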