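import Mathlib

/-!
# Translation, layer A: linear algebra of a two-dimensional extension `0 → C → V → V/C → 0`

`G` acts on the `𝔽_p`-plane `V`, trivially on the line `C` and through `χ` on `V/C`.
-/

set_option autoImplicit false
set_option linter.unusedSectionVars false

namespace Fermat.Agent.CFT.TranslationA

open Module Submodule

variable {p : ℕ} [Fact p.Prime] {G : Type*} [Group G] {V : Type*} [AddCommGroup V]
  [Module (ZMod p) V] [DistribMulAction G V] [SMulCommClass G (ZMod p) V]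

/-- The abstract hypotheses. -/
structure Adm (C : Submodule (ZMod p) V) (χ : G →* (ZMod p)ˣ) : Prop where
  fixed_sub : ∀ σ : G, ∀ x ∈ C, σ • x = x
  cyclo_quot : ∀ σ : G, ∀ x : V, σ • x - (χ σ : ZMod p) • x ∈ C
  card_sub : Nat.card C = p
  card_total : Nat.card V = p ^ 2

variable {C : Submodule (ZMod p) V} {χ : G →* (ZMod p)ˣ}

omit [DistribMulAction G V] [SMulCommClass G (ZMod p) V] in
lemma finrank_of_card {W : Type*} [AddCommGroup W] [Module (ZMod p) W] {n : ℕ}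
    (h : Nat.card W = p ^ n) : Module.Finite (ZMod p) W ∧ finrank (ZMod p) W = n := by
  have hp : p.Prime := Fact.out
  have hfin : Finite W := Nat.finite_of_card_ne_zero (by rw [h]; exact pow_ne_zero _ hp.ne_zero)
  have hmf : Module.Finite (ZMod p) W := Module.Finite.of_finite
  refine ⟨hmf, ?_⟩
  have h1 := Module.natCard_eq_pow_finrank (K := ZMod p) (V := W)
  rw [h, Nat.card_zmod] at h1
  exact (Nat.pow_right_injective hp.two_le h1).symm

lemma Adm.isCompl_span (h : Adm C χ) {w : V} (hw : w ∉ C) : IsCompl C (span (ZMod p) {w}) := by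
  obtain ⟨hfV, hV⟩ := finrank_of_card (p := p) (W := V) h.card_total
  obtain ⟨-, hC⟩ := finrank_of_card (p := p) (W := C) (n := 1) (by rw [h.card_sub, pow_one])
  have hw0 : w ≠ 0 := fun h0 => hw (h0 ▸ C.zero_mem)
  have hdisj : Disjoint C (span (ZMod p) {w}) := by
    rw [Submodule.disjoint_def]
    intro x hxC hxw
    obtain ⟨a, rfl⟩ := mem_span_singleton.mp hxw
    by_cases ha : a = 0
    · simp [ha]
    · exfalso
      apply hw
      have := C.smul_mem a⁻¹ hxC
      rwa [smul_smul, inv_mul_cancel₀ ha, one_smul] at this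
  refine ⟨hdisj, codisjoint_iff.mpr ?_⟩
  apply Submodule.eq_top_of_disjoint _ _ _ hdisj
  rw [hC, finrank_span_singleton hw0, hV]

/-- A frame `(c0, v0, b)` for the extension. -/
structure Frame (C : Submodule (ZMod p) V) (χ : G →* (ZMod p)ˣ) (c0 v0 : V) (b : G → ZMod p) :
    Prop where
  c0_ne : c0 ≠ 0
  c0_mem : c0 ∈ C
  mem_iff : ∀ x : V, x ∈ C ↔ ∃ a : ZMod p, x = a • c0
  v0_not_mem : v0 ∉ C
  smul_v0 : ∀ σ : G, σ • v0 = (χ σ : ZMod p) • v0 + b σ • c0
  span : ∀ x : V, ∃ a c : ZMod p, x = a • v0 + c • c0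

theorem Adm.exists_frame (h : Adm C χ) : ∃ (c0 v0 : V) (b : G → ZMod p), Frame C χ c0 v0 b := by
  have hp : p.Prime := Fact.out
  obtain ⟨hfC, hC⟩ := finrank_of_card (p := p) (W := C) (n := 1) (by rw [h.card_sub, pow_one])
  obtain ⟨⟨c0, hc0C⟩, hc0, hspan⟩ := finrank_eq_one_iff'.mp hC
  have hc0' : c0 ≠ 0 := fun h0 => hc0 (Subtype.ext h0)
  have hmem : ∀ x : V, x ∈ C ↔ ∃ a : ZMod p, x = a • c0 := by
    intro x
    constructor
    · intro hx
      obtain ⟨a, ha⟩ := hspan ⟨x, hx⟩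
      exact ⟨a, (congrArg Subtype.val ha).symm⟩
    · rintro ⟨a, rfl⟩
      exact C.smul_mem a hc0C
  have hne : C ≠ ⊤ := by
    intro htop
    have h1 : Nat.card C = Nat.card V := by
      rw [htop]
      exact Nat.card_congr (Submodule.topEquiv (R := ZMod p) (M := V)).toEquiv
    rw [h.card_sub, h.card_total] at h1
    have := hp.two_le
    nlinarith
  obtain ⟨v0, hv0⟩ : ∃ v0 : V, v0 ∉ C := by
    by_contra hcon
    push Not at hcon
    exact hne (eq_top_iff.mpr fun x _ => hcon x)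
  have hb : ∀ σ : G, ∃ β : ZMod p, σ • v0 - (χ σ : ZMod p) • v0 = β • c0 :=
    fun σ => (hmem _).mp (h.cyclo_quot σ v0)
  choose b hb using hb
  refine ⟨c0, v0, b, hc0', hc0C, hmem, hv0, fun σ => ?_, fun x => ?_⟩
  · rw [← hb σ]; abel
  · have hcompl := h.isCompl_span hv0
    have hx : x ∈ C ⊔ Submodule.span (ZMod p) {v0} := by
      rw [hcompl.sup_eq_top]; trivial
    obtain ⟨y, hy, z, hz, rfl⟩ := Submodule.mem_sup.mp hx
    obtain ⟨c, rfl⟩ := (hmem y).mp hy
    obtain ⟨a, rfl⟩ := mem_span_singleton.mp hz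
    exact ⟨a, c, add_comm _ _⟩

variable {c0 v0 : V} {b : G → ZMod p}

omit [DistribMulAction G V] [SMulCommClass G (ZMod p) V] in
lemma smul_c0_inj (hc0 : c0 ≠ 0) {a a' : ZMod p} (h : a • c0 = a' • c0) : a = a' := by
  have h1 : (a - a') • c0 = 0 := by rw [sub_smul, h, sub_self]
  rcases smul_eq_zero.mp h1 with h2 | h2
  · exact sub_eq_zero.mp h2
  · exact absurd h2 hc0

lemma Frame.coord_unique (F : Frame C χ c0 v0 b) {a a' c c' : ZMod p}
    (h : a • v0 + c • c0 = a' • v0 + c' • c0) : a = a' ∧ c = c' := by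
  have h1 : (a - a') • v0 = (c' - c) • c0 := by
    rw [sub_smul, sub_smul, sub_eq_sub_iff_add_eq_add, h, add_comm]
  have ha : a = a' := by
    by_contra hne
    have hne' : a - a' ≠ 0 := sub_ne_zero.mpr hne
    apply F.v0_not_mem
    rw [F.mem_iff]
    refine ⟨(a - a')⁻¹ * (c' - c), ?_⟩
    rw [mul_smul, ← h1, smul_smul, inv_mul_cancel₀ hne', one_smul]
  refine ⟨ha, ?_⟩
  subst ha
  exact smul_c0_inj F.c0_ne (add_left_cancel h)

lemma Frame.cocycle (h : Adm C χ) (F : Frame C χ c0 v0 b) (σ₁ σ₂ : G) :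
    b (σ₁ * σ₂) = b σ₂ + (χ σ₂ : ZMod p) * b σ₁ := by
  have h1 : (σ₁ * σ₂) • v0 = ((χ σ₂ : ZMod p) * (χ σ₁ : ZMod p)) • v0 +
      (b σ₂ + (χ σ₂ : ZMod p) * b σ₁) • c0 := by
    rw [mul_smul, F.smul_v0 σ₂, smul_add, smul_comm σ₁, smul_comm σ₁, F.smul_v0 σ₁,
      h.fixed_sub σ₁ c0 F.c0_mem, smul_add, smul_smul, smul_smul, add_smul]
    abel
  rw [F.smul_v0] at h1
  exact (F.coord_unique h1).2

lemma Frame.trivial_iff (h : Adm C χ) (F : Frame C χ c0 v0 b) (σ : G) :
    (∀ x : V, σ • x = x) ↔ (χ σ = 1 ∧ b σ = 0) := by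
  constructor
  · intro hx
    have h1 := F.smul_v0 σ
    rw [hx v0] at h1
    have h2 : (1 : ZMod p) • v0 + (0 : ZMod p) • c0 = (χ σ : ZMod p) • v0 + b σ • c0 := by
      rw [one_smul, zero_smul, add_zero]; exact h1
    obtain ⟨h3, h4⟩ := F.coord_unique h2
    exact ⟨Units.ext h3.symm, h4.symm⟩
  · rintro ⟨h1, h2⟩ x
    obtain ⟨a, c, rfl⟩ := F.span x
    rw [smul_add, smul_comm σ, smul_comm σ, F.smul_v0, h.fixed_sub σ c0 F.c0_mem, h1, h2]
    simp

/-- A stable complement for a subset `D` of `G` kills `b` on `D ∩ ker χ`. -/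
lemma Frame.b_eq_zero_of_compl (h : Adm C χ) (F : Frame C χ c0 v0 b) {C' : Submodule (ZMod p) V}
    (hcompl : IsCompl C C') {σ : G} (hσ : ∀ x ∈ C', σ • x ∈ C') (hχ : χ σ = 1) : b σ = 0 := by
  have hv : v0 ∈ C ⊔ C' := by rw [hcompl.sup_eq_top]; trivial
  obtain ⟨y, hy, z, hz, hyz⟩ := Submodule.mem_sup.mp hv
  have h1 : σ • z - z ∈ C := by
    have := h.cyclo_quot σ z
    rwa [hχ, Units.val_one, one_smul] at this
  have h2 : σ • z - z ∈ C' := C'.sub_mem (hσ z hz) hz
  have h3 : σ • z - z = 0 := (Submodule.disjoint_def.mp hcompl.disjoint) _ h1 h2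
  have h4 : σ • v0 = v0 := by
    rw [← hyz, smul_add, h.fixed_sub σ y hy, sub_eq_zero.mp h3]
  have h5 := F.smul_v0 σ
  rw [h4, hχ, Units.val_one, one_smul] at h5
  have h6 : b σ • c0 = (0 : ZMod p) • c0 := by
    rw [zero_smul]
    exact (add_eq_left.mp h5.symm)
  exact smul_c0_inj F.c0_ne h6

/-- Endgame: if `b` vanishes on `ker χ` and `χ ≠ 1`, the extension splits. -/
theorem Frame.splits (h : Adm C χ) (F : Frame C χ c0 v0 b)
    (hker : ∀ σ : G, χ σ = 1 → b σ = 0) {s0 : G} (hs0 : χ s0 ≠ 1) :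
    ∃ C' : Submodule (ZMod p) V, (∀ σ : G, ∀ x ∈ C', σ • x ∈ C') ∧ IsCompl C C' := by
  have hne : (χ s0 : ZMod p) - 1 ≠ 0 := by
    intro h0
    exact hs0 (Units.ext (sub_eq_zero.mp h0))
  set t : ZMod p := b s0 / ((χ s0 : ZMod p) - 1) with ht
  have hcomm : ∀ g : G, b (g * s0) = b (s0 * g) := by
    intro g
    have h1 : g * s0 = (g * s0 * g⁻¹ * s0⁻¹) * (s0 * g) := by group
    have h2 : χ (g * s0 * g⁻¹ * s0⁻¹) = 1 := by
      simp only [map_mul, map_inv]
      rw [mul_comm (χ g) (χ s0)]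
      simp
    rw [h1, F.cocycle h, hker _ h2, mul_zero, add_zero]
  have hb : ∀ g : G, b g = t * ((χ g : ZMod p) - 1) := by
    intro g
    have h1 := hcomm g
    rw [F.cocycle h, F.cocycle h] at h1
    rw [ht]
    field_simp
    linear_combination h1
  have hw : v0 + t • c0 ∉ C := by
    intro hmem
    apply F.v0_not_mem
    have := C.sub_mem hmem (C.smul_mem t F.c0_mem)
    simpa using this
  refine ⟨Submodule.span (ZMod p) {v0 + t • c0}, ?_, h.isCompl_span hw⟩
  intro σ x hx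
  obtain ⟨a, rfl⟩ := mem_span_singleton.mp hx
  rw [smul_comm σ]
  apply Submodule.smul_mem
  rw [mem_span_singleton]
  refine ⟨(χ σ : ZMod p), ?_⟩
  rw [smul_add σ, smul_comm σ, F.smul_v0, h.fixed_sub σ c0 F.c0_mem, hb σ, smul_add, smul_smul,
    add_assoc, ← add_smul]
  congr 2
  ring

end Fermat.Agent.CFT.TranslationA
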