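import Fermat.Agent.CFT.Basic
import Fermat.Agent.CFT.Lift
import Fermat.Agent.CFT.TranslationA
import Fermat.Prelude.Def_ExtCitation_AdmissibleExtension_v2

/-!
# Translation: from the finite level statement (Theorem C) to `ExtCitation.ExtVanishingCts`
-/

set_option autoImplicit false
set_option linter.unusedSectionVars false

namespace Fermat.Agent.CFT.Translation

open NumberField IsDedekindDomain ExtCitation TranslationA
open scoped Pointwise

local notation "Qb" => AlgebraicClosure ℚ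
local notation "GQ" => (AlgebraicClosure ℚ ≃ₐ[ℚ] AlgebraicClosure ℚ)

/-- The statement of Theorem C (for `Ω : Type`). -/
def TheoremCStatement (p : ℕ) [Fact p.Prime] : Prop :=
  ∀ (Ω : Type) [Field Ω] [NumberField Ω] [IsGalois ℚ Ω] (ζ : Ω) (_ : IsPrimitiveRoot ζ (p ^ 2))
    (χ : (Ω ≃ₐ[ℚ] Ω) →* (ZMod p)ˣ)
    (_ : ∀ σ : Ω ≃ₐ[ℚ] Ω, σ (ζ ^ p) = (ζ ^ p) ^ ((χ σ : ZMod p).val))
    (b : (Ω ≃ₐ[ℚ] Ω) → ZMod p)
    (_ : ∀ σ₁ σ₂ : Ω ≃ₐ[ℚ] Ω, b (σ₁ * σ₂) = b σ₂ + (χ σ₂ : ZMod p) * b σ₁)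
    (_ : ∀ σ : Ω ≃ₐ[ℚ] Ω, σ ζ = ζ → b σ = 0 → σ = 1)
    (_ : ∀ P : Pl Ω, ¬ Over P p → ∀ σ : Ω ≃ₐ[ℚ] Ω,
      (∀ x : 𝓞 Ω, σ • x - x ∈ P.asIdeal) → b σ = 0)
    (_ : ∀ P : Pl Ω, Over P p → ∀ σ : Ω ≃ₐ[ℚ] Ω, σ • P = P → χ σ = 1 → b σ = 0),
    ∀ σ : Ω ≃ₐ[ℚ] Ω, χ σ = 1 → b σ = 0

variable (p : ℕ) [Fact p.Prime]

/-- The mod `p` cyclotomic character of `G_ℚ` as a monoid homomorphism. -/
noncomputable def chiG : GQ →* (ZMod p)ˣ :=
  haveI : NeZero p := ⟨(Fact.out : p.Prime).ne_zero⟩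
  MonoidHom.mk' (fun σ => modularCyclotomicCharacter Qb (card_rootsOfUnity_eq_self p)
    (σ : Qb ≃+* Qb)) (fun σ τ => by
      rw [← map_mul]
      rfl)

lemma cycloExp_eq (σ : GQ) : cycloExp p σ = (chiG p σ : ZMod p).val := rfl

lemma cycloExp_cast (σ : GQ) : ((cycloExp p σ : ℕ) : ZMod p) = (chiG p σ : ZMod p) := by
  have : NeZero p := ⟨(Fact.out : p.Prime).ne_zero⟩
  rw [cycloExp_eq, ZMod.natCast_zmod_val]

lemma chiG_spec (σ : GQ) {t : Qb} (ht : t ^ p = 1) : σ t = t ^ (chiG p σ : ZMod p).val := by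
  have : NeZero p := ⟨(Fact.out : p.Prime).ne_zero⟩
  have hp : p.Prime := Fact.out
  have ht0 : t ≠ 0 := by
    rintro rfl
    rw [zero_pow hp.ne_zero] at ht
    exact zero_ne_one ht
  have hmem : Units.mk0 t ht0 ∈ rootsOfUnity p Qb := by
    rw [mem_rootsOfUnity]
    ext
    simpa using ht
  exact modularCyclotomicCharacter.spec Qb (card_rootsOfUnity_eq_self p) (σ : Qb ≃+* Qb) hmem

lemma chiG_eq_one_of_fix (σ : GQ) {η : Qb} (hη : IsPrimitiveRoot η p) (h : σ η = η) :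
    chiG p σ = 1 := by
  have : NeZero p := ⟨(Fact.out : p.Prime).ne_zero⟩
  have hp : p.Prime := Fact.out
  have h1 := chiG_spec p σ hη.pow_eq_one
  rw [h] at h1
  have h2 : η ^ 1 = η ^ (chiG p σ : ZMod p).val := by rw [pow_one]; exact h1
  have h3 := hη.pow_inj hp.one_lt (ZMod.val_lt _) h2
  ext
  have h4 : ((chiG p σ : ZMod p).val : ZMod p) = ((1 : ℕ) : ZMod p) := by rw [← h3]
  rw [ZMod.natCast_zmod_val] at h4
  simpa using h4

lemma isGalois_Qb : IsGalois ℚ Qb := Fermat.Agent.Lib.Frobenius.isGalois_algebraicClosure _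

lemma exists_chiG_ne_one (h3 : 3 ≤ p) : ∃ s0 : GQ, chiG p s0 ≠ 1 := by
  have : NeZero p := ⟨(Fact.out : p.Prime).ne_zero⟩
  have hp : p.Prime := Fact.out
  have := isGalois_Qb
  have : Fact (1 < p) := ⟨hp.one_lt⟩
  obtain ⟨η, hη⟩ := HasEnoughRootsOfUnity.exists_primitiveRoot Qb p
  by_contra hcon
  push Not at hcon
  have hfix : ∀ σ : GQ, σ η = η := by
    intro σ
    rw [chiG_spec p σ hη.pow_eq_one, hcon σ, Units.val_one, ZMod.val_one, pow_one]
  obtain ⟨r, hr⟩ := (InfiniteGalois.mem_range_algebraMap_iff_fixed (k := ℚ) η).mpr hfix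
  have hr1 : r ^ p = 1 := by
    apply (algebraMap ℚ Qb).injective
    rw [map_pow, hr, hη.pow_eq_one, map_one]
  rcases pow_eq_one_iff_cases.mp hr1 with h | h | ⟨-, h⟩
  · exact hp.ne_zero h
  · rw [h, map_one] at hr
    exact hη.ne_one hp.one_lt hr.symm
  · have := hp.even_iff.mp h
    omega

section Main

variable {p}
variable {V : Type} [AddCommGroup V] [Module (ZMod p) V] [DistribMulAction GQ V]
  [SMulCommClass GQ (ZMod p) V] {C : Submodule (ZMod p) V}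

lemma adm_of (h : IsAdmissibleExtension p V C) : Adm C (chiG p) where
  fixed_sub := h.fixed_sub
  cyclo_quot σ x := by rw [← cycloExp_cast]; exact h.cyclo_quot σ x
  card_sub := h.card_sub
  card_total := h.card_total

/-- Every finite place contains a rational prime. -/
lemma exists_prime_mem {Ω : Type*} [Field Ω] [NumberField Ω] (P : Pl Ω) :
    ∃ ℓ : ℕ, ℓ.Prime ∧ (ℓ : 𝓞 Ω) ∈ P.asIdeal := by
  have hmax : P.asIdeal.IsMaximal := P.isMaximal
  let _ : Field (𝓞 Ω ⧸ P.asIdeal) := Ideal.Quotient.field P.asIdeal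
  have : Finite (𝓞 Ω ⧸ P.asIdeal) := Ideal.finiteQuotientOfFreeOfNeBot _ P.ne_bot
  obtain ⟨ℓ, hℓ⟩ := CharP.exists (𝓞 Ω ⧸ P.asIdeal)
  have hprime : ℓ.Prime :=
    (CharP.char_is_prime_or_zero (𝓞 Ω ⧸ P.asIdeal) ℓ).resolve_right
      (CharP.char_ne_zero_of_finite (𝓞 Ω ⧸ P.asIdeal) ℓ)
  refine ⟨ℓ, hprime, ?_⟩
  rw [← Ideal.Quotient.eq_zero_iff_mem, map_natCast]
  exact CharP.cast_eq_zero _ ℓ

theorem main_abstract (h3 : 3 ≤ p) (hC : TheoremCStatement p)
    (hadm : IsAdmissibleExtension p V C)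
    {Ω : Type} [Field Ω] [NumberField Ω] [IsGalois ℚ Ω] [Algebra Ω Qb] (ζ : Ω)
    (hζ : IsPrimitiveRoot ζ (p ^ 2))
    (hfix : ∀ g : GQ, (∀ v : V, g • v = v) → g (algebraMap Ω Qb ζ) = algebraMap Ω Qb ζ →
      ∀ x : Ω, g (algebraMap Ω Qb x) = algebraMap Ω Qb x)
    (hfix' : ∀ g : GQ, (∀ x : Ω, g (algebraMap Ω Qb x) = algebraMap Ω Qb x) →
      ∀ v : V, g • v = v) :
    SplitsGlobally C := by
  have hp : p.Prime := Fact.out
  have := isGalois_Qb
  have hA := adm_of hadm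
  obtain ⟨c0, v0, bG, F⟩ := hA.exists_frame
  obtain ⟨s0, hs0⟩ := exists_chiG_ne_one p h3
  let res : GQ →* (Ω ≃ₐ[ℚ] Ω) := AlgEquiv.restrictNormalHom Ω
  have hsurj : Function.Surjective res := AlgEquiv.restrictNormalHom_surjective Qb
  have hres : ∀ (g : GQ) (x : Ω), algebraMap Ω Qb (res g x) = g (algebraMap Ω Qb x) :=
    fun g x => Lift.restrict_apply g x
  have hker : ∀ g : GQ, res g = 1 → chiG p g = 1 ∧ bG g = 0 := by
    intro g hg
    apply (F.trivial_iff hA g).mp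
    apply hfix'
    intro x
    rw [← hres, hg]
    rfl
  let χ : (Ω ≃ₐ[ℚ] Ω) →* (ZMod p)ˣ := res.liftOfSurjective hsurj
    ⟨chiG p, fun g hg => (hker g hg).1⟩
  have hχres : ∀ g : GQ, χ (res g) = chiG p g := fun g =>
    MonoidHom.liftOfRightInverse_comp_apply _ _ _ _ g
  let b : (Ω ≃ₐ[ℚ] Ω) → ZMod p := fun s => bG (Function.surjInv hsurj s)
  have hbres : ∀ g : GQ, b (res g) = bG g := by
    intro g
    set g' := Function.surjInv hsurj (res g) with hg'
    have h1 : res g' = res g := Function.surjInv_eq hsurj (res g)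
    have h2 : res (g'⁻¹ * g) = 1 := by rw [map_mul, map_inv, h1, inv_mul_cancel]
    have h3 : g = g' * (g'⁻¹ * g) := by group
    obtain ⟨h4, h5⟩ := hker _ h2
    change bG g' = bG g
    conv_rhs => rw [h3, F.cocycle hA, h4, h5]
    simp
  have hη : IsPrimitiveRoot (algebraMap Ω Qb (ζ ^ p)) p := by
    have h0 : IsPrimitiveRoot (ζ ^ p) p := hζ.pow (pow_pos hp.pos 2) (by ring)
    exact h0.map_of_injective (algebraMap Ω Qb).injective
  have hconcl := hC Ω ζ hζ χ ?_ b ?_ ?_ ?_ ?_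
  · exact F.splits hA (fun σ hσ => by
      rw [← hbres]
      apply hconcl
      rw [hχres]
      exact hσ) hs0
  · -- cyclotomic character
    intro σ
    obtain ⟨g, rfl⟩ := hsurj σ
    apply (algebraMap Ω Qb).injective
    rw [hres, hχres, map_pow (algebraMap Ω Qb) (ζ ^ p)]
    exact chiG_spec p g hη.pow_eq_one
  · -- cocycle
    intro σ₁ σ₂
    obtain ⟨g₁, rfl⟩ := hsurj σ₁
    obtain ⟨g₂, rfl⟩ := hsurj σ₂
    rw [← map_mul, hbres, hbres, hbres, hχres]
    exact F.cocycle hA g₁ g₂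
  · -- faithfulness
    intro σ hσζ hσb
    obtain ⟨g, rfl⟩ := hsurj σ
    have h1 : g (algebraMap Ω Qb ζ) = algebraMap Ω Qb ζ := by rw [← hres, hσζ]
    have h2 : g (algebraMap Ω Qb (ζ ^ p)) = algebraMap Ω Qb (ζ ^ p) := by
      rw [map_pow, map_pow, h1]
    have h3 : chiG p g = 1 := chiG_eq_one_of_fix p g hη h2
    rw [hbres] at hσb
    have h4 := hfix g ((F.trivial_iff hA g).mpr ⟨h3, hσb⟩) h1
    ext x
    apply (algebraMap Ω Qb).injective
    rw [hres, h4]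
    rfl
  · -- unramified outside `p`
    intro P hP σ hσ
    obtain ⟨ℓ, hℓ, hℓP⟩ := exists_prime_mem P
    have hne : ℓ ≠ p := by
      rintro rfl
      exact hP hℓP
    have hmax : P.asIdeal.IsMaximal := P.isMaximal
    obtain ⟨A, hAP⟩ := Lift.exists_above (L := Qb) P.asIdeal
    have hAℓ : (ℓ : Qb) ∈ A.nonunits := by
      have := (hAP (ℓ : 𝓞 Ω)).mp hℓP
      simpa using this
    obtain ⟨g, hg, rfl⟩ := Lift.lift_inertia A hℓ hAℓ P.asIdeal hAP σ hσ
    have h1 := hadm.unramified_outside ℓ hℓ hne A hAℓ g hg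
    change b (res g) = 0
    rw [hbres]
    exact ((F.trivial_iff hA g).mp h1).2
  · -- split at `p`
    intro P hP σ hσ hχσ
    have hmax : P.asIdeal.IsMaximal := P.isMaximal
    obtain ⟨A, hAP⟩ := Lift.exists_above (L := Qb) P.asIdeal
    have hAp : (p : Qb) ∈ A.nonunits := by
      have := (hAP (p : 𝓞 Ω)).mp hP
      simpa using this
    have hσ' : σ • P.asIdeal = P.asIdeal := congrArg HeightOneSpectrum.asIdeal hσ
    obtain ⟨g, hg, rfl⟩ := Lift.lift_decomposition A hp hAp P.asIdeal hAP σ hσ'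
    obtain ⟨C', hstab, hcompl⟩ := hadm.locally_split A hAp
    change b (res g) = 0
    rw [hbres]
    refine F.b_eq_zero_of_compl hA hcompl (hstab g hg) ?_
    rw [← hχres]
    exact hχσ

end Main

lemma numberField_of (E : IntermediateField ℚ Qb) [h : FiniteDimensional ℚ E] : NumberField E where
  to_charZero := inferInstance
  to_finiteDimensional := by
    convert h

lemma isGalois_of (E : IntermediateField ℚ Qb) (inst₁ inst₂ : Algebra ℚ E)
    (h : @IsGalois ℚ _ E _ inst₁) : @IsGalois ℚ _ E _ inst₂ := by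
  have : inst₁ = inst₂ := Subsingleton.elim _ _
  subst this
  exact h

/-- **Translation.** Theorem C implies the frozen statement S14. -/
theorem extVanishingCts_of_theoremC {p : ℕ} [Fact p.Prime] (h3 : 3 ≤ p)
    (hC : TheoremCStatement p) : ExtVanishingCts p := by
  intro V _ _ _ _ C hadm
  have hp : p.Prime := Fact.out
  have := isGalois_Qb
  have : NeZero (p ^ 2) := ⟨pow_ne_zero _ hp.ne_zero⟩
  obtain ⟨ζ, hζ⟩ := HasEnoughRootsOfUnity.exists_primitiveRoot Qb (p ^ 2)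
  let N : Subgroup GQ :=
    { carrier := {σ | (∀ v : V, σ • v = v) ∧ σ ζ = ζ}
      mul_mem' := by
        rintro a b ⟨ha1, ha2⟩ ⟨hb1, hb2⟩
        refine ⟨fun v => by rw [mul_smul, hb1, ha1], ?_⟩
        rw [AlgEquiv.mul_apply, hb2, ha2]
      one_mem' := ⟨fun v => one_smul _ v, rfl⟩
      inv_mem' := by
        rintro a ⟨ha1, ha2⟩
        refine ⟨fun v => by rw [inv_smul_eq_iff, ha1], ?_⟩
        have : a⁻¹ (a ζ) = ζ := by
          change (a⁻¹ * a) ζ = ζ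
          simp
        rwa [ha2] at this }
  have hNopen : IsOpen (N : Set GQ) := by
    have h1 := hadm.open_kernel
    have h2 := stabilizer_isOpen_of_isIntegral (K := ℚ) ζ
    exact h1.inter h2
  have hNnormal : N.Normal := by
    constructor
    rintro n ⟨hn1, hn2⟩ g
    refine ⟨fun v => ?_, ?_⟩
    · rw [mul_smul, mul_smul, hn1, smul_inv_smul]
    · have h1 : (g⁻¹ ζ) ^ (p ^ 2) = 1 := by rw [← map_pow, hζ.pow_eq_one, map_one]
      obtain ⟨k, -, hk⟩ := hζ.eq_pow_of_pow_eq_one h1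
      rw [AlgEquiv.mul_apply, AlgEquiv.mul_apply, ← hk, map_pow, hn2, hk]
      change (g * g⁻¹) ζ = ζ
      simp
  let Nc : ClosedSubgroup GQ := ⟨N, N.isClosed_of_isOpen hNopen⟩
  let Ω₀ : IntermediateField ℚ Qb := IntermediateField.fixedField N
  have hfs : Ω₀.fixingSubgroup = N := InfiniteGalois.fixingSubgroup_fixedField Nc
  have hfd : FiniteDimensional ℚ Ω₀ :=
    (InfiniteGalois.isOpen_iff_finite Ω₀).mp (by rw [hfs]; exact hNopen)
  have hgal : IsGalois ℚ Ω₀ :=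
    (InfiniteGalois.normal_iff_isGalois Ω₀).mp (by rw [hfs]; exact hNnormal)
  have hnf : NumberField Ω₀ := numberField_of Ω₀
  have hgal' : IsGalois ℚ Ω₀ := isGalois_of Ω₀ _ _ hgal
  have hζmem : ζ ∈ Ω₀ := by
    rw [IntermediateField.mem_fixedField_iff]
    intro n hn
    exact hn.2
  have hζ' : IsPrimitiveRoot (⟨ζ, hζmem⟩ : Ω₀) (p ^ 2) :=
    IsPrimitiveRoot.of_map_of_injective (f := algebraMap Ω₀ Qb) hζ (algebraMap Ω₀ Qb).injective
  refine main_abstract h3 hC hadm.toIsAdmissibleExtension (Ω := Ω₀) ⟨ζ, hζmem⟩ hζ' ?_ ?_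
  · intro g hg1 hg2 x
    have hgN : g ∈ N := ⟨hg1, hg2⟩
    exact (IntermediateField.mem_fixedField_iff N (x : Qb)).mp x.2 g hgN
  · intro g hg
    have hgN : g ∈ Ω₀.fixingSubgroup := by
      rw [IntermediateField.mem_fixingSubgroup_iff]
      intro x hx
      exact hg ⟨x, hx⟩
    rw [hfs] at hgN
    exact hgN.1

end Fermat.Agent.CFT.Translation
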